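/-
Programme MAZ, conditional sub-programme MAZ-S12 (S12 from S15; architect helper27, report 1855).
Brick K6 = ARITH.  Owner: helper24.  Mathlib only.

From the identity `(ID)  A^p t² + B^p s² = C^p r²` (`r, s, t ∈ ℚ^×`) and the valuations
`v_ℓ(t/r) = 0` (all `ℓ`), `v_ℓ(s/r) = 0` (`ℓ ≠ 2`), `v_2(s/r) = -2(p-1)`:
`t/r = ±1`, `s/r = ±4^(1-p)`, hence `16^(p-1) A^p + B^p = 16^(p-1) C^p`.
-/
import Mathlib

set_option autoImplicit false

namespace Fermat.Agent.MAZ.S12.Arith24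

/-- A nonzero rational number all of whose `ℓ`-adic valuations vanish is `±1`. -/
theorem eq_one_or_eq_neg_one_of_padicValRat {q : ℚ} (hq : q ≠ 0)
    (h : ∀ ℓ : ℕ, ℓ.Prime → padicValRat ℓ q = 0) : q = 1 ∨ q = -1 := by
  have hnum : q.num ≠ 0 := Rat.num_ne_zero.2 hq
  have hcop : Nat.Coprime q.num.natAbs q.den := q.reduced
  have hn : q.num.natAbs = 1 := by
    rw [Nat.eq_one_iff_not_exists_prime_dvd]
    intro ℓ hℓ hdvd
    haveI : Fact ℓ.Prime := ⟨hℓ⟩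
    have hden : ¬ ℓ ∣ q.den := fun hd =>
      hℓ.one_lt.ne' (Nat.eq_one_of_dvd_coprimes hcop hdvd hd)
    have h0 := h ℓ hℓ
    rw [padicValRat, padicValNat.eq_zero_of_not_dvd hden, padicValInt] at h0
    have h1 : 1 ≤ padicValNat ℓ q.num.natAbs :=
      one_le_padicValNat_of_dvd (Int.natAbs_ne_zero.2 hnum) hdvd
    omega
  have hd : q.den = 1 := by
    rw [Nat.eq_one_iff_not_exists_prime_dvd]
    intro ℓ hℓ hdvd
    haveI : Fact ℓ.Prime := ⟨hℓ⟩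
    have hnum' : ¬ ℓ ∣ q.num.natAbs := fun hd =>
      hℓ.one_lt.ne' (Nat.eq_one_of_dvd_coprimes hcop hd hdvd)
    have h0 := h ℓ hℓ
    rw [padicValRat, padicValInt, padicValNat.eq_zero_of_not_dvd hnum'] at h0
    have h1 : 1 ≤ padicValNat ℓ q.den := one_le_padicValNat_of_dvd q.den_ne_zero hdvd
    omega
  have hq' : q = q.num := by
    conv_lhs => rw [← Rat.num_div_den q, hd]
    simp
  rcases Int.natAbs_eq q.num with h1 | h1
  · left; rw [hq', h1, hn]; simp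
  · right; rw [hq', h1, hn]; simp

/-- The square of such a number is `1`. -/
theorem sq_eq_one_of_padicValRat {q : ℚ} (hq : q ≠ 0)
    (h : ∀ ℓ : ℕ, ℓ.Prime → padicValRat ℓ q = 0) : q ^ 2 = 1 := by
  rcases eq_one_or_eq_neg_one_of_padicValRat hq h with rfl | rfl <;> norm_num

/-- The valuations of `4^n`. -/
theorem padicValRat_four_pow (ℓ : ℕ) [Fact ℓ.Prime] (n : ℕ) :
    padicValRat ℓ ((4 : ℚ) ^ n) = if ℓ = 2 then 2 * (n : ℤ) else 0 := by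
  have h4 : (4 : ℚ) = 2 ^ 2 := by norm_num
  rw [h4, ← pow_mul, padicValRat.pow]
  split_ifs with h2
  · subst h2
    have : padicValRat 2 (2 : ℚ) = 1 := by
      have := padicValRat.self (p := 2) (by norm_num)
      simpa using this
    rw [this]; push_cast; ring
  · have : padicValRat ℓ (2 : ℚ) = 0 := by
      have h := padicValRat.of_nat (p := ℓ) (n := 2)
      have h' : padicValNat ℓ 2 = 0 := by
        haveI : Fact (Nat.Prime 2) := ⟨Nat.prime_two⟩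
        exact padicValNat_primes h2
      rw [h'] at h
      simpa using h
    rw [this, mul_zero]

/-- If `v_ℓ(q) = 0` for `ℓ ≠ 2` and `v_2(q) = -2n` then `q² = 16^(-n)`. -/
theorem sq_mul_eq_one_of_padicValRat {q : ℚ} (hq : q ≠ 0) (n : ℕ)
    (h : ∀ ℓ : ℕ, ℓ.Prime → ℓ ≠ 2 → padicValRat ℓ q = 0)
    (h2 : padicValRat 2 q = -2 * (n : ℤ)) : q ^ 2 * 16 ^ n = 1 := by
  have h4 : (4 : ℚ) ^ n ≠ 0 := by positivity
  have key : (q * 4 ^ n) ^ 2 = 1 := by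
    refine sq_eq_one_of_padicValRat (mul_ne_zero hq h4) ?_
    intro ℓ hℓ
    haveI : Fact ℓ.Prime := ⟨hℓ⟩
    rw [padicValRat.mul hq h4, padicValRat_four_pow]
    split_ifs with hℓ2
    · subst hℓ2; rw [h2]; ring
    · rw [h ℓ hℓ hℓ2, add_zero]
  have h16 : (16 : ℚ) ^ n = (4 ^ n) ^ 2 := by
    rw [← pow_mul, mul_comm, pow_mul]; norm_num
  rw [h16, ← mul_pow]; exact key

/-- **K6 ARITH** (literal form of report 1855). -/
theorem arith {p : ℕ} (_hp : Odd p) (A B C : ℤ) (r s t : ℚ) (hr : r ≠ 0) (hs : s ≠ 0)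
    (ht : t ≠ 0)
    (hid : (A : ℚ) ^ p * t ^ 2 + (B : ℚ) ^ p * s ^ 2 = (C : ℚ) ^ p * r ^ 2)
    (hv : ∀ ℓ : ℕ, ℓ.Prime → padicValRat ℓ (t / r) = 0)
    (hu : ∀ ℓ : ℕ, ℓ.Prime → ℓ ≠ 2 → padicValRat ℓ (s / r) = 0)
    (hu2 : padicValRat 2 (s / r) = -2 * ((p : ℤ) - 1)) :
    16 ^ (p - 1) * A ^ p + B ^ p = 16 ^ (p - 1) * C ^ p := by
  have hp1 : 1 ≤ p := by
    rcases Nat.eq_zero_or_pos p with rfl | h
    · simp at _hp
    · exact h
  have h1 : (t / r) ^ 2 = 1 := sq_eq_one_of_padicValRat (div_ne_zero ht hr) hv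
  have h2 : (s / r) ^ 2 * 16 ^ (p - 1) = 1 := by
    refine sq_mul_eq_one_of_padicValRat (div_ne_zero hs hr) (p - 1) hu ?_
    rw [hu2]; push_cast [hp1]; ring
  have hr2 : r ^ 2 ≠ 0 := pow_ne_zero 2 hr
  have ht2 : t ^ 2 = r ^ 2 := by
    rw [div_pow, div_eq_one_iff_eq hr2] at h1; exact h1
  have hs2 : s ^ 2 * 16 ^ (p - 1) = r ^ 2 := by
    rw [div_pow, div_mul_eq_mul_div, div_eq_one_iff_eq hr2] at h2; exact h2
  have hQ : (16 : ℚ) ^ (p - 1) * (A : ℚ) ^ p + (B : ℚ) ^ p = 16 ^ (p - 1) * (C : ℚ) ^ p := by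
    have h3 : ((16 : ℚ) ^ (p - 1) * (A : ℚ) ^ p + (B : ℚ) ^ p) * s ^ 2 =
        (16 ^ (p - 1) * (C : ℚ) ^ p) * s ^ 2 := by
      have e1 : (A : ℚ) ^ p * t ^ 2 = (A : ℚ) ^ p * (s ^ 2 * 16 ^ (p - 1)) := by
        rw [ht2, hs2]
      have e2 : (C : ℚ) ^ p * r ^ 2 = (C : ℚ) ^ p * (s ^ 2 * 16 ^ (p - 1)) := by rw [hs2]
      rw [e1, e2] at hid
      linear_combination hid
    exact mul_right_cancel₀ (pow_ne_zero 2 hs) h3
  exact_mod_cast hQ

end Fermat.Agent.MAZ.S12.Arith24
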