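/-
Programme MAZ, conditional sub-programme MAZ-S12 (S12 from S15; architect helper27, report 1791).
Brick V9 = THE REAL FINISH (helper86, report 68).  Owner: helper24.  Mathlib only.

If the Frey curve `y² = x (x - a^p) (x + b^p)` (with `a^p + b^p = c^p`) had a cofixed line, the
quotient curve would be the curve `y² = x (x - A₁) (x + B₁)` with `A₁ = a^(p²)`,
`B₁ = 2^(4-4p) b^(p²)`, `A₁ + B₁ = c^(p²)`.  So `X = a^p`, `Y = b^p`, `Z = c^p` would satisfy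
`X + Y = Z` and `X^p + 16^(1-p) Y^p = Z^p`.  This file: these two equations have no real solution
with `X Y Z ≠ 0`, for every odd `p ≥ 3`.
-/
import Mathlib

set_option autoImplicit false

namespace Fermat.Agent.MAZ.S12.RealFinish24

/-- Normalised form (`Z = 1`): for `p` odd, `p ≥ 3`, `0 < c`, `c 2^(p-1) < 1`, the equations
`x + y = 1`, `x^p + c y^p = 1` have no real solution with `x y ≠ 0`. -/
theorem pow_add_mul_pow_ne_one {p : ℕ} (hp : Odd p) (hp3 : 3 ≤ p) {c : ℝ} (hc0 : 0 < c)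
    (hc : c * 2 ^ (p - 1) < 1) {x y : ℝ} (hx : x ≠ 0) (hy : y ≠ 0) (h : x + y = 1) :
    x ^ p + c * y ^ p ≠ 1 := by
  have hp0 : p ≠ 0 := by omega
  have hc1 : c < 1 := by
    have : (1 : ℝ) ≤ 2 ^ (p - 1) := one_le_pow₀ (by norm_num)
    nlinarith
  rcases lt_trichotomy x 0 with hneg | h0 | hpos
  · -- `x < 0`
    obtain ⟨t, ht0, rfl⟩ : ∃ t : ℝ, 0 < t ∧ x = -t := ⟨-x, by linarith, by ring⟩
    have hy' : y = 1 + t := by linarith
    have h1 : (1 + t) ^ p ≤ 2 ^ (p - 1) * (1 ^ p + t ^ p) := add_pow_le (by norm_num) ht0.le p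
    have htp : 0 < t ^ p := pow_pos ht0 p
    rw [Odd.neg_pow hp, hy']
    have h2 : c * (1 + t) ^ p ≤ c * (2 ^ (p - 1) * (1 ^ p + t ^ p)) := by gcongr
    have h3 : c * (2 ^ (p - 1) * (1 ^ p + t ^ p)) < 1 + t ^ p := by
      rw [one_pow]; nlinarith
    intro hcon
    linarith
  · exact absurd h0 hx
  · rcases lt_trichotomy x 1 with hlt | heq | hgt
    · -- `0 < x < 1`
      have hy0 : 0 < y := by linarith
      have hy1 : y < 1 := by linarith
      have hxp : x ^ p < x := pow_lt_self_of_lt_one₀ hpos hlt (by omega)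
      have hyp : y ^ p < y := pow_lt_self_of_lt_one₀ hy0 hy1 (by omega)
      have hcy : c * y ^ p < y := by
        have : 0 < y ^ p := pow_pos hy0 p
        nlinarith
      intro hcon; linarith
    · exact absurd (by linarith) hy
    · -- `1 < x`
      obtain ⟨u, hu0, rfl⟩ : ∃ u : ℝ, 0 < u ∧ x = 1 + u := ⟨x - 1, by linarith, by ring⟩
      have hyu : y = -u := by linarith
      have hsup : 1 ^ p + u ^ p ≤ (1 + u) ^ p := pow_add_pow_le (by norm_num) hu0.le hp0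
      have hup : 0 < u ^ p := pow_pos hu0 p
      rw [hyu, Odd.neg_pow hp]
      rw [one_pow] at hsup
      intro hcon
      nlinarith

/-- Sign variant of the normalised form: `x + y = 1`, `x^p - c y^p = 1` have no real solution
with `x y ≠ 0` (`p` odd, `0 < c`). -/
theorem pow_sub_mul_pow_ne_one {p : ℕ} (hp : Odd p) {c : ℝ} (hc0 : 0 < c)
    {x y : ℝ} (hx : x ≠ 0) (hy : y ≠ 0) (h : x + y = 1) :
    x ^ p - c * y ^ p ≠ 1 := by
  have hp0 : p ≠ 0 := by rintro rfl; simp at hp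
  rcases lt_trichotomy x 0 with hneg | h0 | hpos
  · have hy0 : 0 < y := by linarith
    have hxp : x ^ p < 0 := Odd.pow_neg hp hneg
    have hyp : 0 < y ^ p := pow_pos hy0 p
    intro hcon; nlinarith
  · exact absurd h0 hx
  · rcases lt_trichotomy x 1 with hlt | heq | hgt
    · have hy0 : 0 < y := by linarith
      have hxp : x ^ p < 1 := pow_lt_one₀ hpos.le hlt hp0
      have hyp : 0 < y ^ p := pow_pos hy0 p
      intro hcon; nlinarith
    · exact absurd (by linarith) hy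
    · have hy0 : y < 0 := by linarith
      have hxp : 1 < x ^ p := one_lt_pow₀ hgt hp0
      have hyp : y ^ p < 0 := Odd.pow_neg hp hy0
      intro hcon; nlinarith

/-- **General constant**: `X + Y = Z`, `X^p + c Y^p = Z^p` have no real solution with
`X Y Z ≠ 0` (`p` odd, `p ≥ 3`, `0 < c`, `c 2^(p-1) < 1`). -/
theorem add_pow_ne_of_small {p : ℕ} (hp : Odd p) (hp3 : 3 ≤ p) {c : ℝ} (hc0 : 0 < c)
    (hc : c * 2 ^ (p - 1) < 1) {X Y Z : ℝ} (hX : X ≠ 0) (hY : Y ≠ 0) (hZ : Z ≠ 0)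
    (h : X + Y = Z) : X ^ p + c * Y ^ p ≠ Z ^ p := by
  intro hcon
  have hZp : Z ^ p ≠ 0 := pow_ne_zero p hZ
  refine pow_add_mul_pow_ne_one hp hp3 hc0 hc (x := X / Z) (y := Y / Z) (div_ne_zero hX hZ)
    (div_ne_zero hY hZ) ?_ ?_
  · rw [← add_div, h, div_self hZ]
  · rw [div_pow, div_pow, ← mul_div_assoc, ← add_div, hcon, div_self hZp]

/-- Sign variant with a general constant. -/
theorem sub_pow_ne {p : ℕ} (hp : Odd p) {c : ℝ} (hc0 : 0 < c)
    {X Y Z : ℝ} (hX : X ≠ 0) (hY : Y ≠ 0) (hZ : Z ≠ 0)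
    (h : X + Y = Z) : X ^ p - c * Y ^ p ≠ Z ^ p := by
  intro hcon
  have hZp : Z ^ p ≠ 0 := pow_ne_zero p hZ
  refine pow_sub_mul_pow_ne_one hp hc0 (x := X / Z) (y := Y / Z) (div_ne_zero hX hZ)
    (div_ne_zero hY hZ) ?_ ?_
  · rw [← add_div, h, div_self hZ]
  · rw [div_pow, div_pow, ← mul_div_assoc, ← sub_div, hcon, div_self hZp]

theorem sixteen_small {p : ℕ} (hp3 : 3 ≤ p) :
    ((16 : ℝ) ^ (p - 1))⁻¹ * 2 ^ (p - 1) < 1 := by
  have h16 : (16 : ℝ) ^ (p - 1) = 8 ^ (p - 1) * 2 ^ (p - 1) := by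
    rw [← mul_pow]; norm_num
  have h2 : (0 : ℝ) < 2 ^ (p - 1) := by positivity
  have h8 : (1 : ℝ) < 8 ^ (p - 1) := one_lt_pow₀ (by norm_num) (by omega)
  rw [h16, mul_inv, mul_assoc, inv_mul_cancel₀ h2.ne', mul_one]
  exact inv_lt_one_of_one_lt₀ h8

/-- **The real finish**: `X + Y = Z` and `X^p + 16^(1-p) Y^p = Z^p` (denominators cleared) have no
real solution with `X Y Z ≠ 0`, for `p` odd, `p ≥ 3`. -/
theorem real_finish {p : ℕ} (hp : Odd p) (hp3 : 3 ≤ p) {X Y Z : ℝ} (hX : X ≠ 0) (hY : Y ≠ 0)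
    (hZ : Z ≠ 0) (h : X + Y = Z) :
    16 ^ (p - 1) * X ^ p + Y ^ p ≠ 16 ^ (p - 1) * Z ^ p := by
  have h16 : (0 : ℝ) < 16 ^ (p - 1) := by positivity
  intro hcon
  refine add_pow_ne_of_small hp hp3 (inv_pos.2 h16) (sixteen_small hp3) hX hY hZ h ?_
  field_simp
  linarith

/-- Sign variant of the real finish. -/
theorem real_finish_sub {p : ℕ} (hp : Odd p) {X Y Z : ℝ} (hX : X ≠ 0) (hY : Y ≠ 0)
    (hZ : Z ≠ 0) (h : X + Y = Z) :
    16 ^ (p - 1) * X ^ p - Y ^ p ≠ 16 ^ (p - 1) * Z ^ p := by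
  have h16 : (0 : ℝ) < 16 ^ (p - 1) := by positivity
  intro hcon
  refine sub_pow_ne hp (inv_pos.2 h16) hX hY hZ h ?_
  field_simp
  linarith

/-- The real finish over `ℤ`. -/
theorem int_finish {p : ℕ} (hp : Odd p) (hp3 : 3 ≤ p) {X Y Z : ℤ} (hX : X ≠ 0) (hY : Y ≠ 0)
    (hZ : Z ≠ 0) (h : X + Y = Z) :
    16 ^ (p - 1) * X ^ p + Y ^ p ≠ 16 ^ (p - 1) * Z ^ p := by
  intro hcon
  refine real_finish hp hp3 (X := (X : ℝ)) (Y := (Y : ℝ)) (Z := (Z : ℝ)) (by exact_mod_cast hX)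
    (by exact_mod_cast hY) (by exact_mod_cast hZ) (by exact_mod_cast h) ?_
  exact_mod_cast hcon

/-- The real finish over `ℚ`. -/
theorem rat_finish {p : ℕ} (hp : Odd p) (hp3 : 3 ≤ p) {X Y Z : ℚ} (hX : X ≠ 0) (hY : Y ≠ 0)
    (hZ : Z ≠ 0) (h : X + Y = Z) :
    16 ^ (p - 1) * X ^ p + Y ^ p ≠ 16 ^ (p - 1) * Z ^ p := by
  intro hcon
  refine real_finish hp hp3 (X := (X : ℝ)) (Y := (Y : ℝ)) (Z := (Z : ℝ)) (by exact_mod_cast hX)
    (by exact_mod_cast hY) (by exact_mod_cast hZ) (by exact_mod_cast h) ?_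
  exact_mod_cast hcon

/-- **The finish in Frey form**: if `a^p + b^p = c^p` with `a b c ≠ 0`, then
`a^(p²) + 2^(4-4p) b^(p²) = c^(p²)` is impossible. -/
theorem frey_finish {p : ℕ} (hp : Odd p) (hp3 : 3 ≤ p) {a b c : ℤ} (ha : a ≠ 0) (hb : b ≠ 0)
    (hc : c ≠ 0) (h : a ^ p + b ^ p = c ^ p) :
    16 ^ (p - 1) * a ^ (p * p) + b ^ (p * p) ≠ 16 ^ (p - 1) * c ^ (p * p) := by
  rw [pow_mul, pow_mul, pow_mul]
  exact int_finish hp hp3 (pow_ne_zero p ha) (pow_ne_zero p hb) (pow_ne_zero p hc) h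

end Fermat.Agent.MAZ.S12.RealFinish24
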