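/-
Programme MAZ, conditional sub-programme MAZ-S12 (S12 from S15; architect helper27, report 1855).
Brick K6 = ARITH, second file: THE BRIDGES to the vocabulary of the assembly.  Owner: helper24.

* `padicValRat_eq_zero_of_valuation` : a rational number which is a unit at ONE place of `ℚ̄` over
  `ℓ` has `ℓ`-adic valuation `0`; `padicValRat_two_of_valuation` : the `2`-adic analogue with the
  factor `4^n`.
* `arith_Qb` : K6 ARITH for `r s t : ℚ̄` fixed by the Galois group, with the valuation hypotheses at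
  ONE place over every prime.
* `frey_false` : for a Frey package, `A = a^p`, `B = b^p`, `C = c^p`: the identity `(ID)` with these
  valuations is contradictory (with the real finish `RealFinish24.frey_finish`).
-/
import Mathlib
import Fermat.Prelude.Def_FLTPrelim_FreyPackage
import Fermat.Agent.S13.GalRat
import Fermat.Agent.MAZ.S12.RealFinish24
import Fermat.Agent.MAZ.S12.Arith24

set_option autoImplicit false

namespace Fermat.Agent.MAZ.S12.ArithBridge24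

open Fermat.Agent.S05.Inertia Fermat.Agent.S13.GalRat Fermat.Agent.MAZ.S12.Arith24

local notation "Qb" => AlgebraicClosure ℚ

/-- A nonzero rational number which is a unit at one place over `ℓ` has `ℓ`-adic valuation `0`. -/
theorem padicValRat_eq_zero_of_valuation {ℓ : ℕ} (hℓ : ℓ.Prime) (V : ValuationSubring Qb)
    (hV : V.LiesOverPrime ℓ) {q : ℚ} (hq : q ≠ 0) (h : V.valuation (q : Qb) = 1) :
    padicValRat ℓ q = 0 := by
  have h1 := valuation_ratCast_eq_zpow V hℓ hV hq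
  rw [h] at h1
  have hlt : V.valuation ((ℓ : ℕ) : Qb) < 1 := valuation_prime_lt_one hV
  exact (zpow_eq_one_iff_right₀ zero_le hlt.ne).1 h1.symm

/-- The `2`-adic analogue: if `q 4^n` is a unit at one place over `2` then `v_2(q) = -2n`. -/
theorem padicValRat_two_of_valuation (V : ValuationSubring Qb) (hV : V.LiesOverPrime 2) {q : ℚ}
    (hq : q ≠ 0) (n : ℕ) (h : V.valuation ((q : Qb) * 4 ^ n) = 1) :
    padicValRat 2 q = -2 * (n : ℤ) := by
  haveI : Fact (Nat.Prime 2) := ⟨Nat.prime_two⟩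
  have h4 : (4 : ℚ) ^ n ≠ 0 := by positivity
  have hcast : ((q * 4 ^ n : ℚ) : Qb) = (q : Qb) * 4 ^ n := by push_cast; ring
  have h0 : padicValRat 2 (q * 4 ^ n) = 0 :=
    padicValRat_eq_zero_of_valuation Nat.prime_two V hV (mul_ne_zero hq h4) (by rw [hcast]; exact h)
  rw [padicValRat.mul hq h4, padicValRat_four_pow, if_pos rfl] at h0
  linarith

/-- **K6 ARITH in `ℚ̄`-form**: `r s t : ℚ̄` nonzero and fixed by the Galois group, the identity
`(ID)` and the valuations at ONE place over every prime. -/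
theorem arith_Qb {p : ℕ} (hp : Odd p) (A B C : ℤ) (r s t : Qb) (hr : r ≠ 0) (hs : s ≠ 0)
    (ht : t ≠ 0) (hfr : ∀ σ : Qb ≃ₐ[ℚ] Qb, σ r = r) (hfs : ∀ σ : Qb ≃ₐ[ℚ] Qb, σ s = s)
    (hft : ∀ σ : Qb ≃ₐ[ℚ] Qb, σ t = t)
    (hid : (A : Qb) ^ p * t ^ 2 + (B : Qb) ^ p * s ^ 2 = (C : Qb) ^ p * r ^ 2)
    (hv : ∀ ℓ : ℕ, ℓ.Prime → ∃ V : ValuationSubring Qb, V.LiesOverPrime ℓ ∧
      V.valuation (t / r) = 1)
    (hu : ∀ ℓ : ℕ, ℓ.Prime → ℓ ≠ 2 → ∃ V : ValuationSubring Qb, V.LiesOverPrime ℓ ∧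
      V.valuation (s / r) = 1)
    (hu2 : ∃ V : ValuationSubring Qb, V.LiesOverPrime 2 ∧
      V.valuation (s / r * 4 ^ (p - 1)) = 1) :
    16 ^ (p - 1) * A ^ p + B ^ p = 16 ^ (p - 1) * C ^ p := by
  obtain ⟨r', rfl⟩ := exists_ratCast_of_fixed r hfr
  obtain ⟨s', rfl⟩ := exists_ratCast_of_fixed s hfs
  obtain ⟨t', rfl⟩ := exists_ratCast_of_fixed t hft
  have hr' : r' ≠ 0 := by rintro rfl; simp at hr
  have hs' : s' ≠ 0 := by rintro rfl; simp at hs
  have ht' : t' ≠ 0 := by rintro rfl; simp at ht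
  have hp1 : 1 ≤ p := by
    rcases Nat.eq_zero_or_pos p with rfl | h
    · simp at hp
    · exact h
  refine arith hp A B C r' s' t' hr' hs' ht' ?_ ?_ ?_ ?_
  · have : (((A : ℚ) ^ p * t' ^ 2 + (B : ℚ) ^ p * s' ^ 2 : ℚ) : Qb) =
        (((C : ℚ) ^ p * r' ^ 2 : ℚ) : Qb) := by
      push_cast; exact hid
    exact_mod_cast this
  · intro ℓ hℓ
    obtain ⟨V, hV, h⟩ := hv ℓ hℓ
    refine padicValRat_eq_zero_of_valuation hℓ V hV (div_ne_zero ht' hr') ?_
    rw [Rat.cast_div]; exact h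
  · intro ℓ hℓ hℓ2
    obtain ⟨V, hV, h⟩ := hu ℓ hℓ hℓ2
    refine padicValRat_eq_zero_of_valuation hℓ V hV (div_ne_zero hs' hr') ?_
    rw [Rat.cast_div]; exact h
  · obtain ⟨V, hV, h⟩ := hu2
    have := padicValRat_two_of_valuation V hV (div_ne_zero hs' hr') (p - 1)
      (by rw [Rat.cast_div]; exact h)
    rw [this]; push_cast [hp1]; ring

/-- **The arithmetic end of MAZ-S12**: for a Frey package the identity `(ID)` for
`A = a^p`, `B = b^p`, `C = c^p` with these valuations is contradictory. -/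
theorem frey_false (P : FreyPackage) (r s t : Qb) (hr : r ≠ 0) (hs : s ≠ 0) (ht : t ≠ 0)
    (hfr : ∀ σ : Qb ≃ₐ[ℚ] Qb, σ r = r) (hfs : ∀ σ : Qb ≃ₐ[ℚ] Qb, σ s = s)
    (hft : ∀ σ : Qb ≃ₐ[ℚ] Qb, σ t = t)
    (hid : ((P.a ^ P.p : ℤ) : Qb) ^ P.p * t ^ 2 + ((P.b ^ P.p : ℤ) : Qb) ^ P.p * s ^ 2 =
      ((P.c ^ P.p : ℤ) : Qb) ^ P.p * r ^ 2)
    (hv : ∀ ℓ : ℕ, ℓ.Prime → ∃ V : ValuationSubring Qb, V.LiesOverPrime ℓ ∧
      V.valuation (t / r) = 1)
    (hu : ∀ ℓ : ℕ, ℓ.Prime → ℓ ≠ 2 → ∃ V : ValuationSubring Qb, V.LiesOverPrime ℓ ∧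
      V.valuation (s / r) = 1)
    (hu2 : ∃ V : ValuationSubring Qb, V.LiesOverPrime 2 ∧
      V.valuation (s / r * 4 ^ (P.p - 1)) = 1) : False := by
  have h := arith_Qb P.hp_odd (P.a ^ P.p) (P.b ^ P.p) (P.c ^ P.p) r s t hr hs ht hfr hfs hft hid
    hv hu hu2
  have hp3 : 3 ≤ P.p := le_trans (by norm_num) P.hp5
  refine RealFinish24.frey_finish P.hp_odd hp3 P.ha0 P.hb0 P.hc0 P.hFLT ?_
  rw [pow_mul, pow_mul, pow_mul]
  exact h

end Fermat.Agent.MAZ.S12.ArithBridge24
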