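/-
Programme MAZ, sub-programme MAZ-S12 (S12 from S15), brick V9 (helper57): THE REAL FINISH.

For an odd exponent `p` and a real constant `c` with `|c| * 2 ^ (p - 1) < 1`, the system
`X + Y = Z`, `X ^ p + c * Y ^ p = Z ^ p` has only the solutions with `Y = 0`.  With
`c = ± 16 ^ (1 - p)` this is the contradiction at the end of the one-step argument for S12
(the quotient of the Frey curve by a cofixed line is again an `ABC`-curve, for the triple
`a ^ (p ^ 2)`, `2 ^ (4 - 4 p) * b ^ (p ^ 2)`, `c ^ (p ^ 2)`).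

Mathlib only.
-/
import Mathlib

set_option autoImplicit false

namespace Fermat.Agent.MAZ.S12.RealFinish57

/-- Power-mean inequality for an odd exponent and two reals with positive sum (no sign condition on
the two summands). -/
theorem add_pow_le_of_odd {p : ℕ} (hp : Odd p) (u v : ℝ) (h : 0 < u + v) :
    (u + v) ^ p ≤ 2 ^ (p - 1) * (u ^ p + v ^ p) := by
  have hp0 : p ≠ 0 := fun h0 => by simp [h0] at hp
  have h2 : (1 : ℝ) ≤ 2 ^ (p - 1) := one_le_pow₀ (by norm_num)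
  -- the mixed-sign case
  have mixed : ∀ a b : ℝ, a < 0 → 0 < a + b → (a + b) ^ p ≤ 2 ^ (p - 1) * (a ^ p + b ^ p) := by
    intro a b ha hab
    have hw : 0 ≤ -a := by linarith
    have hvw : 0 ≤ a + b := hab.le
    have hsup : (a + b) ^ p + (-a) ^ p ≤ b ^ p := by
      have := pow_add_pow_le hvw hw hp0
      have e : a + b + -a = b := by ring
      rwa [e] at this
    have hneg : (-a) ^ p = -a ^ p := hp.neg_pow a
    have hpos : 0 ≤ (a + b) ^ p := pow_nonneg hvw p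
    have hle : (a + b) ^ p ≤ a ^ p + b ^ p := by rw [hneg] at hsup; linarith
    calc (a + b) ^ p ≤ a ^ p + b ^ p := hle
      _ = 1 * (a ^ p + b ^ p) := (one_mul _).symm
      _ ≤ 2 ^ (p - 1) * (a ^ p + b ^ p) :=
          mul_le_mul_of_nonneg_right h2 (le_trans hpos hle)
  rcases lt_or_ge u 0 with hu | hu
  · exact mixed u v hu h
  · rcases lt_or_ge v 0 with hv | hv
    · have := mixed v u hv (by linarith)
      rwa [add_comm v u, add_comm (v ^ p) (u ^ p)] at this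
    · exact add_pow_le hu hv p

/-- The minimum over `X` of `(X + Y) ^ p - X ^ p` (`p` odd, `0 < Y`) is attained at `X = -Y / 2`. -/
theorem pow_add_sub_pow_ge {p : ℕ} (hp : Odd p) (X Y : ℝ) (hY : 0 < Y) :
    Y ^ p ≤ 2 ^ (p - 1) * ((X + Y) ^ p - X ^ p) := by
  have h := add_pow_le_of_odd hp (X + Y) (-X) (by linarith)
  have e : X + Y + -X = Y := by ring
  rw [e, hp.neg_pow] at h
  linarith

/-- Core of the real finish, for `0 < Y`. -/
theorem false_of_pos {p : ℕ} (hp : Odd p) {c X Y Z : ℝ} (hc : |c| * 2 ^ (p - 1) < 1)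
    (h1 : X + Y = Z) (h2 : X ^ p + c * Y ^ p = Z ^ p) (hY : 0 < Y) : False := by
  have hYp : 0 < Y ^ p := pow_pos hY p
  have hk := pow_add_sub_pow_ge hp X Y hY
  rw [h1] at hk
  have hd : Z ^ p - X ^ p = c * Y ^ p := by linarith
  rw [hd] at hk
  have h3 : 2 ^ (p - 1) * (c * Y ^ p) ≤ (|c| * 2 ^ (p - 1)) * Y ^ p := by
    have : c * Y ^ p ≤ |c| * Y ^ p := mul_le_mul_of_nonneg_right (le_abs_self c) hYp.le
    have h2' : (0 : ℝ) ≤ 2 ^ (p - 1) := by positivity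
    calc 2 ^ (p - 1) * (c * Y ^ p) ≤ 2 ^ (p - 1) * (|c| * Y ^ p) :=
          mul_le_mul_of_nonneg_left this h2'
      _ = (|c| * 2 ^ (p - 1)) * Y ^ p := by ring
  have h4 : (|c| * 2 ^ (p - 1)) * Y ^ p < 1 * Y ^ p := mul_lt_mul_of_pos_right hc hYp
  linarith

/-- **The real finish**: for `p` odd and `|c| * 2 ^ (p - 1) < 1`, the system `X + Y = Z`,
`X ^ p + c * Y ^ p = Z ^ p` forces `Y = 0`. -/
theorem eq_zero_of_add_eq {p : ℕ} (hp : Odd p) {c X Y Z : ℝ} (hc : |c| * 2 ^ (p - 1) < 1)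
    (h1 : X + Y = Z) (h2 : X ^ p + c * Y ^ p = Z ^ p) : Y = 0 := by
  by_contra hY
  rcases lt_or_gt_of_ne hY with hneg | hpos
  · refine false_of_pos hp hc (X := -X) (Y := -Y) (Z := -Z) (by linarith) ?_ (by linarith)
    rw [hp.neg_pow, hp.neg_pow, hp.neg_pow]
    linarith
  · exact false_of_pos hp hc h1 h2 hpos

/-- The constant `16 ^ (1 - p)` is small enough. -/
theorem abs_inv_sixteen_pow_lt {p : ℕ} (hp1 : 1 < p) (ε : ℝ) (hε : |ε| = 1) :
    |ε * ((16 : ℝ) ^ (p - 1))⁻¹| * 2 ^ (p - 1) < 1 := by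
  have h16 : (0 : ℝ) < 16 ^ (p - 1) := by positivity
  rw [abs_mul, hε, one_mul, abs_inv, abs_of_pos h16, inv_mul_lt_iff₀ h16, mul_one]
  have hp' : p - 1 ≠ 0 := by omega
  exact pow_lt_pow_left₀ (by norm_num) (by norm_num) hp'

/-- **Real finish, integral-coefficient form, both signs of the middle term.** -/
theorem ne_of_add_eq {p : ℕ} (hp : Odd p) (hp1 : 1 < p) {X Y Z : ℝ} (hY : Y ≠ 0)
    (h1 : X + Y = Z) :
    16 ^ (p - 1) * X ^ p + Y ^ p ≠ 16 ^ (p - 1) * Z ^ p ∧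
      16 ^ (p - 1) * X ^ p - Y ^ p ≠ 16 ^ (p - 1) * Z ^ p := by
  have h16 : (16 : ℝ) ^ (p - 1) ≠ 0 := by positivity
  constructor
  · intro h
    apply hY
    refine eq_zero_of_add_eq hp (abs_inv_sixteen_pow_lt hp1 1 (by simp)) h1 ?_
    field_simp
    linarith
  · intro h
    apply hY
    refine eq_zero_of_add_eq hp (abs_inv_sixteen_pow_lt hp1 (-1) (by simp)) h1 ?_
    field_simp
    linarith

/-- Real finish in `zpow` form: `X ^ p + 16 ^ (1 - p) * Y ^ p ≠ Z ^ p`. -/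
theorem ne_zpow_of_add_eq {p : ℕ} (hp : Odd p) (hp1 : 1 < p) {X Y Z : ℝ} (hY : Y ≠ 0)
    (h1 : X + Y = Z) :
    X ^ p + (16 : ℝ) ^ (1 - (p : ℤ)) * Y ^ p ≠ Z ^ p ∧
      X ^ p - (16 : ℝ) ^ (1 - (p : ℤ)) * Y ^ p ≠ Z ^ p := by
  have h16 : (16 : ℝ) ^ (p - 1) ≠ 0 := by positivity
  have e : (16 : ℝ) ^ (1 - (p : ℤ)) = ((16 : ℝ) ^ (p - 1))⁻¹ := by
    rw [← zpow_natCast, ← zpow_neg]
    congr 1
    have : ((p - 1 : ℕ) : ℤ) = (p : ℤ) - 1 := by
      have : 1 ≤ p := hp1.le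
      push_cast [Nat.cast_sub this]
      ring
    rw [this]; ring
  obtain ⟨ha, hb⟩ := ne_of_add_eq hp hp1 hY h1
  rw [e]
  constructor
  · intro h
    apply ha
    field_simp at h
    linarith
  · intro h
    apply hb
    field_simp at h
    linarith

/-- **Real finish over `ℚ`.** -/
theorem ne_of_add_eq_rat {p : ℕ} (hp : Odd p) (hp1 : 1 < p) {X Y Z : ℚ} (hY : Y ≠ 0)
    (h1 : X + Y = Z) :
    16 ^ (p - 1) * X ^ p + Y ^ p ≠ 16 ^ (p - 1) * Z ^ p ∧
      16 ^ (p - 1) * X ^ p - Y ^ p ≠ 16 ^ (p - 1) * Z ^ p := by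
  have hY' : (Y : ℝ) ≠ 0 := by exact_mod_cast hY
  have h1' : (X : ℝ) + (Y : ℝ) = (Z : ℝ) := by exact_mod_cast h1
  obtain ⟨ha, hb⟩ := ne_of_add_eq hp hp1 hY' h1'
  constructor
  · intro h; apply ha; exact_mod_cast h
  · intro h; apply hb; exact_mod_cast h

/-- **Real finish over `ℤ`.** -/
theorem ne_of_add_eq_int {p : ℕ} (hp : Odd p) (hp1 : 1 < p) {X Y Z : ℤ} (hY : Y ≠ 0)
    (h1 : X + Y = Z) :
    16 ^ (p - 1) * X ^ p + Y ^ p ≠ 16 ^ (p - 1) * Z ^ p ∧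
      16 ^ (p - 1) * X ^ p - Y ^ p ≠ 16 ^ (p - 1) * Z ^ p := by
  have hY' : (Y : ℝ) ≠ 0 := by exact_mod_cast hY
  have h1' : (X : ℝ) + (Y : ℝ) = (Z : ℝ) := by exact_mod_cast h1
  obtain ⟨ha, hb⟩ := ne_of_add_eq hp hp1 hY' h1'
  constructor
  · intro h; apply ha; exact_mod_cast h
  · intro h; apply hb; exact_mod_cast h

/-- Real finish over `ℤ` with free signs: only the relative sign of the `X`- and `Z`-terms matters. -/
theorem ne_of_add_eq_int_signs {p : ℕ} (hp : Odd p) (hp1 : 1 < p) {X Y Z : ℤ} (hY : Y ≠ 0)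
    (h1 : X + Y = Z) (e1 e2 : ℤ) (he1 : e1 = 1 ∨ e1 = -1) (he2 : e2 = 1 ∨ e2 = -1) :
    e1 * (16 ^ (p - 1) * X ^ p) + e2 * Y ^ p ≠ e1 * (16 ^ (p - 1) * Z ^ p) := by
  obtain ⟨ha, hb⟩ := ne_of_add_eq_int hp hp1 hY h1
  rcases he1 with rfl | rfl <;> rcases he2 with rfl | rfl
  · intro h; apply ha; linarith
  · intro h; apply hb; linarith
  · intro h; apply hb; linarith
  · intro h; apply ha; linarith

/-- **The Frey form**: if `a ^ p + b ^ p = c ^ p` with `b ≠ 0`, `p` odd, `1 < p`, then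
`± 16 ^ (p - 1) * a ^ (p * p) ± b ^ (p * p) = ± 16 ^ (p - 1) * c ^ (p * p)` is impossible as soon as
the signs of the `a`- and `c`-terms agree (i.e. `a ^ (p ^ 2)`, `2 ^ (4 - 4 p) * b ^ (p ^ 2)`,
`c ^ (p ^ 2)` is not again an `ABC`-triple with the relative sign of `A` and `C` preserved). -/
theorem frey_finish {p : ℕ} (hp : Odd p) (hp1 : 1 < p) {a b c : ℤ} (hb : b ≠ 0)
    (h : a ^ p + b ^ p = c ^ p) (e1 e2 : ℤ) (he1 : e1 = 1 ∨ e1 = -1) (he2 : e2 = 1 ∨ e2 = -1) :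
    e1 * (16 ^ (p - 1) * a ^ (p * p)) + e2 * b ^ (p * p) ≠ e1 * (16 ^ (p - 1) * c ^ (p * p)) := by
  have hY : b ^ p ≠ 0 := pow_ne_zero p hb
  have := ne_of_add_eq_int_signs hp hp1 hY h e1 e2 he1 he2
  rwa [← pow_mul, ← pow_mul, ← pow_mul] at this

end Fermat.Agent.MAZ.S12.RealFinish57
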