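/-
Programme MAZ, sub-programme MAZ-S12 (S12 from S15), bricks V8' + V9 packaged (helper57):
THE ARITHMETIC FINISH.

If `(A, B, C) = (a ^ p, b ^ p, c ^ p)` with `A + B = C`, `A` odd and `16 ∣ B`, and
`(A₁, B₁, C₁)` is a second integral triple with `A₁ + B₁ = C₁`, `16 ∣ B₁`,
`A₁ = ± A ^ p`, `C₁ = ± C ^ p`, `16 ^ (p - 1) * B₁ = ± B ^ p`, then `b = 0`.

* `sign_eq_of_congr` (V8'): the relative sign of `A₁` and `C₁` is forced by the congruence
  `A₁ ≡ C₁ mod 16` (no real place needed).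
* `frey_contradiction`: V8' + the real finish `RealFinish57.frey_finish`.
* `eq_or_eq_neg_of_padicValRat`: a nonzero rational is determined up to sign by its valuations.

Mathlib + `RealFinish57` only.
-/
import Mathlib
import Fermat.Agent.MAZ.S12.RealFinish57

set_option autoImplicit false

namespace Fermat.Agent.MAZ.S12.ArithFinish57

open Fermat.Agent.MAZ.S12.RealFinish57

/-- **V8' (2-adic sign lemma).** If `A + B = C`, `A₁ + B₁ = C₁` with `16 ∣ B`, `16 ∣ B₁`, `A` odd,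
`A₁ = e1 * A ^ p`, `C₁ = e3 * C ^ p` with signs `e1`, `e3`, then `e1 = e3`. -/
theorem sign_eq_of_congr {p : ℕ} {A B C A₁ B₁ C₁ : ℤ} (hA : Odd A) (hB : (16 : ℤ) ∣ B)
    (hB₁ : (16 : ℤ) ∣ B₁) (h : A + B = C) (h₁ : A₁ + B₁ = C₁)
    (e1 e3 : ℤ) (he1 : e1 = 1 ∨ e1 = -1) (he3 : e3 = 1 ∨ e3 = -1)
    (hA₁ : A₁ = e1 * A ^ p) (hC₁ : C₁ = e3 * C ^ p) : e1 = e3 := by
  -- `A ≡ C` and `A₁ ≡ C₁` modulo 16
  have hAC : A ≡ C [ZMOD 16] := by
    have : C - A = B := by linarith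
    exact (Int.modEq_iff_dvd.mpr (this ▸ hB))
  have hAC₁ : A₁ ≡ C₁ [ZMOD 16] := by
    have : C₁ - A₁ = B₁ := by linarith
    exact (Int.modEq_iff_dvd.mpr (this ▸ hB₁))
  have hpow : A ^ p ≡ C ^ p [ZMOD 16] := hAC.pow p
  -- hence `(e1 - e3) * A ^ p ≡ 0`
  have hkey : e1 * A ^ p ≡ e3 * A ^ p [ZMOD 16] := by
    calc e1 * A ^ p = A₁ := hA₁.symm
      _ ≡ C₁ [ZMOD 16] := hAC₁
      _ = e3 * C ^ p := hC₁
      _ ≡ e3 * A ^ p [ZMOD 16] := (hpow.symm.mul_left e3)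
  have hdvd : (16 : ℤ) ∣ (e3 - e1) * A ^ p := by
    have := Int.modEq_iff_dvd.mp hkey
    rwa [← sub_mul] at this
  have hoddp : Odd (A ^ p) := hA.pow
  by_contra hne
  have h2 : e3 - e1 = 2 ∨ e3 - e1 = -2 := by
    rcases he1 with rfl | rfl <;> rcases he3 with rfl | rfl
    · exact absurd rfl hne
    · right; norm_num
    · left; norm_num
    · exact absurd rfl hne
  obtain ⟨k, hk⟩ := hoddp
  rcases h2 with h2 | h2
  · rw [h2, hk] at hdvd; omega
  · rw [h2, hk] at hdvd; omega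

/-- **The arithmetic finish of S12 (V8' + V9).**  A Fermat triple `a ^ p + b ^ p = c ^ p` with `a` odd,
`16 ∣ b ^ p`, `p` odd, `1 < p`, for which a second integral triple `A₁ + B₁ = C₁`, `16 ∣ B₁`, has
`A₁ = ± a ^ (p ^ 2)`, `C₁ = ± c ^ (p ^ 2)`, `16 ^ (p - 1) * B₁ = ± b ^ (p ^ 2)`, has `b = 0`. -/
theorem frey_contradiction {p : ℕ} (hp : Odd p) (hp1 : 1 < p) {a b c : ℤ} (ha : Odd a)
    (h16 : (16 : ℤ) ∣ b ^ p) (h : a ^ p + b ^ p = c ^ p) {A₁ B₁ C₁ : ℤ} (hsum : A₁ + B₁ = C₁)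
    (hB₁ : (16 : ℤ) ∣ B₁)
    (e1 e2 e3 : ℤ) (he1 : e1 = 1 ∨ e1 = -1) (he2 : e2 = 1 ∨ e2 = -1) (he3 : e3 = 1 ∨ e3 = -1)
    (hA : A₁ = e1 * a ^ (p * p)) (hB : 16 ^ (p - 1) * B₁ = e2 * b ^ (p * p))
    (hC : C₁ = e3 * c ^ (p * p)) : b = 0 := by
  by_contra hb
  have hsign : e1 = e3 :=
    sign_eq_of_congr (p := p) (A := a ^ p) (B := b ^ p) (C := c ^ p) ha.pow h16 hB₁ h hsum e1 e3
      he1 he3 (by rw [hA, ← pow_mul]) (by rw [hC, ← pow_mul])
  subst hsign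
  refine frey_finish hp hp1 hb h e1 e2 he1 he2 ?_
  have : 16 ^ (p - 1) * A₁ + 16 ^ (p - 1) * B₁ = 16 ^ (p - 1) * C₁ := by
    rw [← mul_add, hsum]
  rw [hA, hB, hC] at this
  linarith

/-- A nonzero rational is determined up to sign by its `ℓ`-adic valuations. -/
theorem eq_or_eq_neg_of_padicValRat {x y : ℚ} (hx : x ≠ 0) (hy : y ≠ 0)
    (h : ∀ ℓ : ℕ, ℓ.Prime → padicValRat ℓ x = padicValRat ℓ y) : x = y ∨ x = -y := by
  -- reduce to `z := x / y` with all valuations zero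
  set z : ℚ := x / y with hz
  have hz0 : z ≠ 0 := div_ne_zero hx hy
  have hv : ∀ ℓ : ℕ, ℓ.Prime → padicValRat ℓ z = 0 := by
    intro ℓ hℓ
    have hF := Fact.mk hℓ
    rw [hz, padicValRat.div hx hy, h ℓ hℓ, sub_self]
  -- numerator and denominator of `z` have no prime factor
  have hcop : ∀ ℓ : ℕ, ℓ.Prime → ℓ ∣ z.num.natAbs → ℓ ∣ z.den → False := by
    intro ℓ hℓ h1 h2
    have h3 := Nat.dvd_gcd h1 h2
    have h4 : Nat.gcd z.num.natAbs z.den = 1 := z.reduced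
    rw [h4] at h3
    exact hℓ.one_lt.ne' (Nat.dvd_one.mp h3)
  have hnum0 : z.num ≠ 0 := Rat.num_ne_zero.mpr hz0
  have hnum : z.num.natAbs = 1 := by
    by_contra hne
    obtain ⟨ℓ, hℓ, hdvd⟩ := Nat.exists_prime_and_dvd hne
    have hF := Fact.mk hℓ
    have h1 := hv ℓ hℓ
    rw [padicValRat_def] at h1
    have hpd : padicValNat ℓ z.den = 0 :=
      padicValNat.eq_zero_of_not_dvd (fun hd => hcop ℓ hℓ hdvd hd)
    have hpn : 0 < padicValInt ℓ z.num := by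
      unfold padicValInt
      exact Nat.pos_of_ne_zero (fun h0 => by
        rcases padicValNat.eq_zero_iff.mp h0 with h' | h' | h'
        · exact hℓ.one_lt.ne' h'
        · exact hnum0 (Int.natAbs_eq_zero.mp h')
        · exact h' hdvd)
    omega
  have hden : z.den = 1 := by
    by_contra hne
    obtain ⟨ℓ, hℓ, hdvd⟩ := Nat.exists_prime_and_dvd hne
    have hF := Fact.mk hℓ
    have h1 := hv ℓ hℓ
    rw [padicValRat_def] at h1
    have hpn : padicValInt ℓ z.num = 0 := by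
      unfold padicValInt
      exact padicValNat.eq_zero_of_not_dvd (fun hd => hcop ℓ hℓ hd hdvd)
    have hpd : 0 < padicValNat ℓ z.den :=
      Nat.pos_of_ne_zero (fun h0 => by
        rcases padicValNat.eq_zero_iff.mp h0 with h' | h' | h'
        · exact hℓ.one_lt.ne' h'
        · exact z.den_ne_zero h'
        · exact h' hdvd)
    omega
  have hz1 : z = 1 ∨ z = -1 := by
    rcases Int.natAbs_eq z.num with hn | hn
    · left
      rw [← Rat.num_div_den z, hden, hn, hnum]; simp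
    · right
      rw [← Rat.num_div_den z, hden, hn, hnum]; simp
  rcases hz1 with h1 | h1
  · left; rw [hz] at h1; exact (div_eq_one_iff_eq hy).mp h1
  · right; rw [hz] at h1; field_simp at h1; linarith

end Fermat.Agent.MAZ.S12.ArithFinish57
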