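/-
MAZ-S12, brick K8 (helper61): **the trivial Hasse bound for rational torsion at a good prime.**

`W` an integral Weierstrass curve with good reduction at `ℓ`, `Q` a Galois-fixed point of
`W(ℚ̄)` of prime order `p ≠ ℓ`, `p` odd.  Then the reduction of `Q` at a place over `ℓ` is a point
of order `p` fixed by the Frobenius, i.e. a point of `W̃(𝔽_ℓ)`; hence `p ∣ #W̃(𝔽_ℓ)` and
`p ≤ 2 ℓ + 1` (at most two points above each `x`, plus the point at infinity).

Pure wiring of `ES/Q58/Red39a, Red39b` (reduction of torsion points, Frobenius equivariance),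
`ES/Q58/ManinPts16` (the Frobenius-fixed points are the `𝔽_ℓ`-points), `ES/Q58/CardBound20`
(`#W(F) ≤ 2 #F + 1`), `Lib/FrobeniusExists`, `ES/FROB/FrobFacts12` (a place over `ℓ` with a
Frobenius element).
-/
import Mathlib
import Fermat.Agent.ES.Q58.Red39b
import Fermat.Agent.ES.Q58.ManinPts16
import Fermat.Agent.ES.Q58.CardBound20
import Fermat.Agent.ES.FROB.FrobFacts12

set_option autoImplicit false
set_option linter.style.haveILetI false

open WeierstrassCurve WeierstrassCurve.Affine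

namespace Fermat.Agent.MAZ.S12.Hasse61

open Fermat.Agent.ES.Q58.Red39 Fermat.Agent.ES.Q58.ManinPts16 Fermat.Agent.ES.EC.LiftTorsion29

local notation "Qb" => AlgebraicClosure ℚ
local notation "GQ" => (AlgebraicClosure ℚ ≃ₐ[ℚ] AlgebraicClosure ℚ)

/-- **K8, divisibility form**: a Galois-fixed point of odd prime order `p ≠ ℓ` on a curve with good
reduction at `ℓ` forces `p ∣ #W̃(𝔽_ℓ)`. -/
theorem dvd_card_reductionMod (W : WeierstrassCurve ℤ) {ℓ p : ℕ} (hℓ : ℓ.Prime) (hp : p.Prime)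
    (hp2 : p ≠ 2) (hpℓ : p ≠ ℓ) (hΔ : ¬ (ℓ : ℤ) ∣ W.Δ)
    (Q : ((W.map (Int.castRingHom ℚ))⁄Qb).Point) (hfix : ∀ σ : GQ, σ • Q = Q)
    (hQ : addOrderOf Q = p) : p ∣ (W.reductionMod ℓ).card := by
  classical
  haveI : Fact ℓ.Prime := ⟨hℓ⟩
  obtain ⟨P, hP⟩ := Fermat.Agent.Lib.FrobeniusExists.exists_valuationSubring_liesOverPrime ℓ hℓ
  obtain ⟨σ, hσ⟩ := Fermat.Agent.ES.FROB.FrobFacts12.exists_isFrobeniusAt_of ℓ hℓ P hP
  letI : Algebra (ZMod ℓ) (IsLocalRing.ResidueField P) := (primeEmb P hℓ hP).toAlgebra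
  set κ := IsLocalRing.ResidueField P with hκ
  set φ : κ →ₐ[ZMod ℓ] κ := frobAlg ℓ κ with hφdef
  have hφ : ∀ x : κ, φ x = x ^ ℓ := fun x => rfl
  have hM := isModel_of_int (r := ℓ) (P := P) W
  have hℓp : ¬ ℓ ∣ p := fun h => hpℓ ((Nat.prime_dvd_prime_iff_eq hℓ hp).mp h).symm
  have hv : P.valuation ((p : ℕ) : Qb) = 1 :=
    Fermat.Agent.S05.Inertia.valuation_natCast_eq_one hℓ hP hℓp
  have hΔu : IsUnit (W.map (Int.castRingHom P)).Δ := by
    rw [WeierstrassCurve.map_Δ, eq_intCast]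
    exact isUnit_intCast_of_not_dvd P hℓ hP hΔ
  have hodd : Odd p := hp.odd_of_ne_two hp2
  have hpQ : p • Q = 0 := by rw [← hQ]; exact addOrderOf_nsmul_eq_zero Q
  have hQ0 : Q ≠ 0 := by
    rintro rfl
    rw [addOrderOf_zero] at hQ
    exact hp.one_lt.ne hQ
  obtain ⟨R, hR⟩ := hM.exists_red hΔu hv hpQ
  have hR0 : R ≠ 0 := fun h => hQ0 (hR.eq_zero_iff.mpr h)
  have hpR : p • R = 0 := hM.nsmul_eq_zero hR hodd hpQ
  -- the reduction is fixed by the Frobenius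
  have hfrob : Red P ((W.map (Int.castRingHom ℚ))⁄Qb) ((W.reductionMod ℓ).toAffine⁄κ) (σ • Q)
      (Point.map (W' := (W.reductionMod ℓ).toAffine) φ R) := red_frob hσ φ hφ hR
  rw [hfix σ] at hfrob
  have hRfix : frobPt (W.reductionMod ℓ).toAffine κ R = R := hfrob.unique hR
  have hker : R ∈ (alpha (W.reductionMod ℓ).toAffine κ).ker :=
    (mem_ker_alpha _ _ R).mpr hRfix
  -- order of `R` inside the kernel of `1 - φ`
  have hord : addOrderOf (⟨R, hker⟩ : (alpha (W.reductionMod ℓ).toAffine κ).ker) = p := by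
    haveI : Fact p.Prime := ⟨hp⟩
    refine addOrderOf_eq_prime ?_ ?_
    · exact Subtype.ext hpR
    · intro h
      exact hR0 (congrArg Subtype.val h)
  have hdvd := addOrderOf_dvd_natCard (⟨R, hker⟩ : (alpha (W.reductionMod ℓ).toAffine κ).ker)
  rw [hord, card_ker_alpha] at hdvd
  exact hdvd

/-- **K8**: `p ≤ 2 ℓ + 1`. -/
theorem prime_order_le (W : WeierstrassCurve ℤ) {ℓ p : ℕ} (hℓ : ℓ.Prime) (hp : p.Prime)
    (hpℓ : p ≠ ℓ) (hΔ : ¬ (ℓ : ℤ) ∣ W.Δ)
    (Q : ((W.map (Int.castRingHom ℚ))⁄Qb).Point) (hfix : ∀ σ : GQ, σ • Q = Q)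
    (hQ : addOrderOf Q = p) : p ≤ 2 * ℓ + 1 := by
  by_cases hp2 : p = 2
  · have := hℓ.two_le
    omega
  haveI : Fact ℓ.Prime := ⟨hℓ⟩
  have hdvd := dvd_card_reductionMod W hℓ hp hp2 hpℓ hΔ Q hfix hQ
  have hle := Fermat.Agent.ES.Q58.CardBound20.card_point_le (W.reductionMod ℓ).toAffine
  have hpos : 0 < (W.reductionMod ℓ).card :=
    Fermat.Agent.ES.Q58.CardBound20.one_le_card_point (W.reductionMod ℓ).toAffine
  rw [ZMod.card] at hle
  exact (Nat.le_of_dvd hpos hdvd).trans hle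

/-- Contrapositive: a Galois-fixed point of prime order `p > 2 ℓ + 1` forces bad reduction at `ℓ`. -/
theorem dvd_disc_of_lt (W : WeierstrassCurve ℤ) {ℓ p : ℕ} (hℓ : ℓ.Prime) (hp : p.Prime)
    (hlt : 2 * ℓ + 1 < p) (Q : ((W.map (Int.castRingHom ℚ))⁄Qb).Point)
    (hfix : ∀ σ : GQ, σ • Q = Q) (hQ : addOrderOf Q = p) : (ℓ : ℤ) ∣ W.Δ := by
  by_contra hΔ
  have := prime_order_le W hℓ hp (by omega) hΔ Q hfix hQ
  omega

/-- A Galois-fixed point of prime order `p > 7` forces bad reduction at `3`. -/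
theorem three_dvd_disc (W : WeierstrassCurve ℤ) {p : ℕ} (hp : p.Prime) (hlt : 7 < p)
    (Q : ((W.map (Int.castRingHom ℚ))⁄Qb).Point) (hfix : ∀ σ : GQ, σ • Q = Q)
    (hQ : addOrderOf Q = p) : (3 : ℤ) ∣ W.Δ := by
  have := dvd_disc_of_lt W Nat.prime_three hp (by omega) Q hfix hQ
  exact_mod_cast this

/-- A Galois-fixed point of prime order `p > 5` forces bad reduction at `2`. -/
theorem two_dvd_disc (W : WeierstrassCurve ℤ) {p : ℕ} (hp : p.Prime) (hlt : 5 < p)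
    (Q : ((W.map (Int.castRingHom ℚ))⁄Qb).Point) (hfix : ∀ σ : GQ, σ • Q = Q)
    (hQ : addOrderOf Q = p) : (2 : ℤ) ∣ W.Δ := by
  have := dvd_disc_of_lt W Nat.prime_two hp (by omega) Q hfix hQ
  exact_mod_cast this

end Fermat.Agent.MAZ.S12.Hasse61
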