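/-
Program MAZ-S12 (helper27's table #1855), brick K2 (a) = ID-C, helper80.

`L : PeriodPair`, `p` an odd prime, `z0` of exact order `p` modulo `L`, `ω_a ω_b ω_c` pairwise
incongruent half periods, `e_i = ℘[L] ω_i`, `A_i = ∏_{0<k<p} (℘[L](k z0) - e_i)`.  Then

  `(e_a - e_b)^p A_c² + (e_b - e_c)^p A_a² + (e_c - e_a)^p A_b² = 0`   (`id_C`).

Proof: `DeltaIdentity80.Q_formula` (`(e'_a - e'_b) A_a A_b = (e_a - e_b)^p A_c`, `e'` the values of
`℘[L']` for the superlattice `L' = L + ℤ z0` of `SuperLattice32`) summed cyclically.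

Also `id_C_roots`: the same identity for ANY three pairwise distinct roots `e_a e_b e_c` of
`4X³ - g₂(L)X - g₃(L)` (no half periods in the statement; this is the form which descends to `ℚbar`),
and `Q_formula'` = (Q) in the literal product form.
-/
import Fermat.Agent.MAZ.Analytic.DeltaIdentity80
import Fermat.Agent.MAZ.Analytic.SuperLattice32
import Fermat.Agent.MAZ.Analytic.HalfPeriod86

set_option autoImplicit false

open scoped PeriodPair

namespace Fermat.Agent.MAZ.S12.IdC80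

open Fermat.Agent.MAZ.Analytic.DeltaIdentity80 Fermat.Agent.MAZ.Analytic

/-- The literal hypotheses of the brick tables give `IsSuper`. -/
theorem isSuper_of_prime (L L' : PeriodPair) {p : ℕ} (hp : p.Prime) (hp2 : p ≠ 2) (z0 : ℂ)
    (hz0 : (p : ℂ) * z0 ∈ L.lattice) (hz0' : z0 ∉ L.lattice)
    (hL' : L'.lattice = L.lattice ⊔ Submodule.span ℤ {z0}) : IsSuper L L' p z0 := by
  refine ⟨hp.odd_of_ne_two hp2, fun k => ⟨fun h => ?_, ?_⟩, hL'⟩
  · by_contra hnd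
    apply hz0'
    have hcop : IsCoprime k (p : ℤ) := by
      rw [Int.isCoprime_iff_gcd_eq_one, Int.gcd_comm]
      exact (Nat.Prime.coprime_iff_not_dvd hp).2 (by
        intro h'
        exact hnd (Int.natCast_dvd.2 h'))
    obtain ⟨u, v, huv⟩ := hcop
    have : z0 = u • ((k : ℂ) * z0) + v • ((p : ℂ) * z0) := by
      have h1 : ((u * k + v * p : ℤ) : ℂ) = 1 := by exact_mod_cast congrArg (Int.cast : ℤ → ℂ) huv
      simp only [zsmul_eq_mul]
      push_cast at h1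
      linear_combination (-z0) * h1
    rw [this]
    exact L.lattice.add_mem (L.lattice.smul_mem u h) (L.lattice.smul_mem v hz0)
  · rintro ⟨m, rfl⟩
    have : (((p : ℤ) * m : ℤ) : ℂ) * z0 = m • ((p : ℂ) * z0) := by
      simp only [zsmul_eq_mul]; push_cast; ring
    rw [this]
    exact L.lattice.smul_mem m hz0

/-- `A_e = ∏_{0<k<p} (℘[L](k z0) - e)`. -/
noncomputable def Aprod (L : PeriodPair) (p : ℕ) (z0 e : ℂ) : ℂ :=
  ∏ k ∈ Finset.Ico 1 p, (℘[L] ((k : ℂ) * z0) - e)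

theorem Bfun_zero (L : PeriodPair) (p : ℕ) (z0 e : ℂ) : Bfun L p z0 e 0 = Aprod L p z0 e := by
  unfold Bfun Aprod
  refine Finset.prod_congr rfl fun k _ => ?_
  rw [zero_add]

section Half

variable {L : PeriodPair} {a b c : ℂ}

/-- The sum of two of three pairwise incongruent half periods has the `℘`-value of the third. -/
theorem wp_add_eq (ha : IsHalf L a) (hb : IsHalf L b) (hc : IsHalf L c)
    (hab : a - b ∉ L.lattice) (hac : a - c ∉ L.lattice) (hbc : b - c ∉ L.lattice) :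
    ℘[L] (a + b) = ℘[L] c := by
  have hs : IsHalf L (a + b) := ha.add hb hab
  have hsa : (a + b) - a ∉ L.lattice := by
    intro h; apply hb.1; simpa using h
  have hsb : (a + b) - b ∉ L.lattice := by
    intro h; apply ha.1; simpa using h
  have h := cubic_factor ha.cubic hb.cubic hc.cubic (ha.wp_ne hb hab) (ha.wp_ne hc hac)
    (hb.wp_ne hc hbc) (℘[L] (a + b))
  rw [hs.cubic] at h
  have h1 : ℘[L] (a + b) - ℘[L] a ≠ 0 := sub_ne_zero.2 (hs.wp_ne ha hsa)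
  have h2 : ℘[L] (a + b) - ℘[L] b ≠ 0 := sub_ne_zero.2 (hs.wp_ne hb hsb)
  have h3 : (℘[L] (a + b) - ℘[L] a) * (℘[L] (a + b) - ℘[L] b) * (℘[L] (a + b) - ℘[L] c) = 0 := by
    linear_combination (-(1 : ℂ) / 4) * h
  exact sub_eq_zero.1 ((mul_eq_zero.1 h3).resolve_left (mul_ne_zero h1 h2))

end Half

section Super

variable {L L' : PeriodPair} {p : ℕ} {z0 : ℂ} (H : IsSuper L L' p z0) {a b c : ℂ}
include H

/-- **(Q)**, literal product form, with an arbitrary third half period `c`: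
`(e'_a - e'_b) A_a A_b = (e_a - e_b)^p A_c`. -/
theorem Q_formula' (ha : IsHalf L a) (hb : IsHalf L b) (hc : IsHalf L c)
    (hab : a - b ∉ L.lattice) (hac : a - c ∉ L.lattice) (hbc : b - c ∉ L.lattice) :
    (℘[L'] a - ℘[L'] b) * (Aprod L p z0 (℘[L] a) * Aprod L p z0 (℘[L] b)) =
      (℘[L] a - ℘[L] b) ^ p * Aprod L p z0 (℘[L] c) := by
  have h := Q_formula H ha hb hab
  rwa [wp_add_eq ha hb hc hab hac hbc, Bfun_zero, Bfun_zero, Bfun_zero] at h

/-- `A_ω ≠ 0` at a half period. -/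
theorem Aprod_ne_zero (ha : IsHalf L a) : Aprod L p z0 (℘[L] a) ≠ 0 := by
  rw [← Bfun_zero]
  exact Bfun_zero_ne_zero H ha

/-- ID-C for a superlattice in the sense of `IsSuper`. -/
theorem id_of_isSuper (ha : IsHalf L a) (hb : IsHalf L b) (hc : IsHalf L c)
    (hab : a - b ∉ L.lattice) (hac : a - c ∉ L.lattice) (hbc : b - c ∉ L.lattice) :
    (℘[L] a - ℘[L] b) ^ p * Aprod L p z0 (℘[L] c) ^ 2 +
      (℘[L] b - ℘[L] c) ^ p * Aprod L p z0 (℘[L] a) ^ 2 +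
      (℘[L] c - ℘[L] a) ^ p * Aprod L p z0 (℘[L] b) ^ 2 = 0 := by
  have hca : c - a ∉ L.lattice := by
    intro h; apply hac
    have := L.lattice.neg_mem h
    simpa using this
  have hcb : c - b ∉ L.lattice := by
    intro h; apply hbc
    have := L.lattice.neg_mem h
    simpa using this
  have hba : b - a ∉ L.lattice := by
    intro h; apply hab
    have := L.lattice.neg_mem h
    simpa using this
  have q1 := Q_formula' H ha hb hc hab hac hbc
  have q2 := Q_formula' H hb hc ha hbc hba hca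
  have q3 := Q_formula' H hc ha hb hca hcb hab
  linear_combination (-Aprod L p z0 (℘[L] c)) * q1 + (-Aprod L p z0 (℘[L] a)) * q2 +
    (-Aprod L p z0 (℘[L] b)) * q3

end Super

/-- **K2 (a) = ID-C**, literal form of table #1855: `p` an odd prime, `p z0 ∈ L`, `z0 ∉ L`,
`ω_a ω_b ω_c` pairwise incongruent half periods of `L`. -/
theorem id_C (L : PeriodPair) {p : ℕ} (hp : p.Prime) (hp2 : p ≠ 2) (z0 : ℂ)
    (h1 : (p : ℂ) * z0 ∈ L.lattice) (h0 : z0 ∉ L.lattice) (a b c : ℂ)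
    (ha : a ∉ L.lattice) (ha2 : a + a ∈ L.lattice) (hb : b ∉ L.lattice) (hb2 : b + b ∈ L.lattice)
    (hc : c ∉ L.lattice) (hc2 : c + c ∈ L.lattice)
    (hab : a - b ∉ L.lattice) (hac : a - c ∉ L.lattice) (hbc : b - c ∉ L.lattice) :
    (℘[L] a - ℘[L] b) ^ p * (∏ k ∈ Finset.Ico 1 p, (℘[L] ((k : ℂ) * z0) - ℘[L] c)) ^ 2 +
      (℘[L] b - ℘[L] c) ^ p * (∏ k ∈ Finset.Ico 1 p, (℘[L] ((k : ℂ) * z0) - ℘[L] a)) ^ 2 +
      (℘[L] c - ℘[L] a) ^ p * (∏ k ∈ Finset.Ico 1 p, (℘[L] ((k : ℂ) * z0) - ℘[L] b)) ^ 2 = 0 := by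
  obtain ⟨L', hL'⟩ := SuperLattice32.exists_superlattice L p hp z0 h1 h0
  exact id_of_isSuper (isSuper_of_prime L L' hp hp2 z0 h1 h0 hL') ⟨ha, ha2⟩ ⟨hb, hb2⟩ ⟨hc, hc2⟩
    hab hac hbc

/-- The three standard half periods are pairwise incongruent. -/
theorem std_half (L : PeriodPair) :
    IsHalf L (HalfPeriod86.h₁ L) ∧ IsHalf L (HalfPeriod86.h₂ L) ∧ IsHalf L (HalfPeriod86.h₃ L) ∧
      HalfPeriod86.h₁ L - HalfPeriod86.h₂ L ∉ L.lattice ∧
      HalfPeriod86.h₁ L - HalfPeriod86.h₃ L ∉ L.lattice ∧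
      HalfPeriod86.h₂ L - HalfPeriod86.h₃ L ∉ L.lattice := by
  have H1 : IsHalf L (HalfPeriod86.h₁ L) := ⟨HalfPeriod86.h₁_notMem L, HalfPeriod86.h₁_add_self L⟩
  have H2 : IsHalf L (HalfPeriod86.h₂ L) := ⟨HalfPeriod86.h₂_notMem L, HalfPeriod86.h₂_add_self L⟩
  have H3 : IsHalf L (HalfPeriod86.h₃ L) := ⟨HalfPeriod86.h₃_notMem L, HalfPeriod86.h₃_add_self L⟩
  refine ⟨H1, H2, H3, ?_, ?_, ?_⟩
  · intro h
    apply H3.1
    have : HalfPeriod86.h₃ L = (HalfPeriod86.h₁ L - HalfPeriod86.h₂ L) +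
        (HalfPeriod86.h₂ L + HalfPeriod86.h₂ L) := by
      unfold HalfPeriod86.h₁ HalfPeriod86.h₂ HalfPeriod86.h₃; ring
    rw [this]
    exact L.lattice.add_mem h H2.2
  · intro h
    apply H2.1
    have : HalfPeriod86.h₂ L = -(HalfPeriod86.h₁ L - HalfPeriod86.h₃ L) := by
      unfold HalfPeriod86.h₁ HalfPeriod86.h₂ HalfPeriod86.h₃; ring
    rw [this]
    exact L.lattice.neg_mem h
  · intro h
    apply H1.1
    have : HalfPeriod86.h₁ L = -(HalfPeriod86.h₂ L - HalfPeriod86.h₃ L) := by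
      unfold HalfPeriod86.h₁ HalfPeriod86.h₂ HalfPeriod86.h₃; ring
    rw [this]
    exact L.lattice.neg_mem h

/-- The cyclic sum changes sign under a transposition (`p` odd). -/
theorem cyc_swap {p : ℕ} (hodd : Odd p) (A : ℂ → ℂ) (x y z : ℂ)
    (h : (x - y) ^ p * A z ^ 2 + (y - z) ^ p * A x ^ 2 + (z - x) ^ p * A y ^ 2 = 0) :
    (y - x) ^ p * A z ^ 2 + (x - z) ^ p * A y ^ 2 + (z - y) ^ p * A x ^ 2 = 0 := by
  have hneg : ∀ u v : ℂ, (u - v) ^ p = -(v - u) ^ p := by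
    intro u v
    rw [← hodd.neg_pow, neg_sub]
  rw [hneg y x, hneg x z, hneg z y]
  linear_combination -h

/-- The cyclic sum is invariant under a cyclic permutation. -/
theorem cyc_rot {p : ℕ} (A : ℂ → ℂ) (x y z : ℂ)
    (h : (x - y) ^ p * A z ^ 2 + (y - z) ^ p * A x ^ 2 + (z - x) ^ p * A y ^ 2 = 0) :
    (y - z) ^ p * A x ^ 2 + (z - x) ^ p * A y ^ 2 + (x - y) ^ p * A z ^ 2 = 0 := by
  linear_combination h

/-- **ID-C, root form**: the same identity for any three pairwise distinct roots `e_a e_b e_c` of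
`4X³ - g₂X - g₃`. -/
theorem id_C_roots (L : PeriodPair) {p : ℕ} (hp : p.Prime) (hp2 : p ≠ 2) (z0 : ℂ)
    (h1 : (p : ℂ) * z0 ∈ L.lattice) (h0 : z0 ∉ L.lattice) (ea eb ec : ℂ)
    (ha : 4 * ea ^ 3 - L.g₂ * ea - L.g₃ = 0) (hb : 4 * eb ^ 3 - L.g₂ * eb - L.g₃ = 0)
    (hc : 4 * ec ^ 3 - L.g₂ * ec - L.g₃ = 0) (hab : ea ≠ eb) (hac : ea ≠ ec) (hbc : eb ≠ ec) :
    (ea - eb) ^ p * (∏ k ∈ Finset.Ico 1 p, (℘[L] ((k : ℂ) * z0) - ec)) ^ 2 +
      (eb - ec) ^ p * (∏ k ∈ Finset.Ico 1 p, (℘[L] ((k : ℂ) * z0) - ea)) ^ 2 +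
      (ec - ea) ^ p * (∏ k ∈ Finset.Ico 1 p, (℘[L] ((k : ℂ) * z0) - eb)) ^ 2 = 0 := by
  obtain ⟨H1, H2, H3, h12, h13, h23⟩ := std_half L
  have hodd : Odd p := hp.odd_of_ne_two hp2
  -- each root is one of the three `℘(h_i)`
  have hroot : ∀ x : ℂ, 4 * x ^ 3 - L.g₂ * x - L.g₃ = 0 →
      x = ℘[L] (HalfPeriod86.h₁ L) ∨ x = ℘[L] (HalfPeriod86.h₂ L) ∨
        x = ℘[L] (HalfPeriod86.h₃ L) := by
    intro x hx
    have h := cubic_factor H1.cubic H2.cubic H3.cubic (H1.wp_ne H2 h12) (H1.wp_ne H3 h13)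
      (H2.wp_ne H3 h23) x
    rw [hx] at h
    have h3 : (x - ℘[L] (HalfPeriod86.h₁ L)) * (x - ℘[L] (HalfPeriod86.h₂ L)) *
        (x - ℘[L] (HalfPeriod86.h₃ L)) = 0 := by
      linear_combination (-(1 : ℂ) / 4) * h
    rcases mul_eq_zero.1 h3 with h | h
    · rcases mul_eq_zero.1 h with h | h
      · exact Or.inl (sub_eq_zero.1 h)
      · exact Or.inr (Or.inl (sub_eq_zero.1 h))
    · exact Or.inr (Or.inr (sub_eq_zero.1 h))
  set A : ℂ → ℂ := fun e => ∏ k ∈ Finset.Ico 1 p, (℘[L] ((k : ℂ) * z0) - e) with hA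
  change (ea - eb) ^ p * A ec ^ 2 + (eb - ec) ^ p * A ea ^ 2 + (ec - ea) ^ p * A eb ^ 2 = 0
  -- the identity for the standard half periods
  have k123 : (℘[L] (HalfPeriod86.h₁ L) - ℘[L] (HalfPeriod86.h₂ L)) ^ p *
        A (℘[L] (HalfPeriod86.h₃ L)) ^ 2 +
      (℘[L] (HalfPeriod86.h₂ L) - ℘[L] (HalfPeriod86.h₃ L)) ^ p *
        A (℘[L] (HalfPeriod86.h₁ L)) ^ 2 +
      (℘[L] (HalfPeriod86.h₃ L) - ℘[L] (HalfPeriod86.h₁ L)) ^ p *
        A (℘[L] (HalfPeriod86.h₂ L)) ^ 2 = 0 :=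
    id_C L hp hp2 z0 h1 h0 _ _ _ H1.1 H1.2 H2.1 H2.2 H3.1 H3.2 h12 h13 h23
  have k231 := cyc_rot A _ _ _ k123
  have k312 := cyc_rot A _ _ _ k231
  have k213 := cyc_swap hodd A _ _ _ k123
  have k321 := cyc_swap hodd A _ _ _ k231
  have k132 := cyc_swap hodd A _ _ _ k312
  rcases hroot ea ha with rfl | rfl | rfl <;> rcases hroot eb hb with rfl | rfl | rfl <;>
    rcases hroot ec hc with rfl | rfl | rfl <;>
    first
    | exact absurd rfl hab
    | exact absurd rfl hac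
    | exact absurd rfl hbc
    | exact k123
    | exact k231
    | exact k312
    | exact k213
    | exact k321
    | exact k132

end Fermat.Agent.MAZ.S12.IdC80
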