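/-
Program MAZ-S12 (table #1855), brick K2(b) = ID-Qb, helper42.

Descent along `ι : ℚbar → ℂ` of the three-term identity (ID) between the 2-torsion abscissae
`e₁, e₂, e₃` of an elliptic curve `E` over `ℚbar` and the products `∏_{k=1}^{p-1} (x(k•R) - e_i)`
for a point `R` of exact order `p`:

  `(e₁ - e₂)^p (∏ (x_k - e₃))² + (e₂ - e₃)^p (∏ (x_k - e₁))² + (e₃ - e₁)^p (∏ (x_k - e₂))² = 0`.

The complex identity K2(a) (ID-C, helper80) enters as the hypothesis `IDC p`, in the literal shape of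
table #1855.  Also exported: `exists_unif_data`, the uniformisation data of `(E, R)`.
-/
import Fermat.Agent.MAZ.Analytic.Global42
import Fermat.Agent.MAZ.Analytic.Elliptic32

set_option autoImplicit false
set_option linter.unusedSectionVars false

open WeierstrassCurve WeierstrassCurve.Affine
open scoped PeriodPair

noncomputable section

namespace Fermat.Agent.MAZ.S12.IdQb42

open Fermat.Agent.X0 Fermat.Agent.MAZ.Spec.XSpec62 Fermat.Agent.MAZ.Analytic.GlobalDefs42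
open Fermat.Agent.MAZ.Analytic.Global42 Fermat.Agent.MAZ.Analytic.Unif32
open Fermat.Agent.MAZ.Analytic Fermat.Agent.MAZ.Point

/-- **K2(a) (ID-C)** as a hypothesis, in the literal shape of table #1855: for a point `z₀` of exact
order `p` of `ℂ/L` and three pairwise incongruent half periods `ωa, ωb, ωc`. -/
def IDC (p : ℕ) : Prop :=
  ∀ (L : PeriodPair) (z0 : ℂ), (p : ℂ) * z0 ∈ L.lattice → z0 ∉ L.lattice →
    ∀ ωa ωb ωc : ℂ, (ωa ∉ L.lattice ∧ ωa + ωa ∈ L.lattice) →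
      (ωb ∉ L.lattice ∧ ωb + ωb ∈ L.lattice) → (ωc ∉ L.lattice ∧ ωc + ωc ∈ L.lattice) →
      ωa - ωb ∉ L.lattice → ωa - ωc ∉ L.lattice → ωb - ωc ∉ L.lattice →
      (℘[L] ωa - ℘[L] ωb) ^ p *
          (∏ k ∈ Finset.Ico 1 p, (℘[L] ((k : ℂ) * z0) - ℘[L] ωc)) ^ 2 +
        (℘[L] ωb - ℘[L] ωc) ^ p *
          (∏ k ∈ Finset.Ico 1 p, (℘[L] ((k : ℂ) * z0) - ℘[L] ωa)) ^ 2 +
        (℘[L] ωc - ℘[L] ωa) ^ p *
          (∏ k ∈ Finset.Ico 1 p, (℘[L] ((k : ℂ) * z0) - ℘[L] ωb)) ^ 2 = 0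

/-- The discriminant of the complexification is non-zero. -/
theorem toC_Δ_ne_zero (E : WeierstrassCurve.Affine Qb) (hΔ : E.Δ ≠ 0) : (toC E).Δ ≠ 0 := by
  rw [WeierstrassCurve.map_Δ]
  exact (map_ne_zero iotaK).mpr hΔ

/-- **Uniformisation data** of a point `R` of exact order `p` on an elliptic curve `E` over `ℚbar`:
a lattice `L` uniformising `E ⊗ ℂ` and a point `z₀` of exact order `p` of `ℂ/L` such that the
coordinates of the multiples `k • R` are the values of `℘`, `℘'` at `k z₀`. -/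
theorem exists_unif_data {p : ℕ} (hp : p.Prime) (E : WeierstrassCurve.Affine Qb) (hΔ : E.Δ ≠ 0)
    (R : E.Point) (hR : addOrderOf R = p) :
    ∃ (L : PeriodPair) (z0 : ℂ), IsUnif (toC E) L ∧ (p : ℂ) * z0 ∈ L.lattice ∧ z0 ∉ L.lattice ∧
      (∀ k : ℕ, 0 < k → k < p → (k : ℂ) * z0 ∉ L.lattice) ∧
      ∀ k ∈ Finset.Ico 1 p,
        iotaK (xOf E (k • R)) = ℘[L] ((k : ℂ) * z0) - (toC E).b₂ / 12 ∧
        iotaK (psi2 E (k • R)) = ℘'[L] ((k : ℂ) * z0) := by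
  have hRk := nsmul_ne_zero_of_addOrderOf hR
  have hWΔ := toC_Δ_ne_zero E hΔ
  obtain ⟨L, hU⟩ := exists_isUnif (toC E) hWΔ
  have hRc : addOrderOf (mapPt E iotaK R) = p := by rw [addOrderOf_mapPt]; exact hR
  obtain ⟨z0, hz0⟩ := pt_surjective hU (mapPt E iotaK R)
  rw [← hz0] at hRc
  have h1 : (p : ℂ) * z0 ∈ L.lattice := mul_mem_of_addOrderOf hU hRc
  have hk : ∀ k : ℕ, 0 < k → k < p → (k : ℂ) * z0 ∉ L.lattice := fun k hk0 hkp =>
    mul_notMem_of_addOrderOf hU hRc hk0 hkp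
  have h0 : z0 ∉ L.lattice := by
    have := hk 1 one_pos hp.one_lt
    simpa using this
  refine ⟨L, z0, hU, h1, h0, hk, ?_⟩
  intro k hkI
  obtain ⟨hns, hsome⟩ := exists_eq_some E (k • R) (hRk k hkI)
  have e : pt hU ((k : ℂ) * z0) = mapPt E iotaK (k • R) := by
    rw [← nsmul_pt, hz0, mapPt_nsmul]
  rw [hsome, mapPt_some] at e
  obtain ⟨-, hx, hy⟩ := coords_of_pt_eq_some hU e
  refine ⟨hx, ?_⟩
  rw [← hy, psi2_eq E _ (hRk k hkI), map_add, map_add, map_mul, map_mul, map_ofNat]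
  simp only [WeierstrassCurve.map_a₁, WeierstrassCurve.map_a₃]

/-- A root `e` of the 2-division cubic `4X³ + b₂X² + 2b₄X + b₆` of `E` is the value of
`℘ - b₂/12` at a half period. -/
theorem exists_half_period (E : WeierstrassCurve.Affine Qb) {L : PeriodPair}
    (hU : IsUnif (toC E) L) (e : Qb) (he : 4 * e ^ 3 + E.b₂ * e ^ 2 + 2 * E.b₄ * e + E.b₆ = 0) :
    ∃ ω : ℂ, ω ∉ L.lattice ∧ ω + ω ∈ L.lattice ∧ ℘[L] ω = iotaK e + (toC E).b₂ / 12 := by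
  obtain ⟨ω, hω, hP⟩ := Elliptic32.exists_weierstrassP_eq L (iotaK e + (toC E).b₂ / 12)
  refine ⟨ω, hω, ?_, hP⟩
  rw [← Elliptic32.derivWeierstrassP_eq_zero_iff L hω]
  have hsq := L.derivWeierstrassP_sq ω hω
  have he' : 4 * iotaK e ^ 3 + (toC E).b₂ * iotaK e ^ 2 + 2 * (toC E).b₄ * iotaK e + (toC E).b₆
      = 0 := by
    have := congrArg iotaK he
    rw [map_zero, map_add, map_add, map_add, map_mul, map_mul, map_mul, map_mul, map_pow, map_pow,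
      map_ofNat, map_ofNat] at this
    rw [WeierstrassCurve.map_b₂, WeierstrassCurve.map_b₄, WeierstrassCurve.map_b₆]
    exact this
  have hc4 : (toC E).c₄ = (toC E).b₂ ^ 2 - 24 * (toC E).b₄ := rfl
  have hc6 : (toC E).c₆ = -(toC E).b₂ ^ 3 + 36 * (toC E).b₂ * (toC E).b₄ - 216 * (toC E).b₆ := rfl
  have h0 : ℘'[L] ω ^ 2 = 0 := by
    rw [hsq, hP, hU.g₂, hU.g₃, hc4, hc6]
    linear_combination he'
  exact pow_eq_zero_iff (two_ne_zero) |>.mp h0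

/-- **K2(b) (ID-Qb).** The three-term identity over `ℚbar`, from its complex form `IDC p`. -/
theorem id_Qb {p : ℕ} (hp : p.Prime) (hC : IDC p) (E : WeierstrassCurve.Affine Qb) (hΔ : E.Δ ≠ 0)
    (e₁ e₂ e₃ : Qb) (h12 : e₁ ≠ e₂) (h13 : e₁ ≠ e₃) (h23 : e₂ ≠ e₃)
    (hr : ∀ e ∈ ({e₁, e₂, e₃} : Finset Qb), 4 * e ^ 3 + E.b₂ * e ^ 2 + 2 * E.b₄ * e + E.b₆ = 0)
    (R : E.Point) (hR : addOrderOf R = p) :
    (e₁ - e₂) ^ p * (∏ k ∈ Finset.Ico 1 p, (ModAsm62.xOf (k • R) - e₃)) ^ 2 +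
      (e₂ - e₃) ^ p * (∏ k ∈ Finset.Ico 1 p, (ModAsm62.xOf (k • R) - e₁)) ^ 2 +
      (e₃ - e₁) ^ p * (∏ k ∈ Finset.Ico 1 p, (ModAsm62.xOf (k • R) - e₂)) ^ 2 = 0 := by
  obtain ⟨L, z0, hU, h1, h0, -, hcoord⟩ := exists_unif_data hp E hΔ R hR
  have hr1 := hr e₁ (by simp)
  have hr2 := hr e₂ (by simp)
  have hr3 := hr e₃ (by simp)
  obtain ⟨ω₁, hω₁, hω₁', hP₁⟩ := exists_half_period E hU e₁ hr1
  obtain ⟨ω₂, hω₂, hω₂', hP₂⟩ := exists_half_period E hU e₂ hr2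
  obtain ⟨ω₃, hω₃, hω₃', hP₃⟩ := exists_half_period E hU e₃ hr3
  -- incongruence of the half periods
  have hinc : ∀ {ω ω' : ℂ} {e e' : Qb}, e ≠ e' → ℘[L] ω = iotaK e + (toC E).b₂ / 12 →
      ℘[L] ω' = iotaK e' + (toC E).b₂ / 12 → ω - ω' ∉ L.lattice := by
    intro ω ω' e e' hee hP hP' hmem
    have := Elliptic32.weierstrassP_eq_of_sub_mem L hmem
    rw [hP, hP'] at this
    exact hee (iotaK_injective (add_right_cancel this))
  have key := hC L z0 h1 h0 ω₁ ω₂ ω₃ ⟨hω₁, hω₁'⟩ ⟨hω₂, hω₂'⟩ ⟨hω₃, hω₃'⟩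
    (hinc h12 hP₁ hP₂) (hinc h13 hP₁ hP₃) (hinc h23 hP₂ hP₃)
  -- transport
  have hprod : ∀ (e : Qb) (ω : ℂ), ℘[L] ω = iotaK e + (toC E).b₂ / 12 →
      iotaK (∏ k ∈ Finset.Ico 1 p, (ModAsm62.xOf (k • R) - e)) =
        ∏ k ∈ Finset.Ico 1 p, (℘[L] ((k : ℂ) * z0) - ℘[L] ω) := by
    intro e ω hP
    rw [map_prod]
    refine Finset.prod_congr rfl fun k hkI => ?_
    rw [map_sub, xOf_bridge, (hcoord k hkI).1, hP]
    ring
  apply iotaK_injective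
  rw [map_zero, map_add, map_add, map_mul, map_mul, map_mul, map_pow, map_pow, map_pow, map_pow,
    map_pow, map_pow, hprod e₃ ω₃ hP₃, hprod e₁ ω₁ hP₁, hprod e₂ ω₂ hP₂, map_sub, map_sub, map_sub]
  have d12 : iotaK e₁ - iotaK e₂ = ℘[L] ω₁ - ℘[L] ω₂ := by rw [hP₁, hP₂]; ring
  have d23 : iotaK e₂ - iotaK e₃ = ℘[L] ω₂ - ℘[L] ω₃ := by rw [hP₂, hP₃]; ring
  have d31 : iotaK e₃ - iotaK e₁ = ℘[L] ω₃ - ℘[L] ω₁ := by rw [hP₃, hP₁]; ring
  rw [d12, d23, d31]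
  exact key

end Fermat.Agent.MAZ.S12.IdQb42
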