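/-
Program MAZ-S12 (table #1855), brick K2 = K2(a) + K2(b), the unconditional plug (helper42):
`IdC80.id_C` (helper80) discharges the hypothesis `IDC p` of `IdQb42.id_Qb`.
-/
import Fermat.Agent.MAZ.S12.IdQb42
import Fermat.Agent.MAZ.S12.IdC80

set_option autoImplicit false

open WeierstrassCurve WeierstrassCurve.Affine

noncomputable section

namespace Fermat.Agent.MAZ.S12.IdQbFinal42

open Fermat.Agent.MAZ.Spec.XSpec62 Fermat.Agent.MAZ.Point Fermat.Agent.MAZ.S12.IdQb42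

/-- **K2(a)** in the shape `IDC p`. -/
theorem idC {p : ℕ} (hp : p.Prime) (hp2 : p ≠ 2) : IDC p :=
  fun L z0 h1 h0 a b c ha hb hc hab hac hbc =>
    IdC80.id_C L hp hp2 z0 h1 h0 a b c ha.1 ha.2 hb.1 hb.2 hc.1 hc.2 hab hac hbc

/-- **K2 (ID) over `ℚbar`, unconditional.** -/
theorem id_Qb_final {p : ℕ} (hp : p.Prime) (hp2 : p ≠ 2) (E : WeierstrassCurve.Affine Qb)
    (hΔ : E.Δ ≠ 0) (e₁ e₂ e₃ : Qb) (h12 : e₁ ≠ e₂) (h13 : e₁ ≠ e₃) (h23 : e₂ ≠ e₃)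
    (hr : ∀ e ∈ ({e₁, e₂, e₃} : Finset Qb), 4 * e ^ 3 + E.b₂ * e ^ 2 + 2 * E.b₄ * e + E.b₆ = 0)
    (R : E.Point) (hR : addOrderOf R = p) :
    (e₁ - e₂) ^ p * (∏ k ∈ Finset.Ico 1 p, (ModAsm62.xOf (k • R) - e₃)) ^ 2 +
      (e₂ - e₃) ^ p * (∏ k ∈ Finset.Ico 1 p, (ModAsm62.xOf (k • R) - e₁)) ^ 2 +
      (e₃ - e₁) ^ p * (∏ k ∈ Finset.Ico 1 p, (ModAsm62.xOf (k • R) - e₂)) ^ 2 = 0 :=
  id_Qb hp (idC hp hp2) E hΔ e₁ e₂ e₃ h12 h13 h23 hr R hR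

end Fermat.Agent.MAZ.S12.IdQbFinal42
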