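/-
Programme MAZ, sub-programme MAZ-S12 (S12 from S15), companion of brick K0 (helper57):
SYMMETRIC FUNCTIONS OVER THE LINE ARE RATIONAL.

* `image_nsmul_eq`, `prod_nsmul_eq`, `sum_nsmul_eq`: for `R₀` of prime order `p` in an additive group
  and `S ∈ ⟨R₀⟩`, `S ≠ 0`, the families `k • S` and `k • R₀` (`1 ≤ k < p`) agree up to
  reindexing.
* `xOf_smul`, `yOf_smul`, `psi2_smul`, `tOf_smul`: Galois equivariance of the coordinate
  functions of `Point/ModAsm62` on `W⁄ℚ̄` for a curve `W` over `ℚ`.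
* `prod_fixed`, `sum_fixed`, `prod_mem_ratField`, `sum_mem_ratField`: for a Galois-stable line
  `⟨R₀⟩` (`σ • R₀ ∈ ⟨R₀⟩`) and an equivariant `f`, `∏_{k=1}^{p-1} f (k • R₀)` and the corresponding
  sum are Galois-fixed, hence rational.  In particular Vélu's `t_N`, `w_N` and the products
  `∏ (x (k • R₀) - e)` (`e ∈ ℚ`) of the identity `(ID)`.
-/
import Fermat.Agent.MAZ.Point.ModAsm62

set_option autoImplicit false
set_option linter.style.haveILetI false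

open WeierstrassCurve WeierstrassCurve.Affine WeierstrassCurve.Affine.Point

namespace Fermat.Agent.MAZ.S12.LineSym57

open Fermat.Agent.MAZ.Point.ModAsm62

/-! ### Reindexing the nonzero multiples of a generator -/

section Group

variable {M : Type*} [AddCommGroup M] {p : ℕ}

theorem addOrderOf_eq_of_mem_zmultiples (hp : p.Prime) {R₀ S : M} (hR : addOrderOf R₀ = p)
    (hS : S ∈ AddSubgroup.zmultiples R₀) (hS0 : S ≠ 0) : addOrderOf S = p := by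
  obtain ⟨n, rfl⟩ := AddSubgroup.mem_zmultiples_iff.mp hS
  haveI := Fact.mk hp
  refine addOrderOf_eq_prime ?_ hS0
  rw [← natCast_zsmul, smul_comm, natCast_zsmul, ← hR, addOrderOf_nsmul_eq_zero, smul_zero]

theorem card_image_nsmul {R₀ : M} (hR : addOrderOf R₀ = p) [DecidableEq M] :
    ((Finset.Ico 1 p).image fun k : ℕ => k • R₀).card = p - 1 := by
  rw [Finset.card_image_of_injOn, Nat.card_Ico]
  intro a ha b hb hab
  have ha' : a ∈ Set.Iio (addOrderOf R₀) := by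
    rw [hR]; exact (Finset.mem_Ico.mp ha).2
  have hb' : b ∈ Set.Iio (addOrderOf R₀) := by
    rw [hR]; exact (Finset.mem_Ico.mp hb).2
  exact nsmul_injOn_Iio_addOrderOf ha' hb' hab

/-- For `S ∈ ⟨R₀⟩`, `S ≠ 0`, `R₀` of prime order `p`: `{k • S} = {k • R₀}` (`1 ≤ k < p`). -/
theorem image_nsmul_eq [DecidableEq M] (hp : p.Prime) {R₀ S : M} (hR : addOrderOf R₀ = p)
    (hS : S ∈ AddSubgroup.zmultiples R₀) (hS0 : S ≠ 0) :
    ((Finset.Ico 1 p).image fun k : ℕ => k • S) = (Finset.Ico 1 p).image fun k : ℕ => k • R₀ := by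
  have hSo := addOrderOf_eq_of_mem_zmultiples hp hR hS hS0
  refine Finset.eq_of_subset_of_card_le ?_ ?_
  · intro x hx
    obtain ⟨k, hk, rfl⟩ := Finset.mem_image.mp hx
    obtain ⟨hk1, hkp⟩ := Finset.mem_Ico.mp hk
    obtain ⟨n, rfl⟩ := AddSubgroup.mem_zmultiples_iff.mp hS
    -- `k • n • R₀ = j • R₀` with `j = (k n) mod p`
    have hp0 : (p : ℤ) ≠ 0 := by exact_mod_cast hp.ne_zero
    set j : ℤ := ((k : ℤ) * n) % (p : ℤ) with hj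
    have hj0 : 0 ≤ j := Int.emod_nonneg _ hp0
    have hjp : j < p := Int.emod_lt_of_pos _ (by exact_mod_cast hp.pos)
    have hjR : j • R₀ = k • n • R₀ := by
      rw [hj, ← hR, mod_addOrderOf_zsmul, mul_smul, natCast_zsmul]
    have hne : k • n • R₀ ≠ 0 := by
      have : k < addOrderOf (n • R₀) := by rw [hSo]; exact hkp
      exact nsmul_ne_zero_of_lt_addOrderOf (by omega) this
    refine Finset.mem_image.mpr ⟨j.toNat, Finset.mem_Ico.mpr ⟨?_, ?_⟩, ?_⟩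
    · by_contra h0
      have : j = 0 := by omega
      rw [this, zero_smul] at hjR
      exact hne hjR.symm
    · omega
    · show j.toNat • R₀ = k • n • R₀
      rw [← hjR, ← natCast_zsmul, Int.toNat_of_nonneg hj0]
  · rw [card_image_nsmul hR, card_image_nsmul hSo]

theorem prod_nsmul_eq {α : Type*} [CommMonoid α] (hp : p.Prime) {R₀ S : M}
    (hR : addOrderOf R₀ = p) (hS : S ∈ AddSubgroup.zmultiples R₀) (hS0 : S ≠ 0) (f : M → α) :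
    ∏ k ∈ Finset.Ico 1 p, f (k • S) = ∏ k ∈ Finset.Ico 1 p, f (k • R₀) := by
  classical
  have hSo := addOrderOf_eq_of_mem_zmultiples hp hR hS hS0
  have inj : ∀ {T : M}, addOrderOf T = p →
      Set.InjOn (fun k : ℕ => k • T) (Finset.Ico 1 p : Set ℕ) := by
    intro T hT a ha b hb hab
    have ha' : a ∈ Set.Iio (addOrderOf T) := by
      rw [hT]; exact (Finset.mem_Ico.mp ha).2
    have hb' : b ∈ Set.Iio (addOrderOf T) := by
      rw [hT]; exact (Finset.mem_Ico.mp hb).2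
    exact nsmul_injOn_Iio_addOrderOf ha' hb' hab
  rw [← Finset.prod_image (f := f) (g := fun k : ℕ => k • S) (inj hSo),
    ← Finset.prod_image (f := f) (g := fun k : ℕ => k • R₀) (inj hR),
    image_nsmul_eq hp hR hS hS0]

theorem sum_nsmul_eq {α : Type*} [AddCommMonoid α] (hp : p.Prime) {R₀ S : M}
    (hR : addOrderOf R₀ = p) (hS : S ∈ AddSubgroup.zmultiples R₀) (hS0 : S ≠ 0) (f : M → α) :
    ∑ k ∈ Finset.Ico 1 p, f (k • S) = ∑ k ∈ Finset.Ico 1 p, f (k • R₀) :=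
  prod_nsmul_eq (α := Multiplicative α) hp hR hS hS0 f

end Group

/-! ### Galois equivariance of the coordinate functions -/

section Galois

local notation "Qb" => AlgebraicClosure ℚ

variable {W : WeierstrassCurve ℚ}

theorem smul_some (σ : Qb ≃ₐ[ℚ] Qb) {x y : Qb} (h : (W⁄Qb).toAffine.Nonsingular x y) :
    ∃ h', σ • (Point.some x y h : (W⁄Qb).Point) = Point.some (σ x) (σ y) h' :=
  ⟨_, rfl⟩

theorem smul_zero' (σ : Qb ≃ₐ[ℚ] Qb) : σ • (0 : (W⁄Qb).Point) = 0 := rfl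

theorem xOf_smul (σ : Qb ≃ₐ[ℚ] Qb) (X : (W⁄Qb).Point) : xOf (σ • X) = σ (xOf X) := by
  rcases X with _ | ⟨x, y, h⟩
  · show xOf (0 : (W⁄Qb).Point) = σ (xOf (0 : (W⁄Qb).Point))
    simp [xOf]
  · rfl

theorem yOf_smul (σ : Qb ≃ₐ[ℚ] Qb) (X : (W⁄Qb).Point) : yOf (σ • X) = σ (yOf X) := by
  rcases X with _ | ⟨x, y, h⟩
  · show yOf (0 : (W⁄Qb).Point) = σ (yOf (0 : (W⁄Qb).Point))
    simp [yOf]
  · rfl

theorem coeff_fixed (σ : Qb ≃ₐ[ℚ] Qb) :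
    σ (W⁄Qb).a₁ = (W⁄Qb).a₁ ∧ σ (W⁄Qb).a₃ = (W⁄Qb).a₃ ∧ σ (W⁄Qb).b₂ = (W⁄Qb).b₂ ∧
      σ (W⁄Qb).b₄ = (W⁄Qb).b₄ := by
  refine ⟨?_, ?_, ?_, ?_⟩
  · show σ (algebraMap ℚ Qb W.a₁) = algebraMap ℚ Qb W.a₁
    exact σ.commutes _
  · show σ (algebraMap ℚ Qb W.a₃) = algebraMap ℚ Qb W.a₃
    exact σ.commutes _
  · rw [show (W⁄Qb).b₂ = algebraMap ℚ Qb W.b₂ from WeierstrassCurve.map_b₂ _ _]
    exact σ.commutes _
  · rw [show (W⁄Qb).b₄ = algebraMap ℚ Qb W.b₄ from WeierstrassCurve.map_b₄ _ _]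
    exact σ.commutes _

theorem psi2_smul (σ : Qb ≃ₐ[ℚ] Qb) (X : (W⁄Qb).Point) : psi2 (σ • X) = σ (psi2 X) := by
  obtain ⟨h1, h3, -, -⟩ := coeff_fixed (W := W) σ
  rcases X with _ | ⟨x, y, h⟩
  · show psi2 (0 : (W⁄Qb).Point) = σ (psi2 (0 : (W⁄Qb).Point))
    simp [psi2]
  · show 2 * σ y + (W⁄Qb).a₁ * σ x + (W⁄Qb).a₃ = σ (2 * y + (W⁄Qb).a₁ * x + (W⁄Qb).a₃)
    rw [map_add, map_add, map_mul, map_mul, h1, h3, map_ofNat]

theorem tOf_smul (σ : Qb ≃ₐ[ℚ] Qb) (X : (W⁄Qb).Point) : tOf (σ • X) = σ (tOf X) := by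
  obtain ⟨-, -, h2, h4⟩ := coeff_fixed (W := W) σ
  rcases X with _ | ⟨x, y, h⟩
  · show tOf (0 : (W⁄Qb).Point) = σ (tOf (0 : (W⁄Qb).Point))
    simp [tOf]
  · show 6 * σ x ^ 2 + (W⁄Qb).b₂ * σ x + (W⁄Qb).b₄ = σ (6 * x ^ 2 + (W⁄Qb).b₂ * x + (W⁄Qb).b₄)
    rw [map_add, map_add, map_mul, map_mul, map_pow, h2, h4, map_ofNat]

/-! ### Symmetric functions over a Galois-stable line -/

variable {p : ℕ}

theorem smul_nsmul' (σ : Qb ≃ₐ[ℚ] Qb) (k : ℕ) (X : (W⁄Qb).Point) : σ • (k • X) = k • (σ • X) := by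
  rw [Point.algEquiv_smul_def, map_nsmul, ← Point.algEquiv_smul_def]

theorem smul_ne_zero_of_ne_zero (σ : Qb ≃ₐ[ℚ] Qb) {X : (W⁄Qb).Point} (hX : X ≠ 0) : σ • X ≠ 0 := by
  intro h
  exact hX ((smul_eq_zero_iff_eq σ).mp h)

theorem prod_fixed (hp : p.Prime) {R₀ : (W⁄Qb).Point} (hR : addOrderOf R₀ = p)
    (hstab : ∀ σ : Qb ≃ₐ[ℚ] Qb, σ • R₀ ∈ AddSubgroup.zmultiples R₀)
    (f : (W⁄Qb).Point → Qb) (hf : ∀ (σ : Qb ≃ₐ[ℚ] Qb) X, f (σ • X) = σ (f X))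
    (σ : Qb ≃ₐ[ℚ] Qb) :
    σ (∏ k ∈ Finset.Ico 1 p, f (k • R₀)) = ∏ k ∈ Finset.Ico 1 p, f (k • R₀) := by
  have hR0 : R₀ ≠ 0 := by
    intro h0
    rw [h0, addOrderOf_zero] at hR
    exact hp.one_lt.ne hR
  rw [map_prod]
  have : ∀ k ∈ Finset.Ico 1 p, σ (f (k • R₀)) = f (k • (σ • R₀)) := by
    intro k _
    rw [← hf, smul_nsmul']
  rw [Finset.prod_congr rfl this]
  exact prod_nsmul_eq hp hR (hstab σ) (smul_ne_zero_of_ne_zero σ hR0) f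

theorem sum_fixed (hp : p.Prime) {R₀ : (W⁄Qb).Point} (hR : addOrderOf R₀ = p)
    (hstab : ∀ σ : Qb ≃ₐ[ℚ] Qb, σ • R₀ ∈ AddSubgroup.zmultiples R₀)
    (f : (W⁄Qb).Point → Qb) (hf : ∀ (σ : Qb ≃ₐ[ℚ] Qb) X, f (σ • X) = σ (f X))
    (σ : Qb ≃ₐ[ℚ] Qb) :
    σ (∑ k ∈ Finset.Ico 1 p, f (k • R₀)) = ∑ k ∈ Finset.Ico 1 p, f (k • R₀) := by
  have hR0 : R₀ ≠ 0 := by
    intro h0
    rw [h0, addOrderOf_zero] at hR
    exact hp.one_lt.ne hR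
  rw [map_sum]
  have : ∀ k ∈ Finset.Ico 1 p, σ (f (k • R₀)) = f (k • (σ • R₀)) := by
    intro k _
    rw [← hf, smul_nsmul']
  rw [Finset.sum_congr rfl this]
  exact sum_nsmul_eq hp hR (hstab σ) (smul_ne_zero_of_ne_zero σ hR0) f

theorem prod_mem_ratField (hp : p.Prime) {R₀ : (W⁄Qb).Point} (hR : addOrderOf R₀ = p)
    (hstab : ∀ σ : Qb ≃ₐ[ℚ] Qb, σ • R₀ ∈ AddSubgroup.zmultiples R₀)
    (f : (W⁄Qb).Point → Qb) (hf : ∀ (σ : Qb ≃ₐ[ℚ] Qb) X, f (σ • X) = σ (f X)) :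
    ∃ q : ℚ, (q : Qb) = ∏ k ∈ Finset.Ico 1 p, f (k • R₀) :=
  Fermat.Agent.S13.GalRat.exists_ratCast_of_fixed _ (prod_fixed hp hR hstab f hf)

theorem sum_mem_ratField (hp : p.Prime) {R₀ : (W⁄Qb).Point} (hR : addOrderOf R₀ = p)
    (hstab : ∀ σ : Qb ≃ₐ[ℚ] Qb, σ • R₀ ∈ AddSubgroup.zmultiples R₀)
    (f : (W⁄Qb).Point → Qb) (hf : ∀ (σ : Qb ≃ₐ[ℚ] Qb) X, f (σ • X) = σ (f X)) :
    ∃ q : ℚ, (q : Qb) = ∑ k ∈ Finset.Ico 1 p, f (k • R₀) :=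
  Fermat.Agent.S13.GalRat.exists_ratCast_of_fixed _ (sum_fixed hp hR hstab f hf)

/-- The products of the identity `(ID)`: `∏_{k=1}^{p-1} (x (k • R₀) - e)` is rational for `e ∈ ℚ`. -/
theorem prod_xOf_sub_mem_ratField (hp : p.Prime) {R₀ : (W⁄Qb).Point} (hR : addOrderOf R₀ = p)
    (hstab : ∀ σ : Qb ≃ₐ[ℚ] Qb, σ • R₀ ∈ AddSubgroup.zmultiples R₀) (e : ℚ) :
    ∃ q : ℚ, (q : Qb) = ∏ k ∈ Finset.Ico 1 p, (xOf (k • R₀) - (e : Qb)) :=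
  prod_mem_ratField hp hR hstab (fun X => xOf X - (e : Qb)) (fun σ X => by
    show xOf (σ • X) - (e : Qb) = σ (xOf X - (e : Qb))
    rw [xOf_smul, map_sub, map_ratCast])

/-- Vélu's `t_N = Σ_{k=1}^{p-1} t (k • R₀)` is rational. -/
theorem sum_tOf_mem_ratField (hp : p.Prime) {R₀ : (W⁄Qb).Point} (hR : addOrderOf R₀ = p)
    (hstab : ∀ σ : Qb ≃ₐ[ℚ] Qb, σ • R₀ ∈ AddSubgroup.zmultiples R₀) :
    ∃ q : ℚ, (q : Qb) = ∑ k ∈ Finset.Ico 1 p, tOf (k • R₀) :=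
  sum_mem_ratField hp hR hstab tOf tOf_smul

/-- `Π_N = ∏_{k=1}^{p-1} ψ₂ (k • R₀)` is rational. -/
theorem prod_psi2_mem_ratField (hp : p.Prime) {R₀ : (W⁄Qb).Point} (hR : addOrderOf R₀ = p)
    (hstab : ∀ σ : Qb ≃ₐ[ℚ] Qb, σ • R₀ ∈ AddSubgroup.zmultiples R₀) :
    ∃ q : ℚ, (q : Qb) = ∏ k ∈ Finset.Ico 1 p, psi2 (k • R₀) :=
  prod_mem_ratField hp hR hstab psi2 psi2_smul

end Galois

end Fermat.Agent.MAZ.S12.LineSym57
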