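/-
Program MAZ-S12, brick K3 = LOCVAL (helper28): local valuations of `x(R) - e` for `R` a point of
order `p` of the Frey curve and `e` the `x`-coordinate of a point of order `2`.

`P : FreyPackage`, `W₀ = P.freyCurveInt`, `E = (W₀.map (Int.castRingHom ℚ))⁄ℚ̄`; the points of order
two have `x = 0, A/4, -B/4` (`A = a^p`, `B = b^p`) and `ψ₂² = (2y + x)² = 4 x (x - A/4) (x + B/4)`.
-/
import Mathlib
import Fermat.Agent.MAZ.Point.ModAsm62
import Fermat.Agent.MAZ.Local.ZeroTors28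
import Fermat.Agent.Frey.IntModel

set_option autoImplicit false
set_option linter.unusedSectionVars false

open WeierstrassCurve WeierstrassCurve.Affine

namespace Fermat.Agent.MAZ.S12.LocVal28

open Fermat.Agent.ES.Q58.Red39 Fermat.Agent.S05.Kernel
open Fermat.Agent.MAZ.Spec.XSpec62 (Qb)
open Fermat.Agent.MAZ.Point.ModAsm62 (xOf yOf psi2 tOf)
open Fermat.Agent.MAZ.Local.ZeroComp28 Fermat.Agent.MAZ.Local.ZeroTors28

/-! ### 1. General facts -/

section General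

variable {W : WeierstrassCurve ℤ} {A : ValuationSubring Qb}

/-- With good reduction every point lies in the zero component. -/
theorem inZero_of_good {ℓ : ℕ} (hℓ : ℓ.Prime) (hA : A.LiesOverPrime ℓ) (hΔ : ¬ (ℓ : ℤ) ∣ W.Δ)
    (R : ((W.map (Int.castRingHom ℚ))⁄Qb).Point) : W.InZeroComponentAt A R := by
  classical
  rcases R with _ | ⟨x, y, h⟩
  · exact Or.inl rfl
  by_cases hx : x ∈ A
  · have hy : y ∈ A := mem_of_mem (isModel W A) h.1 hx
    have heq := equation_residue (isModel W A) (a := ⟨x, hx⟩) (b := ⟨y, hy⟩) h.1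
    have hchar : CharP (IsLocalRing.ResidueField A) ℓ :=
      Fermat.Agent.ES.EC.LiftTorsion29.charP_residueField A hℓ hA
    have hΔκ : (Ek W A).Δ ≠ 0 := by
      show (W.map (Int.castRingHom (IsLocalRing.ResidueField A))).Δ ≠ 0
      rw [map_Δ, eq_intCast]
      exact fun h0 => hΔ ((CharP.intCast_eq_zero_iff (IsLocalRing.ResidueField A) ℓ W.Δ).mp h0)
    have hns := ((Ek W A).equation_iff_nonsingular_of_Δ_ne_zero hΔκ).mp heq
    exact Or.inr ⟨x, y, h, rfl, Or.inr ⟨hx, hy, hns⟩⟩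
  · exact Or.inr ⟨x, y, h, rfl, Or.inl hx⟩

/-- A nonzero point of the zero component with integral `x`, killed by an odd `m`
(no condition on the residue characteristic): `v(2y + a₁x + a₃) = 1`. -/
theorem valuation_psi2_eq_one_of_mem {m : ℕ} (hm : Odd m) {x y : Qb}
    (h : ((W.map (Int.castRingHom ℚ))⁄Qb).toAffine.Nonsingular x y)
    (hT : m • (Point.some x y h : ((W.map (Int.castRingHom ℚ))⁄Qb).Point) = 0)
    (hx : x ∈ A) (h0 : W.InZeroComponentAt A (Point.some x y h)) :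
    A.valuation (2 * y + ((W.map (Int.castRingHom ℚ))⁄Qb).a₁ * x
      + ((W.map (Int.castRingHom ℚ))⁄Qb).a₃) = 1 := by
  classical
  rcases h0 with h0 | ⟨x', y', h', hTe, hxy⟩
  · exact absurd h0 (Point.some_ne_zero h)
  rw [Point.some.injEq] at hTe
  obtain ⟨rfl, rfl⟩ := hTe
  rcases hxy with hxA | ⟨hxA, hyA, hns⟩
  · exact absurd hx hxA
  · exact valuation_polyY_eq_one (isModel W A) (a := ⟨x, hxA⟩) (b := ⟨y, hyA⟩) h hns hm hT

end General

/-- Two integral elements whose product is a unit are units. -/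
theorem val_eq_one_of_mul {Γ₀ : Type*} [LinearOrderedCommGroupWithZero Γ₀] (v : Valuation Qb Γ₀)
    {a b : Qb} (ha : v a ≤ 1) (hb : v b ≤ 1) (hab : v (a * b) = 1) : v a = 1 ∧ v b = 1 := by
  rw [map_mul] at hab
  constructor
  · refine le_antisymm ha ?_
    by_contra hlt
    push Not at hlt
    have : v a * v b < 1 := by
      calc v a * v b ≤ v a * 1 := mul_le_mul_right hb _
        _ < 1 := by rw [mul_one]; exact hlt
    exact absurd hab this.ne
  · refine le_antisymm hb ?_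
    by_contra hlt
    push Not at hlt
    have : v a * v b < 1 := by
      calc v a * v b ≤ 1 * v b := mul_le_mul_left ha _
        _ < 1 := by rw [one_mul]; exact hlt
    exact absurd hab this.ne

/-! ### 2. The Frey curve -/

section Frey

variable (P : FreyPackage)

/-- `A/4`, the `x`-coordinate of a point of order two. -/
noncomputable def a4 : Qb := ((P.a ^ P.p : ℤ) : Qb) / 4

/-- `B/4`; `-B/4` is the `x`-coordinate of a point of order two. -/
noncomputable def b4 : Qb := ((P.b ^ P.p : ℤ) : Qb) / 4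

theorem frey_a₁ : ((P.freyCurveInt.map (Int.castRingHom ℚ))⁄Qb).a₁ = 1 := by
  show algebraMap ℚ Qb ((Int.castRingHom ℚ) P.freyCurveInt.a₁) = 1
  simp

theorem frey_a₃ : ((P.freyCurveInt.map (Int.castRingHom ℚ))⁄Qb).a₃ = 0 := by
  show algebraMap ℚ Qb ((Int.castRingHom ℚ) P.freyCurveInt.a₃) = 0
  simp

theorem frey_a₆ : ((P.freyCurveInt.map (Int.castRingHom ℚ))⁄Qb).a₆ = 0 := by
  show algebraMap ℚ Qb ((Int.castRingHom ℚ) P.freyCurveInt.a₆) = 0
  simp

theorem frey_a₂ : 4 * ((P.freyCurveInt.map (Int.castRingHom ℚ))⁄Qb).a₂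
    = ((P.b ^ P.p : ℤ) : Qb) - 1 - ((P.a ^ P.p : ℤ) : Qb) := by
  show 4 * algebraMap ℚ Qb ((Int.castRingHom ℚ) P.freyCurveInt.a₂) = _
  have h := Fermat.Agent.Frey.IntModel.four_mul_a₂ P
  have h' := congrArg (fun z : ℤ => (z : Qb)) h
  simp only [Int.cast_mul, Int.cast_sub, Int.cast_one, Int.cast_ofNat] at h'
  simp only [eq_intCast, map_intCast]
  exact h'

theorem frey_a₄ : 16 * ((P.freyCurveInt.map (Int.castRingHom ℚ))⁄Qb).a₄
    = -(((P.a ^ P.p : ℤ) : Qb) * ((P.b ^ P.p : ℤ) : Qb)) := by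
  show 16 * algebraMap ℚ Qb ((Int.castRingHom ℚ) P.freyCurveInt.a₄) = _
  have h := Fermat.Agent.Frey.IntModel.sixteen_mul_a₄ P
  have h' := congrArg (fun z : ℤ => (z : Qb)) h
  simp only [Int.cast_mul, Int.cast_neg, Int.cast_ofNat] at h'
  simp only [eq_intCast, map_intCast]
  rw [h']; ring

/-- `ψ₂² = 4 x (x - A/4) (x + B/4)` on the Frey curve. -/
theorem psi2_sq {x y : Qb}
    (h : ((P.freyCurveInt.map (Int.castRingHom ℚ))⁄Qb).toAffine.Equation x y) :
    (2 * y + x) ^ 2 = 4 * x * (x - a4 P) * (x + b4 P) := by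
  rw [Affine.equation_iff, frey_a₁, frey_a₃, frey_a₆] at h
  have h2 := frey_a₂ P
  have h4 := frey_a₄ P
  unfold a4 b4
  linear_combination 4 * h + x ^ 2 * h2 + (x / 4) * h4

variable {P} {A : ValuationSubring Qb}

theorem intCast_val_le_one (n : ℤ) : A.valuation ((n : ℤ) : Qb) ≤ 1 :=
  (A.valuation_le_one_iff _).mpr (intCast_mem A n)

theorem four_val (h2 : A.valuation (2 : Qb) = 1) : A.valuation (4 : Qb) = 1 := by
  have : (4 : Qb) = 2 * 2 := by norm_num
  rw [this, map_mul, h2, one_mul]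

/-- `ℓ` odd: if `ψ₂` is a unit at an integral point, then `x`, `x - A/4`, `x + B/4` are units. -/
theorem units_of_psi2_unit (h2 : A.valuation (2 : Qb) = 1) {x y : Qb}
    (h : ((P.freyCurveInt.map (Int.castRingHom ℚ))⁄Qb).toAffine.Equation x y)
    (hx : x ∈ A) (hψ : A.valuation (2 * y + x) = 1) :
    A.valuation x = 1 ∧ A.valuation (x - a4 P) = 1 ∧ A.valuation (x + b4 P) = 1 := by
  have h4 := four_val h2
  have hx1 : A.valuation x ≤ 1 := (A.valuation_le_one_iff x).mpr hx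
  have ha : A.valuation (a4 P) ≤ 1 := by
    unfold a4
    rw [map_div₀, h4, div_one]
    exact intCast_val_le_one _
  have hb : A.valuation (b4 P) ≤ 1 := by
    unfold b4
    rw [map_div₀, h4, div_one]
    exact intCast_val_le_one _
  have hxa : A.valuation (x - a4 P) ≤ 1 := (A.valuation.map_sub _ _).trans (max_le hx1 ha)
  have hxb : A.valuation (x + b4 P) ≤ 1 := (A.valuation.map_add _ _).trans (max_le hx1 hb)
  have hsq := congrArg A.valuation (psi2_sq P h)
  rw [map_pow, hψ, one_pow, mul_assoc, mul_assoc, map_mul, h4, one_mul] at hsq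
  obtain ⟨e1, e2⟩ := val_eq_one_of_mul A.valuation hx1
    (by rw [map_mul]; exact mul_le_one' hxa hxb) hsq.symm
  obtain ⟨e3, e4⟩ := val_eq_one_of_mul A.valuation hxa hxb e2
  exact ⟨e1, e3, e4⟩

/-- `ℓ = 2`: if `ψ₂` is a unit at an integral point, then `x`, `4x - A`, `x + B/4` are units. -/
theorem units_of_psi2_unit_two {x y : Qb}
    (h : ((P.freyCurveInt.map (Int.castRingHom ℚ))⁄Qb).toAffine.Equation x y)
    (hx : x ∈ A) (hψ : A.valuation (2 * y + x) = 1) :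
    A.valuation x = 1 ∧ A.valuation (4 * x - ((P.a ^ P.p : ℤ) : Qb)) = 1 ∧
      A.valuation (x + b4 P) = 1 := by
  have hx1 : A.valuation x ≤ 1 := (A.valuation_le_one_iff x).mpr hx
  have hb : A.valuation (b4 P) ≤ 1 := by
    obtain ⟨d, hd⟩ := Fermat.Agent.Frey.IntModel.sixteen_dvd_b_pow P
    have : b4 P = ((4 * d : ℤ) : Qb) := by
      unfold b4
      rw [hd]
      push_cast
      ring
    rw [this]
    exact intCast_val_le_one _
  have h4 : A.valuation (4 : Qb) ≤ 1 := by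
    have : (4 : Qb) = ((4 : ℤ) : Qb) := by norm_num
    rw [this]
    exact intCast_val_le_one _
  have hxa : A.valuation (4 * x - ((P.a ^ P.p : ℤ) : Qb)) ≤ 1 := by
    refine (A.valuation.map_sub _ _).trans (max_le ?_ (intCast_val_le_one _))
    rw [map_mul]
    exact mul_le_one' h4 hx1
  have hxb : A.valuation (x + b4 P) ≤ 1 := (A.valuation.map_add _ _).trans (max_le hx1 hb)
  have hid : (2 * y + x) ^ 2
      = x * ((4 * x - ((P.a ^ P.p : ℤ) : Qb)) * (x + b4 P)) := by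
    rw [psi2_sq P h]
    unfold a4
    ring
  have hsq := congrArg A.valuation hid
  rw [map_pow, hψ, one_pow] at hsq
  obtain ⟨e1, e2⟩ := val_eq_one_of_mul A.valuation hx1
    (by rw [map_mul]; exact mul_le_one' hxa hxb) hsq.symm
  obtain ⟨e3, e4⟩ := val_eq_one_of_mul A.valuation hxa hxb e2
  exact ⟨e1, e3, e4⟩

/-! ### 3. K3: the valuations at a point of order `p` -/

theorem psi2_some {x y : Qb}
    (h : ((P.freyCurveInt.map (Int.castRingHom ℚ))⁄Qb).toAffine.Nonsingular x y) :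
    psi2 (Point.some x y h : ((P.freyCurveInt.map (Int.castRingHom ℚ))⁄Qb).Point)
      = 2 * y + x := by
  show 2 * y + ((P.freyCurveInt.map (Int.castRingHom ℚ))⁄Qb).a₁ * x
    + ((P.freyCurveInt.map (Int.castRingHom ℚ))⁄Qb).a₃ = 2 * y + x
  rw [frey_a₁, frey_a₃, one_mul, add_zero]

/-- **K3 (i), `ℓ` odd, `ℓ ≠ p`.** -/
theorem locval_odd {ℓ : ℕ} (hℓ : ℓ.Prime) (hℓ2 : ℓ ≠ 2) (hℓp : ℓ ≠ P.p)
    (hA : A.LiesOverPrime ℓ) {R : ((P.freyCurveInt.map (Int.castRingHom ℚ))⁄Qb).Point}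
    (hR : P.p • R = 0) (hR0 : R ≠ 0) (hin : P.freyCurveInt.InZeroComponentAt A R) :
    A.valuation (xOf R) = 1 ∧ A.valuation (xOf R - a4 P) = 1 ∧
      A.valuation (xOf R + b4 P) = 1 ∧ A.valuation (psi2 R) = 1 := by
  classical
  rcases R with _ | ⟨x, y, h⟩
  · exact absurd rfl hR0
  have hodd : Odd P.p := P.hp_odd
  have hvp := valuation_prime_eq_one P.pp hℓ hℓp hA
  obtain ⟨hx, hy⟩ := mem_of_nsmul_eq_zero (isModel P.freyCurveInt A) hvp h hR
  have hψ := valuation_psi2_eq_one hodd hvp h hR hin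
  rw [frey_a₁, frey_a₃, one_mul, add_zero] at hψ
  have h2 : A.valuation (2 : Qb) = 1 :=
    Fermat.Agent.S05.Inertia.valuation_two_eq_one hℓ hA hℓ2
  obtain ⟨e1, e2, e3⟩ := units_of_psi2_unit h2 h.1 hx hψ
  refine ⟨e1, e2, e3, ?_⟩
  rw [psi2_some]; exact hψ

/-- **K3 (i), `ℓ = 2`.** -/
theorem locval_two (hA : A.LiesOverPrime 2)
    {R : ((P.freyCurveInt.map (Int.castRingHom ℚ))⁄Qb).Point}
    (hR : P.p • R = 0) (hR0 : R ≠ 0) (hin : P.freyCurveInt.InZeroComponentAt A R) :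
    A.valuation (xOf R) = 1 ∧ A.valuation (4 * xOf R - ((P.a ^ P.p : ℤ) : Qb)) = 1 ∧
      A.valuation (xOf R + b4 P) = 1 ∧ A.valuation (psi2 R) = 1 := by
  classical
  rcases R with _ | ⟨x, y, h⟩
  · exact absurd rfl hR0
  have hodd : Odd P.p := P.hp_odd
  have h2p : (2 : ℕ) ≠ P.p := by have := P.hp5; omega
  have hvp := valuation_prime_eq_one P.pp Nat.prime_two h2p hA
  obtain ⟨hx, hy⟩ := mem_of_nsmul_eq_zero (isModel P.freyCurveInt A) hvp h hR
  have hψ := valuation_psi2_eq_one hodd hvp h hR hin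
  rw [frey_a₁, frey_a₃, one_mul, add_zero] at hψ
  obtain ⟨e1, e2, e3⟩ := units_of_psi2_unit_two h.1 hx hψ
  refine ⟨e1, e2, e3, ?_⟩
  rw [psi2_some]; exact hψ

/-- **K3 (ii), `ℓ = p`.**  If `p` is a bad prime the point is assumed to lie in the kernel of
reduction. -/
theorem locval_p (hA : A.LiesOverPrime P.p)
    {R : ((P.freyCurveInt.map (Int.castRingHom ℚ))⁄Qb).Point}
    (hR : P.p • R = 0) (hR0 : R ≠ 0)
    (hbad : (P.p : ℤ) ∣ P.freyCurveInt.Δ → xOf R ∉ A) :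
    A.valuation (xOf R - a4 P) = A.valuation (xOf R) ∧
      A.valuation (xOf R + b4 P) = A.valuation (xOf R) ∧ xOf R ≠ 0 := by
  classical
  rcases R with _ | ⟨x, y, h⟩
  · exact absurd rfl hR0
  have hodd : Odd P.p := P.hp_odd
  have hp2 : P.p ≠ 2 := by have := P.hp5; omega
  have h2 : A.valuation (2 : Qb) = 1 :=
    Fermat.Agent.S05.Inertia.valuation_two_eq_one P.pp hA hp2
  have h4 := four_val h2
  show A.valuation (x - a4 P) = A.valuation x ∧ A.valuation (x + b4 P) = A.valuation x ∧ x ≠ 0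
  by_cases hx : x ∈ A
  · have hΔ : ¬ (P.p : ℤ) ∣ P.freyCurveInt.Δ := fun hd => hbad hd hx
    have hin := inZero_of_good P.pp hA hΔ
      (Point.some x y h : ((P.freyCurveInt.map (Int.castRingHom ℚ))⁄Qb).Point)
    have hψ := valuation_psi2_eq_one_of_mem hodd h hR hx hin
    rw [frey_a₁, frey_a₃, one_mul, add_zero] at hψ
    obtain ⟨e1, e2, e3⟩ := units_of_psi2_unit h2 h.1 hx hψ
    refine ⟨by rw [e1, e2], by rw [e1, e3], ?_⟩
    intro h0
    rw [h0, map_zero] at e1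
    exact zero_ne_one e1
  · have hx1 : 1 < A.valuation x := by
      rw [← not_le]
      exact fun hle => hx ((A.valuation_le_one_iff x).mp hle)
    have ha : A.valuation (a4 P) ≤ 1 := by
      unfold a4
      rw [map_div₀, h4, div_one]
      exact intCast_val_le_one _
    have hb : A.valuation (b4 P) ≤ 1 := by
      unfold b4
      rw [map_div₀, h4, div_one]
      exact intCast_val_le_one _
    refine ⟨Valuation.map_sub_eq_of_lt_left _ (lt_of_le_of_lt ha hx1),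
      Valuation.map_add_eq_of_lt_left _ (lt_of_le_of_lt hb hx1), ?_⟩
    intro h0
    rw [h0, map_zero] at hx1
    exact not_lt.mpr zero_le_one hx1

/-! ### 4. The products over the line `N = ⟨R₀⟩` -/

theorem val_prod_div_eq_one {ι : Type*} (s : Finset ι) (f g : ι → Qb)
    (hg : ∀ i ∈ s, g i ≠ 0) (h : ∀ i ∈ s, A.valuation (f i) = A.valuation (g i)) :
    A.valuation ((∏ i ∈ s, f i) / ∏ i ∈ s, g i) = 1 := by
  have hne : A.valuation (∏ i ∈ s, g i) ≠ 0 :=
    (Valuation.ne_zero_iff _).mpr (Finset.prod_ne_zero_iff.mpr hg)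
  rw [map_div₀, map_prod, map_prod, Finset.prod_congr rfl h, ← map_prod]
  exact div_self hne

/-- The termwise statement behind `locval_prod`. -/
theorem locval_term {R₀ : ((P.freyCurveInt.map (Int.castRingHom ℚ))⁄Qb).Point}
    (hR₀ : addOrderOf R₀ = P.p) {ℓ : ℕ} (hℓ : ℓ.Prime) (hA : A.LiesOverPrime ℓ)
    (htoric : ℓ ≠ P.p → (ℓ : ℤ) ∣ P.freyCurveInt.Δ → P.freyCurveInt.InZeroComponentAt A R₀)
    (hp : ℓ = P.p → (ℓ : ℤ) ∣ P.freyCurveInt.Δ →
      ∀ k ∈ Finset.Ico 1 P.p, xOf (k • R₀) ∉ A) :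
    ∀ k ∈ Finset.Ico 1 P.p, xOf (k • R₀) ≠ 0 ∧
      A.valuation (xOf (k • R₀) + b4 P) = A.valuation (xOf (k • R₀)) ∧
      (ℓ ≠ 2 → A.valuation (xOf (k • R₀) - a4 P) = A.valuation (xOf (k • R₀))) ∧
      (ℓ = 2 → A.valuation (4 * xOf (k • R₀) - ((P.a ^ P.p : ℤ) : Qb))
        = A.valuation (xOf (k • R₀))) := by
  intro k hk
  have hk' := Finset.mem_Ico.mp hk
  have hodd : Odd P.p := P.hp_odd
  have hpR₀ : P.p • R₀ = 0 := by rw [← hR₀]; exact addOrderOf_nsmul_eq_zero R₀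
  have hkR : P.p • (k • R₀) = 0 := by rw [smul_comm, hpR₀, nsmul_zero]
  have hk0 : k • R₀ ≠ 0 := by
    intro h0
    have hdvd : addOrderOf R₀ ∣ k := addOrderOf_dvd_of_nsmul_eq_zero h0
    rw [hR₀] at hdvd
    exact absurd (Nat.le_of_dvd (by omega) hdvd) (not_le.mpr hk'.2)
  by_cases hℓp : ℓ = P.p
  · subst hℓp
    obtain ⟨e1, e2, e3⟩ := locval_p hA hkR hk0 (fun hd => hp rfl hd k hk)
    refine ⟨e3, e2, fun _ => e1, fun h2 => ?_⟩
    have := P.hp5
    omega
  · have hvp := valuation_prime_eq_one P.pp hℓ hℓp hA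
    have hin : P.freyCurveInt.InZeroComponentAt A (k • R₀) := by
      by_cases hd : (ℓ : ℤ) ∣ P.freyCurveInt.Δ
      · exact inZero_nsmul hodd hvp hpR₀ (htoric hℓp hd) k
      · exact inZero_of_good hℓ hA hd _
    by_cases hℓ2 : ℓ = 2
    · subst hℓ2
      obtain ⟨e1, e2, e3, -⟩ := locval_two hA hkR hk0 hin
      refine ⟨?_, by rw [e3, e1], fun h => absurd rfl h, fun _ => by rw [e2, e1]⟩
      intro h0
      rw [h0, map_zero] at e1
      exact zero_ne_one e1
    · obtain ⟨e1, e2, e3, -⟩ := locval_odd hℓ hℓ2 hℓp hA hkR hk0 hin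
      refine ⟨?_, by rw [e3, e1], fun _ => by rw [e2, e1], fun h => absurd h hℓ2⟩
      intro h0
      rw [h0, map_zero] at e1
      exact zero_ne_one e1

/-- **K3, product form** (the inputs `hv`, `hu`, `hu2` of K6): with `r = ∏ x_k`,
`s = ∏ (x_k - A/4)`, `t = ∏ (x_k + B/4)` over the nonzero points `k • R₀` of the line:
`|t/r| = 1` at every place, `|s/r| = 1` at the odd places, `|s/r · 4^(p-1)| = 1` at `2`;
provided the line is toric at the bad `ℓ ≠ p` and in the kernel of reduction at `p` if `p` is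
bad. -/
theorem locval_prod {R₀ : ((P.freyCurveInt.map (Int.castRingHom ℚ))⁄Qb).Point}
    (hR₀ : addOrderOf R₀ = P.p) {ℓ : ℕ} (hℓ : ℓ.Prime) (hA : A.LiesOverPrime ℓ)
    (htoric : ℓ ≠ P.p → (ℓ : ℤ) ∣ P.freyCurveInt.Δ → P.freyCurveInt.InZeroComponentAt A R₀)
    (hp : ℓ = P.p → (ℓ : ℤ) ∣ P.freyCurveInt.Δ →
      ∀ k ∈ Finset.Ico 1 P.p, xOf (k • R₀) ∉ A) :
    (∏ k ∈ Finset.Ico 1 P.p, xOf (k • R₀)) ≠ 0 ∧
    A.valuation ((∏ k ∈ Finset.Ico 1 P.p, (xOf (k • R₀) + b4 P)) /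
      ∏ k ∈ Finset.Ico 1 P.p, xOf (k • R₀)) = 1 ∧
    (ℓ ≠ 2 → A.valuation ((∏ k ∈ Finset.Ico 1 P.p, (xOf (k • R₀) - a4 P)) /
      ∏ k ∈ Finset.Ico 1 P.p, xOf (k • R₀)) = 1) ∧
    (ℓ = 2 → A.valuation ((∏ k ∈ Finset.Ico 1 P.p, (xOf (k • R₀) - a4 P)) /
      (∏ k ∈ Finset.Ico 1 P.p, xOf (k • R₀)) * 4 ^ (P.p - 1)) = 1) := by
  have key := locval_term hR₀ hℓ hA htoric hp
  refine ⟨Finset.prod_ne_zero_iff.mpr fun k hk => (key k hk).1,
    val_prod_div_eq_one _ _ _ (fun k hk => (key k hk).1) (fun k hk => (key k hk).2.1),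
    fun h2 => val_prod_div_eq_one _ _ _ (fun k hk => (key k hk).1)
      (fun k hk => (key k hk).2.2.1 h2), fun h2 => ?_⟩
  have e : (∏ k ∈ Finset.Ico 1 P.p, (xOf (k • R₀) - a4 P)) /
      (∏ k ∈ Finset.Ico 1 P.p, xOf (k • R₀)) * 4 ^ (P.p - 1)
      = (∏ k ∈ Finset.Ico 1 P.p, (4 * xOf (k • R₀) - ((P.a ^ P.p : ℤ) : Qb))) /
        ∏ k ∈ Finset.Ico 1 P.p, xOf (k • R₀) := by
    have e1 : ∏ k ∈ Finset.Ico 1 P.p, (4 * xOf (k • R₀) - ((P.a ^ P.p : ℤ) : Qb))
        = 4 ^ (P.p - 1) * ∏ k ∈ Finset.Ico 1 P.p, (xOf (k • R₀) - a4 P) := by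
      rw [← Nat.card_Ico 1 P.p, ← Finset.prod_const, ← Finset.prod_mul_distrib]
      refine Finset.prod_congr rfl fun k _ => ?_
      unfold a4
      ring
    rw [e1]
    ring
  rw [e]
  exact val_prod_div_eq_one _ _ _ (fun k hk => (key k hk).1) (fun k hk => (key k hk).2.2.2 h2)

end Frey

end Fermat.Agent.MAZ.S12.LocVal28
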