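/-
Program MAZ, sub-program MAZ-S12 (architect helper27): **S12 FROM S15, KERNEL-CHECKED FROM NAMED
CONTRACTS.**

S12: a Frey package with `17 ≤ p` has no Galois-stable cofixed line.  Route (helper86's one-step
finish, simplified): let `N = {k • R₀}` be the line, `E' = E / N` the Vélu quotient with its rational
point `Q'` of order `p`.  S15 for `(E', Q')` forces `N` to be toric at every bad prime `ℓ ≠ p`.  With
`x_k = x(k • R₀)`, `r = ∏ x_k`, `s' = ∏ (4 x_k - A)`, `t = ∏ (x_k + B / 4)` (`A = a^p`, `B = b^p`,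
`C = c^p`) one has the identity

  `(ID)  16^(p-1) A^p t² + B^p s'² = 16^(p-1) C^p r²`

and `t / r`, `s' / r` are rational numbers which are units at every place, hence `±1`; so
`16^(p-1) A^p + B^p = 16^(p-1) C^p`, impossible over `ℝ` together with `A + B = C`.

Every contract is a `def … : Prop`; `s12_of_contracts` proves the literal S12 from them.
-/
import Mathlib
import Fermat.Prelude.Def_FLTPrelim_CofixedLine
import Fermat.Prelude.Def_EllipticCurve_ZeroComponentAt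
import Fermat.Prelude.Def_FLTPrelim_Ramification
import Fermat.Agent.MAZ.Point.ModAsm62

set_option autoImplicit false
set_option linter.unusedSectionVars false

open WeierstrassCurve WeierstrassCurve.Affine WeierstrassCurve.Affine.Point

noncomputable section

namespace Fermat.Agent.MAZ.S12.Spec27

open Fermat.Agent.MAZ.Point.ModAsm62

/-- `ℚ̄`. -/
abbrev Qb : Type := AlgebraicClosure ℚ

/-- The absolute Galois group. -/
abbrev GQ : Type := Qb ≃ₐ[ℚ] Qb

/-- The Frey curve over `ℚ̄`, as the generic fibre of the integral model (the form used by S15 and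
by `WeierstrassCurve.InZeroComponentAt`). -/
abbrev FE (P : FreyPackage) : WeierstrassCurve.Affine Qb :=
  (P.freyCurveInt.map (Int.castRingHom ℚ))⁄Qb

/-! ### The contracts -/

/-- **S15**, literally. -/
def S15Stmt : Prop :=
  ∀ {p : ℕ} (_ : p.Prime) (_ : p ∉ ({2, 3, 5, 7, 13} : Finset ℕ))
    (W : WeierstrassCurve ℤ) (_ : W.Δ ≠ 0)
    (Q : ((W.map (Int.castRingHom ℚ))⁄(AlgebraicClosure ℚ)).Point)
    (_ : ∀ σ : AlgebraicClosure ℚ ≃ₐ[ℚ] AlgebraicClosure ℚ, σ • Q = Q)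
    (_ : addOrderOf Q = p)
    (_ : (2 : ℤ) ∣ W.Δ) (_ : ¬ (2 : ℤ) ∣ W.c₄)
    (_ : ∀ A : ValuationSubring (AlgebraicClosure ℚ), A.LiesOverPrime 2 →
      ¬ W.InZeroComponentAt A Q)
    (_ : (3 : ℤ) ∣ W.Δ) (_ : ¬ (3 : ℤ) ∣ W.c₄)
    (_ : ∀ A : ValuationSubring (AlgebraicClosure ℚ), A.LiesOverPrime 3 →
      ¬ W.InZeroComponentAt A Q)
    {ℓ : ℕ} (_ : ℓ.Prime) (_ : ℓ ≠ p) (_ : (ℓ : ℤ) ∣ W.Δ) (_ : ¬ (ℓ : ℤ) ∣ W.c₄)
    (A : ValuationSubring (AlgebraicClosure ℚ)) (_ : A.LiesOverPrime ℓ),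
    ¬ W.InZeroComponentAt A Q

/-- The data extracted from a cofixed line: a generator `R₀` of the line and a `p`-torsion point
`P₀` outside it. -/
structure LineData (P : FreyPackage) (R₀ P₀ : (FE P).Point) : Prop where
  order : addOrderOf R₀ = P.p
  tors : P.p • P₀ = 0
  notMem : P₀ ∉ AddSubgroup.zmultiples R₀
  stable : ∀ σ : GQ, σ • R₀ ∈ AddSubgroup.zmultiples R₀
  cofixed : ∀ σ : GQ, σ • P₀ - P₀ ∈ AddSubgroup.zmultiples R₀
  /-- the line is the kernel of reduction at `p` (closeness at `p` + no rational `p`-torsion +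
  no unramified character, all from Program A / S13). -/
  atP : ∀ A : ValuationSubring Qb, A.LiesOverPrime P.p → ∀ k ∈ Finset.Ico 1 P.p,
    xOf (k • R₀) ∉ A

/-- **(K0) LINE**: a Galois-stable cofixed line gives line data (including its position at `p`). -/
def LineStmt : Prop :=
  ∀ P : FreyPackage, HasGaloisStableCofixedLine (K := Qb) ℚ P.freyCurve P.p →
    ∃ R₀ P₀ : (FE P).Point, LineData P R₀ P₀

/-- **(K1) QUOT**: the Vélu quotient `E' = E / N` with an integral model `W'`, its rational point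
`Q'` of order `p`, and the local dictionary at the primes `ℓ ≠ p`. -/
def QuotStmt : Prop :=
  ∀ (P : FreyPackage) (R₀ P₀ : (FE P).Point), LineData P R₀ P₀ →
    ∃ (W' : WeierstrassCurve ℤ) (Q' : ((W'.map (Int.castRingHom ℚ))⁄Qb).Point),
      W'.Δ ≠ 0 ∧ (∀ σ : GQ, σ • Q' = Q') ∧ addOrderOf Q' = P.p ∧
      (∀ ℓ : ℕ, ℓ.Prime → ℓ ≠ P.p → (ℓ : ℤ) ∣ P.a * P.b * P.c →
        (ℓ : ℤ) ∣ W'.Δ ∧ ¬ (ℓ : ℤ) ∣ W'.c₄) ∧
      (∀ ℓ : ℕ, ℓ.Prime → ℓ ≠ P.p → ¬ (ℓ : ℤ) ∣ P.a * P.b * P.c → ¬ (ℓ : ℤ) ∣ W'.Δ) ∧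
      (∀ ℓ : ℕ, ℓ.Prime → ℓ ≠ P.p → (ℓ : ℤ) ∣ P.a * P.b * P.c →
        ∀ A : ValuationSubring Qb, A.LiesOverPrime ℓ →
          ¬ W'.InZeroComponentAt A Q' → P.freyCurveInt.InZeroComponentAt A R₀)

/-- The three products over the line. -/
def prodR (P : FreyPackage) (R₀ : (FE P).Point) : Qb :=
  ∏ k ∈ Finset.Ico 1 P.p, xOf (k • R₀)

def prodS (P : FreyPackage) (R₀ : (FE P).Point) : Qb :=
  ∏ k ∈ Finset.Ico 1 P.p, (4 * xOf (k • R₀) - (P.a : Qb) ^ P.p)

def prodT (P : FreyPackage) (R₀ : (FE P).Point) : Qb :=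
  ∏ k ∈ Finset.Ico 1 P.p, (xOf (k • R₀) + (P.b : Qb) ^ P.p / 4)

/-- **(K2) ID**: the identity `16^(p-1) A^p t² + B^p s'² = 16^(p-1) C^p r²`. -/
def IdStmt : Prop :=
  ∀ (P : FreyPackage) (R₀ : (FE P).Point), addOrderOf R₀ = P.p →
    (16 : Qb) ^ (P.p - 1) * ((P.a : Qb) ^ P.p) ^ P.p * prodT P R₀ ^ 2 +
        ((P.b : Qb) ^ P.p) ^ P.p * prodS P R₀ ^ 2 =
      (16 : Qb) ^ (P.p - 1) * ((P.c : Qb) ^ P.p) ^ P.p * prodR P R₀ ^ 2

/-- **(K3) LOCVAL**, primes `ℓ ≠ p`: at the nonzero multiples of a point of order `p` in the identity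
component (automatic at the good primes), `x`, `x + B / 4` and `4 x - A` are units. -/
def LocValStmt : Prop :=
  ∀ (P : FreyPackage) (ℓ : ℕ), ℓ.Prime → ℓ ≠ P.p →
    ∀ A : ValuationSubring Qb, A.LiesOverPrime ℓ →
    ∀ R₀ : (FE P).Point, addOrderOf R₀ = P.p →
      (¬ (ℓ : ℤ) ∣ P.a * P.b * P.c ∨ P.freyCurveInt.InZeroComponentAt A R₀) →
      ∀ k ∈ Finset.Ico 1 P.p,
        A.valuation (xOf (k • R₀)) = 1 ∧ A.valuation (xOf (k • R₀) + (P.b : Qb) ^ P.p / 4) = 1 ∧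
          A.valuation (4 * xOf (k • R₀) - (P.a : Qb) ^ P.p) = 1

/-- **(K4) GALPROD**: a product over the nonzero points of a Galois-stable line of a
Galois-equivariant function of the `x`-coordinate is Galois-invariant. -/
def GalProdStmt : Prop :=
  ∀ (P : FreyPackage) (R₀ : (FE P).Point), addOrderOf R₀ = P.p →
    (∀ σ : GQ, σ • R₀ ∈ AddSubgroup.zmultiples R₀) →
    ∀ f : Qb → Qb, (∀ (σ : GQ) (x : Qb), σ (f x) = f (σ x)) →
      ∀ σ : GQ, σ (∏ k ∈ Finset.Ico 1 P.p, f (xOf (k • R₀))) =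
        ∏ k ∈ Finset.Ico 1 P.p, f (xOf (k • R₀))

/-- **(K6) UNIT**: a Galois-invariant element of `ℚ̄` which is a unit at every place over every
prime is `±1`. -/
def UnitStmt : Prop :=
  ∀ u : Qb, (∀ σ : GQ, σ u = u) →
    (∀ ℓ : ℕ, ℓ.Prime → ∀ A : ValuationSubring Qb, A.LiesOverPrime ℓ → A.valuation u = 1) →
    u ^ 2 = 1

/-- **(K7) REAL**: the real finish (`RealFinish24.frey_finish`). -/
def RealStmt : Prop :=
  ∀ {p : ℕ}, Odd p → 3 ≤ p → ∀ {a b c : ℤ}, a ≠ 0 → b ≠ 0 → c ≠ 0 → a ^ p + b ^ p = c ^ p →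
    (16 : ℤ) ^ (p - 1) * a ^ (p * p) + b ^ (p * p) ≠ 16 ^ (p - 1) * c ^ (p * p)

/-- **(K8) HASSE**: a rational point of prime order `p ≠ ℓ` on a curve with good reduction at `ℓ`
has `p ≤ 2 ℓ + 1`. -/
def HasseStmt : Prop :=
  ∀ (W : WeierstrassCurve ℤ) (ℓ p : ℕ), ℓ.Prime → p.Prime → p ≠ ℓ → ¬ (ℓ : ℤ) ∣ W.Δ →
    ∀ Q : ((W.map (Int.castRingHom ℚ))⁄Qb).Point, (∀ σ : GQ, σ • Q = Q) → addOrderOf Q = p →
      p ≤ 2 * ℓ + 1

/-- **(L1)** at `2` and `3` (`ZeroComp28.not_inZeroComponentAt_two/three`). -/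
def L1Stmt (q : ℕ) : Prop :=
  ∀ {p : ℕ}, p.Prime → 5 ≤ p → ∀ (W : WeierstrassCurve ℤ), (q : ℤ) ∣ W.Δ → ¬ (q : ℤ) ∣ W.c₄ →
    ∀ Q : ((W.map (Int.castRingHom ℚ))⁄Qb).Point, (∀ σ : GQ, σ • Q = Q) → addOrderOf Q = p →
      ∀ A : ValuationSubring Qb, A.LiesOverPrime q → ¬ W.InZeroComponentAt A Q

/-- Every prime has a place of `ℚ̄` above it (`S13.UnramVal.exists_liesOverPrime`). -/
def ExStmt : Prop := ∀ q : ℕ, q.Prime → ∃ A : ValuationSubring Qb, A.LiesOverPrime q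

/-! ### The assembly -/

section Assembly

variable (h15 : S15Stmt) (hLine : LineStmt) (hQuot : QuotStmt) (hId : IdStmt)
  (hLoc : LocValStmt) (hGal : GalProdStmt) (hUnit : UnitStmt) (hReal : RealStmt)
  (hHasse : HasseStmt) (hL2 : L1Stmt 2) (hL3 : L1Stmt 3) (hEx : ExStmt)

include h15 hQuot hHasse hL2 hL3 in
/-- Toricity of the line at every bad prime `ℓ ≠ p`, from S15 for the quotient. -/
theorem toric_of_contracts (P : FreyPackage) (hp17 : 17 ≤ P.p) (R₀ P₀ : (FE P).Point)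
    (hL : LineData P R₀ P₀) (ℓ : ℕ) (hℓ : ℓ.Prime) (hℓp : ℓ ≠ P.p)
    (hℓabc : (ℓ : ℤ) ∣ P.a * P.b * P.c) (A : ValuationSubring Qb) (hA : A.LiesOverPrime ℓ) :
    P.freyCurveInt.InZeroComponentAt A R₀ := by
  obtain ⟨W', Q', hΔ', hfix, hord, hbad, hgood, hdict⟩ := hQuot P R₀ P₀ hL
  have hp5 : 5 ≤ P.p := P.hp5
  -- `3 ∣ abc`
  have h3abc : ((3 : ℕ) : ℤ) ∣ P.a * P.b * P.c := by
    by_contra h3
    have h3Δ := hgood 3 Nat.prime_three (by omega) h3
    have := hHasse W' 3 P.p Nat.prime_three P.pp (by omega) h3Δ Q' hfix hord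
    omega
  have h2abc : ((2 : ℕ) : ℤ) ∣ P.a * P.b * P.c := by exact_mod_cast P.two_dvd_abc
  obtain ⟨h2Δ, h2c₄⟩ := hbad 2 Nat.prime_two (by omega) h2abc
  obtain ⟨h3Δ, h3c₄⟩ := hbad 3 Nat.prime_three (by omega) h3abc
  obtain ⟨hℓΔ, hℓc₄⟩ := hbad ℓ hℓ hℓp hℓabc
  have hp' : P.p ∉ ({2, 3, 5, 7, 13} : Finset ℕ) := by
    simp only [Finset.mem_insert, Finset.mem_singleton]
    omega
  refine hdict ℓ hℓ hℓp hℓabc A hA ?_
  exact h15 P.pp hp' W' hΔ' Q' hfix hord (by exact_mod_cast h2Δ) (by exact_mod_cast h2c₄)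
    (fun A hA => hL2 P.pp hp5 W' h2Δ h2c₄ Q' hfix hord A hA)
    (by exact_mod_cast h3Δ) (by exact_mod_cast h3c₄)
    (fun A hA => hL3 P.pp hp5 W' h3Δ h3c₄ Q' hfix hord A hA)
    hℓ hℓp hℓΔ hℓc₄ A hA

end Assembly

/-! ### Valuation calculus at `p` -/

section AtP

variable {Γ₀ : Type*} [LinearOrderedCommGroupWithZero Γ₀] (v : Valuation Qb Γ₀)

/-- `(x + β) / x` is a unit when `x` is not integral and `β` is. -/
theorem val_add_div {x β : Qb} (hx : 1 < v x) (hβ : v β ≤ 1) : v ((x + β) / x) = 1 := by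
  have hx0 : x ≠ 0 := by
    rintro rfl
    rw [_root_.map_zero] at hx
    exact absurd hx (not_lt.mpr zero_le_one)
  have hvx0 : v x ≠ 0 := (Valuation.ne_zero_iff _).mpr hx0
  have e : (x + β) / x = 1 + β / x := by field_simp
  have hlt : v (β / x) < v (1 : Qb) := by
    rw [map_one, map_div₀, div_lt_one₀ (zero_lt_iff.mpr hvx0)]
    exact lt_of_le_of_lt hβ hx
  rw [e, Valuation.map_add_eq_of_lt_left _ hlt, map_one]

/-- `(c x - α) / x` is a unit when `x` is not integral, `α` is and `c` is a unit. -/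
theorem val_mul_sub_div {x α c : Qb} (hx : 1 < v x) (hα : v α ≤ 1) (hc : v c = 1) :
    v ((c * x - α) / x) = 1 := by
  have hx0 : x ≠ 0 := by
    rintro rfl
    rw [_root_.map_zero] at hx
    exact absurd hx (not_lt.mpr zero_le_one)
  have hvx0 : v x ≠ 0 := (Valuation.ne_zero_iff _).mpr hx0
  have e : (c * x - α) / x = c + -(α / x) := by field_simp; ring
  have hlt : v (-(α / x)) < v c := by
    rw [hc, Valuation.map_neg, map_div₀, div_lt_one₀ (zero_lt_iff.mpr hvx0)]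
    exact lt_of_le_of_lt hα hx
  rw [e, Valuation.map_add_eq_of_lt_left _ hlt, hc]

end AtP

section Final

variable (h15 : S15Stmt) (hLine : LineStmt) (hQuot : QuotStmt) (hId : IdStmt)
  (hLoc : LocValStmt) (hGal : GalProdStmt) (hUnit : UnitStmt) (hReal : RealStmt)
  (hHasse : HasseStmt) (hL2 : L1Stmt 2) (hL3 : L1Stmt 3) (hEx : ExStmt)

include h15 hLine hQuot hId hLoc hGal hUnit hReal hHasse hL2 hL3 hEx in
/-- **S12 from the contracts.** -/
theorem s12_of_contracts (P : FreyPackage) (hp17 : 17 ≤ P.p) :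
    ¬ HasGaloisStableCofixedLine (K := Qb) ℚ P.freyCurve P.p := by
  intro hline
  obtain ⟨R₀, P₀, hL⟩ := hLine P hline
  have hpp : P.p.Prime := P.pp
  -- the local values at `ℓ ≠ p`
  have hval : ∀ ℓ : ℕ, ℓ.Prime → ℓ ≠ P.p → ∀ A : ValuationSubring Qb, A.LiesOverPrime ℓ →
      ∀ k ∈ Finset.Ico 1 P.p,
        A.valuation (xOf (k • R₀)) = 1 ∧ A.valuation (xOf (k • R₀) + (P.b : Qb) ^ P.p / 4) = 1 ∧
          A.valuation (4 * xOf (k • R₀) - (P.a : Qb) ^ P.p) = 1 := by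
    intro ℓ hℓ hℓp A hA
    refine hLoc P ℓ hℓ hℓp A hA R₀ hL.order ?_
    by_cases h : (ℓ : ℤ) ∣ P.a * P.b * P.c
    · exact Or.inr (toric_of_contracts h15 hQuot hHasse hL2 hL3 P hp17 R₀ P₀ hL ℓ hℓ hℓp h A hA)
    · exact Or.inl h
  -- the local values at `p`
  have hvalp : ∀ A : ValuationSubring Qb, A.LiesOverPrime P.p → ∀ k ∈ Finset.Ico 1 P.p,
      A.valuation ((xOf (k • R₀) + (P.b : Qb) ^ P.p / 4) / xOf (k • R₀)) = 1 ∧
        A.valuation ((4 * xOf (k • R₀) - (P.a : Qb) ^ P.p) / xOf (k • R₀)) = 1 := by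
    intro A hA k hk
    have hx : 1 < A.valuation (xOf (k • R₀)) := by
      by_contra h
      exact hL.atP A hA k hk ((ValuationSubring.valuation_le_one_iff A _).mp (not_lt.mp h))
    have h4 : A.valuation (4 : Qb) = 1 := by
      have h := Fermat.Agent.S13.GalRat.valuation_intCast_eq_pow A hpp hA (n := 4) (by norm_num)
      have h0 : padicValInt P.p 4 = 0 := by
        apply padicValInt.eq_zero_of_not_dvd
        intro hd
        have h2 : (P.p : ℤ) ∣ 2 ^ 2 := by norm_num; exact hd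
        have h3 := Int.Prime.dvd_pow' hpp h2
        have h5 : P.p ∣ 2 := by exact_mod_cast h3
        have := Nat.le_of_dvd (by norm_num) h5
        omega
      rw [h0, pow_zero] at h
      exact_mod_cast h
    have hint : ∀ n : ℤ, A.valuation (n : Qb) ≤ 1 := fun n =>
      (ValuationSubring.valuation_le_one_iff A _).mpr (intCast_mem _ n)
    have hb : A.valuation ((P.b : Qb) ^ P.p / 4) ≤ 1 := by
      rw [map_div₀, h4, div_one, map_pow]
      exact pow_le_one₀ zero_le (hint P.b)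
    have ha : A.valuation ((P.a : Qb) ^ P.p) ≤ 1 := by
      rw [map_pow]
      exact pow_le_one₀ zero_le (hint P.a)
    exact ⟨val_add_div A.valuation hx hb, val_mul_sub_div A.valuation hx ha h4⟩
  -- nonvanishing of `r`
  have hr0 : prodR P R₀ ≠ 0 := by
    obtain ⟨A, hA⟩ := hEx 2 Nat.prime_two
    have h2p : (2 : ℕ) ≠ P.p := by omega
    have h1 : A.valuation (prodR P R₀) = 1 := by
      unfold prodR
      rw [map_prod]
      exact Finset.prod_eq_one fun k hk => (hval 2 Nat.prime_two h2p A hA k hk).1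
    intro h0
    rw [h0, _root_.map_zero] at h1
    exact zero_ne_one h1
  -- Galois invariance
  have hfixR : ∀ σ : GQ, σ (prodR P R₀) = prodR P R₀ := fun σ =>
    hGal P R₀ hL.order hL.stable (fun x => x) (fun _ _ => rfl) σ
  have hfixT : ∀ σ : GQ, σ (prodT P R₀) = prodT P R₀ := fun σ =>
    hGal P R₀ hL.order hL.stable (fun x => x + (P.b : Qb) ^ P.p / 4)
      (fun τ x => by
        have h4 : τ (4 : Qb) = 4 := map_ofNat τ 4
        simp [map_add, map_div₀, map_pow, h4]) σ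
  have hfixS : ∀ σ : GQ, σ (prodS P R₀) = prodS P R₀ := fun σ =>
    hGal P R₀ hL.order hL.stable (fun x => 4 * x - (P.a : Qb) ^ P.p)
      (fun τ x => by
        have h4 : τ (4 : Qb) = 4 := map_ofNat τ 4
        simp [map_sub, map_mul, map_pow, h4]) σ
  -- the two units
  have hu : (prodT P R₀ / prodR P R₀) ^ 2 = 1 := by
    refine hUnit _ (fun σ => by rw [map_div₀, hfixT, hfixR]) ?_
    intro ℓ hℓ A hA
    by_cases hℓp : ℓ = P.p
    · subst hℓp
      unfold prodT prodR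
      rw [← Finset.prod_div_distrib, map_prod]
      exact Finset.prod_eq_one fun k hk => (hvalp A hA k hk).1
    · rw [map_div₀]
      unfold prodT prodR
      rw [map_prod, map_prod, Finset.prod_eq_one fun k hk => (hval ℓ hℓ hℓp A hA k hk).1,
        Finset.prod_eq_one fun k hk => (hval ℓ hℓ hℓp A hA k hk).2.1, div_one]
  have hv : (prodS P R₀ / prodR P R₀) ^ 2 = 1 := by
    refine hUnit _ (fun σ => by rw [map_div₀, hfixS, hfixR]) ?_
    intro ℓ hℓ A hA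
    by_cases hℓp : ℓ = P.p
    · subst hℓp
      unfold prodS prodR
      rw [← Finset.prod_div_distrib, map_prod]
      exact Finset.prod_eq_one fun k hk => (hvalp A hA k hk).2
    · rw [map_div₀]
      unfold prodS prodR
      rw [map_prod, map_prod, Finset.prod_eq_one fun k hk => (hval ℓ hℓ hℓp A hA k hk).1,
        Finset.prod_eq_one fun k hk => (hval ℓ hℓ hℓp A hA k hk).2.2, div_one]
  -- the identity
  have hid := hId P R₀ hL.order
  have ht2 : prodT P R₀ ^ 2 = prodR P R₀ ^ 2 := by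
    rw [div_pow, div_eq_one_iff_eq (pow_ne_zero 2 hr0)] at hu
    exact hu
  have hs2 : prodS P R₀ ^ 2 = prodR P R₀ ^ 2 := by
    rw [div_pow, div_eq_one_iff_eq (pow_ne_zero 2 hr0)] at hv
    exact hv
  rw [ht2, hs2] at hid
  have hr2 : prodR P R₀ ^ 2 ≠ 0 := pow_ne_zero 2 hr0
  have hfin : (16 : Qb) ^ (P.p - 1) * ((P.a : Qb) ^ P.p) ^ P.p + ((P.b : Qb) ^ P.p) ^ P.p =
      (16 : Qb) ^ (P.p - 1) * ((P.c : Qb) ^ P.p) ^ P.p := by
    apply mul_right_cancel₀ hr2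
    linear_combination hid
  have hZ : (16 : ℤ) ^ (P.p - 1) * P.a ^ (P.p * P.p) + P.b ^ (P.p * P.p) =
      16 ^ (P.p - 1) * P.c ^ (P.p * P.p) := by
    have hcast : (((16 : ℤ) ^ (P.p - 1) * P.a ^ (P.p * P.p) + P.b ^ (P.p * P.p) : ℤ) : Qb) =
        ((16 ^ (P.p - 1) * P.c ^ (P.p * P.p) : ℤ) : Qb) := by
      push_cast
      rw [pow_mul, pow_mul, pow_mul]
      exact hfin
    exact_mod_cast hcast
  have hp3 : 3 ≤ P.p := by omega
  exact hReal P.hp_odd hp3 P.ha0 P.hb0 P.hc0 P.hFLT hZ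

end Final

end Fermat.Agent.MAZ.S12.Spec27
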