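/-
Program MAZ, sub-program MAZ-S12 (architect helper27): **DISCHARGE OF THE SMALL CONTRACTS OF `Spec27`.**

`Spec27.s12_of_contracts` proves the literal S12 from the contracts
`S15Stmt, LineStmt, QuotStmt, IdStmt, LocValStmt, GalProdStmt, UnitStmt, RealStmt, HasseStmt,
L1Stmt 2, L1Stmt 3, ExStmt`.  This file proves all of them except `S15Stmt` (= S15), `LineStmt`
(K0 + the line at `p`) and `QuotStmt` (K1, the Vélu quotient), from the landed bricks:

* `ExStmt`      ← `S13.UnramVal.exists_liesOverPrime`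
* `RealStmt`    ← `RealFinish24.frey_finish` (helper24)
* `HasseStmt`   ← `Hasse61.prime_order_le` (helper61)
* `L1Stmt 2/3`  ← `ZeroComp28.not_inZeroComponentAt_two/three` (helper28)
* `GalProdStmt` ← `LineSym57.prod_fixed` (helper57)
* `UnitStmt`    ← `Arith24`/`ArithBridge24` (helper24) + `S13.GalRat`
* `LocValStmt`  ← `LocVal28` (helper28) + `ZeroTors28.inZero_nsmul`
* `IdStmt`      ← `IdQbFinal42.id_Qb_final` (helper42 on helper80's `IdC80`)

and `s12_of_three` : S12 from the three remaining contracts.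
-/
import Mathlib
import Fermat.Agent.MAZ.S12.Spec27
import Fermat.Agent.MAZ.S12.LocVal28
import Fermat.Agent.MAZ.S12.LineSym57
import Fermat.Agent.MAZ.S12.ArithBridge24
import Fermat.Agent.MAZ.S12.IdQbFinal42
import Fermat.Agent.MAZ.S12.Hasse61
import Fermat.Agent.MAZ.S12.RealFinish24
import Fermat.Agent.MAZ.Local.ZeroComp28
import Fermat.Agent.S13.UnramVal

set_option autoImplicit false
set_option linter.unusedSectionVars false

open WeierstrassCurve WeierstrassCurve.Affine WeierstrassCurve.Affine.Point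

noncomputable section

namespace Fermat.Agent.MAZ.S12.Asm27

open Fermat.Agent.MAZ.S12.Spec27 Fermat.Agent.MAZ.Point.ModAsm62

/-! ### The one-line contracts -/

theorem exStmt : ExStmt := fun _ hq => Fermat.Agent.S13.UnramVal.exists_liesOverPrime hq

theorem realStmt : RealStmt := fun hp hp3 _ _ _ ha hb hc h =>
  Fermat.Agent.MAZ.S12.RealFinish24.frey_finish hp hp3 ha hb hc h

theorem hasseStmt : HasseStmt := fun W _ _ hℓ hp hpℓ hΔ Q hfix hQ =>
  Fermat.Agent.MAZ.S12.Hasse61.prime_order_le W hℓ hp hpℓ hΔ Q hfix hQ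

theorem l1Stmt_two : L1Stmt 2 := fun hp hp5 W h2Δ h2c₄ Q hfix hord A hA =>
  Fermat.Agent.MAZ.Local.ZeroComp28.not_inZeroComponentAt_two hp hp5 W
    (by exact_mod_cast h2Δ) (by exact_mod_cast h2c₄) Q hfix hord A hA

theorem l1Stmt_three : L1Stmt 3 := fun hp hp5 W h3Δ h3c₄ Q hfix hord A hA =>
  Fermat.Agent.MAZ.Local.ZeroComp28.not_inZeroComponentAt_three hp hp5 W
    (by exact_mod_cast h3Δ) (by exact_mod_cast h3c₄) Q hfix hord A hA

/-! ### (K4) GALPROD -/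

theorem galProdStmt : GalProdStmt := by
  intro P R₀ hR hstab f hf σ
  exact Fermat.Agent.MAZ.S12.LineSym57.prod_fixed
    (W := P.freyCurveInt.map (Int.castRingHom ℚ)) P.pp hR hstab (fun X => f (xOf X))
    (fun τ X => by
      show f (xOf (τ • X)) = τ (f (xOf X))
      rw [Fermat.Agent.MAZ.S12.LineSym57.xOf_smul, hf]) σ

/-! ### (K6) UNIT -/

theorem unitStmt : UnitStmt := by
  intro u hfix hval
  obtain ⟨q, hq⟩ := Fermat.Agent.S13.GalRat.exists_ratCast_of_fixed u hfix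
  have hq0 : q ≠ 0 := by
    rintro rfl
    obtain ⟨A, hA⟩ := exStmt 2 Nat.prime_two
    have h1 := hval 2 Nat.prime_two A hA
    rw [← hq, Rat.cast_zero, _root_.map_zero] at h1
    exact zero_ne_one h1
  have h := Fermat.Agent.MAZ.S12.Arith24.sq_eq_one_of_padicValRat hq0 (fun ℓ hℓ => by
    obtain ⟨A, hA⟩ := exStmt ℓ hℓ
    exact Fermat.Agent.MAZ.S12.ArithBridge24.padicValRat_eq_zero_of_valuation hℓ A hA hq0
      (by rw [hq]; exact hval ℓ hℓ A hA))
  rw [← hq]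
  exact_mod_cast h

/-! ### (K3) LOCVAL -/

/-- `4` is a unit at the places over an odd prime. -/
theorem val_four {ℓ : ℕ} (hℓ : ℓ.Prime) (hℓ2 : ℓ ≠ 2) {A : ValuationSubring Qb}
    (hA : A.LiesOverPrime ℓ) : A.valuation (4 : Qb) = 1 := by
  have h := Fermat.Agent.S13.GalRat.valuation_intCast_eq_pow A hℓ hA (n := 4) (by norm_num)
  have h0 : padicValInt ℓ 4 = 0 := by
    apply padicValInt.eq_zero_of_not_dvd
    intro hd
    have h2 : (ℓ : ℤ) ∣ 2 ^ 2 := by norm_num; exact hd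
    have h3 := Int.Prime.dvd_pow' hℓ h2
    have h5 : ℓ ∣ 2 := by exact_mod_cast h3
    exact hℓ2 ((Nat.prime_dvd_prime_iff_eq hℓ Nat.prime_two).mp h5)
  rw [h0, pow_zero] at h
  exact_mod_cast h

theorem locValStmt : LocValStmt := by
  intro P ℓ hℓ hℓp A hA R₀ hR hcase k hk
  have hpp := P.pp
  have hodd : Odd P.p := P.hp_odd
  have hpR : P.p • R₀ = 0 := by rw [← hR]; exact addOrderOf_nsmul_eq_zero R₀
  have hkR : P.p • (k • R₀) = 0 := by rw [smul_comm, hpR, nsmul_zero]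
  rw [Finset.mem_Ico] at hk
  have hk0 : k • R₀ ≠ 0 := by
    intro h0
    have hd := addOrderOf_dvd_of_nsmul_eq_zero h0
    rw [hR] at hd
    exact absurd (Nat.le_of_dvd (by omega) hd) (by omega)
  have hvp : A.valuation ((P.p : ℕ) : Qb) = 1 :=
    Fermat.Agent.MAZ.Local.ZeroTors28.valuation_prime_eq_one hpp hℓ hℓp hA
  have hin0 : P.freyCurveInt.InZeroComponentAt A R₀ := by
    rcases hcase with h | h
    · exact Fermat.Agent.MAZ.S12.LocVal28.inZero_of_good hℓ hA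
        (fun hd => h ((Fermat.Agent.Frey.IntModel.prime_dvd_Δ_iff P hℓ).mp hd)) R₀
    · exact h
  have hin : P.freyCurveInt.InZeroComponentAt A (k • R₀) :=
    Fermat.Agent.MAZ.Local.ZeroTors28.inZero_nsmul hodd hvp hpR hin0 k
  have eb : Fermat.Agent.MAZ.S12.LocVal28.b4 P = (P.b : Qb) ^ P.p / 4 := by
    unfold Fermat.Agent.MAZ.S12.LocVal28.b4
    push_cast
    rfl
  have ea : Fermat.Agent.MAZ.S12.LocVal28.a4 P = (P.a : Qb) ^ P.p / 4 := by
    unfold Fermat.Agent.MAZ.S12.LocVal28.a4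
    push_cast
    rfl
  by_cases hℓ2 : ℓ = 2
  · subst hℓ2
    obtain ⟨h1, h2, h3, -⟩ := Fermat.Agent.MAZ.S12.LocVal28.locval_two hA hkR hk0 hin
    refine ⟨h1, ?_, ?_⟩
    · rw [← eb]; exact h3
    · have e : (4 * xOf (k • R₀) - (P.a : Qb) ^ P.p) =
          4 * xOf (k • R₀) - ((P.a ^ P.p : ℤ) : Qb) := by push_cast; rfl
      rw [e]; exact h2
  · obtain ⟨h1, h2, h3, -⟩ :=
      Fermat.Agent.MAZ.S12.LocVal28.locval_odd hℓ hℓ2 hℓp hA hkR hk0 hin
    refine ⟨h1, ?_, ?_⟩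
    · rw [← eb]; exact h3
    · have e : (4 * xOf (k • R₀) - (P.a : Qb) ^ P.p) =
          4 * (xOf (k • R₀) - Fermat.Agent.MAZ.S12.LocVal28.a4 P) := by rw [ea]; ring
      rw [e, map_mul, h2, val_four hℓ hℓ2 hA, mul_one]

/-! ### (K2) ID -/

section Coeff

variable (W : WeierstrassCurve ℤ)

theorem bc_b₂ : ((W.map (Int.castRingHom ℚ))⁄Qb).b₂ = ((W.b₂ : ℤ) : Qb) := by
  rw [show ((W.map (Int.castRingHom ℚ))⁄Qb).b₂ =
    algebraMap ℚ Qb (W.map (Int.castRingHom ℚ)).b₂ from WeierstrassCurve.map_b₂ _ _,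
    WeierstrassCurve.map_b₂]
  simp

theorem bc_b₄ : ((W.map (Int.castRingHom ℚ))⁄Qb).b₄ = ((W.b₄ : ℤ) : Qb) := by
  rw [show ((W.map (Int.castRingHom ℚ))⁄Qb).b₄ =
    algebraMap ℚ Qb (W.map (Int.castRingHom ℚ)).b₄ from WeierstrassCurve.map_b₄ _ _,
    WeierstrassCurve.map_b₄]
  simp

theorem bc_b₆ : ((W.map (Int.castRingHom ℚ))⁄Qb).b₆ = ((W.b₆ : ℤ) : Qb) := by
  rw [show ((W.map (Int.castRingHom ℚ))⁄Qb).b₆ =
    algebraMap ℚ Qb (W.map (Int.castRingHom ℚ)).b₆ from WeierstrassCurve.map_b₆ _ _,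
    WeierstrassCurve.map_b₆]
  simp

theorem bc_Δ : ((W.map (Int.castRingHom ℚ))⁄Qb).Δ = ((W.Δ : ℤ) : Qb) := by
  rw [show ((W.map (Int.castRingHom ℚ))⁄Qb).Δ =
    algebraMap ℚ Qb (W.map (Int.castRingHom ℚ)).Δ from WeierstrassCurve.map_Δ _ _,
    WeierstrassCurve.map_Δ]
  simp

theorem bc_c₄ : ((W.map (Int.castRingHom ℚ))⁄Qb).c₄ = ((W.c₄ : ℤ) : Qb) := by
  rw [show ((W.map (Int.castRingHom ℚ))⁄Qb).c₄ =
    algebraMap ℚ Qb (W.map (Int.castRingHom ℚ)).c₄ from WeierstrassCurve.map_c₄ _ _,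
    WeierstrassCurve.map_c₄]
  simp

end Coeff

theorem idStmt : IdStmt := by
  intro P R₀ hR
  have hpp := P.pp
  have hodd : Odd P.p := P.hp_odd
  have hp2 : P.p ≠ 2 := by have := P.hp5; omega
  set a' : Qb := (P.a : Qb) ^ P.p with ha'
  set b' : Qb := (P.b : Qb) ^ P.p with hb'
  set c' : Qb := (P.c : Qb) ^ P.p with hc'
  have habc : a' + b' = c' := by
    have := congrArg (Int.cast : ℤ → Qb) P.hFLT
    push_cast at this
    exact this
  have ha0 : a' ≠ 0 := pow_ne_zero _ (Int.cast_ne_zero.mpr P.ha0)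
  have hb0 : b' ≠ 0 := pow_ne_zero _ (Int.cast_ne_zero.mpr P.hb0)
  have hc0 : c' ≠ 0 := pow_ne_zero _ (Int.cast_ne_zero.mpr P.hc0)
  have hb2 : (FE P).b₂ = b' - a' := by
    show ((P.freyCurveInt.map (Int.castRingHom ℚ))⁄Qb).b₂ = _
    rw [bc_b₂, Fermat.Agent.Frey.IntModel.b₂_eq]
    push_cast
    rfl
  have hb4 : 8 * (FE P).b₄ = -(a' * b') := by
    show 8 * ((P.freyCurveInt.map (Int.castRingHom ℚ))⁄Qb).b₄ = _
    rw [bc_b₄]
    have := congrArg (Int.cast : ℤ → Qb) (Fermat.Agent.Frey.IntModel.eight_mul_b₄ P)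
    push_cast at this
    rw [this]
    ring
  have hb6 : (FE P).b₆ = 0 := by
    show ((P.freyCurveInt.map (Int.castRingHom ℚ))⁄Qb).b₆ = _
    rw [bc_b₆, Fermat.Agent.Frey.IntModel.b₆_eq]
    simp
  have hΔ : (FE P).Δ ≠ 0 := by
    show ((P.freyCurveInt.map (Int.castRingHom ℚ))⁄Qb).Δ ≠ 0
    rw [bc_Δ]
    exact Int.cast_ne_zero.mpr (Fermat.Agent.Frey.IntModel.Δ_ne_zero P)
  have hb4' : (FE P).b₄ = -(a' * b') / 8 := by
    rw [← hb4]; ring
  have h12 : a' / 4 ≠ 0 := div_ne_zero ha0 (by norm_num)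
  have h23 : (0 : Qb) ≠ -b' / 4 := (div_ne_zero (neg_ne_zero.mpr hb0) (by norm_num)).symm
  have h13 : a' / 4 ≠ -b' / 4 := by
    intro h
    apply hc0
    rw [← habc]
    field_simp at h
    linear_combination h
  have hr : ∀ e ∈ ({a' / 4, 0, -b' / 4} : Finset Qb),
      4 * e ^ 3 + (FE P).b₂ * e ^ 2 + 2 * (FE P).b₄ * e + (FE P).b₆ = 0 := by
    intro e he
    simp only [Finset.mem_insert, Finset.mem_singleton] at he
    rw [hb2, hb4', hb6]
    rcases he with rfl | rfl | rfl <;> ring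
  have key := Fermat.Agent.MAZ.S12.IdQbFinal42.id_Qb_final hpp hp2 (FE P) hΔ
    (a' / 4) 0 (-b' / 4) h12 h13 h23 hr R₀ hR
  -- the three products
  have eT : (∏ k ∈ Finset.Ico 1 P.p, (xOf (k • R₀) - -b' / 4)) = prodT P R₀ := by
    unfold prodT
    refine Finset.prod_congr rfl fun k _ => ?_
    ring
  have eR : (∏ k ∈ Finset.Ico 1 P.p, (xOf (k • R₀) - 0)) = prodR P R₀ := by
    unfold prodR
    refine Finset.prod_congr rfl fun k _ => ?_
    ring
  have eS : prodS P R₀ =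
      (4 : Qb) ^ (P.p - 1) * ∏ k ∈ Finset.Ico 1 P.p, (xOf (k • R₀) - a' / 4) := by
    unfold prodS
    have : ∀ k ∈ Finset.Ico 1 P.p, (4 * xOf (k • R₀) - a') = 4 * (xOf (k • R₀) - a' / 4) :=
      fun k _ => by ring
    rw [Finset.prod_congr rfl this, Finset.prod_mul_distrib, Finset.prod_const, Nat.card_Ico]
  rw [eT, eR] at key
  set S₀ : Qb := ∏ k ∈ Finset.Ico 1 P.p, (xOf (k • R₀) - a' / 4) with hS₀
  have e1 : (a' / 4 - 0) ^ P.p = a' ^ P.p / 4 ^ P.p := by rw [sub_zero, div_pow]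
  have e2 : (0 - -b' / 4) ^ P.p = b' ^ P.p / 4 ^ P.p := by
    rw [zero_sub, neg_div, neg_neg, div_pow]
  have e3 : (-b' / 4 - a' / 4) ^ P.p = -(c' ^ P.p / 4 ^ P.p) := by
    have : -b' / 4 - a' / 4 = -(c' / 4) := by rw [← habc]; ring
    rw [this, hodd.neg_pow, div_pow]
  rw [e1, e2, e3] at key
  have h4p : (4 : Qb) ^ P.p ≠ 0 := pow_ne_zero _ (by norm_num)
  have key' : a' ^ P.p * prodT P R₀ ^ 2 + b' ^ P.p * S₀ ^ 2 = c' ^ P.p * prodR P R₀ ^ 2 := by
    field_simp at key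
    linear_combination key
  have e16 : (16 : Qb) ^ (P.p - 1) = ((4 : Qb) ^ (P.p - 1)) ^ 2 := by
    rw [← pow_mul, mul_comm, pow_mul]
    norm_num
  rw [eS]
  show (16 : Qb) ^ (P.p - 1) * a' ^ P.p * prodT P R₀ ^ 2 +
      b' ^ P.p * ((4 : Qb) ^ (P.p - 1) * S₀) ^ 2 =
    (16 : Qb) ^ (P.p - 1) * c' ^ P.p * prodR P R₀ ^ 2
  rw [e16]
  linear_combination ((4 : Qb) ^ (P.p - 1)) ^ 2 * key'

/-! ### S12 from the three remaining contracts -/

/-- **S12 from S15, the line (K0 + the place `p`) and the Vélu quotient (K1).** -/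
theorem s12_of_three (h15 : S15Stmt) (hLine : LineStmt) (hQuot : QuotStmt)
    (P : FreyPackage) (hp17 : 17 ≤ P.p) :
    ¬ HasGaloisStableCofixedLine (K := Qb) ℚ P.freyCurve P.p :=
  s12_of_contracts h15 hLine hQuot idStmt locValStmt galProdStmt unitStmt realStmt hasseStmt
    l1Stmt_two l1Stmt_three exStmt P hp17

end Fermat.Agent.MAZ.S12.Asm27
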