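/-
Programme MAZ, sub-programme MAZ-S12 (S12 from S15), brick AT-P (helper57): THE COFIXED LINE AT `p`.

For the Frey curve, a Galois-stable cofixed line `N ⊆ E[p]` lies in the kernel of reduction at
every valuation subring `A` of `ℚ̄` over `p` (no case distinction on the reduction type):
inertia at `A` cannot act trivially on `N` (otherwise `N` would be everywhere unramified, hence
pointwise rational, and the Frey curve has no rational point of order `p`), and for `σ` in the
inertia group `σ • x - x` lies in the kernel of reduction (`FreyE1.close_at_p`) and in `N`.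

Consequently the `x`-coordinates of the nonzero points of the line are not `A`-integral: this is the
hypothesis `hp` of `LocVal28.locval_prod` / `(ii)` of K3.  Packaged with K0 (`Line57`) so that one
`obtain` yields `R₀`, `P₀` with all their properties.
-/
import Fermat.Agent.S13
import Fermat.Agent.S13.FreyTorsion
import Fermat.Agent.Frey.IntModel
import Fermat.Agent.MAZ.Point.ModAsm62

set_option autoImplicit false
set_option linter.style.haveILetI false

open WeierstrassCurve WeierstrassCurve.Affine WeierstrassCurve.Affine.Point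

namespace Fermat.Agent.MAZ.S12.AtP57

local notation "Qb" => AlgebraicClosure ℚ

open Fermat.Agent.S13 Fermat.Agent.MAZ.Point.ModAsm62

/-- Inertia at a place over `p` moves some point of a Galois-stable line of the Frey curve. -/
theorem exists_moved (P : FreyPackage)
    (N : Submodule (ZMod P.p) (Submodule.torsionBy ℤ (P.freyCurve⁄Qb).Point P.p))
    (hN : IsGaloisStable ℚ N) (hbot : N ≠ ⊥) (htop : N ≠ ⊤)
    (A : ValuationSubring Qb) (hA : A.LiesOverPrime P.p) :
    ∃ σ ∈ A.inertiaSubgroupIn ℚ, ∃ x ∈ N, σ • x ≠ x := by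
  classical
  by_contra hcon
  push Not at hcon
  haveI := FreyTorsion.finite_torsion P
  have hcard := FreyTorsion.card_torsion_le P
  have bridge : UnramMain.Bridge := UnramBridge.bridge
  -- `N` is pointwise fixed by the whole Galois group
  have hfix : ∀ (σ : Qb ≃ₐ[ℚ] Qb), ∀ x ∈ N, σ • x = x := by
    intro σ
    refine UnramMain.forall_smul_eq_of_inertia_of_bridge bridge hN ?_ σ
    intro q hq
    by_cases hqp : q = P.p
    · subst hqp
      exact ⟨A, hA, hcon⟩
    · by_cases hq2 : q = 2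
      · subst hq2
        obtain ⟨A2, hA2⟩ : ∃ A : ValuationSubring Qb, A.LiesOverPrime 2 :=
          UnramVal.exists_liesOverPrime Nat.prime_two
        exact ⟨A2, hA2, fun σ hσ => (Local2.local_at_2 P hcard N hN hbot htop A2 hA2 σ hσ).1⟩
      · obtain ⟨Aq, hAq⟩ : ∃ A : ValuationSubring Qb, A.LiesOverPrime q :=
          UnramVal.exists_liesOverPrime hq
        exact ⟨Aq, hAq, fun σ hσ x _ => Fermat.Agent.S05.result P hq hq2 hqp Aq hAq σ hσ x⟩
  -- but the Frey curve has no rational point of order `p`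
  obtain ⟨x, hxN, hx0⟩ := (Submodule.ne_bot_iff N).mp hbot
  exact hx0 (RatBridge.no_fixed_torsion_of_no_rational P.freyCurve P.p
    (fun x y h => RatTors2.no_rational_torsion_coord P x y h) x (fun σ => hfix σ x hxN))

/-- **A Galois-stable cofixed line of the Frey curve lies in the kernel of reduction at `p`.** -/
theorem line_le_V1 (P : FreyPackage)
    (N : Submodule (ZMod P.p) (Submodule.torsionBy ℤ (P.freyCurve⁄Qb).Point P.p))
    (hN : IsGaloisStable ℚ N) (hbot : N ≠ ⊥) (htop : N ≠ ⊤)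
    (hcof : ∀ σ : Qb ≃ₐ[ℚ] Qb, ∀ x : Submodule.torsionBy ℤ (P.freyCurve⁄Qb).Point P.p,
      σ • x - x ∈ N)
    (A : ValuationSubring Qb) (hA : A.LiesOverPrime P.p) : N ≤ FreyE1.V1 P A := by
  haveI : Fact P.p.Prime := ⟨P.pp⟩
  haveI := FreyTorsion.finite_torsion P
  obtain ⟨hN1, -⟩ := Fermat.Agent.DivPoly.Count.finrank_eq_of_proper
    (FreyTorsion.finrank_torsion_le_two P) N hbot htop
  obtain ⟨σ, hσ, x, hxN, hne⟩ := exists_moved P N hN hbot htop A hA
  -- `y := σ • x - x` is a nonzero element of `N ∩ V1`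
  have hyN : σ • x - x ∈ N := hcof σ x
  have hyV : σ • x - x ∈ FreyE1.V1 P A := FreyE1.close_at_p P hA hσ x
  have hy0 : σ • x - x ≠ 0 := sub_ne_zero.mpr hne
  intro z hz
  have hnz : (⟨σ • x - x, hyN⟩ : N) ≠ 0 := fun h0 => hy0 (congrArg Subtype.val h0)
  obtain ⟨c, hc⟩ := (finrank_eq_one_iff_of_nonzero' (⟨σ • x - x, hyN⟩ : N) hnz).mp hN1 ⟨z, hz⟩
  have : z = c • (σ • x - x) := (congrArg Subtype.val hc).symm
  rw [this]
  exact (FreyE1.V1 P A).smul_mem c hyV

/-- A nonzero `p`-torsion point in the kernel of reduction has a non-integral `x`-coordinate. -/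
theorem xOf_notMem_of_mem_V1 (P : FreyPackage) {A : ValuationSubring Qb}
    {x : Submodule.torsionBy ℤ (P.freyCurve⁄Qb).Point P.p} (hx : x ∈ FreyE1.V1 P A)
    (hx0 : x ≠ 0) : xOf (x : (P.freyCurve⁄Qb).Point) ∉ A := by
  rcases hX : (x : (P.freyCurve⁄Qb).Point) with _ | ⟨x₀, y₀, h⟩
  · exact absurd (Subtype.ext hX) hx0
  · have h1 := FreyE1.one_lt_of_mem_V1 P hx hX
    intro hmem
    have : A.valuation x₀ ≤ 1 := (A.valuation_le_one_iff x₀).mpr hmem
    exact absurd h1 (not_lt.mpr this)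

/-- **K0 + AT-P, for the Frey curve of the Prelude**: the two points of the cofixed line, and the
non-integrality at `p` of the `x`-coordinates of the nonzero points of the line. -/
theorem exists_points (P : FreyPackage)
    (h : HasGaloisStableCofixedLine (K := Qb) ℚ P.freyCurve P.p) :
    ∃ R₀ P₀ : (P.freyCurve⁄Qb).Point, addOrderOf R₀ = P.p ∧ P.p • P₀ = 0 ∧
      P₀ ∉ AddSubgroup.zmultiples R₀ ∧
      (∀ σ : Qb ≃ₐ[ℚ] Qb, σ • R₀ ∈ AddSubgroup.zmultiples R₀) ∧
      (∀ σ : Qb ≃ₐ[ℚ] Qb, σ • P₀ - P₀ ∈ AddSubgroup.zmultiples R₀) ∧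
      ∀ A : ValuationSubring Qb, A.LiesOverPrime P.p →
        ∀ k ∈ Finset.Ico 1 P.p, xOf (k • R₀) ∉ A := by
  haveI : Fact P.p.Prime := ⟨P.pp⟩
  haveI : NeZero P.p := ⟨P.pp.ne_zero⟩
  haveI := FreyTorsion.finite_torsion P
  obtain ⟨N, hstab, hbot, htop, hcof⟩ := h
  obtain ⟨hN1, -⟩ := Fermat.Agent.DivPoly.Count.finrank_eq_of_proper
    (FreyTorsion.finrank_torsion_le_two P) N hbot htop
  obtain ⟨r₀, hr₀N, hr₀⟩ := (Submodule.ne_bot_iff N).mp hbot
  have hgen : ∀ x ∈ N, ∃ c : ZMod P.p, c • r₀ = x := by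
    intro x hx
    have hnz : (⟨r₀, hr₀N⟩ : N) ≠ 0 := fun h0 => hr₀ (congrArg Subtype.val h0)
    obtain ⟨c, hc⟩ := (finrank_eq_one_iff_of_nonzero' (⟨r₀, hr₀N⟩ : N) hnz).mp hN1 ⟨x, hx⟩
    exact ⟨c, congrArg Subtype.val hc⟩
  obtain ⟨p₀, hp₀⟩ : ∃ p₀, p₀ ∉ N := by
    by_contra hall
    push Not at hall
    exact htop (eq_top_iff.mpr fun x _ => hall x)
  have hval : ∀ (c : ZMod P.p) (x : Submodule.torsionBy ℤ (P.freyCurve⁄Qb).Point P.p),
      c • x = c.val • x := by
    intro c x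
    conv_lhs => rw [← ZMod.natCast_zmod_val c]
    exact Nat.cast_smul_eq_nsmul (ZMod P.p) c.val x
  have hmul : ∀ x ∈ N, (x : (P.freyCurve⁄Qb).Point) ∈
      AddSubgroup.zmultiples (r₀ : (P.freyCurve⁄Qb).Point) := by
    intro x hx
    obtain ⟨c, hc⟩ := hgen x hx
    rw [← hc, hval]
    refine AddSubgroup.mem_zmultiples_iff.mpr ⟨(c.val : ℤ), ?_⟩
    rw [natCast_zsmul]
    rfl
  have hord : addOrderOf (r₀ : (P.freyCurve⁄Qb).Point) = P.p := by
    refine addOrderOf_eq_prime ?_ ?_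
    · have := r₀.2
      rw [Submodule.mem_torsionBy_iff] at this
      rwa [Nat.cast_smul_eq_nsmul] at this
    · exact fun h0 => hr₀ (Subtype.ext h0)
  refine ⟨(r₀ : (P.freyCurve⁄Qb).Point), (p₀ : (P.freyCurve⁄Qb).Point), hord, ?_, ?_, ?_, ?_, ?_⟩
  · have := p₀.2
    rw [Submodule.mem_torsionBy_iff] at this
    rwa [Nat.cast_smul_eq_nsmul] at this
  · intro hmem
    obtain ⟨k, hk⟩ := AddSubgroup.mem_zmultiples_iff.mp hmem
    apply hp₀
    have : p₀ = k • r₀ := Subtype.ext (by rw [← hk]; rfl)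
    rw [this]
    exact N.toAddSubgroup.zsmul_mem hr₀N k
  · intro σ
    exact hmul (σ • r₀) (hstab σ r₀ hr₀N)
  · intro σ
    exact hmul (σ • p₀ - p₀) (hcof σ p₀)
  · intro A hA k hk
    obtain ⟨hk1, hkp⟩ := Finset.mem_Ico.mp hk
    have hkN : k • r₀ ∈ N := N.toAddSubgroup.nsmul_mem hr₀N k
    have hk0 : k • r₀ ≠ 0 := by
      intro h0
      have h1 : k • (r₀ : (P.freyCurve⁄Qb).Point) = 0 := by
        have := congrArg Subtype.val h0
        simpa using this
      have : k < addOrderOf (r₀ : (P.freyCurve⁄Qb).Point) := by rw [hord]; exact hkp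
      exact nsmul_ne_zero_of_lt_addOrderOf (by omega) this h1
    have := xOf_notMem_of_mem_V1 P (line_le_V1 P N hstab hbot htop hcof A hA hkN) hk0
    simpa using this

/-- **K0 + AT-P in the shape of the frozen S15** (points of the base change of the integral Frey
model). -/
theorem exists_points_int (P : FreyPackage)
    (h : HasGaloisStableCofixedLine (K := Qb) ℚ P.freyCurve P.p) :
    ∃ R₀ P₀ : ((P.freyCurveInt.map (Int.castRingHom ℚ))⁄Qb).Point,
      addOrderOf R₀ = P.p ∧ P.p • P₀ = 0 ∧ P₀ ∉ AddSubgroup.zmultiples R₀ ∧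
      (∀ σ : Qb ≃ₐ[ℚ] Qb, σ • R₀ ∈ AddSubgroup.zmultiples R₀) ∧
      (∀ σ : Qb ≃ₐ[ℚ] Qb, σ • P₀ - P₀ ∈ AddSubgroup.zmultiples R₀) ∧
      ∀ A : ValuationSubring Qb, A.LiesOverPrime P.p →
        ∀ k ∈ Finset.Ico 1 P.p, xOf (k • R₀) ∉ A := by
  rw [Fermat.Agent.Frey.IntModel.map_freyCurveInt P]
  exact exists_points P h

end Fermat.Agent.MAZ.S12.AtP57
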