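/-
Program MAZ-S12 (S12 from S15), brick K1e = DICT, part 0 (helper33): generalities.

* `sum_Ico_reflect_two` : `∑_{k=1}^{2m} g k = 2 • ∑_{k=1}^{m} g k` for `g (2m+1-k) = g k`
  (half sums: Vélu's `t`, `w` are sums over `(N ∖ 0)/±`, valid in residue characteristic `2`);
* `veluCurve_map`, `veluCurve_zero_zero` : Vélu's curve commutes with ring maps;
* `exists_nsmul_add_nsmul` : a group with at most `p²` points killed by `p` and two independent such
  points: every point killed by `p` is a combination of the two;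
* `residue_eq_node` : at a multiplicative prime, a point outside the zero component reduces to the
  node `(x₀, y₀)` of the special fibre; `valuation_sub_lt_one_of_not_inZero` : two such points have
  congruent coordinates.
-/
import Mathlib
import Fermat.Agent.MAZ.Local.ZeroTors28
import Fermat.Agent.MAZ.Analytic.QuotIsog32

set_option autoImplicit false
set_option linter.unusedSectionVars false

open WeierstrassCurve WeierstrassCurve.Affine

namespace Fermat.Agent.MAZ.S12.DictBase33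

open Fermat.Agent.ES.Q58.Red39 Fermat.Agent.ES.Q58.NodeCount15
open Fermat.Agent.MAZ.Local.ZeroTors28 Fermat.Agent.MAZ.Local.ZeroComp28
open Fermat.Agent.MAZ.Analytic.QuotIsog32

local notation "Qbar" => AlgebraicClosure ℚ

/-! ### 0. Half sums -/

/-- `∑_{k=1}^{2m} g k = 2 • ∑_{k=1}^{m} g k` when `g (2m+1-k) = g k`. -/
theorem sum_Ico_reflect_two {M : Type*} [AddCommMonoid M] (m : ℕ) (g : ℕ → M)
    (hg : ∀ k, 1 ≤ k → k ≤ m → g (2 * m + 1 - k) = g k) :
    ∑ k ∈ Finset.Ico 1 (2 * m + 1), g k = 2 • ∑ k ∈ Finset.Ico 1 (m + 1), g k := by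
  have hsplit : ∑ k ∈ Finset.Ico 1 (2 * m + 1), g k =
      ∑ k ∈ Finset.Ico 1 (m + 1), g k + ∑ k ∈ Finset.Ico (m + 1) (2 * m + 1), g k :=
    (Finset.sum_Ico_consecutive _ (by omega) (by omega)).symm
  have hrefl : ∑ k ∈ Finset.Ico (m + 1) (2 * m + 1), g k = ∑ k ∈ Finset.Ico 1 (m + 1), g k := by
    have h1 := Finset.sum_Ico_reflect (fun j => g j) 1 (m := m + 1) (n := 2 * m + 1) (by omega)
    have e1 : 2 * m + 1 + 1 - (m + 1) = m + 1 := by omega
    have e2 : 2 * m + 1 + 1 - 1 = 2 * m + 1 := by omega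
    rw [e1, e2] at h1
    rw [← h1]
    apply Finset.sum_congr rfl
    intro k hk
    rw [Finset.mem_Ico] at hk
    exact hg k hk.1 (by omega)
  rw [hsplit, hrefl, two_nsmul]

/-! ### 1. Vélu's curve and ring maps -/

section Map

variable {R S : Type*} [CommRing R] [CommRing S]

theorem veluCurve_map (f : R →+* S) (W : WeierstrassCurve R) (t w : R) :
    (veluCurve W t w).map f = veluCurve (W.map f) (f t) (f w) := by
  ext
  · simp
  · simp
  · simp
  · simp [map_sub, map_mul, map_ofNat]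
  · simp [map_sub, map_mul, map_ofNat]

theorem veluCurve_zero_zero (W : WeierstrassCurve R) : veluCurve W 0 0 = W := by
  ext <;> simp

end Map

/-! ### 2. Counting -/

/-- If at most `p²` points of an additive commutative group are killed by `p`, and `P₁`, `R₀` are two
such points with `R₀` of order `p` and `P₁ ∉ ⟨R₀⟩`, then every point killed by `p` is of the form
`a • P₁ + b • R₀`. -/
theorem exists_nsmul_add_nsmul {G : Type*} [AddCommGroup G] {p : ℕ} (hp : p.Prime)
    (hfin : {P : G | p • P = 0}.Finite) (hcard : {P : G | p • P = 0}.ncard ≤ p ^ 2)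
    {P₁ R₀ : G} (hP₁ : p • P₁ = 0) (hR₀ : addOrderOf R₀ = p)
    (hind : P₁ ∉ AddSubgroup.zmultiples R₀) {P : G} (hP : p • P = 0) :
    ∃ a b : ℕ, P = a • P₁ + b • R₀ := by
  classical
  have hpR₀ : p • R₀ = 0 := by rw [← hR₀]; exact addOrderOf_nsmul_eq_zero R₀
  have key : ∀ d : ℕ, 0 < d → d < p → d • P₁ ∉ AddSubgroup.zmultiples R₀ := by
    intro d hd0 hdp hmem
    have hcop : Nat.Coprime d p :=
      Nat.Coprime.symm ((Nat.Prime.coprime_iff_not_dvd hp).mpr (Nat.not_dvd_of_pos_of_lt hd0 hdp))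
    obtain ⟨j, -, hj⟩ := Nat.exists_mul_mod_eq_one_of_coprime hcop hp.one_lt
    have e : j • (d • P₁) = P₁ := by
      rw [← mul_smul, mul_comm, ← Nat.div_add_mod (d * j) p, hj, add_smul, mul_comm p, mul_smul,
        hP₁, nsmul_zero, zero_add, one_smul]
    exact hind (e ▸ AddSubgroup.nsmul_mem _ hmem j)
  have key2 : ∀ a a' b b' : ℕ, a < a' → a' < p →
      a • P₁ + b • R₀ = a' • P₁ + b' • R₀ → False := by
    intro a a' b b' haa ha' h
    apply key (a' - a) (by omega) (by omega)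
    have e1 : a' • P₁ = (a' - a) • P₁ + a • P₁ := by
      rw [← add_nsmul]; congr 1; omega
    have e2 : (a' - a) • P₁ = b • R₀ - b' • R₀ := by
      calc (a' - a) • P₁ = ((a' - a) • P₁ + a • P₁ + b' • R₀) - a • P₁ - b' • R₀ := by abel
        _ = (a • P₁ + b • R₀) - a • P₁ - b' • R₀ := by rw [h, e1]
        _ = b • R₀ - b' • R₀ := by abel
    rw [e2]
    exact AddSubgroup.sub_mem _ (AddSubgroup.nsmul_mem_zmultiples R₀ b)
      (AddSubgroup.nsmul_mem_zmultiples R₀ b')
  let f : Fin p × Fin p → G := fun ab => (ab.1 : ℕ) • P₁ + (ab.2 : ℕ) • R₀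
  have hf : Function.Injective f := by
    rintro ⟨a, b⟩ ⟨a', b'⟩ h
    simp only [f] at h
    have haa : (a : ℕ) = a' := by
      by_contra hne
      rcases Nat.lt_or_gt_of_ne hne with hlt | hlt
      · exact key2 a a' b b' hlt a'.2 h
      · exact key2 a' a b' b hlt a.2 h.symm
    rw [haa] at h
    have hbb : (b : ℕ) • R₀ = (b' : ℕ) • R₀ := add_left_cancel h
    have hbb' : (b : ℕ) = b' := by
      have := nsmul_injOn_Iio_addOrderOf (x := R₀)
      rw [hR₀] at this
      exact this (by simp) (by simp) hbb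
    exact Prod.ext (Fin.ext haa) (Fin.ext hbb')
  have himg : Set.range f ⊆ {P : G | p • P = 0} := by
    rintro _ ⟨⟨a, b⟩, rfl⟩
    show p • ((a : ℕ) • P₁ + (b : ℕ) • R₀) = 0
    rw [smul_add, smul_comm p (a : ℕ) P₁, smul_comm p (b : ℕ) R₀, hP₁, hpR₀, nsmul_zero,
      nsmul_zero, add_zero]
  have hc : (Set.range f).ncard = p ^ 2 := by
    rw [← Set.image_univ, Set.ncard_image_of_injective _ hf, Set.ncard_univ, Nat.card_prod,
      Nat.card_fin, sq]
  have heq : Set.range f = {P : G | p • P = 0} :=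
    Set.eq_of_subset_of_ncard_le himg (by rw [hc]; exact hcard) hfin
  have hPmem : P ∈ Set.range f := by rw [heq]; exact hP
  obtain ⟨⟨a, b⟩, rfl⟩ := hPmem
  exact ⟨a, b, rfl⟩

/-! ### 3. Points outside the zero component reduce to the node -/

section Node

variable {W : WeierstrassCurve ℤ} {A : ValuationSubring Qbar} {ℓ : ℕ}

/-- **A point outside the zero component reduces to the node** of the special fibre. -/
theorem residue_eq_node (hℓ : ℓ.Prime) (hA : A.LiesOverPrime ℓ) (hℓΔ : (ℓ : ℤ) ∣ W.Δ)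
    (hℓc₄ : ¬ (ℓ : ℤ) ∣ W.c₄) {x y : Qbar} (h : (Eg W).Nonsingular x y)
    (hT : ¬ W.InZeroComponentAt A (Point.some x y h)) :
    ∃ (hx : x ∈ A) (hy : y ∈ A),
      IsLocalRing.residue A ⟨x, hx⟩ = x₀ (Ek W A) ∧ IsLocalRing.residue A ⟨y, hy⟩ = y₀ (Ek W A) := by
  classical
  have hΔκ := Ek_Δ_eq_zero hℓ hA hℓΔ
  have hcκ := Ek_c₄_ne_zero hℓ hA hℓc₄
  have hx : x ∈ A := by
    by_contra hx
    exact hT (Or.inr ⟨x, y, h, rfl, Or.inl hx⟩)
  have hy : y ∈ A := mem_of_mem (isModel W A) h.1 hx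
  have hns : ¬ (Ek W A).Nonsingular (IsLocalRing.residue A ⟨x, hx⟩)
      (IsLocalRing.residue A ⟨y, hy⟩) := fun hns =>
    hT (Or.inr ⟨x, y, h, rfl, Or.inr ⟨hx, hy, hns⟩⟩)
  have heq : (Ek W A).Equation (IsLocalRing.residue A ⟨x, hx⟩) (IsLocalRing.residue A ⟨y, hy⟩) :=
    equation_residue (isModel W A) (a := ⟨x, hx⟩) (b := ⟨y, hy⟩) h.1
  set ξ := IsLocalRing.residue A ⟨x, hx⟩ - x₀ (Ek W A) with hξ
  set η := IsLocalRing.residue A ⟨y, hy⟩ - y₀ (Ek W A) with hη
  have ex : IsLocalRing.residue A ⟨x, hx⟩ = x₀ (Ek W A) + ξ := by rw [hξ]; ring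
  have ey : IsLocalRing.residue A ⟨y, hy⟩ = y₀ (Ek W A) + η := by rw [hη]; ring
  rw [ex, ey] at heq hns
  have heq' := (equation_iff_node hΔκ hcκ ξ η).mp heq
  have hξ0 : ξ = 0 := by
    by_contra hne
    exact hns ((nonsingular_iff_node hΔκ hcκ ξ η).mpr ⟨heq', hne⟩)
  have hη0 : η = 0 := by
    rw [hξ0] at heq'
    have : η ^ 2 = 0 := by linear_combination heq'
    exact pow_eq_zero_iff (two_ne_zero) |>.mp this
  refine ⟨hx, hy, ?_, ?_⟩
  · rw [ex, hξ0, add_zero]
  · rw [ey, hη0, add_zero]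

/-- Two elements of `A` with the same residue are congruent modulo the maximal ideal. -/
theorem valuation_sub_lt_one_of_residue_eq {a b : A}
    (h : IsLocalRing.residue A a = IsLocalRing.residue A b) :
    A.valuation ((a : Qbar) - (b : Qbar)) < 1 := by
  have h0 : IsLocalRing.residue A (a - b) = 0 := by rw [map_sub, h, sub_self]
  rw [IsLocalRing.residue_eq_zero_iff, A.valuation_lt_one_iff] at h0
  exact h0

end Node

end Fermat.Agent.MAZ.S12.DictBase33
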