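/-
Program MAZ-S12 (S12 from S15), brick K1e = DICT, part 1 (helper33):
**existence of a point of order `p` in the zero component at a multiplicative prime `ℓ ≠ p`.**

`W` an integral Weierstrass model with `W.Δ ≠ 0`, `ℓ ∣ Δ`, `ℓ ∤ c₄`, `A` a valuation subring of `ℚ̄`
over `ℓ`, `p ≠ ℓ` an odd prime.  Then there is a point `P₁ ≠ 0` of `E(ℚ̄)` with `p • P₁ = 0` which has a
(nonsingular) reduction on the special fibre.

Proof: the reduction of `preΨ'_p` is `preΨ'_p` of the nodal special fibre, which has `(p-1)/2 ≥ 1`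
roots different from the `x`-coordinate of the node (`RootMatch2.nodal_match`); such a root lifts to a
root `a ∈ A` of `preΨ'_p(W)` (`LiftTorsion29.exists_root_lift`, the leading coefficient `p` is a unit),
and a point of the special fibre whose `x`-coordinate is not that of the node is nonsingular.
-/
import Mathlib
import Fermat.Agent.MAZ.S12.DictBase33
import Fermat.Agent.MAZ.Moduli.RootMatch2

set_option autoImplicit false
set_option linter.unusedSectionVars false

open WeierstrassCurve WeierstrassCurve.Affine Polynomial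

namespace Fermat.Agent.MAZ.S12.DictExists33

open Fermat.Agent.ES.Q58.Red39 Fermat.Agent.ES.Q58.NodeCount15
open Fermat.Agent.MAZ.Local.ZeroTors28 Fermat.Agent.MAZ.Local.ZeroComp28
open Fermat.Agent.MAZ.S12.DictBase33 Fermat.Agent.DivPoly

local notation "Qbar" => AlgebraicClosure ℚ

variable {W : WeierstrassCurve ℤ} {A : ValuationSubring Qbar} {p ℓ : ℕ}

/-- On a nodal cubic over an algebraically closed field, `preΨ'_p` (`p` odd, `p ≠ 0` in the field) has
a root different from the `x`-coordinate of the node. -/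
theorem exists_root_ne_node {κ : Type*} [Field κ] [IsAlgClosed κ] (V : WeierstrassCurve κ)
    (hΔ : V.Δ = 0) (hc : V.c₄ ≠ 0) (m : ℕ) (hm : 1 ≤ m) (hpκ : ((2 * m + 1 : ℕ) : κ) ≠ 0) :
    ∃ ξ : κ, ξ ≠ x₀ V ∧ (V.preΨ' (2 * m + 1)).eval ξ = 0 := by
  classical
  set f := V.preΨ' (2 * m + 1) with hf
  have hodd : ¬ Even (2 * m + 1) := by
    rw [Nat.not_even_iff_odd]; exact ⟨m, rfl⟩
  have hlead : f.leadingCoeff = ((2 * m + 1 : ℕ) : κ) := by
    rw [hf, V.leadingCoeff_preΨ' hpκ, if_neg hodd]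
  have hT : f = C ((2 * m + 1 : ℕ) : κ) * (f.roots.map (fun x => X - C x)).prod := by
    have := (IsAlgClosed.splits f).eq_prod_roots
    rw [hlead] at this
    exact this
  obtain ⟨h1, -, -⟩ := Fermat.Agent.MAZ.Moduli.RootMatch2.nodal_match V (x₀ V) (y₀ V)
    (node_fy hc) (node_fx hΔ hc) (node_f hΔ hc) hc m hpκ f.roots hT
  have hpos : 0 < (f.roots.filter (fun x => ¬ x = x₀ V)).card := by rw [h1]; exact hm
  obtain ⟨ξ, hξ⟩ := Multiset.card_pos_iff_exists_mem.mp hpos
  rw [Multiset.mem_filter] at hξ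
  have hf0 : f ≠ 0 := by
    intro h0
    rw [h0, leadingCoeff_zero] at hlead
    exact hpκ hlead.symm
  exact ⟨ξ, hξ.2, (mem_roots hf0).mp hξ.1⟩

/-- A point of a nodal cubic whose `x`-coordinate is not that of the node is nonsingular. -/
theorem nonsingular_of_ne_node {κ : Type*} [Field κ] (V : WeierstrassCurve κ)
    (hΔ : V.Δ = 0) (hc : V.c₄ ≠ 0) {x y : κ} (h : V.toAffine.Equation x y) (hx : x ≠ x₀ V) :
    V.toAffine.Nonsingular x y := by
  have ex : x = x₀ V + (x - x₀ V) := by ring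
  have ey : y = y₀ V + (y - y₀ V) := by ring
  rw [ex, ey] at h ⊢
  exact (nonsingular_iff_node hΔ hc _ _).mpr
    ⟨(equation_iff_node hΔ hc _ _).mp h, sub_ne_zero.mpr hx⟩

/-- **Existence of a point of order `p` in the zero component** at a multiplicative prime `ℓ ≠ p`. -/
theorem exists_torsion_red (hp : p.Prime) (hp2 : p ≠ 2) (hℓ : ℓ.Prime) (hℓp : ℓ ≠ p)
    (hA : A.LiesOverPrime ℓ) (hΔ0 : W.Δ ≠ 0) (hℓΔ : (ℓ : ℤ) ∣ W.Δ) (hℓc₄ : ¬ (ℓ : ℤ) ∣ W.c₄)
    [DecidableEq (IsLocalRing.ResidueField A)] :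
    ∃ (P₁ : (Eg W).Point) (R₁ : (Ek W A).Point), P₁ ≠ 0 ∧ p • P₁ = 0 ∧
      Red A (Eg W) (Ek W A) P₁ R₁ := by
  have hκ : IsAlgClosed (IsLocalRing.ResidueField A) :=
    Fermat.Agent.ES.Q58.InertiaMult88.isAlgClosed_residue A
  have hchar : CharP (IsLocalRing.ResidueField A) ℓ :=
    Fermat.Agent.ES.EC.LiftTorsion29.charP_residueField A hℓ hA
  have hΔκ := Ek_Δ_eq_zero hℓ hA hℓΔ
  have hcκ := Ek_c₄_ne_zero hℓ hA hℓc₄
  have hodd : Odd p := hp.odd_of_ne_two hp2
  obtain ⟨m, hm⟩ := hodd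
  have hodd : Odd p := ⟨m, hm⟩
  have hm1 : 1 ≤ m := by
    have := hp.two_le
    rcases Nat.eq_zero_or_pos m with h0 | h0
    · subst h0; omega
    · exact h0
  have hℓp' : ¬ ℓ ∣ p := fun h => hℓp ((Nat.prime_dvd_prime_iff_eq hℓ hp).mp h)
  have hpκ : ((p : ℕ) : IsLocalRing.ResidueField A) ≠ 0 := fun h0 =>
    hℓp' ((CharP.cast_eq_zero_iff (IsLocalRing.ResidueField A) ℓ p).mp h0)
  have hvp : A.valuation ((p : ℕ) : Qbar) = 1 := valuation_prime_eq_one hp hℓ hℓp hA
  -- a root of the reduced division polynomial off the node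
  obtain ⟨ξ, hξne, hξ⟩ := exists_root_ne_node (Ek W A) hΔκ hcκ m hm1 (by rw [← hm]; exact hpκ)
  rw [← hm] at hξ
  -- lift it
  set WA : WeierstrassCurve A := W.map (Int.castRingHom A) with hWA
  have hsp : Ek W A = WA.map (IsLocalRing.residue A) := sp_eq' W A
  have hgen : Eg W = WA.map A.subtype := gen_eq W A
  have hmapres : (WA.preΨ' p).map (IsLocalRing.residue A) = (Ek W A).preΨ' p := by
    rw [hsp]
    exact (map_preΨ' (W := WA) (f := IsLocalRing.residue A) p).symm
  have hroot : ((WA.preΨ' p).map (IsLocalRing.residue A)).IsRoot ξ := by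
    rw [hmapres]; exact hξ
  have hpA : ((p : ℕ) : A) ≠ 0 := by
    intro h0
    have : ((p : ℕ) : Qbar) = 0 := by
      have := congrArg (A.subtype) h0
      simpa using this
    exact hp.ne_zero (Nat.cast_eq_zero.mp this)
  have hpu : IsUnit ((p : ℕ) : A) := by
    have h1 : A.valuation (((p : ℕ) : A) : Qbar) = 1 := by
      have : (((p : ℕ) : A) : Qbar) = ((p : ℕ) : Qbar) := by simp
      rw [this]; exact hvp
    exact (A.valuation_eq_one_iff _).mpr h1
  have hlc : IsUnit (WA.preΨ' p).leadingCoeff := by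
    rw [WA.leadingCoeff_preΨ' hpA, if_neg (Nat.not_even_iff_odd.mpr hodd)]
    exact hpu
  obtain ⟨a, ha, hat⟩ := Fermat.Agent.ES.EC.LiftTorsion29.exists_root_lift A _ hlc ξ hroot
  -- the `y`-coordinate
  have hΔ : (Eg W).Δ ≠ 0 := by
    show ((W.map (Int.castRingHom ℚ)).map (algebraMap ℚ Qbar)).Δ ≠ 0
    rw [map_Δ, map_Δ]
    simpa using hΔ0
  obtain ⟨y, hy⟩ : ∃ y : Qbar, (Eg W).Equation (a : Qbar) y := by
    set c1 : Qbar := (Eg W).a₁ * (a : Qbar) + (Eg W).a₃ with hc1
    set c0 : Qbar := (a : Qbar) ^ 3 + (Eg W).a₂ * (a : Qbar) ^ 2 + (Eg W).a₄ * (a : Qbar)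
      + (Eg W).a₆ with hc0
    have hdeg : (X ^ 2 + C c1 * X - C c0 : Qbar[X]).degree ≠ 0 := by
      have : (X ^ 2 + C c1 * X - C c0 : Qbar[X]).degree = 2 := by
        rw [sub_eq_add_neg, ← C_neg, add_assoc]
        compute_degree!
      rw [this]; norm_num
    obtain ⟨y, hy⟩ := IsAlgClosed.exists_root _ hdeg
    refine ⟨y, ?_⟩
    rw [Affine.equation_iff]
    have hy' : y ^ 2 + c1 * y - c0 = 0 := by simpa [IsRoot.def] using hy
    rw [hc1, hc0] at hy'
    linear_combination hy'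
  have hns : (Eg W).Nonsingular (a : Qbar) y :=
    (equation_iff_nonsingular_of_Δ_ne_zero hΔ).mp hy
  have hyA : y ∈ A := mem_of_mem (isModel W A) hy a.2
  -- `p`-torsion
  have hpP : p • (Point.some (a : Qbar) y hns : (Eg W).Point) = 0 := by
    rw [A1Final.nsmul_eq_zero_iff_preΨ' hns hodd]
    have e : (Eg W).preΨ' p = (WA.preΨ' p).map A.subtype := by
      rw [hgen]
      exact map_preΨ' (W := WA) (f := A.subtype) p
    rw [e]
    have h3 := Fermat.Agent.ES.EC.LiftTorsion29.eval_map_apply' A.subtype (WA.preΨ' p) a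
    rw [ha, map_zero] at h3
    exact h3
  -- the reduction
  have heqκ : (Ek W A).Equation (IsLocalRing.residue A a) (IsLocalRing.residue A ⟨y, hyA⟩) :=
    equation_residue (isModel W A) (a := a) (b := ⟨y, hyA⟩) hy
  have hnsκ : (Ek W A).Nonsingular (IsLocalRing.residue A a) (IsLocalRing.residue A ⟨y, hyA⟩) :=
    nonsingular_of_ne_node (Ek W A) hΔκ hcκ heqκ (by rw [hat]; exact hξne)
  exact ⟨Point.some _ _ hns, Point.some _ _ hnsκ, Point.some_ne_zero hns, hpP,
    red_some (a := a) (b := ⟨y, hyA⟩) hns hnsκ⟩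

end Fermat.Agent.MAZ.S12.DictExists33
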