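/-
Program MAZ-S12 (S12 from S15), brick K1e = DICT (helper33): the local dictionary between `E` and
Vélu's quotient `E' = E/⟨R₀⟩` at a prime `ℓ ≠ p`.

SETTING.  `W` an integral Weierstrass model, `E = Eg W = (W.map (Int.castRingHom ℚ))⁄ℚ̄`, `A` a valuation
subring of `ℚ̄` over a prime `ℓ ≠ p`, `p` an odd prime, `R₀ ∈ E(ℚ̄)` of order `p`, `tN wN : ℚ̄` Vélu's
parameters in the shape of `QuotIsogMain32.exists_quotIsog`:
  `2 tN = ∑_{k=1}^{p-1} t(k•R₀)`,  `2 wN = ∑_{k=1}^{p-1} wPoly(x(k•R₀))`,   `E' = veluCurve E tN wN`.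

RESULTS.
* `tN_eq_half`, `wN_eq_half` : `tN`, `wN` are the HALF sums over `1 ≤ k ≤ (p-1)/2` (so no division by `2`:
  everything below is valid for `ℓ = 2`); `tN_mem`, `wN_mem` : `tN, wN ∈ A`;
* NODE CASE (`ℓ ∣ Δ`, `ℓ ∤ c₄`, `R₀ ∉ E₀` at `A`): `tN_wN_lt_one` : `v(tN) < 1`, `v(wN) < 1`;
  `isModel_velu_node` : `veluModel W A tN wN` is an `A`-model of `E'` with special fibre the special fibre
  of `W` ; `velu_coeff_node` : `v(Δ') < 1`, `v(c₄') = 1`;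
* **`dict`** (NODE CASE): for a quotient map `φ : E →+ E'` with kernel `⟨R₀⟩` and Vélu's `x`-formula
  (the literal outputs of `exists_quotIsog` / of brick K1b), EVERY `φ P`, `p • P = 0`, has a nonsingular
  reduction on the `A`-model of `E'`;  `dict'` : contrapositive form;
* TORIC CASE (`R₀ ∈ E₀`): `velu_c₄_toric` : `v(c₄') = 1` ; `velu_Δ_toric` : `v(Δ') < 1` from the
  `Δ`-identity `Δ' Π⁴ = Δ^p`;  GOOD CASE (`ℓ ∤ Δ`): `velu_Δ_good` : `v(Δ') = 1`.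
-/
import Mathlib
import Fermat.Agent.MAZ.S12.DictExists33
import Fermat.Agent.MAZ.Local.ModLocUnit2
import Fermat.Agent.MAZ.Analytic.Global42

set_option autoImplicit false
set_option linter.unusedSectionVars false

open WeierstrassCurve WeierstrassCurve.Affine

namespace Fermat.Agent.MAZ.S12.Dict33

open Fermat.Agent.ES.Q58.Red39 Fermat.Agent.ES.Q58.NodeCount15
open Fermat.Agent.MAZ.Local.ZeroTors28 Fermat.Agent.MAZ.Local.ZeroComp28
open Fermat.Agent.MAZ.S12.DictBase33 Fermat.Agent.MAZ.S12.DictExists33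
open Fermat.Agent.MAZ.Analytic.GlobalDefs42 Fermat.Agent.MAZ.Analytic.QuotIsog32
open Fermat.Agent.DivPoly

local notation "Qbar" => AlgebraicClosure ℚ

variable {W : WeierstrassCurve ℤ} {A : ValuationSubring Qbar} {p ℓ : ℕ}

/-! ### A. Integrality of coefficients and of torsion points -/

theorem coeff_mem (W : WeierstrassCurve ℤ) (A : ValuationSubring Qbar) :
    (Eg W).a₁ ∈ A ∧ (Eg W).a₂ ∈ A ∧ (Eg W).a₃ ∈ A ∧ (Eg W).a₄ ∈ A ∧ (Eg W).a₆ ∈ A ∧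
      (Eg W).b₂ ∈ A ∧ (Eg W).b₄ ∈ A ∧ (Eg W).b₆ ∈ A := by
  have h : Eg W = (W.map (Int.castRingHom A)).map A.subtype := gen_eq W A
  rw [h]
  simp only [map_a₁, map_a₂, map_a₃, map_a₄, map_a₆, map_b₂, map_b₄, map_b₆]
  have key : ∀ x : A, A.subtype x ∈ A := fun x => x.2
  exact ⟨key _, key _, key _, key _, key _, key _, key _, key _⟩

theorem xOf_neg (E : Affine Qbar) (P : E.Point) : xOf E (-P) = xOf E P := by
  rcases P with _ | ⟨x, y, h⟩ <;> rfl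

theorem tOf_eq_tPoly (E : Affine Qbar) (P : E.Point) : tOf E P = tPoly E (xOf E P) := rfl

/-- The `x`-coordinate of a point killed by `p` (`v(p) = 1`) is integral. -/
theorem xOf_mem (hvp : A.valuation ((p : ℕ) : Qbar) = 1) {T : (Eg W).Point} (hT : p • T = 0) :
    xOf (Eg W) T ∈ A := by
  classical
  rcases T with _ | ⟨x, y, h⟩
  · exact A.zero_mem
  · exact (mem_of_nsmul_eq_zero (isModel W A) hvp h hT).1

theorem tPoly_mem {x : Qbar} (hx : x ∈ A) : tPoly (Eg W) x ∈ A := by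
  obtain ⟨-, -, -, -, -, hb₂, hb₄, -⟩ := coeff_mem W A
  unfold tPoly
  exact A.add_mem _ _ (A.add_mem _ _ (A.mul_mem _ _ (ofNat_mem A 6)
    (pow_mem hx 2)) (A.mul_mem _ _ hb₂ hx)) hb₄

theorem wPoly_mem {x : Qbar} (hx : x ∈ A) : wPoly (Eg W) x ∈ A := by
  obtain ⟨-, -, -, -, -, hb₂, hb₄, hb₆⟩ := coeff_mem W A
  unfold wPoly
  refine A.add_mem _ _ (A.add_mem _ _ (A.add_mem _ _ (A.mul_mem _ _ ?_ (pow_mem hx 3))
    (A.mul_mem _ _ (A.mul_mem _ _ ?_ hb₂) (pow_mem hx 2))) (A.mul_mem _ _ (A.mul_mem _ _ ?_ hb₄) hx))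
    hb₆
  · exact ofNat_mem A 10
  · exact ofNat_mem A 2
  · exact ofNat_mem A 3

/-! ### B. Half sums -/

section Half

variable {R₀ : (Eg W).Point} {m : ℕ}

theorem sum_xOf_half (hR₀ : (2 * m + 1) • R₀ = 0) (F : Qbar → Qbar) :
    ∑ k ∈ Finset.Ico 1 (2 * m + 1), F (xOf (Eg W) (k • R₀)) =
      2 * ∑ k ∈ Finset.Ico 1 (m + 1), F (xOf (Eg W) (k • R₀)) := by
  rw [sum_Ico_reflect_two m (fun k => F (xOf (Eg W) (k • R₀))), two_nsmul, two_mul]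
  intro k hk1 hkm
  have : (2 * m + 1 - k) • R₀ = -(k • R₀) := by
    rw [eq_neg_iff_add_eq_zero, ← add_nsmul]
    have : 2 * m + 1 - k + k = 2 * m + 1 := by omega
    rw [this, hR₀]
  show F (xOf (Eg W) ((2 * m + 1 - k) • R₀)) = F (xOf (Eg W) (k • R₀))
  rw [this, xOf_neg]

theorem tN_eq_half {tN : Qbar} (hR₀ : (2 * m + 1) • R₀ = 0)
    (ht : 2 * tN = ∑ k ∈ Finset.Ico 1 (2 * m + 1), tOf (Eg W) (k • R₀)) :
    tN = ∑ k ∈ Finset.Ico 1 (m + 1), tOf (Eg W) (k • R₀) := by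
  have h := sum_xOf_half (W := W) hR₀ (tPoly (Eg W))
  have h2 : (2 : Qbar) * tN = 2 * ∑ k ∈ Finset.Ico 1 (m + 1), tOf (Eg W) (k • R₀) := by
    rw [ht]; exact h
  exact mul_left_cancel₀ two_ne_zero h2

theorem wN_eq_half {wN : Qbar} (hR₀ : (2 * m + 1) • R₀ = 0)
    (hw : 2 * wN = ∑ k ∈ Finset.Ico 1 (2 * m + 1), wPoly (Eg W) (xOf (Eg W) (k • R₀))) :
    wN = ∑ k ∈ Finset.Ico 1 (m + 1), wPoly (Eg W) (xOf (Eg W) (k • R₀)) := by
  have h := sum_xOf_half (W := W) hR₀ (wPoly (Eg W))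
  have h2 : (2 : Qbar) * wN = 2 * ∑ k ∈ Finset.Ico 1 (m + 1), wPoly (Eg W) (xOf (Eg W) (k • R₀)) := by
    rw [hw]; exact h
  exact mul_left_cancel₀ two_ne_zero h2

end Half

/-! ### C. Vélu's parameters are integral; in the node case they lie in the maximal ideal -/

section Params

variable {R₀ : (Eg W).Point} {tN wN : Qbar}

theorem nsmul_nsmul_eq_zero {G : Type*} [AddCommGroup G] {R : G} {p : ℕ} (h : p • R = 0) (k : ℕ) :
    p • (k • R) = 0 := by rw [smul_comm, h, nsmul_zero]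

/-- `tN ∈ A` and `wN ∈ A` (any reduction type, `ℓ ≠ p`; valid for `ℓ = 2`). -/
theorem tN_wN_mem (hp : p.Prime) (hp2 : p ≠ 2) (hvp : A.valuation ((p : ℕ) : Qbar) = 1)
    (hR₀ : p • R₀ = 0)
    (ht : 2 * tN = ∑ k ∈ Finset.Ico 1 p, tOf (Eg W) (k • R₀))
    (hw : 2 * wN = ∑ k ∈ Finset.Ico 1 p, wPoly (Eg W) (xOf (Eg W) (k • R₀))) :
    tN ∈ A ∧ wN ∈ A := by
  obtain ⟨m, hm⟩ := hp.odd_of_ne_two hp2
  subst hm
  rw [tN_eq_half hR₀ ht, wN_eq_half hR₀ hw]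
  refine ⟨Subring.sum_mem A.toSubring fun k _ => ?_, Subring.sum_mem A.toSubring fun k _ => ?_⟩
  · exact tPoly_mem (xOf_mem hvp (nsmul_nsmul_eq_zero hR₀ k))
  · exact wPoly_mem (xOf_mem hvp (nsmul_nsmul_eq_zero hR₀ k))

/-- On the curve, `wPoly(x) = ψ₂² + x · t`. -/
theorem wPoly_eq_of_equation (E : Affine Qbar) {x y : Qbar} (h : E.Equation x y) :
    wPoly E x = (2 * y + E.a₁ * x + E.a₃) ^ 2 + x * (6 * x ^ 2 + E.b₂ * x + E.b₄) := by
  rw [Affine.equation_iff] at h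
  unfold wPoly
  simp only [WeierstrassCurve.b₂, WeierstrassCurve.b₄, WeierstrassCurve.b₆]
  linear_combination (-4 : Qbar) * h

/-- At a point outside the zero component, `t` and `wPoly(x)` lie in the maximal ideal. -/
theorem tOf_wPoly_lt_one_of_not_inZero {T : (Eg W).Point} (hT : ¬ W.InZeroComponentAt A T) :
    A.valuation (tOf (Eg W) T) < 1 ∧ A.valuation (wPoly (Eg W) (xOf (Eg W) T)) < 1 := by
  rcases T with _ | ⟨x, y, h⟩
  · exact absurd inZero_zero hT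
  · obtain ⟨hx, hy, h1, h2⟩ := node_of_not_inZero h hT
    refine ⟨h2, ?_⟩
    show A.valuation (wPoly (Eg W) x) < 1
    rw [wPoly_eq_of_equation (Eg W) h.1]
    apply Valuation.map_add_lt
    · rw [map_pow]
      exact pow_lt_one' h1 two_ne_zero
    · rw [map_mul]
      calc A.valuation x * A.valuation (6 * x ^ 2 + (Eg W).b₂ * x + (Eg W).b₄)
          ≤ 1 * A.valuation (6 * x ^ 2 + (Eg W).b₂ * x + (Eg W).b₄) :=
            mul_le_mul_left ((A.valuation_le_one_iff x).mpr hx) _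
        _ < 1 := by rw [one_mul]; exact h2

/-- **Node case**: `v(tN) < 1` and `v(wN) < 1`. -/
theorem tN_wN_lt_one (hp : p.Prime) (hp2 : p ≠ 2) (hvp : A.valuation ((p : ℕ) : Qbar) = 1)
    (hR₀ : p • R₀ = 0) (hnode : ¬ W.InZeroComponentAt A R₀)
    (ht : 2 * tN = ∑ k ∈ Finset.Ico 1 p, tOf (Eg W) (k • R₀))
    (hw : 2 * wN = ∑ k ∈ Finset.Ico 1 p, wPoly (Eg W) (xOf (Eg W) (k • R₀))) :
    A.valuation tN < 1 ∧ A.valuation wN < 1 := by
  obtain ⟨m, hm⟩ := hp.odd_of_ne_two hp2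
  have hk : ∀ k ∈ Finset.Ico 1 (m + 1), ¬ W.InZeroComponentAt A (k • R₀) := by
    intro k hk
    rw [Finset.mem_Ico] at hk
    refine not_inZero_nsmul hp hp2 hvp hR₀ hnode ?_
    exact Nat.not_dvd_of_pos_of_lt (by omega) (by omega)
  subst hm
  rw [tN_eq_half hR₀ ht, wN_eq_half hR₀ hw]
  exact ⟨Valuation.map_sum_lt _ one_ne_zero fun k hk' =>
      (tOf_wPoly_lt_one_of_not_inZero (hk k hk')).1,
    Valuation.map_sum_lt _ one_ne_zero fun k hk' =>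
      (tOf_wPoly_lt_one_of_not_inZero (hk k hk')).2⟩

end Params

/-! ### D. The `A`-model of Vélu's curve -/

section Model

/-- The `A`-model of Vélu's curve `veluCurve E tN wN` (for `tN, wN ∈ A`). -/
noncomputable def veluModel (W : WeierstrassCurve ℤ) (A : ValuationSubring Qbar) (tA wA : A) :
    WeierstrassCurve A :=
  veluCurve (W.map (Int.castRingHom A)) tA wA

variable [DecidableEq (IsLocalRing.ResidueField A)]

theorem genFib_veluModel (tA wA : A) :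
    genFib A (veluModel W A tA wA) = (veluCurve (Eg W) (tA : Qbar) (wA : Qbar)).toAffine := by
  show (veluCurve (W.map (Int.castRingHom A)) tA wA).map A.subtype = veluCurve (Eg W) _ _
  rw [veluCurve_map]
  have h : Eg W = (W.map (Int.castRingHom A)).map A.subtype := gen_eq W A
  rw [h]
  rfl

theorem spFib_veluModel_of_residue_eq_zero {tA wA : A} (ht : IsLocalRing.residue A tA = 0)
    (hw : IsLocalRing.residue A wA = 0) :
    spFib A (veluModel W A tA wA) = Ek W A := by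
  show (veluCurve (W.map (Int.castRingHom A)) tA wA).map (IsLocalRing.residue A) = Ek W A
  rw [veluCurve_map, ht, hw, veluCurve_zero_zero]
  exact (sp_eq' W A).symm

/-- **Node case**: the model of `E'` has the same special fibre as `W`. -/
theorem isModel_velu_node {tN wN : Qbar} (htA : tN ∈ A) (hwA : wN ∈ A)
    (ht : A.valuation tN < 1) (hw : A.valuation wN < 1) :
    IsModel A (veluModel W A ⟨tN, htA⟩ ⟨wN, hwA⟩) (veluCurve (Eg W) tN wN).toAffine (Ek W A) := by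
  refine ⟨(genFib_veluModel (W := W) ⟨tN, htA⟩ ⟨wN, hwA⟩).symm, ?_⟩
  refine (spFib_veluModel_of_residue_eq_zero ?_ ?_).symm
  · rw [IsLocalRing.residue_eq_zero_iff, A.valuation_lt_one_iff]; exact ht
  · rw [IsLocalRing.residue_eq_zero_iff, A.valuation_lt_one_iff]; exact hw

end Model

/-! ### E. The dictionary -/

section Dict

variable {R₀ : (Eg W).Point} {tN wN : Qbar}

/-- In a group, if `p • R = 0` (`p` prime) and `P ≠ 0` is a multiple of `R`, then `R` is a multiple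
of `P`. -/
theorem mem_zmultiples_symm {G : Type*} [AddCommGroup G] {p : ℕ} (hp : p.Prime) {R P : G}
    (hR : p • R = 0) (hP : P ≠ 0) (h : P ∈ AddSubgroup.zmultiples R) :
    R ∈ AddSubgroup.zmultiples P := by
  obtain ⟨k, rfl⟩ := AddSubgroup.mem_zmultiples_iff.mp h
  have hk : ¬ (p : ℤ) ∣ k := by
    rintro ⟨c, rfl⟩
    apply hP
    rw [mul_comm, mul_smul, natCast_zsmul, hR, smul_zero]
  have hcop : IsCoprime k (p : ℤ) :=
    (((Nat.prime_iff_prime_int.mp hp).irreducible.coprime_iff_not_dvd).mpr hk).symm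
  obtain ⟨u, v, huv⟩ := hcop
  refine AddSubgroup.mem_zmultiples_iff.mpr ⟨u, ?_⟩
  calc u • (k • R) = (u * k) • R := (mul_smul u k R).symm
    _ = (u * k + v * p) • R := by
        rw [add_smul, mul_smul v, natCast_zsmul, hR, smul_zero, add_zero]
    _ = R := by rw [huv, one_smul]

/-- A nonsingular point of a nodal cubic does not have the `x`-coordinate of the node. -/
theorem ne_node_of_nonsingular {κ : Type*} [Field κ] (V : WeierstrassCurve κ)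
    (hΔ : V.Δ = 0) (hc : V.c₄ ≠ 0) {x y : κ} (h : V.toAffine.Nonsingular x y) : x ≠ x₀ V := by
  intro hx
  have ex : x = x₀ V + 0 := by rw [hx, add_zero]
  have ey : y = y₀ V + (y - y₀ V) := by ring
  rw [ex, ey] at h
  exact ((nonsingular_iff_node hΔ hc _ _).mp h).2 rfl

/-- Two points outside the zero component have congruent `x`-coordinates. -/
theorem valuation_xOf_sub_lt_one (hℓ : ℓ.Prime) (hA : A.LiesOverPrime ℓ) (hℓΔ : (ℓ : ℤ) ∣ W.Δ)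
    (hℓc₄ : ¬ (ℓ : ℤ) ∣ W.c₄) {T T' : (Eg W).Point} (hT : ¬ W.InZeroComponentAt A T)
    (hT' : ¬ W.InZeroComponentAt A T') :
    A.valuation (xOf (Eg W) T - xOf (Eg W) T') < 1 := by
  rcases T with _ | ⟨x, y, h⟩
  · exact absurd inZero_zero hT
  rcases T' with _ | ⟨x', y', h'⟩
  · exact absurd inZero_zero hT'
  obtain ⟨hx, hy, h1, -⟩ := residue_eq_node hℓ hA hℓΔ hℓc₄ h hT
  obtain ⟨hx', hy', h1', -⟩ := residue_eq_node hℓ hA hℓΔ hℓc₄ h' hT'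
  exact valuation_sub_lt_one_of_residue_eq (a := ⟨x, hx⟩) (b := ⟨x', hx'⟩) (h1.trans h1'.symm)

/-- **DICT (node case).**  `ℓ ≠ p` a prime of multiplicative reduction of `W`, `A` over `ℓ`, `R₀` of
order `p` OUTSIDE the zero component at `A`, `tN, wN ∈ 𝔪_A` (automatic, see `dict_of_sums`), and
`φ : E →+ E' = veluCurve E tN wN` a homomorphism with kernel `⟨R₀⟩` satisfying Vélu's `x`-formula.
Then for every `P` with `p • P = 0` the point `φ P` has a (nonsingular) reduction on the `A`-model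
`veluModel W A tN wN` of `E'`, whose special fibre is that of `W`. -/
theorem dict (hp : p.Prime) (hp2 : p ≠ 2) (hℓ : ℓ.Prime) (hℓp : ℓ ≠ p) (hA : A.LiesOverPrime ℓ)
    (hΔ0 : W.Δ ≠ 0) (hℓΔ : (ℓ : ℤ) ∣ W.Δ) (hℓc₄ : ¬ (ℓ : ℤ) ∣ W.c₄)
    [DecidableEq (IsLocalRing.ResidueField A)]
    (hR₀ : addOrderOf R₀ = p) (hnode : ¬ W.InZeroComponentAt A R₀)
    (htA : tN ∈ A) (hwA : wN ∈ A) (ht : A.valuation tN < 1) (hw : A.valuation wN < 1)
    (φ : (Eg W).Point →+ (veluCurve (Eg W) tN wN).toAffine.Point)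
    (hker : φ.ker = AddSubgroup.zmultiples R₀)
    (hX : ∀ P, P ∉ φ.ker → xOf (veluCurve (Eg W) tN wN).toAffine (φ P) =
      xOf (Eg W) P + ∑ k ∈ Finset.Ico 1 p, (xOf (Eg W) (P + k • R₀) - xOf (Eg W) (k • R₀)))
    {P : (Eg W).Point} (hP : p • P = 0) :
    ∃ R : (Ek W A).Point, Red A (veluCurve (Eg W) tN wN).toAffine (Ek W A) (φ P) R := by
  have hvp := valuation_prime_eq_one hp hℓ hℓp hA
  have hodd : Odd p := hp.odd_of_ne_two hp2
  have hpR₀ : p • R₀ = 0 := by rw [← hR₀]; exact addOrderOf_nsmul_eq_zero R₀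
  have hΔκ := Ek_Δ_eq_zero hℓ hA hℓΔ
  have hcκ := Ek_c₄_ne_zero hℓ hA hℓc₄
  have hM' := isModel_velu_node (W := W) htA hwA ht hw
  obtain ⟨P₁, R₁, hP₁ne, hpP₁, hred₁⟩ := exists_torsion_red hp hp2 hℓ hℓp hA hΔ0 hℓΔ hℓc₄
  have hP₁in : W.InZeroComponentAt A P₁ := inZero_of_red hred₁
  -- independence of `P₁` and `R₀`
  have hind : P₁ ∉ AddSubgroup.zmultiples R₀ := by
    intro hmem
    obtain ⟨j, hj⟩ := AddSubgroup.mem_zmultiples_iff.mp (mem_zmultiples_symm hp hpR₀ hP₁ne hmem)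
    exact hnode (hj ▸ inZero_zsmul hodd hvp hpP₁ hP₁in j)
  have hP₁ker : P₁ ∉ φ.ker := by rw [hker]; exact hind
  -- the multiples of `R₀` and their translates by `P₁` are outside the zero component
  have hk : ∀ k ∈ Finset.Ico 1 p, ¬ W.InZeroComponentAt A (k • R₀) := by
    intro k hk
    rw [Finset.mem_Ico] at hk
    exact not_inZero_nsmul hp hp2 hvp hpR₀ hnode (Nat.not_dvd_of_pos_of_lt (by omega) hk.2)
  have hk' : ∀ k ∈ Finset.Ico 1 p, ¬ W.InZeroComponentAt A (P₁ + k • R₀) := by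
    intro k hkI h0
    apply hk k hkI
    have e : k • R₀ = (P₁ + k • R₀) + (-P₁) := by abel
    rw [e]
    refine inZero_add hodd hvp ?_ ?_ h0 (inZero_neg hP₁in)
    · rw [nsmul_add, hpP₁, nsmul_nsmul_eq_zero hpR₀ k, add_zero]
    · rw [neg_nsmul, hpP₁, neg_zero]
  have hδ : A.valuation (∑ k ∈ Finset.Ico 1 p,
      (xOf (Eg W) (P₁ + k • R₀) - xOf (Eg W) (k • R₀))) < 1 :=
    Valuation.map_sum_lt _ one_ne_zero fun k hkI =>
      valuation_xOf_sub_lt_one hℓ hA hℓΔ hℓc₄ (hk' k hkI) (hk k hkI)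
  have hXP₁ := hX P₁ hP₁ker
  -- unpack `P₁`
  rcases hred₁ with ⟨h0, -⟩ | ⟨a, b, h, h', hPe, -⟩
  · exact absurd h0 hP₁ne
  have hxP₁ : xOf (Eg W) P₁ = (a : Qbar) := by rw [hPe]; rfl
  have hane : IsLocalRing.residue A a ≠ x₀ (Ek W A) := ne_node_of_nonsingular (Ek W A) hΔκ hcκ h'
  -- unpack `φ P₁`
  have hφne : φ P₁ ≠ 0 := fun h0 => hP₁ker (AddMonoidHom.mem_ker.mpr h0)
  obtain ⟨X, Y, hns', hφe⟩ : ∃ (X Y : Qbar)
      (h : (veluCurve (Eg W) tN wN).toAffine.Nonsingular X Y), φ P₁ = Point.some X Y h := by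
    rcases hφ : φ P₁ with _ | ⟨X, Y, h⟩
    · exact absurd hφ hφne
    · exact ⟨X, Y, h, rfl⟩
  have hXe : X = (a : Qbar) + ∑ k ∈ Finset.Ico 1 p,
      (xOf (Eg W) (P₁ + k • R₀) - xOf (Eg W) (k • R₀)) := by
    rw [← hxP₁, ← hXP₁, hφe]; rfl
  have hXA : X ∈ A := by
    rw [hXe]
    exact A.add_mem _ _ a.2 ((A.valuation_le_one_iff _).mp hδ.le)
  have hYA : Y ∈ A := mem_of_mem hM' hns'.1 hXA
  have hres : IsLocalRing.residue A ⟨X, hXA⟩ = IsLocalRing.residue A a := by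
    have h0 : IsLocalRing.residue A (⟨X, hXA⟩ - a) = 0 := by
      rw [IsLocalRing.residue_eq_zero_iff, A.valuation_lt_one_iff]
      show A.valuation (X - (a : Qbar)) < 1
      rw [hXe, add_sub_cancel_left]
      exact hδ
    rw [map_sub] at h0
    exact sub_eq_zero.mp h0
  have heqκ : (Ek W A).Equation (IsLocalRing.residue A ⟨X, hXA⟩) (IsLocalRing.residue A ⟨Y, hYA⟩) :=
    equation_residue hM' (a := ⟨X, hXA⟩) (b := ⟨Y, hYA⟩) hns'.1
  have hnsκ : (Ek W A).Nonsingular (IsLocalRing.residue A ⟨X, hXA⟩)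
      (IsLocalRing.residue A ⟨Y, hYA⟩) :=
    nonsingular_of_ne_node (Ek W A) hΔκ hcκ heqκ (by rw [hres]; exact hane)
  have hredφ : Red A (veluCurve (Eg W) tN wN).toAffine (Ek W A) (φ P₁) (Point.some _ _ hnsκ) := by
    rw [hφe]
    exact red_some (a := ⟨X, hXA⟩) (b := ⟨Y, hYA⟩) hns' hnsκ
  -- every point killed by `p` is `a' • P₁ + b' • R₀`
  have hpF : ((p : ℕ) : Qbar) ≠ 0 := Nat.cast_ne_zero.mpr hp.ne_zero
  obtain ⟨hfin, hcard⟩ := A1Final.torsion_finite_ncard_le (W := Eg W) hodd hpF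
  obtain ⟨a', b', rfl⟩ := exists_nsmul_add_nsmul hp hfin hcard hpP₁ hR₀ hind hP
  have hφR₀ : φ R₀ = 0 := by
    have : R₀ ∈ φ.ker := by rw [hker]; exact AddSubgroup.mem_zmultiples R₀
    exact AddMonoidHom.mem_ker.mp this
  have e : φ (a' • P₁ + b' • R₀) = a' • φ P₁ := by
    rw [map_add, map_nsmul, map_nsmul, hφR₀, nsmul_zero, add_zero]
  rw [e]
  have hpφ : p • φ P₁ = 0 := by rw [← map_nsmul, hpP₁, map_zero]
  exact ⟨_, hM'.red_nsmul hredφ hodd hvp hpφ a'⟩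

end Dict

/-! ### F. Consumer forms of the dictionary -/

section DictForms

variable {R₀ : (Eg W).Point} {tN wN : Qbar}

/-- **DICT, sum form**: the same with `tN`, `wN` given by Vélu's sums (the literal hypotheses of
`QuotIsogMain32.exists_quotIsog`). -/
theorem dict_of_sums (hp : p.Prime) (hp2 : p ≠ 2) (hℓ : ℓ.Prime) (hℓp : ℓ ≠ p)
    (hA : A.LiesOverPrime ℓ) (hΔ0 : W.Δ ≠ 0) (hℓΔ : (ℓ : ℤ) ∣ W.Δ) (hℓc₄ : ¬ (ℓ : ℤ) ∣ W.c₄)
    [DecidableEq (IsLocalRing.ResidueField A)]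
    (hR₀ : addOrderOf R₀ = p) (hnode : ¬ W.InZeroComponentAt A R₀)
    (ht : 2 * tN = ∑ k ∈ Finset.Ico 1 p, tOf (Eg W) (k • R₀))
    (hw : 2 * wN = ∑ k ∈ Finset.Ico 1 p, wPoly (Eg W) (xOf (Eg W) (k • R₀)))
    (φ : (Eg W).Point →+ (veluCurve (Eg W) tN wN).toAffine.Point)
    (hker : φ.ker = AddSubgroup.zmultiples R₀)
    (hX : ∀ P, P ∉ φ.ker → xOf (veluCurve (Eg W) tN wN).toAffine (φ P) =
      xOf (Eg W) P + ∑ k ∈ Finset.Ico 1 p, (xOf (Eg W) (P + k • R₀) - xOf (Eg W) (k • R₀)))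
    {P : (Eg W).Point} (hP : p • P = 0) :
    ∃ R : (Ek W A).Point, Red A (veluCurve (Eg W) tN wN).toAffine (Ek W A) (φ P) R := by
  have hvp := valuation_prime_eq_one hp hℓ hℓp hA
  have hpR₀ : p • R₀ = 0 := by rw [← hR₀]; exact addOrderOf_nsmul_eq_zero R₀
  obtain ⟨htA, hwA⟩ := tN_wN_mem hp hp2 hvp hpR₀ ht hw
  obtain ⟨ht1, hw1⟩ := tN_wN_lt_one hp hp2 hvp hpR₀ hnode ht hw
  exact dict hp hp2 hℓ hℓp hA hΔ0 hℓΔ hℓc₄ hR₀ hnode htA hwA ht1 hw1 φ hker hX hP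

/-- **DICT, contrapositive**: if SOME `φ P₀` (`p • P₀ = 0`) has no reduction on the special fibre of
`W`, then the whole line `⟨R₀⟩` lies in the zero component of `W` at `A`. -/
theorem inZero_of_no_red (hp : p.Prime) (hp2 : p ≠ 2) (hℓ : ℓ.Prime) (hℓp : ℓ ≠ p)
    (hA : A.LiesOverPrime ℓ) (hΔ0 : W.Δ ≠ 0) (hℓΔ : (ℓ : ℤ) ∣ W.Δ) (hℓc₄ : ¬ (ℓ : ℤ) ∣ W.c₄)
    [DecidableEq (IsLocalRing.ResidueField A)]
    (hR₀ : addOrderOf R₀ = p)
    (ht : 2 * tN = ∑ k ∈ Finset.Ico 1 p, tOf (Eg W) (k • R₀))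
    (hw : 2 * wN = ∑ k ∈ Finset.Ico 1 p, wPoly (Eg W) (xOf (Eg W) (k • R₀)))
    (φ : (Eg W).Point →+ (veluCurve (Eg W) tN wN).toAffine.Point)
    (hker : φ.ker = AddSubgroup.zmultiples R₀)
    (hX : ∀ P, P ∉ φ.ker → xOf (veluCurve (Eg W) tN wN).toAffine (φ P) =
      xOf (Eg W) P + ∑ k ∈ Finset.Ico 1 p, (xOf (Eg W) (P + k • R₀) - xOf (Eg W) (k • R₀)))
    {P₀ : (Eg W).Point} (hP₀ : p • P₀ = 0)
    (hno : ¬ ∃ R : (Ek W A).Point,
      Red A (veluCurve (Eg W) tN wN).toAffine (Ek W A) (φ P₀) R) (k : ℕ) :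
    W.InZeroComponentAt A (k • R₀) := by
  have hvp := valuation_prime_eq_one hp hℓ hℓp hA
  have hpR₀ : p • R₀ = 0 := by rw [← hR₀]; exact addOrderOf_nsmul_eq_zero R₀
  have h0 : W.InZeroComponentAt A R₀ := by
    by_contra hnode
    exact hno (dict_of_sums hp hp2 hℓ hℓp hA hΔ0 hℓΔ hℓc₄ hR₀ hnode ht hw φ hker hX hP₀)
  exact inZero_nsmul (hp.odd_of_ne_two hp2) hvp hpR₀ h0 k

end DictForms

/-! ### G. The coefficients of Vélu's curve at `ℓ ≠ p` -/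

section Coeff

variable {R₀ : (Eg W).Point} {tN wN : Qbar}

theorem Eg_Δ (W : WeierstrassCurve ℤ) : (Eg W).Δ = ((W.Δ : ℤ) : Qbar) := by
  show ((W.map (Int.castRingHom ℚ)).map (algebraMap ℚ Qbar)).Δ = _
  rw [map_Δ, map_Δ]
  simp

theorem Eg_c₄ (W : WeierstrassCurve ℤ) : (Eg W).c₄ = ((W.c₄ : ℤ) : Qbar) := by
  show ((W.map (Int.castRingHom ℚ)).map (algebraMap ℚ Qbar)).c₄ = _
  rw [map_c₄, map_c₄]
  simp

/-- **Node case**: `v(Δ') < 1` and `v(c₄') = 1`. -/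
theorem velu_coeff_node (hℓ : ℓ.Prime) (hA : A.LiesOverPrime ℓ) (hℓΔ : (ℓ : ℤ) ∣ W.Δ)
    (hℓc₄ : ¬ (ℓ : ℤ) ∣ W.c₄) (htA : tN ∈ A) (hwA : wN ∈ A)
    (ht : A.valuation tN < 1) (hw : A.valuation wN < 1) :
    A.valuation (veluCurve (Eg W) tN wN).Δ < 1 ∧ A.valuation (veluCurve (Eg W) tN wN).c₄ = 1 := by
  classical
  have hM' := isModel_velu_node (W := W) htA hwA ht hw
  set WA' := veluModel W A ⟨tN, htA⟩ ⟨wN, hwA⟩ with hWA'
  have hgen : (veluCurve (Eg W) tN wN) = WA'.map A.subtype := hM'.gen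
  have hsp : Ek W A = WA'.map (IsLocalRing.residue A) := hM'.sp
  have hΔκ := Ek_Δ_eq_zero hℓ hA hℓΔ
  have hcκ := Ek_c₄_ne_zero hℓ hA hℓc₄
  rw [hsp, map_Δ] at hΔκ
  rw [hsp, map_c₄] at hcκ
  rw [hgen, map_Δ, map_c₄]
  constructor
  · rw [IsLocalRing.residue_eq_zero_iff, A.valuation_lt_one_iff] at hΔκ
    exact hΔκ
  · exact valuation_eq_one_of_residue_ne_zero hcκ

/-- **Toric case**: `R₀` in the zero component at a multiplicative prime `ℓ ≠ p`: `v(c₄') = 1`. -/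
theorem velu_c₄_toric [NeZero p] (hp : p.Prime) (hp2 : p ≠ 2) (hℓ : ℓ.Prime) (hℓp : ℓ ≠ p)
    (hA : A.LiesOverPrime ℓ) (hℓΔ : (ℓ : ℤ) ∣ W.Δ) (hℓc₄ : ¬ (ℓ : ℤ) ∣ W.c₄)
    (hR₀ : addOrderOf R₀ = p) (hin : W.InZeroComponentAt A R₀)
    (ht : 2 * tN = ∑ k ∈ Finset.Ico 1 p, tOf (Eg W) (k • R₀)) :
    A.valuation (veluCurve (Eg W) tN wN).c₄ = 1 := by
  obtain ⟨-, h2⟩ := Fermat.Agent.MAZ.Local.ModLocUnit2.modLocUnit hp hp2 W ℓ hℓ hℓp hℓΔ hℓc₄ A hA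
    R₀ hR₀ hin
  rw [Fermat.Agent.MAZ.Analytic.Global42.velC4_bridge p R₀
    (Fermat.Agent.MAZ.Analytic.Global42.nsmul_ne_zero_of_addOrderOf hR₀)] at h2
  have e : (veluCurve (Eg W) tN wN).c₄ = veluC4 (Eg W) p R₀ := by
    rw [veluCurve_c₄]
    unfold veluC4
    rw [← ht]
    ring
  rw [e]
  exact h2

/-- The `ψ₂(k•R₀)` are units in the toric case. -/
theorem valuation_veluPi_toric [NeZero p] (hp : p.Prime) (hp2 : p ≠ 2) (hℓ : ℓ.Prime) (hℓp : ℓ ≠ p)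
    (hA : A.LiesOverPrime ℓ) (hℓΔ : (ℓ : ℤ) ∣ W.Δ) (hℓc₄ : ¬ (ℓ : ℤ) ∣ W.c₄)
    (hR₀ : addOrderOf R₀ = p) (hin : W.InZeroComponentAt A R₀) :
    A.valuation (veluPi (Eg W) p R₀) = 1 := by
  obtain ⟨h1, -⟩ := Fermat.Agent.MAZ.Local.ModLocUnit2.modLocUnit hp hp2 W ℓ hℓ hℓp hℓΔ hℓc₄ A hA
    R₀ hR₀ hin
  unfold veluPi
  rw [map_prod]
  refine Finset.prod_eq_one fun k hk => ?_
  rw [← Fermat.Agent.MAZ.Analytic.Global42.psi2_bridge]
  exact h1 k hk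

/-- **Toric case**: `v(Δ') < 1`, from the `Δ`-identity `Δ' Π⁴ = Δ^p`. -/
theorem velu_Δ_toric [NeZero p] (hp : p.Prime) (hp2 : p ≠ 2) (hℓ : ℓ.Prime) (hℓp : ℓ ≠ p)
    (hA : A.LiesOverPrime ℓ) (hℓΔ : (ℓ : ℤ) ∣ W.Δ) (hℓc₄ : ¬ (ℓ : ℤ) ∣ W.c₄)
    (hR₀ : addOrderOf R₀ = p) (hin : W.InZeroComponentAt A R₀)
    (hD : (veluCurve (Eg W) tN wN).Δ * veluPi (Eg W) p R₀ ^ 4 = (Eg W).Δ ^ p) :
    A.valuation (veluCurve (Eg W) tN wN).Δ < 1 := by
  have hPi := valuation_veluPi_toric hp hp2 hℓ hℓp hA hℓΔ hℓc₄ hR₀ hin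
  have h := congrArg A.valuation hD
  rw [map_mul, map_pow, map_pow, hPi, one_pow, mul_one] at h
  rw [h, Eg_Δ]
  exact pow_lt_one' ((Fermat.Agent.S05.Inertia.valuation_intCast_lt_one_iff hℓ hA W.Δ).mpr hℓΔ)
    hp.ne_zero

/-- **Good case**: `ℓ ∤ Δ`, `ℓ ≠ p`: the `ψ₂(k•R₀)` are units. -/
theorem valuation_veluPi_good (hp : p.Prime) (hp2 : p ≠ 2) (hℓ : ℓ.Prime) (hℓp : ℓ ≠ p)
    (hA : A.LiesOverPrime ℓ) (hgood : ¬ (ℓ : ℤ) ∣ W.Δ) (hR₀ : addOrderOf R₀ = p) :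
    A.valuation (veluPi (Eg W) p R₀) = 1 := by
  classical
  have hvp := valuation_prime_eq_one hp hℓ hℓp hA
  have hodd : Odd p := hp.odd_of_ne_two hp2
  have hpR₀ : p • R₀ = 0 := by rw [← hR₀]; exact addOrderOf_nsmul_eq_zero R₀
  have hchar : CharP (IsLocalRing.ResidueField A) ℓ :=
    Fermat.Agent.ES.EC.LiftTorsion29.charP_residueField A hℓ hA
  have hΔκ : (Ek W A).Δ ≠ 0 := by
    show (W.map (Int.castRingHom (IsLocalRing.ResidueField A))).Δ ≠ 0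
    rw [map_Δ, eq_intCast]
    exact fun h => hgood ((CharP.intCast_eq_zero_iff (IsLocalRing.ResidueField A) ℓ W.Δ).mp h)
  unfold veluPi
  rw [map_prod]
  refine Finset.prod_eq_one fun k hk => ?_
  have hkne := Fermat.Agent.MAZ.Analytic.Global42.nsmul_ne_zero_of_addOrderOf hR₀ k hk
  have hkp : p • (k • R₀) = 0 := nsmul_nsmul_eq_zero hpR₀ k
  rcases hT : k • R₀ with _ | ⟨x, y, h⟩
  · exact absurd hT hkne
  rw [hT] at hkp
  obtain ⟨hx, hy⟩ := mem_of_nsmul_eq_zero (isModel W A) hvp h hkp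
  have heqκ : (Ek W A).Equation (IsLocalRing.residue A ⟨x, hx⟩) (IsLocalRing.residue A ⟨y, hy⟩) :=
    equation_residue (isModel W A) (a := ⟨x, hx⟩) (b := ⟨y, hy⟩) h.1
  have hnsκ : (Ek W A).Nonsingular (IsLocalRing.residue A ⟨x, hx⟩)
      (IsLocalRing.residue A ⟨y, hy⟩) :=
    (equation_iff_nonsingular_of_Δ_ne_zero hΔκ).mp heqκ
  exact valuation_polyY_eq_one (isModel W A) (a := ⟨x, hx⟩) (b := ⟨y, hy⟩) h hnsκ hodd hkp

/-- **Good case**: `v(Δ') = 1`, from the `Δ`-identity `Δ' Π⁴ = Δ^p`. -/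
theorem velu_Δ_good (hp : p.Prime) (hp2 : p ≠ 2) (hℓ : ℓ.Prime) (hℓp : ℓ ≠ p)
    (hA : A.LiesOverPrime ℓ) (hgood : ¬ (ℓ : ℤ) ∣ W.Δ) (hR₀ : addOrderOf R₀ = p)
    (hD : (veluCurve (Eg W) tN wN).Δ * veluPi (Eg W) p R₀ ^ 4 = (Eg W).Δ ^ p) :
    A.valuation (veluCurve (Eg W) tN wN).Δ = 1 := by
  have hPi := valuation_veluPi_good hp hp2 hℓ hℓp hA hgood hR₀
  have h := congrArg A.valuation hD
  rw [map_mul, map_pow, map_pow, hPi, one_pow, mul_one] at h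
  rw [h, Eg_Δ, Fermat.Agent.S05.Inertia.valuation_intCast_eq_one hℓ hA hgood, one_pow]

end Coeff

end Fermat.Agent.MAZ.S12.Dict33
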