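import Fermat.Agent.MAZ.S12.VeluQb32
import Fermat.Agent.MAZ.Analytic.QuotDelta32

set_option autoImplicit false

namespace Fermat.Agent.MAZ.S12.VeluDelta32

open Fermat.Agent.MAZ.Analytic.QuotIsog32 Fermat.Agent.MAZ.Analytic.QuotDelta32
open Fermat.Agent.MAZ.Analytic.GlobalDefs42 Fermat.Agent.MAZ.S12.VeluQb32
open WeierstrassCurve

variable {F : Type*} [Field F] [DecidableEq F] (f : F →+* ℂ) (E : WeierstrassCurve.Affine F)
  {p : ℕ} (R₀ : E.Point)

include f in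
/-- **The discriminant of Vélu's quotient curve**: `Δ(E/N) · ∏_{R ∈ N∖0} ψ₂(R)⁴ = Δ(E)^p`. -/
theorem quotCurve_Δ_mul (hΔ : E.Δ ≠ 0) (hp : p.Prime) (hp2 : p ≠ 2) (hR : addOrderOf R₀ = p) :
    (quotCurve E p R₀).Δ * (∏ k ∈ Finset.Ico 1 p, psi2 E (k • R₀)) ^ 4 = E.Δ ^ p := by
  apply f.injective
  have hΔ' : (E.map f).Δ ≠ 0 := by
    rw [WeierstrassCurve.map_Δ]
    exact (map_ne_zero f).2 hΔ
  have hQ : addOrderOf (mapPt E f R₀) = p := by rw [addOrderOf_mapPt, hR]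
  have ht : 2 * f (veluT E p R₀) = ∑ k ∈ Finset.Ico 1 p,
      tOf (E.map f).toAffine (k • mapPt E f R₀) := by
    rw [map_veluT]; ring
  have hw : 2 * f (veluW E p R₀) = ∑ k ∈ Finset.Ico 1 p,
      wPoly (E.map f) (xOf (E.map f).toAffine (k • mapPt E f R₀)) := by
    rw [map_veluW]; ring
  have key := veluCurve_Δ_mul (E.map f) hΔ' hp hp2 (mapPt E f R₀) hQ ht hw
  rw [map_mul, map_pow, map_pow, map_prod, ← WeierstrassCurve.map_Δ, ← WeierstrassCurve.map_Δ]
  have e1 : (quotCurve E p R₀).map f =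
      veluCurve (E.map f) (f (veluT E p R₀)) (f (veluW E p R₀)) := map_veluCurve f E _ _
  rw [e1, ← key]
  congr 2
  refine Finset.prod_congr rfl fun k _ => ?_
  rw [← mapPt_nsmul, psi2_mapPt]

include f in
/-- `c₄` of the quotient curve. -/
theorem quotCurve_c₄ : (quotCurve E p R₀).c₄ =
    E.c₄ + 120 * ∑ k ∈ Finset.Ico 1 p, tOf E (k • R₀) := by
  have h2 : (2 : F) ≠ 0 := by
    intro h
    have := congrArg f h
    rw [map_ofNat, map_zero] at this
    exact two_ne_zero this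
  unfold quotCurve
  rw [veluCurve_c₄]
  unfold veluT
  field_simp
  ring

end Fermat.Agent.MAZ.S12.VeluDelta32
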