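/-
Program MAZ-S12 (S12 from S15), brick K1e = DICT, part (d) + consumer forms (helper33):
**the three local clauses of `Spec27.QuotStmt` for a scaled integral model of Vélu's quotient.**

SETTING.  `W₀` an integral Weierstrass model with `W₀.Δ ≠ 0`, `E = Eg W₀`, `p` an odd prime, `R₀` of order
`p`, `P₀` a `p`-torsion point outside `⟨R₀⟩`, `E' = VeluQb32.quotCurve E p R₀` (brick K1b), and an integral
model `W'` of `E'` scaled by `u = p^m` with the point `Q' = (u² X(P₀), u³ Y(P₀))` — the literal output shape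
of brick K1d (`IntQuot` below).  For every prime `ℓ ≠ p`:

* `dvd_Δ_and_not_dvd_c₄` : `ℓ ∣ W₀.Δ`, `ℓ ∤ W₀.c₄` ⟹ `ℓ ∣ W'.Δ ∧ ℓ ∤ W'.c₄`;
* `not_dvd_Δ` : `ℓ ∤ W₀.Δ` ⟹ `ℓ ∤ W'.Δ`;
* `inZero_of_not_inZero_quot` : `ℓ ∣ W₀.Δ`, `ℓ ∤ W₀.c₄`, `A` over `ℓ`, `Q' ∉ E'₀` at `A` ⟹ `R₀ ∈ E₀` at `A`.

`inZero_scaled` is the transfer of the zero component along the scaling `(x, y) ↦ (u² x, u³ y)`, `u ∈ A^×`.
-/
import Mathlib
import Fermat.Agent.MAZ.S12.Dict33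
import Fermat.Agent.MAZ.S12.VeluDelta32
import Fermat.Agent.S13.UnramVal

set_option autoImplicit false
set_option linter.unusedSectionVars false

open WeierstrassCurve WeierstrassCurve.Affine

namespace Fermat.Agent.MAZ.S12.DictFinal33

open Fermat.Agent.ES.Q58.Red39 Fermat.Agent.ES.Q58.NodeCount15
open Fermat.Agent.MAZ.Local.ZeroTors28 Fermat.Agent.MAZ.Local.ZeroComp28
open Fermat.Agent.MAZ.S12.DictBase33 Fermat.Agent.MAZ.S12.Dict33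
open Fermat.Agent.MAZ.Analytic.GlobalDefs42 Fermat.Agent.MAZ.Analytic.QuotIsog32
open Fermat.Agent.MAZ.S12.VeluQb32 Fermat.Agent.MAZ.S12.VeluDelta32

local notation "Qbar" => AlgebraicClosure ℚ

/-! ### 1. Scaling a Weierstrass curve by a unit -/

/-- Nonsingular points are preserved by the scaling `(x, y) ↦ (u² x, u³ y)`, `a_i ↦ u^i a_i`. -/
theorem nonsingular_scale {κ : Type*} [Field κ] (V V' : WeierstrassCurve κ) (u : κ) (hu : u ≠ 0)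
    (h1 : V'.a₁ = u * V.a₁) (h2 : V'.a₂ = u ^ 2 * V.a₂) (h3 : V'.a₃ = u ^ 3 * V.a₃)
    (h4 : V'.a₄ = u ^ 4 * V.a₄) (h6 : V'.a₆ = u ^ 6 * V.a₆) {x y : κ}
    (h : V.toAffine.Nonsingular x y) : V'.toAffine.Nonsingular (u ^ 2 * x) (u ^ 3 * y) := by
  rw [Affine.nonsingular_iff, Affine.equation_iff] at h ⊢
  obtain ⟨heq, hor⟩ := h
  refine ⟨?_, ?_⟩
  · rw [h1, h2, h3, h4, h6]
    linear_combination u ^ 6 * heq
  · rcases hor with hx | hy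
    · left
      intro hcon
      apply hx
      rw [h1, h2, h4] at hcon
      have h0 : u ^ 4 * (V.a₁ * y - (3 * x ^ 2 + 2 * V.a₂ * x + V.a₄)) = 0 := by
        linear_combination hcon
      rcases mul_eq_zero.mp h0 with h0 | h0
      · exact absurd h0 (pow_ne_zero 4 hu)
      · exact sub_eq_zero.mp h0
    · right
      intro hcon
      apply hy
      rw [h1, h3] at hcon
      have h0 : u ^ 3 * (y - (-y - V.a₁ * x - V.a₃)) = 0 := by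
        linear_combination hcon
      rcases mul_eq_zero.mp h0 with h0 | h0
      · exact absurd h0 (pow_ne_zero 3 hu)
      · exact sub_eq_zero.mp h0

/-- The discriminant and `c₄` of a scaled curve. -/
theorem Δ_c₄_scale {K : Type*} [CommRing K] (V V' : WeierstrassCurve K) (u : K)
    (h1 : V'.a₁ = u * V.a₁) (h2 : V'.a₂ = u ^ 2 * V.a₂) (h3 : V'.a₃ = u ^ 3 * V.a₃)
    (h4 : V'.a₄ = u ^ 4 * V.a₄) (h6 : V'.a₆ = u ^ 6 * V.a₆) :
    V'.Δ = u ^ 12 * V.Δ ∧ V'.c₄ = u ^ 4 * V.c₄ := by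
  constructor
  · simp only [WeierstrassCurve.Δ, WeierstrassCurve.b₂, WeierstrassCurve.b₄, WeierstrassCurve.b₆,
      WeierstrassCurve.b₈, h1, h2, h3, h4, h6]
    ring
  · simp only [WeierstrassCurve.c₄, WeierstrassCurve.b₂, WeierstrassCurve.b₄, h1, h2, h3, h4]
    ring

theorem Eg_a (W : WeierstrassCurve ℤ) :
    (Eg W).a₁ = ((W.a₁ : ℤ) : Qbar) ∧ (Eg W).a₂ = ((W.a₂ : ℤ) : Qbar) ∧
      (Eg W).a₃ = ((W.a₃ : ℤ) : Qbar) ∧ (Eg W).a₄ = ((W.a₄ : ℤ) : Qbar) ∧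
      (Eg W).a₆ = ((W.a₆ : ℤ) : Qbar) := by
  refine ⟨?_, ?_, ?_, ?_, ?_⟩
  · show ((W.map (Int.castRingHom ℚ)).map (algebraMap ℚ Qbar)).a₁ = _
    simp
  · show ((W.map (Int.castRingHom ℚ)).map (algebraMap ℚ Qbar)).a₂ = _
    simp
  · show ((W.map (Int.castRingHom ℚ)).map (algebraMap ℚ Qbar)).a₃ = _
    simp
  · show ((W.map (Int.castRingHom ℚ)).map (algebraMap ℚ Qbar)).a₄ = _
    simp
  · show ((W.map (Int.castRingHom ℚ)).map (algebraMap ℚ Qbar)).a₆ = _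
    simp

/-! ### 2. Transfer of the zero component along a scaling by a unit -/

section Scaled

variable {A : ValuationSubring Qbar} [DecidableEq (IsLocalRing.ResidueField A)]

/-- An integer coefficient equal to `u^i` times a coefficient of the `A`-model reduces accordingly. -/
theorem residue_coeff_scale {uA c : A} {n : ℤ} {i : ℕ} (h : ((n : ℤ) : Qbar) = (uA : Qbar) ^ i * (c : Qbar)) :
    ((n : ℤ) : IsLocalRing.ResidueField A) = IsLocalRing.residue A uA ^ i * IsLocalRing.residue A c := by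
  have e : ((n : ℤ) : A) = uA ^ i * c := by
    apply Subtype.ext
    push_cast
    exact h
  rw [← map_intCast (IsLocalRing.residue A), e, map_mul, map_pow]

/-- **Transfer of the zero component**: `W'` an integral model whose coefficients are `u^i` times those
of an `A`-model `WA` (`u ∈ A^×`); if `(X, Y)` has a nonsingular reduction on `WA` then
`(u² X, u³ Y)` lies in the zero component of `W'` at `A`. -/
theorem inZero_scaled (W' : WeierstrassCurve ℤ) {WA : WeierstrassCurve A} {V : Affine Qbar}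
    {Vk : Affine (IsLocalRing.ResidueField A)} (hM : IsModel A WA V Vk) {u : Qbar}
    (hu : A.valuation u = 1)
    (h1 : ((W'.a₁ : ℤ) : Qbar) = u * V.a₁) (h2 : ((W'.a₂ : ℤ) : Qbar) = u ^ 2 * V.a₂)
    (h3 : ((W'.a₃ : ℤ) : Qbar) = u ^ 3 * V.a₃) (h4 : ((W'.a₄ : ℤ) : Qbar) = u ^ 4 * V.a₄)
    (h6 : ((W'.a₆ : ℤ) : Qbar) = u ^ 6 * V.a₆)
    {X Y : Qbar} (h : V.Nonsingular X Y) (hns : (Eg W').Nonsingular (u ^ 2 * X) (u ^ 3 * Y))
    {R : Vk.Point} (hred : Red A V Vk (Point.some X Y h) R) :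
    W'.InZeroComponentAt A (Point.some (u ^ 2 * X) (u ^ 3 * Y) hns) := by
  obtain ⟨a, b, h', hXa, hYb, -⟩ := hred.of_some
  obtain ⟨rfl, rfl⟩ := hM
  have huA : u ∈ A := (A.valuation_le_one_iff u).mp hu.le
  set uA : A := ⟨u, huA⟩ with huAdef
  have huU : IsUnit uA := (A.valuation_eq_one_iff uA).mpr hu
  have hū : IsLocalRing.residue A uA ≠ 0 := (IsLocalRing.residue_ne_zero_iff_isUnit uA).mpr huU
  have hxA : u ^ 2 * X ∈ A := by rw [hXa]; exact A.mul_mem _ _ (pow_mem huA 2) a.2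
  have hyA : u ^ 3 * Y ∈ A := by rw [hYb]; exact A.mul_mem _ _ (pow_mem huA 3) b.2
  refine Or.inr ⟨_, _, hns, rfl, Or.inr ⟨hxA, hyA, ?_⟩⟩
  have ex : IsLocalRing.residue A ⟨u ^ 2 * X, hxA⟩ =
      IsLocalRing.residue A uA ^ 2 * IsLocalRing.residue A a := by
    rw [← map_pow, ← map_mul]
    congr 1
    apply Subtype.ext
    show u ^ 2 * X = ((uA ^ 2 * a : A) : Qbar)
    rw [hXa]
    push_cast
    rfl
  have ey : IsLocalRing.residue A ⟨u ^ 3 * Y, hyA⟩ =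
      IsLocalRing.residue A uA ^ 3 * IsLocalRing.residue A b := by
    rw [← map_pow, ← map_mul]
    congr 1
    apply Subtype.ext
    show u ^ 3 * Y = ((uA ^ 3 * b : A) : Qbar)
    rw [hYb]
    push_cast
    rfl
  rw [ex, ey]
  have hc : ∀ c : A, (A.subtype c : Qbar) = (c : Qbar) := fun _ => rfl
  refine nonsingular_scale (spFib A WA) (W'.map (Int.castRingHom (IsLocalRing.ResidueField A)))
    (IsLocalRing.residue A uA) hū ?_ ?_ ?_ ?_ ?_ h'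
  · rw [map_a₁, map_a₁, eq_intCast]
    have := residue_coeff_scale (A := A) (uA := uA) (c := WA.a₁) (n := W'.a₁) (i := 1)
      (by rw [pow_one]; rw [h1, map_a₁]; rfl)
    rw [pow_one] at this
    exact this
  · rw [map_a₂, map_a₂, eq_intCast]
    exact residue_coeff_scale (A := A) (uA := uA) (c := WA.a₂) (n := W'.a₂) (i := 2)
      (by rw [h2, map_a₂]; rfl)
  · rw [map_a₃, map_a₃, eq_intCast]
    exact residue_coeff_scale (A := A) (uA := uA) (c := WA.a₃) (n := W'.a₃) (i := 3)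
      (by rw [h3, map_a₃]; rfl)
  · rw [map_a₄, map_a₄, eq_intCast]
    exact residue_coeff_scale (A := A) (uA := uA) (c := WA.a₄) (n := W'.a₄) (i := 4)
      (by rw [h4, map_a₄]; rfl)
  · rw [map_a₆, map_a₆, eq_intCast]
    exact residue_coeff_scale (A := A) (uA := uA) (c := WA.a₆) (n := W'.a₆) (i := 6)
      (by rw [h6, map_a₆]; rfl)

end Scaled

/-! ### 3. The three local clauses of `QuotStmt` -/

section Final

/-- **The literal output shape of brick K1d** (integral model of Vélu's quotient scaled by `u`, with the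
image of `P₀`). -/
structure IntQuot (W₀ : WeierstrassCurve ℤ) (p : ℕ) (R₀ P₀ : (Eg W₀).Point) (W' : WeierstrassCurve ℤ)
    (Q' : (Eg W').Point) (u : Qbar) : Prop where
  a₁ : ((W'.a₁ : ℤ) : Qbar) = u * (quotCurve (Eg W₀) p R₀).a₁
  a₂ : ((W'.a₂ : ℤ) : Qbar) = u ^ 2 * (quotCurve (Eg W₀) p R₀).a₂
  a₃ : ((W'.a₃ : ℤ) : Qbar) = u ^ 3 * (quotCurve (Eg W₀) p R₀).a₃
  a₄ : ((W'.a₄ : ℤ) : Qbar) = u ^ 4 * (quotCurve (Eg W₀) p R₀).a₄
  a₆ : ((W'.a₆ : ℤ) : Qbar) = u ^ 6 * (quotCurve (Eg W₀) p R₀).a₆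
  pt : ∃ hns, Q' = Point.some (u ^ 2 * veluX (Eg W₀) p R₀ P₀) (u ^ 3 * veluY (Eg W₀) p R₀ P₀) hns

variable {W₀ : WeierstrassCurve ℤ} {p : ℕ} {R₀ P₀ : (Eg W₀).Point} {W' : WeierstrassCurve ℤ}
  {Q' : (Eg W').Point} {u : Qbar}

theorem two_mul_veluT : 2 * veluT (Eg W₀) p R₀ = ∑ k ∈ Finset.Ico 1 p, tOf (Eg W₀) (k • R₀) := by
  unfold veluT
  field_simp

theorem two_mul_veluW :
    2 * veluW (Eg W₀) p R₀ = ∑ k ∈ Finset.Ico 1 p, wPoly (Eg W₀) (xOf (Eg W₀) (k • R₀)) := by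
  unfold veluW
  field_simp

theorem Eg_Δ_ne_zero (hΔ0 : W₀.Δ ≠ 0) : (Eg W₀).Δ ≠ 0 := by
  rw [Eg_Δ]
  exact_mod_cast hΔ0

/-- `Δ` and `c₄` of the scaled integral model. -/
theorem IntQuot.Δ_c₄ (hI : IntQuot W₀ p R₀ P₀ W' Q' u) :
    ((W'.Δ : ℤ) : Qbar) = u ^ 12 * (quotCurve (Eg W₀) p R₀).Δ ∧
      ((W'.c₄ : ℤ) : Qbar) = u ^ 4 * (quotCurve (Eg W₀) p R₀).c₄ := by
  obtain ⟨e1, e2, e3, e4, e6⟩ := Eg_a W'
  have := Δ_c₄_scale (quotCurve (Eg W₀) p R₀) (Eg W') u (by rw [e1]; exact hI.a₁)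
    (by rw [e2]; exact hI.a₂) (by rw [e3]; exact hI.a₃) (by rw [e4]; exact hI.a₄)
    (by rw [e6]; exact hI.a₆)
  rw [Eg_Δ, Eg_c₄] at this
  exact this

variable {ℓ : ℕ}

/-- The coefficients of the quotient at a multiplicative prime `ℓ ≠ p` (both cases). -/
theorem quot_coeff_mult (f : Qbar →+* ℂ) (hp : p.Prime) (hp2 : p ≠ 2) (hΔ0 : W₀.Δ ≠ 0)
    (hR : addOrderOf R₀ = p) (hℓ : ℓ.Prime) (hℓp : ℓ ≠ p) (hℓΔ : (ℓ : ℤ) ∣ W₀.Δ)
    (hℓc₄ : ¬ (ℓ : ℤ) ∣ W₀.c₄) {A : ValuationSubring Qbar} (hA : A.LiesOverPrime ℓ) :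
    A.valuation (quotCurve (Eg W₀) p R₀).Δ < 1 ∧ A.valuation (quotCurve (Eg W₀) p R₀).c₄ = 1 := by
  have : NeZero p := ⟨hp.ne_zero⟩
  have hvp := valuation_prime_eq_one hp hℓ hℓp hA
  have hpR₀ : p • R₀ = 0 := by rw [← hR]; exact addOrderOf_nsmul_eq_zero R₀
  by_cases hin : W₀.InZeroComponentAt A R₀
  · exact ⟨velu_Δ_toric hp hp2 hℓ hℓp hA hℓΔ hℓc₄ hR hin
        (quotCurve_Δ_mul f (Eg W₀) R₀ (Eg_Δ_ne_zero hΔ0) hp hp2 hR),
      velu_c₄_toric hp hp2 hℓ hℓp hA hℓΔ hℓc₄ hR hin two_mul_veluT⟩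
  · obtain ⟨htA, hwA⟩ := tN_wN_mem hp hp2 hvp hpR₀ two_mul_veluT two_mul_veluW
    obtain ⟨ht1, hw1⟩ := tN_wN_lt_one hp hp2 hvp hpR₀ hin two_mul_veluT two_mul_veluW
    exact velu_coeff_node hℓ hA hℓΔ hℓc₄ htA hwA ht1 hw1

/-- **Clause 1 of `QuotStmt`**: a multiplicative prime `ℓ ≠ p` of `W₀` is a multiplicative prime of
the integral model of the quotient. -/
theorem dvd_Δ_and_not_dvd_c₄ (f : Qbar →+* ℂ) (hp : p.Prime) (hp2 : p ≠ 2) (hΔ0 : W₀.Δ ≠ 0)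
    (hR : addOrderOf R₀ = p) {m : ℕ} (hI : IntQuot W₀ p R₀ P₀ W' Q' (((p : ℕ) : Qbar) ^ m))
    (hℓ : ℓ.Prime) (hℓp : ℓ ≠ p) (hℓΔ : (ℓ : ℤ) ∣ W₀.Δ) (hℓc₄ : ¬ (ℓ : ℤ) ∣ W₀.c₄) :
    (ℓ : ℤ) ∣ W'.Δ ∧ ¬ (ℓ : ℤ) ∣ W'.c₄ := by
  obtain ⟨A, hA⟩ := Fermat.Agent.S13.UnramVal.exists_liesOverPrime (L := Qbar) hℓ
  have hvp := valuation_prime_eq_one hp hℓ hℓp hA
  obtain ⟨hΔ', hc'⟩ := hI.Δ_c₄
  obtain ⟨k1, k2⟩ := quot_coeff_mult f hp hp2 hΔ0 hR hℓ hℓp hℓΔ hℓc₄ hA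
  constructor
  · rw [← Fermat.Agent.S05.Inertia.valuation_intCast_lt_one_iff hℓ hA, hΔ', map_mul, map_pow,
      map_pow, hvp, one_pow, one_pow, one_mul]
    exact k1
  · rw [← Fermat.Agent.S05.Inertia.valuation_intCast_lt_one_iff hℓ hA, hc', map_mul, map_pow,
      map_pow, hvp, one_pow, one_pow, one_mul, k2]
    exact lt_irrefl 1

/-- **Clause 2 of `QuotStmt`**: a good prime `ℓ ≠ p` of `W₀` is a good prime of the integral model of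
the quotient. -/
theorem not_dvd_Δ (f : Qbar →+* ℂ) (hp : p.Prime) (hp2 : p ≠ 2) (hΔ0 : W₀.Δ ≠ 0)
    (hR : addOrderOf R₀ = p) {m : ℕ} (hI : IntQuot W₀ p R₀ P₀ W' Q' (((p : ℕ) : Qbar) ^ m))
    (hℓ : ℓ.Prime) (hℓp : ℓ ≠ p) (hgood : ¬ (ℓ : ℤ) ∣ W₀.Δ) : ¬ (ℓ : ℤ) ∣ W'.Δ := by
  obtain ⟨A, hA⟩ := Fermat.Agent.S13.UnramVal.exists_liesOverPrime (L := Qbar) hℓ
  have hvp := valuation_prime_eq_one hp hℓ hℓp hA
  obtain ⟨hΔ', -⟩ := hI.Δ_c₄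
  have k := velu_Δ_good (tN := veluT (Eg W₀) p R₀) (wN := veluW (Eg W₀) p R₀) hp hp2 hℓ hℓp hA hgood hR
    (quotCurve_Δ_mul f (Eg W₀) R₀ (Eg_Δ_ne_zero hΔ0) hp hp2 hR)
  rw [← Fermat.Agent.S05.Inertia.valuation_intCast_lt_one_iff hℓ hA, hΔ', map_mul, map_pow,
    map_pow, hvp, one_pow, one_pow, one_mul]
  change ¬ A.valuation (veluCurve (Eg W₀) (veluT (Eg W₀) p R₀) (veluW (Eg W₀) p R₀)).Δ < 1
  rw [k]
  exact lt_irrefl 1

/-- **Clause 3 of `QuotStmt` (DICT)**: at a multiplicative prime `ℓ ≠ p` of `W₀`, if the rational point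
`Q'` of the quotient is NOT in the zero component at `A`, then `R₀` (hence the whole line) IS in the
zero component of `W₀` at `A`. -/
theorem inZero_of_not_inZero_quot (f : Qbar →+* ℂ) (hp : p.Prime) (hp2 : p ≠ 2) (hΔ0 : W₀.Δ ≠ 0)
    (hR : addOrderOf R₀ = p) (hP₀ : p • P₀ = 0) (hP₀' : P₀ ∉ AddSubgroup.zmultiples R₀) {m : ℕ}
    (hI : IntQuot W₀ p R₀ P₀ W' Q' (((p : ℕ) : Qbar) ^ m))
    (hℓ : ℓ.Prime) (hℓp : ℓ ≠ p) (hℓΔ : (ℓ : ℤ) ∣ W₀.Δ) (hℓc₄ : ¬ (ℓ : ℤ) ∣ W₀.c₄)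
    (A : ValuationSubring Qbar) (hA : A.LiesOverPrime ℓ) (hQ' : ¬ W'.InZeroComponentAt A Q') :
    W₀.InZeroComponentAt A R₀ := by
  classical
  by_contra hnode
  have hvp := valuation_prime_eq_one hp hℓ hℓp hA
  have hu : A.valuation (((p : ℕ) : Qbar) ^ m) = 1 := by rw [map_pow, hvp, one_pow]
  have hpR₀ : p • R₀ = 0 := by rw [← hR]; exact addOrderOf_nsmul_eq_zero R₀
  have hΔE := Eg_Δ_ne_zero hΔ0
  obtain ⟨htA, hwA⟩ := tN_wN_mem hp hp2 hvp hpR₀ (two_mul_veluT (W₀ := W₀) (R₀ := R₀))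
    two_mul_veluW
  obtain ⟨ht1, hw1⟩ := tN_wN_lt_one hp hp2 hvp hpR₀ hnode (two_mul_veluT (W₀ := W₀) (R₀ := R₀))
    two_mul_veluW
  have hM' := isModel_velu_node (W := W₀) htA hwA ht1 hw1
  have hker := ker_veluHom f (Eg W₀) R₀ hΔE hp hR
  have hX : ∀ P, P ∉ (veluHom f (Eg W₀) R₀ hΔE hp hR).ker →
      xOf (veluCurve (Eg W₀) (veluT (Eg W₀) p R₀) (veluW (Eg W₀) p R₀)).toAffine
        (veluHom f (Eg W₀) R₀ hΔE hp hR P) =
      xOf (Eg W₀) P + ∑ k ∈ Finset.Ico 1 p, (xOf (Eg W₀) (P + k • R₀) - xOf (Eg W₀) (k • R₀)) := by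
    intro P hP
    rw [hker] at hP
    exact xOf_veluHom f (Eg W₀) R₀ hΔE hp hR hP
  obtain ⟨R, hred⟩ := dict hp hp2 hℓ hℓp hA hΔ0 hℓΔ hℓc₄ hR hnode htA hwA ht1 hw1
    (veluHom f (Eg W₀) R₀ hΔE hp hR) hker hX hP₀
  have hred' : Red A (quotCurve (Eg W₀) p R₀).toAffine (Ek W₀ A)
      (veluHom f (Eg W₀) R₀ hΔE hp hR P₀) R := hred
  rw [veluHom_of_notMem f (Eg W₀) R₀ hΔE hp hR hP₀'] at hred'
  have hM'' : IsModel A (veluModel W₀ A ⟨veluT (Eg W₀) p R₀, htA⟩ ⟨veluW (Eg W₀) p R₀, hwA⟩)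
      (quotCurve (Eg W₀) p R₀).toAffine (Ek W₀ A) := hM'
  obtain ⟨hns, hQe⟩ := hI.pt
  apply hQ'
  rw [hQe]
  exact inZero_scaled W' hM'' hu hI.a₁ hI.a₂ hI.a₃ hI.a₄ hI.a₆ _ hns hred'

end Final

end Fermat.Agent.MAZ.S12.DictFinal33
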