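/-
MAZ-S12 (helper86): THE FERMAT-TYPE IDENTITY FOR A CYCLIC SUBGROUP OF ODD PRIME ORDER.

For an elliptic curve `E` (characteristic `0`), a point `Q` of odd prime order `p`, and the three
points `T_a, T_b, T_c = T_a + T_b` of order `2`, put
`D(e) := ∏_{k=1}^{p-1} (x(kQ) - e)`.  Then

  `(x(T_a) - x(T_b))^p * D(x(T_c))^2 + (x(T_b) - x(T_c))^p * D(x(T_a))^2
      = (x(T_a) - x(T_c))^p * D(x(T_b))^2`.

Over `ℂ` this is helper80's `Q_formula` (three times) plus the telescoping of the differences of the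
half-lattice values of the superlattice; only SQUARES of the `D`'s occur.  The identity is then
transported to any field with a ring homomorphism to `ℂ`, and specialised to curves of Frey shape
`y² + xy = x³ + ((B-1-A)/4) x² - (AB/16) x`, whose `2`-torsion has `x = 0, A/4, -B/4`:

  `A^p * D(-B/4)^2 + B^p * D(A/4)^2 = (A+B)^p * D(0)^2`.
-/
import Mathlib
import Fermat.Agent.MAZ.Analytic.DeltaIdentity80
import Fermat.Agent.MAZ.Analytic.Unif32
import Fermat.Agent.MAZ.Analytic.UnifExists80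
import Fermat.Agent.MAZ.Analytic.SuperLattice32
import Fermat.Agent.MAZ.Analytic.GlobalDefs42
import Fermat.Agent.MAZ.S12.RealFinish24
import Fermat.Prelude.Def_FLTPrelim_FreyPackage

set_option autoImplicit false

open scoped PeriodPair

namespace Fermat.Agent.MAZ.S12.FermatId86

open Fermat.Agent.MAZ.Analytic.DeltaIdentity80 Fermat.Agent.MAZ.Analytic.Unif32
  Fermat.Agent.MAZ.Analytic.GlobalDefs42 Fermat.Agent.MAZ.Analytic.UnifExists80
  Fermat.Agent.MAZ.Analytic.SuperLattice32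
open WeierstrassCurve

/-! ### The lattice form -/

/-- `IsSuper` from the hypotheses in the shape of the MAZ brick table. -/
theorem isSuper_of_prime (L L' : PeriodPair) {p : ℕ} (hp : p.Prime) (hp2 : p ≠ 2) {z0 : ℂ}
    (hz0 : (p : ℂ) * z0 ∈ L.lattice) (hz0' : z0 ∉ L.lattice)
    (hL' : L'.lattice = L.lattice ⊔ Submodule.span ℤ {z0}) : IsSuper L L' p z0 := by
  refine ⟨hp.odd_of_ne_two hp2, fun k => ⟨fun h => ?_, ?_⟩, hL'⟩
  · by_contra hnd
    exact intCast_mul_notMem L hp hz0 hz0' hnd h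
  · rintro ⟨m, rfl⟩
    have : (((p : ℤ) * m : ℤ) : ℂ) * z0 = m • ((p : ℂ) * z0) := by
      simp only [zsmul_eq_mul]; push_cast; ring
    rw [this]
    exact L.lattice.smul_mem m hz0

section Lattice

variable {L L' : PeriodPair} {p : ℕ} {z0 : ℂ}

theorem wp_add_of_mem (L : PeriodPair) (z : ℂ) {l : ℂ} (hl : l ∈ L.lattice) :
    ℘[L] (z + l) = ℘[L] z :=
  L.weierstrassP_add_coe z ⟨l, hl⟩

/-- **The Fermat-type identity, lattice form.** -/
theorem lattice_identity (H : IsSuper L L' p z0) {a b : ℂ} (ha : IsHalf L a) (hb : IsHalf L b)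
    (hab : a - b ∉ L.lattice) :
    (℘[L] a - ℘[L] b) ^ p * Bfun L p z0 (℘[L] (a + b)) 0 ^ 2 +
        (℘[L] b - ℘[L] (a + b)) ^ p * Bfun L p z0 (℘[L] a) 0 ^ 2 =
      (℘[L] a - ℘[L] (a + b)) ^ p * Bfun L p z0 (℘[L] b) 0 ^ 2 := by
  have hc : IsHalf L (a + b) := ha.add hb hab
  have hac : a - (a + b) ∉ L.lattice := by
    intro h; apply hb.1
    have := L.lattice.neg_mem h
    simpa using this
  have hbc : b - (a + b) ∉ L.lattice := by
    intro h; apply ha.1
    have := L.lattice.neg_mem h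
    simpa using this
  have Q1 := Q_formula H ha hb hab
  have Q2 := Q_formula H hb hc hbc
  have Q3 := Q_formula H ha hc hac
  have e2 : ℘[L] (b + (a + b)) = ℘[L] a := by
    have : b + (a + b) = a + (b + b) := by ring
    rw [this, wp_add_of_mem L a hb.2]
  have e3 : ℘[L] (a + (a + b)) = ℘[L] b := by
    have : a + (a + b) = b + (a + a) := by ring
    rw [this, wp_add_of_mem L b ha.2]
  rw [e2] at Q2
  rw [e3] at Q3
  linear_combination (-Bfun L p z0 (℘[L] (a + b)) 0) * Q1 + (-Bfun L p z0 (℘[L] a) 0) * Q2 +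
    (Bfun L p z0 (℘[L] b) 0) * Q3

end Lattice

/-! ### The kernel product -/

section KerProd

variable {F : Type*} [Field F] [DecidableEq F]

/-- `D(e) = ∏_{k=1}^{p-1} (x(kQ) - e)`: the square of the kernel polynomial of `⟨Q⟩` at `e`. -/
def kerProd (E : WeierstrassCurve.Affine F) (p : ℕ) (Q : E.Point) (e : F) : F :=
  ∏ k ∈ Finset.Ico 1 p, (xOf E (k • Q) - e)

theorem map_kerProd {K : Type*} [Field K] [DecidableEq K] (f : F →+* K)
    (E : WeierstrassCurve.Affine F) (p : ℕ) (Q : E.Point) (e : F) :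
    f (kerProd E p Q e) = kerProd (E.map f).toAffine p (mapPt E f Q) (f e) := by
  unfold kerProd
  rw [map_prod]
  refine Finset.prod_congr rfl fun k _ => ?_
  rw [map_sub, ← mapPt_nsmul, xOf_mapPt]

end KerProd

/-! ### The identity over `ℂ` -/

section Complex

variable {W : WeierstrassCurve ℂ} {L : PeriodPair}

theorem xOf_pt (h : IsUnif W L) {z : ℂ} (hz : z ∉ L.lattice) :
    xOf W.toAffine (pt h z) = ℘[L] z - W.b₂ / 12 := by
  rw [pt_of_notMem h hz]
  rfl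

theorem kerProd_pt (h : IsUnif W L) {p : ℕ} {z0 : ℂ}
    (hk : ∀ k ∈ Finset.Ico 1 p, (k : ℂ) * z0 ∉ L.lattice) {ω : ℂ} (hω : ω ∉ L.lattice) :
    kerProd W.toAffine p (pt h z0) (xOf W.toAffine (pt h ω)) = Bfun L p z0 (℘[L] ω) 0 := by
  unfold kerProd Bfun
  refine Finset.prod_congr rfl fun k hk' => ?_
  rw [nsmul_pt, xOf_pt h (hk k hk'), xOf_pt h hω, zero_add]
  ring

/-- **The Fermat-type identity on a complex elliptic curve.** -/
theorem complex_identity (W : WeierstrassCurve ℂ) (hΔ : W.Δ ≠ 0) {p : ℕ} (hp : p.Prime)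
    (hp2 : p ≠ 2) (Q T₁ T₂ : W.toAffine.Point) (hQ : addOrderOf Q = p)
    (h₁ : T₁ ≠ 0) (h₂ : T₂ ≠ 0) (h₁₂ : T₁ ≠ T₂) (h2₁ : 2 • T₁ = 0) (h2₂ : 2 • T₂ = 0) :
    (xOf W.toAffine T₁ - xOf W.toAffine T₂) ^ p *
          kerProd W.toAffine p Q (xOf W.toAffine (T₁ + T₂)) ^ 2 +
        (xOf W.toAffine T₂ - xOf W.toAffine (T₁ + T₂)) ^ p *
          kerProd W.toAffine p Q (xOf W.toAffine T₁) ^ 2 =
      (xOf W.toAffine T₁ - xOf W.toAffine (T₁ + T₂)) ^ p *
          kerProd W.toAffine p Q (xOf W.toAffine T₂) ^ 2 := by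
  obtain ⟨L, h⟩ := exists_isUnif W hΔ
  obtain ⟨z0, rfl⟩ := pt_surjective h Q
  obtain ⟨a, rfl⟩ := pt_surjective h T₁
  obtain ⟨b, rfl⟩ := pt_surjective h T₂
  have hz1 : (p : ℂ) * z0 ∈ L.lattice := mul_mem_of_addOrderOf h hQ
  have hz0 : z0 ∉ L.lattice := by
    have := mul_notMem_of_addOrderOf h hQ (k := 1) one_pos hp.one_lt
    simpa using this
  obtain ⟨L', hL'⟩ := exists_superlattice L p hp z0 hz1 hz0
  have H : IsSuper L L' p z0 := isSuper_of_prime L L' hp hp2 hz1 hz0 hL'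
  have ha : IsHalf L a := by
    refine ⟨fun hm => h₁ ((pt_eq_zero_iff h).2 hm), ?_⟩
    rw [nsmul_pt, pt_eq_zero_iff] at h2₁
    have : a + a = ((2 : ℕ) : ℂ) * a := by push_cast; ring
    rw [this]; exact h2₁
  have hb : IsHalf L b := by
    refine ⟨fun hm => h₂ ((pt_eq_zero_iff h).2 hm), ?_⟩
    rw [nsmul_pt, pt_eq_zero_iff] at h2₂
    have : b + b = ((2 : ℕ) : ℂ) * b := by push_cast; ring
    rw [this]; exact h2₂
  have hab : a - b ∉ L.lattice := fun hm => h₁₂ ((pt_eq_iff h).2 hm)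
  have hc : IsHalf L (a + b) := ha.add hb hab
  have hk : ∀ k ∈ Finset.Ico 1 p, (k : ℂ) * z0 ∉ L.lattice := fun k hk' =>
    H.natCast_mul_notMem hk'
  rw [pt_add, kerProd_pt h hk hc.1, kerProd_pt h hk ha.1, kerProd_pt h hk hb.1,
    xOf_pt h ha.1, xOf_pt h hb.1, xOf_pt h hc.1]
  have := lattice_identity H ha hb hab
  have e1 : ℘[L] a - W.b₂ / 12 - (℘[L] b - W.b₂ / 12) = ℘[L] a - ℘[L] b := by ring
  have e2 : ℘[L] b - W.b₂ / 12 - (℘[L] (a + b) - W.b₂ / 12) = ℘[L] b - ℘[L] (a + b) := by ring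
  have e3 : ℘[L] a - W.b₂ / 12 - (℘[L] (a + b) - W.b₂ / 12) = ℘[L] a - ℘[L] (a + b) := by ring
  rw [e1, e2, e3]
  exact this

/-- `D(x(T)) ≠ 0` for a point `T` of order `2`: no multiple of `Q` is `±T`. -/
theorem complex_kerProd_ne_zero (W : WeierstrassCurve ℂ) (hΔ : W.Δ ≠ 0) {p : ℕ} (hp : p.Prime)
    (hp2 : p ≠ 2) (Q T : W.toAffine.Point) (hQ : addOrderOf Q = p) (hT : T ≠ 0)
    (h2T : 2 • T = 0) : kerProd W.toAffine p Q (xOf W.toAffine T) ≠ 0 := by
  obtain ⟨L, h⟩ := exists_isUnif W hΔ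
  obtain ⟨z0, rfl⟩ := pt_surjective h Q
  obtain ⟨a, rfl⟩ := pt_surjective h T
  have hz1 : (p : ℂ) * z0 ∈ L.lattice := mul_mem_of_addOrderOf h hQ
  have hz0 : z0 ∉ L.lattice := by
    have := mul_notMem_of_addOrderOf h hQ (k := 1) one_pos hp.one_lt
    simpa using this
  obtain ⟨L', hL'⟩ := exists_superlattice L p hp z0 hz1 hz0
  have H : IsSuper L L' p z0 := isSuper_of_prime L L' hp hp2 hz1 hz0 hL'
  have ha : IsHalf L a := by
    refine ⟨fun hm => hT ((pt_eq_zero_iff h).2 hm), ?_⟩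
    rw [nsmul_pt, pt_eq_zero_iff] at h2T
    have : a + a = ((2 : ℕ) : ℂ) * a := by push_cast; ring
    rw [this]; exact h2T
  have hk : ∀ k ∈ Finset.Ico 1 p, (k : ℂ) * z0 ∉ L.lattice := fun k hk' =>
    H.natCast_mul_notMem hk'
  rw [kerProd_pt h hk ha.1]
  exact Bfun_zero_ne_zero H ha

end Complex

/-! ### Transport to a field embedded in `ℂ` -/

section Field

variable {F : Type*} [Field F] [DecidableEq F]

/-- **The Fermat-type identity over any field with a ring homomorphism to `ℂ`.** -/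
theorem field_identity (f : F →+* ℂ) (E : WeierstrassCurve.Affine F) (hΔ : E.Δ ≠ 0) {p : ℕ}
    (hp : p.Prime) (hp2 : p ≠ 2) (Q T₁ T₂ : E.Point) (hQ : addOrderOf Q = p)
    (h₁ : T₁ ≠ 0) (h₂ : T₂ ≠ 0) (h₁₂ : T₁ ≠ T₂) (h2₁ : 2 • T₁ = 0) (h2₂ : 2 • T₂ = 0) :
    (xOf E T₁ - xOf E T₂) ^ p * kerProd E p Q (xOf E (T₁ + T₂)) ^ 2 +
        (xOf E T₂ - xOf E (T₁ + T₂)) ^ p * kerProd E p Q (xOf E T₁) ^ 2 =
      (xOf E T₁ - xOf E (T₁ + T₂)) ^ p * kerProd E p Q (xOf E T₂) ^ 2 := by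
  apply f.injective
  have hΔ' : (E.map f).Δ ≠ 0 := by
    rw [WeierstrassCurve.map_Δ]
    exact (map_ne_zero f).2 hΔ
  have key := complex_identity (E.map f) hΔ' hp hp2 (mapPt E f Q) (mapPt E f T₁) (mapPt E f T₂)
    (by rw [addOrderOf_mapPt]; exact hQ)
    (fun h0 => h₁ ((mapPt_eq_zero_iff E f T₁).1 h0))
    (fun h0 => h₂ ((mapPt_eq_zero_iff E f T₂).1 h0))
    (fun he => h₁₂ (mapPt_injective E f he))
    (by rw [← mapPt_nsmul, h2₁]; rfl)
    (by rw [← mapPt_nsmul, h2₂]; rfl)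
  rw [← mapPt_add] at key
  simp only [xOf_mapPt, ← map_kerProd] at key
  simp only [map_add, map_mul, map_pow, map_sub]
  exact key

/-- `D(x(T)) ≠ 0` for a point `T` of order `2`. -/
theorem field_kerProd_ne_zero (f : F →+* ℂ) (E : WeierstrassCurve.Affine F) (hΔ : E.Δ ≠ 0)
    {p : ℕ} (hp : p.Prime) (hp2 : p ≠ 2) (Q T : E.Point) (hQ : addOrderOf Q = p) (hT : T ≠ 0)
    (h2T : 2 • T = 0) : kerProd E p Q (xOf E T) ≠ 0 := by
  intro h0
  have hΔ' : (E.map f).Δ ≠ 0 := by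
    rw [WeierstrassCurve.map_Δ]
    exact (map_ne_zero f).2 hΔ
  have key := complex_kerProd_ne_zero (E.map f) hΔ' hp hp2 (mapPt E f Q) (mapPt E f T)
    (by rw [addOrderOf_mapPt]; exact hQ)
    (fun h0 => hT ((mapPt_eq_zero_iff E f T).1 h0))
    (by rw [← mapPt_nsmul, h2T]; rfl)
  rw [xOf_mapPt, ← map_kerProd, h0, map_zero] at key
  exact key rfl

end Field

/-! ### Curves of Frey shape -/

section FreyShape

variable {F : Type*} [Field F]

/-- `E` is the curve `y² + xy = x³ + ((B-1-A)/4) x² - (AB/16) x`. -/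
structure IsABC (E : WeierstrassCurve.Affine F) (A B : F) : Prop where
  a₁ : E.a₁ = 1
  a₂ : E.a₂ = (B - 1 - A) / 4
  a₃ : E.a₃ = 0
  a₄ : E.a₄ = -(A * B) / 16
  a₆ : E.a₆ = 0

variable {E : WeierstrassCurve.Affine F} {A B : F}

theorem IsABC.Δ_eq (h : IsABC E A B) (h2 : (2 : F) ≠ 0) :
    E.Δ = (A * B * (A + B)) ^ 2 / 256 := by
  have h256 : (256 : F) = 2 ^ 8 := by norm_num
  have h4 : (4 : F) = 2 ^ 2 := by norm_num
  have h16 : (16 : F) = 2 ^ 4 := by norm_num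
  simp only [WeierstrassCurve.Δ, WeierstrassCurve.b₂, WeierstrassCurve.b₄, WeierstrassCurve.b₆,
    WeierstrassCurve.b₈, h.a₁, h.a₂, h.a₃, h.a₄, h.a₆]
  rw [h256, h4, h16]
  field_simp
  ring

theorem IsABC.Δ_ne_zero (h : IsABC E A B) (h2 : (2 : F) ≠ 0) (hA : A ≠ 0) (hB : B ≠ 0)
    (hC : A + B ≠ 0) : E.Δ ≠ 0 := by
  rw [h.Δ_eq h2]
  have h256 : (256 : F) ≠ 0 := by
    have : (256 : F) = 2 ^ 8 := by norm_num
    rw [this]; exact pow_ne_zero _ h2
  exact div_ne_zero (pow_ne_zero _ (mul_ne_zero (mul_ne_zero hA hB) hC)) h256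

theorem IsABC.equation_zero (h : IsABC E A B) : E.Equation 0 0 := by
  rw [Affine.equation_iff, h.a₆]
  ring

theorem IsABC.equation_A (h : IsABC E A B) (h2 : (2 : F) ≠ 0) : E.Equation (A / 4) (-A / 8) := by
  have h4 : (4 : F) = 2 ^ 2 := by norm_num
  have h8 : (8 : F) = 2 ^ 3 := by norm_num
  have h16 : (16 : F) = 2 ^ 4 := by norm_num
  rw [Affine.equation_iff, h.a₁, h.a₂, h.a₃, h.a₄, h.a₆, h4, h8, h16]
  field_simp
  ring

/-- **The Fermat-type identity for a curve of Frey shape**: with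
`D(e) = ∏_{k=1}^{p-1} (x(kQ) - e)`, `A^p D(-B/4)² + B^p D(A/4)² = (A+B)^p D(0)²`. -/
theorem abc_identity [DecidableEq F] (f : F →+* ℂ) (h : IsABC E A B) (hA : A ≠ 0) (hB : B ≠ 0) (hC : A + B ≠ 0)
    {p : ℕ} (hp : p.Prime) (hp2 : p ≠ 2) (Q : E.Point) (hQ : addOrderOf Q = p) :
    A ^ p * kerProd E p Q (-B / 4) ^ 2 + B ^ p * kerProd E p Q (A / 4) ^ 2 =
      (A + B) ^ p * kerProd E p Q 0 ^ 2 := by
  have h2 : (2 : F) ≠ 0 := by
    intro h0
    have := congrArg f h0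
    rw [map_ofNat, map_zero] at this
    exact two_ne_zero this
  have h4 : (4 : F) ≠ 0 := by
    have : (4 : F) = 2 ^ 2 := by norm_num
    rw [this]; exact pow_ne_zero _ h2
  have h8 : (8 : F) ≠ 0 := by
    have : (8 : F) = 2 ^ 3 := by norm_num
    rw [this]; exact pow_ne_zero _ h2
  have hΔ : E.Δ ≠ 0 := h.Δ_ne_zero h2 hA hB hC
  have n0 : E.Nonsingular 0 0 :=
    (Affine.equation_iff_nonsingular_of_Δ_ne_zero hΔ).1 h.equation_zero
  have nA : E.Nonsingular (A / 4) (-A / 8) :=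
    (Affine.equation_iff_nonsingular_of_Δ_ne_zero hΔ).1 (h.equation_A h2)
  have hx : A / 4 ≠ 0 := div_ne_zero hA h4
  have hsum : xOf E (Affine.Point.some _ _ nA + Affine.Point.some _ _ n0) = -B / 4 := by
    have hs : (-A / 8 - 0) / (A / 4 - 0) = -1 / 2 := by
      rw [sub_zero, sub_zero]
      have h48 : (8 : F) = 4 * 2 := by norm_num
      rw [h48]
      field_simp
    rw [Affine.Point.add_of_X_ne hx, xOf_some, Affine.slope_of_X_ne hx, hs]
    simp only [Affine.addX, h.a₁, h.a₂]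
    field_simp
    ring
  have key := field_identity f E hΔ hp hp2 Q (Affine.Point.some _ _ nA) (Affine.Point.some _ _ n0)
    hQ (Affine.Point.some_ne_zero _) (Affine.Point.some_ne_zero _)
    (by
      intro he
      injection he with he1 _
      exact hx he1)
    (by
      rw [two_nsmul]
      refine Affine.Point.add_self_of_Y_eq ?_
      simp only [Affine.negY, h.a₁, h.a₃]
      field_simp
      ring)
    (by
      rw [two_nsmul]
      refine Affine.Point.add_self_of_Y_eq ?_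
      simp only [Affine.negY, h.a₁, h.a₃]
      ring)
  rw [hsum] at key
  simp only [xOf_some] at key
  have e1 : A / 4 - 0 = A / 4 := by ring
  have e2 : (0 : F) - -B / 4 = B / 4 := by ring
  have e3 : A / 4 - -B / 4 = (A + B) / 4 := by ring
  rw [e1, e2, e3, div_pow, div_pow, div_pow] at key
  have h4p : (4 : F) ^ p ≠ 0 := pow_ne_zero _ h4
  have e4 : -B / 4 = -(B / 4) := by ring
  rw [e4]
  field_simp at key
  linear_combination key

theorem IsABC.equation_B (h : IsABC E A B) (h2 : (2 : F) ≠ 0) : E.Equation (-B / 4) (B / 8) := by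
  have h4 : (4 : F) = 2 ^ 2 := by norm_num
  have h8 : (8 : F) = 2 ^ 3 := by norm_num
  have h16 : (16 : F) = 2 ^ 4 := by norm_num
  rw [Affine.equation_iff, h.a₁, h.a₂, h.a₃, h.a₄, h.a₆, h4, h8, h16]
  field_simp
  ring

/-- The three kernel products of a curve of Frey shape do not vanish. -/
theorem abc_kerProd_ne_zero [DecidableEq F] (f : F →+* ℂ) (h : IsABC E A B) (hA : A ≠ 0)
    (hB : B ≠ 0) (hC : A + B ≠ 0) {p : ℕ} (hp : p.Prime) (hp2 : p ≠ 2) (Q : E.Point)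
    (hQ : addOrderOf Q = p) :
    kerProd E p Q 0 ≠ 0 ∧ kerProd E p Q (A / 4) ≠ 0 ∧ kerProd E p Q (-B / 4) ≠ 0 := by
  have h2 : (2 : F) ≠ 0 := by
    intro h0
    have := congrArg f h0
    rw [map_ofNat, map_zero] at this
    exact two_ne_zero this
  have h4 : (4 : F) ≠ 0 := by
    have : (4 : F) = 2 ^ 2 := by norm_num
    rw [this]; exact pow_ne_zero _ h2
  have h8 : (8 : F) ≠ 0 := by
    have : (8 : F) = 2 ^ 3 := by norm_num
    rw [this]; exact pow_ne_zero _ h2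
  have hΔ : E.Δ ≠ 0 := h.Δ_ne_zero h2 hA hB hC
  have n0 : E.Nonsingular 0 0 :=
    (Affine.equation_iff_nonsingular_of_Δ_ne_zero hΔ).1 h.equation_zero
  have nA : E.Nonsingular (A / 4) (-A / 8) :=
    (Affine.equation_iff_nonsingular_of_Δ_ne_zero hΔ).1 (h.equation_A h2)
  have nB : E.Nonsingular (-B / 4) (B / 8) :=
    (Affine.equation_iff_nonsingular_of_Δ_ne_zero hΔ).1 (h.equation_B h2)
  refine ⟨?_, ?_, ?_⟩
  · have := field_kerProd_ne_zero f E hΔ hp hp2 Q (Affine.Point.some _ _ n0) hQ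
      (Affine.Point.some_ne_zero _)
      (by
        rw [two_nsmul]
        refine Affine.Point.add_self_of_Y_eq ?_
        simp only [Affine.negY, h.a₁, h.a₃]
        ring)
    simpa using this
  · have := field_kerProd_ne_zero f E hΔ hp hp2 Q (Affine.Point.some _ _ nA) hQ
      (Affine.Point.some_ne_zero _)
      (by
        rw [two_nsmul]
        refine Affine.Point.add_self_of_Y_eq ?_
        simp only [Affine.negY, h.a₁, h.a₃]
        field_simp
        ring)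
    simpa using this
  · have := field_kerProd_ne_zero f E hΔ hp hp2 Q (Affine.Point.some _ _ nB) hQ
      (Affine.Point.some_ne_zero _)
      (by
        rw [two_nsmul]
        refine Affine.Point.add_self_of_Y_eq ?_
        simp only [Affine.negY, h.a₁, h.a₃]
        field_simp
        ring)
    simpa using this

end FreyShape

/-! ### The Frey curve -/

section Frey

open WeierstrassCurve.Affine

/-- The base change of the Frey curve to `ℚ̄` is of Frey shape with `A = a^p`, `B = b^p`. -/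
theorem isABC_freyCurve (P : FreyPackage) :
    IsABC (P.freyCurve⁄(AlgebraicClosure ℚ))
      ((P.a : AlgebraicClosure ℚ) ^ P.p) ((P.b : AlgebraicClosure ℚ) ^ P.p) := by
  constructor <;>
  simp [WeierstrassCurve.baseChange, FreyPackage.freyCurve, map_div₀, map_sub, map_pow, map_mul,
    map_neg]

/-- **The Fermat-type identity on the Frey curve**: for a point `Q` of order `p` on the Frey curve
of `a^p + b^p = c^p`, with `D(e) = ∏_{k=1}^{p-1} (x(kQ) - e)`:
`(a^p)^p D(-b^p/4)² + (b^p)^p D(a^p/4)² = (c^p)^p D(0)²`. -/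
theorem frey_identity [DecidableEq (AlgebraicClosure ℚ)] (P : FreyPackage)
    (Q : (P.freyCurve⁄(AlgebraicClosure ℚ)).Point) (hQ : addOrderOf Q = P.p) :
    ((P.a : AlgebraicClosure ℚ) ^ P.p) ^ P.p *
          kerProd (P.freyCurve⁄(AlgebraicClosure ℚ)) P.p Q (-((P.b : AlgebraicClosure ℚ) ^ P.p) / 4) ^ 2 +
        ((P.b : AlgebraicClosure ℚ) ^ P.p) ^ P.p *
          kerProd (P.freyCurve⁄(AlgebraicClosure ℚ)) P.p Q ((P.a : AlgebraicClosure ℚ) ^ P.p / 4) ^ 2 =
      ((P.c : AlgebraicClosure ℚ) ^ P.p) ^ P.p *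
          kerProd (P.freyCurve⁄(AlgebraicClosure ℚ)) P.p Q 0 ^ 2 := by
  have hsum : (P.a : AlgebraicClosure ℚ) ^ P.p + (P.b : AlgebraicClosure ℚ) ^ P.p =
      (P.c : AlgebraicClosure ℚ) ^ P.p := by
    exact_mod_cast congrArg (Int.cast : ℤ → AlgebraicClosure ℚ) P.hFLT
  have hA : (P.a : AlgebraicClosure ℚ) ^ P.p ≠ 0 := pow_ne_zero _ (Int.cast_ne_zero.2 P.ha0)
  have hB : (P.b : AlgebraicClosure ℚ) ^ P.p ≠ 0 := pow_ne_zero _ (Int.cast_ne_zero.2 P.hb0)
  have hC : (P.a : AlgebraicClosure ℚ) ^ P.p + (P.b : AlgebraicClosure ℚ) ^ P.p ≠ 0 := by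
    rw [hsum]; exact pow_ne_zero _ (Int.cast_ne_zero.2 P.hc0)
  have hp2 : P.p ≠ 2 := by have := P.hp5; omega
  have : Algebra.IsAlgebraic ℚ (AlgebraicClosure ℚ) := AlgebraicClosure.isAlgebraic ℚ
  have key := abc_identity
    ((IsAlgClosed.lift (R := ℚ) (M := ℂ) (S := AlgebraicClosure ℚ) :
      AlgebraicClosure ℚ →ₐ[ℚ] ℂ).toRingHom)
    (isABC_freyCurve P) hA hB hC P.pp hp2 Q hQ
  rw [hsum] at key
  exact key

/-- The three kernel products of the Frey curve do not vanish. -/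
theorem frey_kerProd_ne_zero [DecidableEq (AlgebraicClosure ℚ)] (P : FreyPackage)
    (Q : (P.freyCurve⁄(AlgebraicClosure ℚ)).Point) (hQ : addOrderOf Q = P.p) :
    kerProd (P.freyCurve⁄(AlgebraicClosure ℚ)) P.p Q 0 ≠ 0 ∧
      kerProd (P.freyCurve⁄(AlgebraicClosure ℚ)) P.p Q ((P.a : AlgebraicClosure ℚ) ^ P.p / 4) ≠ 0 ∧
      kerProd (P.freyCurve⁄(AlgebraicClosure ℚ)) P.p Q
        (-((P.b : AlgebraicClosure ℚ) ^ P.p) / 4) ≠ 0 := by
  have hsum : (P.a : AlgebraicClosure ℚ) ^ P.p + (P.b : AlgebraicClosure ℚ) ^ P.p =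
      (P.c : AlgebraicClosure ℚ) ^ P.p := by
    exact_mod_cast congrArg (Int.cast : ℤ → AlgebraicClosure ℚ) P.hFLT
  have hA : (P.a : AlgebraicClosure ℚ) ^ P.p ≠ 0 := pow_ne_zero _ (Int.cast_ne_zero.2 P.ha0)
  have hB : (P.b : AlgebraicClosure ℚ) ^ P.p ≠ 0 := pow_ne_zero _ (Int.cast_ne_zero.2 P.hb0)
  have hC : (P.a : AlgebraicClosure ℚ) ^ P.p + (P.b : AlgebraicClosure ℚ) ^ P.p ≠ 0 := by
    rw [hsum]; exact pow_ne_zero _ (Int.cast_ne_zero.2 P.hc0)
  have hp2 : P.p ≠ 2 := by have := P.hp5; omega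
  have : Algebra.IsAlgebraic ℚ (AlgebraicClosure ℚ) := AlgebraicClosure.isAlgebraic ℚ
  exact abc_kerProd_ne_zero
    ((IsAlgClosed.lift (R := ℚ) (M := ℂ) (S := AlgebraicClosure ℚ) :
      AlgebraicClosure ℚ →ₐ[ℚ] ℂ).toRingHom)
    (isABC_freyCurve P) hA hB hC P.pp hp2 Q hQ

/-- **The endgame of `S12`**: if the kernel products of a point `Q` of order `p` on the Frey curve
satisfy `D(-b^p/4)² = D(0)²` and `16^(p-1) D(a^p/4)² = D(0)²` (which is what the local analysis at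
all primes gives when `⟨Q⟩` is Galois-stable and toric at every bad prime), we get a
contradiction: `a^p + b^p = c^p` and `(a^p)^p + 16^(1-p) (b^p)^p = (c^p)^p`. -/
theorem frey_endgame [DecidableEq (AlgebraicClosure ℚ)] (P : FreyPackage)
    (Q : (P.freyCurve⁄(AlgebraicClosure ℚ)).Point) (hQ : addOrderOf Q = P.p)
    (h1 : kerProd (P.freyCurve⁄(AlgebraicClosure ℚ)) P.p Q
        (-((P.b : AlgebraicClosure ℚ) ^ P.p) / 4) ^ 2 =
      kerProd (P.freyCurve⁄(AlgebraicClosure ℚ)) P.p Q 0 ^ 2)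
    (h2 : (16 : AlgebraicClosure ℚ) ^ (P.p - 1) *
        kerProd (P.freyCurve⁄(AlgebraicClosure ℚ)) P.p Q
          ((P.a : AlgebraicClosure ℚ) ^ P.p / 4) ^ 2 =
      kerProd (P.freyCurve⁄(AlgebraicClosure ℚ)) P.p Q 0 ^ 2) : False := by
  have key := frey_identity P Q hQ
  obtain ⟨h0, -, -⟩ := frey_kerProd_ne_zero P Q hQ
  have h0' : kerProd (P.freyCurve⁄(AlgebraicClosure ℚ)) P.p Q 0 ^ 2 ≠ 0 := pow_ne_zero _ h0
  have e : (16 : AlgebraicClosure ℚ) ^ (P.p - 1) * ((P.a : AlgebraicClosure ℚ) ^ P.p) ^ P.p +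
      ((P.b : AlgebraicClosure ℚ) ^ P.p) ^ P.p =
      (16 : AlgebraicClosure ℚ) ^ (P.p - 1) * ((P.c : AlgebraicClosure ℚ) ^ P.p) ^ P.p := by
    apply mul_right_cancel₀ h0'
    rw [h1] at key
    linear_combination (16 : AlgebraicClosure ℚ) ^ (P.p - 1) * key -
      ((P.b : AlgebraicClosure ℚ) ^ P.p) ^ P.p * h2
  have hfin := Fermat.Agent.MAZ.S12.RealFinish24.frey_finish P.hp_odd
    (by have := P.hp5; omega) P.ha0 P.hb0 P.hc0 P.hFLT
  apply hfin
  have inj : Function.Injective (Int.cast : ℤ → AlgebraicClosure ℚ) := Int.cast_injective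
  apply inj
  push_cast
  rw [pow_mul, pow_mul, pow_mul]
  exact e

end Frey

end Fermat.Agent.MAZ.S12.FermatId86
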