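/-
Programme MAZ, sub-programme MAZ-S12 (S12 from S15), brick (T_p) = K0+ (helper57):
**the contract `Spec27.LineStmt`** — a Galois-stable cofixed line of the Frey curve gives line data,
including its position at `p` (the line lies in the kernel of reduction at every place over `p`,
`AtP57.line_le_V1`).
-/
import Fermat.Agent.MAZ.S12.AtP57
import Fermat.Agent.MAZ.S12.Spec27

set_option autoImplicit false

open WeierstrassCurve WeierstrassCurve.Affine WeierstrassCurve.Affine.Point

namespace Fermat.Agent.MAZ.S12.LineAtP57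

open Fermat.Agent.MAZ.S12.Spec27

/-- **(K0) LINE**, the contract of `Spec27`. -/
theorem lineStmt : LineStmt := by
  intro P h
  obtain ⟨R₀, P₀, h1, h2, h3, h4, h5, h6⟩ := Fermat.Agent.MAZ.S12.AtP57.exists_points_int P h
  exact ⟨R₀, P₀, ⟨h1, h2, h3, h4, h5, h6⟩⟩

end Fermat.Agent.MAZ.S12.LineAtP57
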