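import Fermat.Agent.MAZ.Analytic.QuotIsogMain32

set_option autoImplicit false

namespace Fermat.Agent.MAZ.S12.VeluQb32

open Fermat.Agent.MAZ.Analytic.QuotIsog32 Fermat.Agent.MAZ.Analytic.QuotIsogMain32
open Fermat.Agent.MAZ.Analytic.GlobalDefs42
open WeierstrassCurve

section defs

variable {F : Type*} [Field F] [DecidableEq F] (E : WeierstrassCurve.Affine F) (p : ℕ)
  (R₀ : E.Point)

/-- Vélu's `t` (half sum over `N ∖ 0`, written as half of the full sum). -/
noncomputable def veluT : F := (∑ k ∈ Finset.Ico 1 p, tOf E (k • R₀)) / 2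

/-- Vélu's `w` (half sum over `N ∖ 0`, written as half of the full sum). -/
noncomputable def veluW : F := (∑ k ∈ Finset.Ico 1 p, wPoly E (xOf E (k • R₀))) / 2

/-- Vélu's quotient curve `E / ⟨R₀⟩`. -/
noncomputable def quotCurve : WeierstrassCurve F := veluCurve E (veluT E p R₀) (veluW E p R₀)

/-- Vélu's `X`-coordinate of the image of `P`. -/
noncomputable def veluX (P : E.Point) : F :=
  xOf E P + ∑ k ∈ Finset.Ico 1 p, (xOf E (P + k • R₀) - xOf E (k • R₀))

/-- Vélu's `ψ₂ = 2Y + a₁X + a₃` of the image of `P`. -/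
noncomputable def veluPsi (P : E.Point) : F := ∑ k ∈ Finset.range p, psi2 E (P + k • R₀)

/-- Vélu's `Y`-coordinate of the image of `P`. -/
noncomputable def veluY (P : E.Point) : F :=
  (veluPsi E p R₀ P - E.a₁ * veluX E p R₀ P - E.a₃) / 2

end defs

section map

variable {F : Type*} [Field F] {K : Type*} [Field K] (f : F →+* K)

theorem map_veluCurve (E : WeierstrassCurve F) (t w : F) :
    (veluCurve E t w).map f = veluCurve (E.map f) (f t) (f w) := by
  unfold veluCurve
  ext <;> simp [WeierstrassCurve.map, WeierstrassCurve.b₂, map_ofNat]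

theorem map_wPoly (E : WeierstrassCurve F) (x : F) : wPoly (E.map f) (f x) = f (wPoly E x) := by
  unfold wPoly
  simp only [WeierstrassCurve.map_b₂, WeierstrassCurve.map_b₄, WeierstrassCurve.map_b₆, map_add,
    map_mul, map_pow, map_ofNat]

end map


section descent

variable {F : Type*} [Field F] [DecidableEq F] (f : F →+* ℂ) (E : WeierstrassCurve.Affine F)
  {p : ℕ} (R₀ : E.Point)

theorem mapPt_zsmul (k : ℤ) (P : E.Point) : mapPt E f (k • P) = k • mapPt E f P :=
  map_zsmul (mapPtHom E f) k P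

theorem mapPt_mem_zmultiples_iff (P : E.Point) :
    mapPt E f P ∈ AddSubgroup.zmultiples (mapPt E f R₀) ↔ P ∈ AddSubgroup.zmultiples R₀ := by
  simp only [AddSubgroup.mem_zmultiples_iff]
  constructor
  · rintro ⟨k, hk⟩
    refine ⟨k, mapPt_injective E f ?_⟩
    rw [mapPt_zsmul, hk]
  · rintro ⟨k, rfl⟩
    exact ⟨k, (mapPt_zsmul f E k R₀).symm⟩

theorem map_veluT : f (veluT E p R₀) = (∑ k ∈ Finset.Ico 1 p,
    tOf (E.map f).toAffine (k • mapPt E f R₀)) / 2 := by
  unfold veluT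
  rw [map_div₀, map_sum, map_ofNat]
  congr 1
  refine Finset.sum_congr rfl fun k _ => ?_
  rw [← mapPt_nsmul, tOf_mapPt]

theorem map_veluW : f (veluW E p R₀) = (∑ k ∈ Finset.Ico 1 p,
    wPoly (E.map f) (xOf (E.map f).toAffine (k • mapPt E f R₀))) / 2 := by
  unfold veluW
  rw [map_div₀, map_sum, map_ofNat]
  congr 1
  refine Finset.sum_congr rfl fun k _ => ?_
  rw [← mapPt_nsmul, xOf_mapPt, map_wPoly]

theorem map_veluX (P : E.Point) : f (veluX E p R₀ P) =
    xOf (E.map f).toAffine (mapPt E f P) + ∑ k ∈ Finset.Ico 1 p,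
      (xOf (E.map f).toAffine (mapPt E f P + k • mapPt E f R₀) -
        xOf (E.map f).toAffine (k • mapPt E f R₀)) := by
  unfold veluX
  rw [map_add, map_sum, xOf_mapPt]
  congr 1
  refine Finset.sum_congr rfl fun k _ => ?_
  rw [map_sub, ← mapPt_nsmul, ← mapPt_add, xOf_mapPt, xOf_mapPt]

theorem map_veluPsi (P : E.Point) : f (veluPsi E p R₀ P) =
    ∑ k ∈ Finset.range p, psi2 (E.map f).toAffine (mapPt E f P + k • mapPt E f R₀) := by
  unfold veluPsi
  rw [map_sum]
  refine Finset.sum_congr rfl fun k _ => ?_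
  rw [← mapPt_nsmul, ← mapPt_add, psi2_mapPt]


/-- The complex quotient isogeny transported to the curve `(quotCurve E p R₀).map f`. -/
theorem exists_complex_isog (hΔ : E.Δ ≠ 0) (hp : p.Prime) (hR : addOrderOf R₀ = p) :
    ((quotCurve E p R₀).map f).Δ ≠ 0 ∧
    ∃ φ : (E.map f).toAffine.Point →+ ((quotCurve E p R₀).map f).toAffine.Point,
      φ.ker = AddSubgroup.zmultiples (mapPt E f R₀) ∧
      (∀ P : E.Point, psi2 ((quotCurve E p R₀).map f).toAffine (φ (mapPt E f P)) =
        f (veluPsi E p R₀ P)) ∧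
      (∀ P : E.Point, P ∉ AddSubgroup.zmultiples R₀ →
        xOf ((quotCurve E p R₀).map f).toAffine (φ (mapPt E f P)) = f (veluX E p R₀ P)) := by
  have hΔ' : (E.map f).Δ ≠ 0 := by
    rw [WeierstrassCurve.map_Δ]
    exact (map_ne_zero f).2 hΔ
  have hQ : addOrderOf (mapPt E f R₀) = p := by rw [addOrderOf_mapPt, hR]
  have ht : 2 * f (veluT E p R₀) = ∑ k ∈ Finset.Ico 1 p,
      tOf (E.map f).toAffine (k • mapPt E f R₀) := by
    rw [map_veluT]; ring
  have hw : 2 * f (veluW E p R₀) = ∑ k ∈ Finset.Ico 1 p,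
      wPoly (E.map f) (xOf (E.map f).toAffine (k • mapPt E f R₀)) := by
    rw [map_veluW]; ring
  have key : ∀ W' : WeierstrassCurve ℂ,
      W' = veluCurve (E.map f) (f (veluT E p R₀)) (f (veluW E p R₀)) →
      W'.Δ ≠ 0 ∧ ∃ φ : (E.map f).toAffine.Point →+ W'.toAffine.Point,
        Function.Surjective φ ∧ φ.ker = AddSubgroup.zmultiples (mapPt E f R₀) ∧
        (∀ P, psi2 W'.toAffine (φ P) =
          ∑ k ∈ Finset.range p, psi2 (E.map f).toAffine (P + k • mapPt E f R₀)) ∧
        (∀ P, P ∉ φ.ker → xOf W'.toAffine (φ P) =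
          xOf (E.map f).toAffine P + ∑ k ∈ Finset.Ico 1 p,
            (xOf (E.map f).toAffine (P + k • mapPt E f R₀) -
              xOf (E.map f).toAffine (k • mapPt E f R₀))) := by
    rintro W' rfl
    exact exists_quotIsog (E.map f) hΔ' hp (mapPt E f R₀) hQ ht hw
  obtain ⟨h1, φ, -, hker, hpsi, hx⟩ := key ((quotCurve E p R₀).map f) (map_veluCurve f E _ _)
  refine ⟨h1, φ, hker, ?_, ?_⟩
  · intro P
    rw [hpsi, map_veluPsi]
  · intro P hP
    rw [hx, map_veluX]
    rw [hker, mapPt_mem_zmultiples_iff]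
    exact hP


/-- The value of a complex quotient isogeny at `mapPt E f P`, `P ∉ N`. -/
theorem isog_mapPt_eq_some
    (φ : (E.map f).toAffine.Point →+ ((quotCurve E p R₀).map f).toAffine.Point)
    (hker : φ.ker = AddSubgroup.zmultiples (mapPt E f R₀))
    (hpsi : ∀ P : E.Point, psi2 ((quotCurve E p R₀).map f).toAffine (φ (mapPt E f P)) =
        f (veluPsi E p R₀ P))
    (hx : ∀ P : E.Point, P ∉ AddSubgroup.zmultiples R₀ →
        xOf ((quotCurve E p R₀).map f).toAffine (φ (mapPt E f P)) = f (veluX E p R₀ P))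
    (P : E.Point) (hP : P ∉ AddSubgroup.zmultiples R₀) :
    ∃ hxy : ((quotCurve E p R₀).map f).toAffine.Nonsingular (f (veluX E p R₀ P))
      (f (veluY E p R₀ P)), φ (mapPt E f P) = Affine.Point.some _ _ hxy := by
  have hne : φ (mapPt E f P) ≠ 0 := by
    intro h0
    have : mapPt E f P ∈ φ.ker := h0
    rw [hker, mapPt_mem_zmultiples_iff] at this
    exact hP this
  have hx' := hx P hP
  have hpsi' := hpsi P
  rcases hφ : φ (mapPt E f P) with _ | ⟨x, y, hxy⟩
  · exact absurd hφ hne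
  · rw [hφ] at hx' hpsi'
    have e1 : x = f (veluX E p R₀ P) := hx'
    have e2 : 2 * y + ((quotCurve E p R₀).map f).a₁ * x + ((quotCurve E p R₀).map f).a₃ =
        f (veluPsi E p R₀ P) := hpsi'
    have e3 : y = f (veluY E p R₀ P) := by
      unfold veluY
      rw [map_div₀, map_sub, map_sub, map_mul, map_ofNat, ← e1, ← e2]
      simp only [WeierstrassCurve.map_a₁, WeierstrassCurve.map_a₃, quotCurve, veluCurve_a₁,
        veluCurve_a₃]
      ring
    subst e1 e3
    exact ⟨hxy, rfl⟩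

include f in
/-- Vélu's point `(X(P), Y(P))` is a nonsingular point of the quotient curve. -/
theorem nonsingular_velu (hΔ : E.Δ ≠ 0) (hp : p.Prime) (hR : addOrderOf R₀ = p) (P : E.Point)
    (hP : P ∉ AddSubgroup.zmultiples R₀) :
    (quotCurve E p R₀).toAffine.Nonsingular (veluX E p R₀ P) (veluY E p R₀ P) := by
  obtain ⟨-, φ, hker, hpsi, hx⟩ := exists_complex_isog f E R₀ hΔ hp hR
  obtain ⟨hxy, -⟩ := isog_mapPt_eq_some f E R₀ φ hker hpsi hx P hP
  exact ((quotCurve E p R₀).toAffine.map_nonsingular f.injective _ _).mp hxy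

include f in
theorem quotCurve_Δ_ne_zero (hΔ : E.Δ ≠ 0) (hp : p.Prime) (hR : addOrderOf R₀ = p) :
    (quotCurve E p R₀).Δ ≠ 0 := by
  obtain ⟨h1, -⟩ := exists_complex_isog f E R₀ hΔ hp hR
  rw [WeierstrassCurve.map_Δ] at h1
  exact fun h0 => h1 (by rw [h0, map_zero])

open Classical in
/-- **Vélu's map** `E(F) → (E/⟨R₀⟩)(F)`, given the nonsingularity of Vélu's points. -/
noncomputable def veluMap (hns : ∀ P : E.Point, P ∉ AddSubgroup.zmultiples R₀ →
    (quotCurve E p R₀).toAffine.Nonsingular (veluX E p R₀ P) (veluY E p R₀ P)) (P : E.Point) :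
    (quotCurve E p R₀).toAffine.Point :=
  if h : P ∈ AddSubgroup.zmultiples R₀ then 0 else Affine.Point.some _ _ (hns P h)

variable {E R₀} in
theorem veluMap_of_mem {hns : ∀ P : E.Point, P ∉ AddSubgroup.zmultiples R₀ →
    (quotCurve E p R₀).toAffine.Nonsingular (veluX E p R₀ P) (veluY E p R₀ P)} {P : E.Point}
    (h : P ∈ AddSubgroup.zmultiples R₀) : veluMap E R₀ hns P = 0 := by
  simp [veluMap, h]

variable {E R₀} in
theorem veluMap_of_notMem {hns : ∀ P : E.Point, P ∉ AddSubgroup.zmultiples R₀ →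
    (quotCurve E p R₀).toAffine.Nonsingular (veluX E p R₀ P) (veluY E p R₀ P)} {P : E.Point}
    (h : P ∉ AddSubgroup.zmultiples R₀) :
    veluMap E R₀ hns P = Affine.Point.some _ _ (hns P h) := by
  simp [veluMap, h]

variable {E R₀} in
theorem veluMap_eq_zero_iff {hns : ∀ P : E.Point, P ∉ AddSubgroup.zmultiples R₀ →
    (quotCurve E p R₀).toAffine.Nonsingular (veluX E p R₀ P) (veluY E p R₀ P)} {P : E.Point} :
    veluMap E R₀ hns P = 0 ↔ P ∈ AddSubgroup.zmultiples R₀ := by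
  constructor
  · intro h0
    by_contra hP
    rw [veluMap_of_notMem hP] at h0
    exact Affine.Point.some_ne_zero _ h0
  · exact veluMap_of_mem

/-- Compatibility of Vélu's map with the complex quotient isogeny. -/
theorem mapPt_veluMap
    (hns : ∀ P : E.Point, P ∉ AddSubgroup.zmultiples R₀ →
      (quotCurve E p R₀).toAffine.Nonsingular (veluX E p R₀ P) (veluY E p R₀ P))
    (φ : (E.map f).toAffine.Point →+ ((quotCurve E p R₀).map f).toAffine.Point)
    (hker : φ.ker = AddSubgroup.zmultiples (mapPt E f R₀))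
    (hpsi : ∀ P : E.Point, psi2 ((quotCurve E p R₀).map f).toAffine (φ (mapPt E f P)) =
        f (veluPsi E p R₀ P))
    (hx : ∀ P : E.Point, P ∉ AddSubgroup.zmultiples R₀ →
        xOf ((quotCurve E p R₀).map f).toAffine (φ (mapPt E f P)) = f (veluX E p R₀ P))
    (P : E.Point) :
    mapPt (quotCurve E p R₀).toAffine f (veluMap E R₀ hns P) = φ (mapPt E f P) := by
  by_cases hP : P ∈ AddSubgroup.zmultiples R₀
  · rw [veluMap_of_mem hP, mapPt_zero]
    have : mapPt E f P ∈ φ.ker := by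
      rw [hker, mapPt_mem_zmultiples_iff]; exact hP
    exact this.symm
  · rw [veluMap_of_notMem hP, mapPt_some]
    obtain ⟨hxy, e⟩ := isog_mapPt_eq_some f E R₀ φ hker hpsi hx P hP
    rw [e]

include f in
/-- **Vélu's map is additive.** -/
theorem veluMap_add (hΔ : E.Δ ≠ 0) (hp : p.Prime) (hR : addOrderOf R₀ = p)
    (hns : ∀ P : E.Point, P ∉ AddSubgroup.zmultiples R₀ →
      (quotCurve E p R₀).toAffine.Nonsingular (veluX E p R₀ P) (veluY E p R₀ P))
    (P Q : E.Point) :
    veluMap E R₀ hns (P + Q) = veluMap E R₀ hns P + veluMap E R₀ hns Q := by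
  obtain ⟨-, φ, hker, hpsi, hx⟩ := exists_complex_isog f E R₀ hΔ hp hR
  apply mapPt_injective (quotCurve E p R₀).toAffine f
  rw [mapPt_add, mapPt_veluMap f E R₀ hns φ hker hpsi hx, mapPt_veluMap f E R₀ hns φ hker hpsi hx,
    mapPt_veluMap f E R₀ hns φ hker hpsi hx, mapPt_add, map_add]


/-- **Vélu's isogeny** `E(F) →+ (E/⟨R₀⟩)(F)` for a field `F` embedded in `ℂ`. -/
noncomputable def veluHom (hΔ : E.Δ ≠ 0) (hp : p.Prime) (hR : addOrderOf R₀ = p) :
    E.Point →+ (quotCurve E p R₀).toAffine.Point where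
  toFun := veluMap E R₀ (nonsingular_velu f E R₀ hΔ hp hR)
  map_zero' := veluMap_of_mem (zero_mem _)
  map_add' := veluMap_add f E R₀ hΔ hp hR _

theorem veluHom_apply (hΔ : E.Δ ≠ 0) (hp : p.Prime) (hR : addOrderOf R₀ = p) (P : E.Point) :
    veluHom f E R₀ hΔ hp hR P = veluMap E R₀ (nonsingular_velu f E R₀ hΔ hp hR) P := rfl

theorem veluHom_eq_zero_iff (hΔ : E.Δ ≠ 0) (hp : p.Prime) (hR : addOrderOf R₀ = p) (P : E.Point) :
    veluHom f E R₀ hΔ hp hR P = 0 ↔ P ∈ AddSubgroup.zmultiples R₀ := by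
  rw [veluHom_apply]; exact veluMap_eq_zero_iff

theorem ker_veluHom (hΔ : E.Δ ≠ 0) (hp : p.Prime) (hR : addOrderOf R₀ = p) :
    (veluHom f E R₀ hΔ hp hR).ker = AddSubgroup.zmultiples R₀ := by
  ext P
  rw [AddMonoidHom.mem_ker, veluHom_eq_zero_iff]

theorem veluHom_of_notMem (hΔ : E.Δ ≠ 0) (hp : p.Prime) (hR : addOrderOf R₀ = p) {P : E.Point}
    (hP : P ∉ AddSubgroup.zmultiples R₀) :
    veluHom f E R₀ hΔ hp hR P =
      Affine.Point.some _ _ (nonsingular_velu f E R₀ hΔ hp hR P hP) := by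
  rw [veluHom_apply]; exact veluMap_of_notMem hP

theorem xOf_veluHom (hΔ : E.Δ ≠ 0) (hp : p.Prime) (hR : addOrderOf R₀ = p) {P : E.Point}
    (hP : P ∉ AddSubgroup.zmultiples R₀) :
    xOf (quotCurve E p R₀).toAffine (veluHom f E R₀ hΔ hp hR P) = veluX E p R₀ P := by
  rw [veluHom_of_notMem f E R₀ hΔ hp hR hP]; rfl

theorem yOf_veluHom (hΔ : E.Δ ≠ 0) (hp : p.Prime) (hR : addOrderOf R₀ = p) {P : E.Point}
    (hP : P ∉ AddSubgroup.zmultiples R₀) :
    yOf (quotCurve E p R₀).toAffine (veluHom f E R₀ hΔ hp hR P) = veluY E p R₀ P := by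
  rw [veluHom_of_notMem f E R₀ hΔ hp hR hP]; rfl

/-- The image of a `p`-torsion point outside `N` has exact order `p`. -/
theorem addOrderOf_veluHom (hΔ : E.Δ ≠ 0) (hp : p.Prime) (hR : addOrderOf R₀ = p) {P₀ : E.Point}
    (hP₀ : p • P₀ = 0) (hP₀' : P₀ ∉ AddSubgroup.zmultiples R₀) :
    addOrderOf (veluHom f E R₀ hΔ hp hR P₀) = p := by
  have : Fact p.Prime := ⟨hp⟩
  apply addOrderOf_eq_prime
  · rw [← map_nsmul, hP₀, map_zero]
  · rw [Ne, veluHom_eq_zero_iff]; exact hP₀'

end descent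

end Fermat.Agent.MAZ.S12.VeluQb32
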