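/-
Programme MAZ, sub-programme MAZ-S12 (S12 from S15), brick K1c (helper24): RATIONALITY of the
Vélu quotient `E/N` of helper32's `VeluQb32` and of the image `Q' = φ(P₀)`.

`W : WeierstrassCurve ℚ`, `E := W⁄ℚ̄`, `R₀` of order `p` generating a Galois-stable line `N`,
`P₀` a point whose coset `P₀ + N` is Galois-stable (`σ • P₀ - P₀ ∈ N`: the line is cofixed).
* re-indexing of the sums over `k ∈ range p`, `Ico 1 p` (`sum_range_nsmul_of_mem`,
  `sum_range_add_nsmul_of_mem`, `sum_Ico_nsmul_of_mem`);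
* `veluT_fixed`, `veluW_fixed`, `veluX_fixed`, `veluPsi_fixed`, `veluY_fixed`;
* `exists_rat_quotCurve`: `quotCurve E p R₀ = (veluCurve W tq wq).map (algebraMap ℚ ℚ̄)`;
* `exists_rat_quot`: the point `Q' = (X(P₀), Y(P₀))` of `(veluCurve W tq wq)⁄ℚ̄` is Galois-fixed
  of exact order `p`.
-/
import Fermat.Agent.MAZ.S12.VeluQb32
import Fermat.Agent.S13.GalRat
import Fermat.Prelude.Def_FLTPrelim_GaloisRep

set_option autoImplicit false

namespace Fermat.Agent.MAZ.S12.VeluGal24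

open Fermat.Agent.MAZ.Analytic.QuotIsog32 Fermat.Agent.MAZ.Analytic.GlobalDefs42
open Fermat.Agent.MAZ.S12.VeluQb32
open WeierstrassCurve WeierstrassCurve.Affine WeierstrassCurve.Affine.Point

section reindex

variable {G : Type*} [AddCommGroup G] [DecidableEq G] {M : Type*} [AddCommMonoid M]

/-- The finite set of multiples `k • R`, `k < p`. -/
def lineSet (p : ℕ) (R : G) : Finset G := (Finset.range p).image (fun k => k • R)

theorem sum_lineSet {p : ℕ} {R : G} (hR : addOrderOf R = p) (g : G → M) :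
    ∑ Q ∈ lineSet p R, g Q = ∑ k ∈ Finset.range p, g (k • R) := by
  unfold lineSet
  rw [Finset.sum_image]
  intro i hi j hj hij
  subst hR
  exact nsmul_injOn_Iio_addOrderOf (by simpa using hi) (by simpa using hj) hij

theorem mem_lineSet {p : ℕ} (hp : 0 < p) {R : G} (hR : addOrderOf R = p) (Q : G) :
    Q ∈ lineSet p R ↔ Q ∈ AddSubgroup.zmultiples R := by
  subst hR
  have hfin : IsOfFinAddOrder R := addOrderOf_pos_iff.mp hp
  exact (hfin.mem_zmultiples_iff_mem_range_addOrderOf).symm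

theorem card_lineSet {p : ℕ} {R : G} (hR : addOrderOf R = p) : (lineSet p R).card = p := by
  unfold lineSet
  rw [Finset.card_image_of_injOn, Finset.card_range]
  intro i hi j hj hij
  subst hR
  exact nsmul_injOn_Iio_addOrderOf (by simpa using hi) (by simpa using hj) hij

theorem lineSet_eq_of_mem {p : ℕ} (hp : 0 < p) {R R' : G} (hR : addOrderOf R = p)
    (hR' : addOrderOf R' = p) (hmem : R' ∈ AddSubgroup.zmultiples R) :
    lineSet p R' = lineSet p R := by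
  apply Finset.eq_of_subset_of_card_le
  · intro Q hQ
    rw [mem_lineSet hp hR'] at hQ
    rw [mem_lineSet hp hR]
    exact (AddSubgroup.zmultiples_le.mpr hmem) hQ
  · rw [card_lineSet hR, card_lineSet hR']

/-- Re-indexing by another generator. -/
theorem sum_range_nsmul_of_mem {p : ℕ} (hp : 0 < p) {R R' : G} (hR : addOrderOf R = p)
    (hR' : addOrderOf R' = p) (hmem : R' ∈ AddSubgroup.zmultiples R) (g : G → M) :
    ∑ k ∈ Finset.range p, g (k • R') = ∑ k ∈ Finset.range p, g (k • R) := by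
  rw [← sum_lineSet hR', ← sum_lineSet hR, lineSet_eq_of_mem hp hR hR' hmem]

/-- Re-indexing by a translation inside the line. -/
theorem sum_range_add_nsmul_of_mem {p : ℕ} (hp : 0 < p) {R T : G} (hR : addOrderOf R = p)
    (hmem : T ∈ AddSubgroup.zmultiples R) (g : G → M) :
    ∑ k ∈ Finset.range p, g (T + k • R) = ∑ k ∈ Finset.range p, g (k • R) := by
  rw [← sum_lineSet hR (fun Q => g (T + Q)), ← sum_lineSet hR]
  refine Finset.sum_nbij' (fun Q => T + Q) (fun Q => -T + Q) ?_ ?_ ?_ ?_ ?_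
  · intro Q hQ
    rw [mem_lineSet hp hR] at hQ ⊢
    exact add_mem hmem hQ
  · intro Q hQ
    rw [mem_lineSet hp hR] at hQ ⊢
    exact add_mem (neg_mem hmem) hQ
  · intro Q _; simp
  · intro Q _; simp
  · intro Q _; rfl

theorem sum_Ico_eq_sub {A : Type*} [AddCommGroup A] {p : ℕ} (hp : 0 < p) (f : ℕ → A) :
    ∑ k ∈ Finset.Ico 1 p, f k = ∑ k ∈ Finset.range p, f k - f 0 := by
  rw [Finset.range_eq_Ico, Finset.sum_eq_sum_Ico_succ_bot hp]
  simp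

theorem sum_Ico_nsmul_of_mem {A : Type*} [AddCommGroup A] {p : ℕ} (hp : 0 < p) {R R' : G}
    (hR : addOrderOf R = p) (hR' : addOrderOf R' = p) (hmem : R' ∈ AddSubgroup.zmultiples R)
    (g : G → A) :
    ∑ k ∈ Finset.Ico 1 p, g (k • R') = ∑ k ∈ Finset.Ico 1 p, g (k • R) := by
  rw [sum_Ico_eq_sub hp, sum_Ico_eq_sub hp, sum_range_nsmul_of_mem hp hR hR' hmem, zero_nsmul,
    zero_nsmul]

end reindex

section galois

variable {F : Type*} [Field F] {K : Type*} [Field K] [DecidableEq K] [Algebra F K]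
  (W : WeierstrassCurve F)

theorem xOf_smul (σ : K ≃ₐ[F] K) (P : (W⁄K).Point) : xOf (W⁄K) (σ • P) = σ (xOf (W⁄K) P) := by
  cases P with
  | zero => exact (map_zero σ).symm
  | some x y h => rfl

theorem yOf_smul (σ : K ≃ₐ[F] K) (P : (W⁄K).Point) : yOf (W⁄K) (σ • P) = σ (yOf (W⁄K) P) := by
  cases P with
  | zero => exact (map_zero σ).symm
  | some x y h => rfl

omit [DecidableEq K] in
theorem map_a₁ (σ : K ≃ₐ[F] K) : σ (W⁄K).a₁ = (W⁄K).a₁ := by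
  change σ (W.map (algebraMap F K)).a₁ = (W.map (algebraMap F K)).a₁
  rw [WeierstrassCurve.map_a₁, σ.commutes]

omit [DecidableEq K] in
theorem map_a₃ (σ : K ≃ₐ[F] K) : σ (W⁄K).a₃ = (W⁄K).a₃ := by
  change σ (W.map (algebraMap F K)).a₃ = (W.map (algebraMap F K)).a₃
  rw [WeierstrassCurve.map_a₃, σ.commutes]

omit [DecidableEq K] in
theorem map_b₂ (σ : K ≃ₐ[F] K) : σ (W⁄K).b₂ = (W⁄K).b₂ := by
  change σ (W.map (algebraMap F K)).b₂ = (W.map (algebraMap F K)).b₂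
  rw [WeierstrassCurve.map_b₂, σ.commutes]

omit [DecidableEq K] in
theorem map_b₄ (σ : K ≃ₐ[F] K) : σ (W⁄K).b₄ = (W⁄K).b₄ := by
  change σ (W.map (algebraMap F K)).b₄ = (W.map (algebraMap F K)).b₄
  rw [WeierstrassCurve.map_b₄, σ.commutes]

omit [DecidableEq K] in
theorem map_b₆ (σ : K ≃ₐ[F] K) : σ (W⁄K).b₆ = (W⁄K).b₆ := by
  change σ (W.map (algebraMap F K)).b₆ = (W.map (algebraMap F K)).b₆
  rw [WeierstrassCurve.map_b₆, σ.commutes]

theorem psi2_smul (σ : K ≃ₐ[F] K) (P : (W⁄K).Point) :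
    psi2 (W⁄K) (σ • P) = σ (psi2 (W⁄K) P) := by
  cases P with
  | zero => exact (map_zero σ).symm
  | some x y h =>
    change 2 * σ y + (W⁄K).a₁ * σ x + (W⁄K).a₃ = σ (2 * y + (W⁄K).a₁ * x + (W⁄K).a₃)
    rw [map_add, map_add, map_mul, map_mul, map_a₁, map_a₃, map_ofNat]

theorem tOf_smul (σ : K ≃ₐ[F] K) (P : (W⁄K).Point) :
    tOf (W⁄K) (σ • P) = σ (tOf (W⁄K) P) := by
  unfold tOf
  rw [xOf_smul, map_add, map_add, map_mul, map_mul, map_pow, map_b₂, map_b₄, map_ofNat]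

theorem wPoly_smul (σ : K ≃ₐ[F] K) (P : (W⁄K).Point) :
    wPoly (W⁄K) (xOf (W⁄K) (σ • P)) = σ (wPoly (W⁄K) (xOf (W⁄K) P)) := by
  unfold wPoly
  rw [xOf_smul]
  simp only [map_add, map_mul, map_pow, map_b₂, map_b₄, map_b₆, map_ofNat]

theorem addOrderOf_smul (σ : K ≃ₐ[F] K) (P : (W⁄K).Point) :
    addOrderOf (σ • P) = addOrderOf P :=
  addOrderOf_injective (DistribSMul.toAddMonoidHom (W⁄K).Point σ) (MulAction.injective σ) P

theorem smul_nsmul (σ : K ≃ₐ[F] K) (k : ℕ) (P : (W⁄K).Point) : σ • (k • P) = k • (σ • P) :=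
  map_nsmul (DistribSMul.toAddMonoidHom (W⁄K).Point σ) k P

end galois

section invariance

variable {F : Type*} [Field F] {K : Type*} [Field K] [DecidableEq K] [Algebra F K]
  (W : WeierstrassCurve F) {p : ℕ} {R₀ : (W⁄K).Point}

/-- Galois-invariance of a sum over the nonzero points of a Galois-stable line. -/
theorem line_sum_fixed (hp : 0 < p) (hR : addOrderOf R₀ = p)
    (hstab : ∀ σ : K ≃ₐ[F] K, σ • R₀ ∈ AddSubgroup.zmultiples R₀)
    (g : (W⁄K).Point → K) (hg : ∀ (σ : K ≃ₐ[F] K) (P : (W⁄K).Point), g (σ • P) = σ (g P))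
    (σ : K ≃ₐ[F] K) :
    σ (∑ k ∈ Finset.Ico 1 p, g (k • R₀)) = ∑ k ∈ Finset.Ico 1 p, g (k • R₀) := by
  rw [map_sum]
  calc ∑ k ∈ Finset.Ico 1 p, σ (g (k • R₀))
      = ∑ k ∈ Finset.Ico 1 p, g (k • (σ • R₀)) :=
        Finset.sum_congr rfl fun k _ => by rw [← hg, smul_nsmul]
    _ = ∑ k ∈ Finset.Ico 1 p, g (k • R₀) :=
        sum_Ico_nsmul_of_mem hp hR ((addOrderOf_smul W σ R₀).trans hR) (hstab σ) g

/-- Galois-invariance of a sum over a coset `P₀ + N` which is Galois-stable. -/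
theorem coset_sum_fixed (hp : 0 < p) (hR : addOrderOf R₀ = p)
    (hstab : ∀ σ : K ≃ₐ[F] K, σ • R₀ ∈ AddSubgroup.zmultiples R₀)
    {P₀ : (W⁄K).Point} (hcof : ∀ σ : K ≃ₐ[F] K, σ • P₀ - P₀ ∈ AddSubgroup.zmultiples R₀)
    (g : (W⁄K).Point → K) (hg : ∀ (σ : K ≃ₐ[F] K) (P : (W⁄K).Point), g (σ • P) = σ (g P))
    (σ : K ≃ₐ[F] K) :
    σ (∑ k ∈ Finset.range p, g (P₀ + k • R₀)) = ∑ k ∈ Finset.range p, g (P₀ + k • R₀) := by
  rw [map_sum]
  calc ∑ k ∈ Finset.range p, σ (g (P₀ + k • R₀))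
      = ∑ k ∈ Finset.range p, g (σ • P₀ + k • (σ • R₀)) :=
        Finset.sum_congr rfl fun k _ => by rw [← hg, smul_add, smul_nsmul]
    _ = ∑ k ∈ Finset.range p, g (σ • P₀ + k • R₀) :=
        sum_range_nsmul_of_mem hp hR ((addOrderOf_smul W σ R₀).trans hR) (hstab σ)
          (fun Q => g (σ • P₀ + Q))
    _ = ∑ k ∈ Finset.range p, g (P₀ + ((σ • P₀ - P₀) + k • R₀)) :=
        Finset.sum_congr rfl fun k _ => by congr 1; abel
    _ = ∑ k ∈ Finset.range p, g (P₀ + k • R₀) :=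
        sum_range_add_nsmul_of_mem hp hR (hcof σ) (fun Q => g (P₀ + Q))

theorem veluT_fixed (hp : 0 < p) (hR : addOrderOf R₀ = p)
    (hstab : ∀ σ : K ≃ₐ[F] K, σ • R₀ ∈ AddSubgroup.zmultiples R₀) (σ : K ≃ₐ[F] K) :
    σ (veluT (W⁄K) p R₀) = veluT (W⁄K) p R₀ := by
  unfold veluT
  rw [map_div₀, map_ofNat, line_sum_fixed W hp hR hstab _ (tOf_smul W) σ]

theorem veluW_fixed (hp : 0 < p) (hR : addOrderOf R₀ = p)
    (hstab : ∀ σ : K ≃ₐ[F] K, σ • R₀ ∈ AddSubgroup.zmultiples R₀) (σ : K ≃ₐ[F] K) :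
    σ (veluW (W⁄K) p R₀) = veluW (W⁄K) p R₀ := by
  unfold veluW
  rw [map_div₀, map_ofNat,
    line_sum_fixed W hp hR hstab (fun P => wPoly (W⁄K) (xOf (W⁄K) P)) (wPoly_smul W) σ]

/-- Vélu's `X` as a coset sum minus a line sum. -/
theorem veluX_eq (hp : 0 < p) (P : (W⁄K).Point) :
    veluX (W⁄K) p R₀ P = ∑ k ∈ Finset.range p, xOf (W⁄K) (P + k • R₀) -
      ∑ k ∈ Finset.Ico 1 p, xOf (W⁄K) (k • R₀) := by
  unfold veluX
  rw [Finset.sum_sub_distrib, sum_Ico_eq_sub hp (fun k => xOf (W⁄K) (P + k • R₀)), zero_nsmul,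
    add_zero]
  ring

theorem veluX_fixed (hp : 0 < p) (hR : addOrderOf R₀ = p)
    (hstab : ∀ σ : K ≃ₐ[F] K, σ • R₀ ∈ AddSubgroup.zmultiples R₀)
    {P₀ : (W⁄K).Point} (hcof : ∀ σ : K ≃ₐ[F] K, σ • P₀ - P₀ ∈ AddSubgroup.zmultiples R₀)
    (σ : K ≃ₐ[F] K) :
    σ (veluX (W⁄K) p R₀ P₀) = veluX (W⁄K) p R₀ P₀ := by
  rw [veluX_eq W hp, map_sub, coset_sum_fixed W hp hR hstab hcof _ (xOf_smul W) σ,
    line_sum_fixed W hp hR hstab _ (xOf_smul W) σ]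

theorem veluPsi_fixed (hp : 0 < p) (hR : addOrderOf R₀ = p)
    (hstab : ∀ σ : K ≃ₐ[F] K, σ • R₀ ∈ AddSubgroup.zmultiples R₀)
    {P₀ : (W⁄K).Point} (hcof : ∀ σ : K ≃ₐ[F] K, σ • P₀ - P₀ ∈ AddSubgroup.zmultiples R₀)
    (σ : K ≃ₐ[F] K) :
    σ (veluPsi (W⁄K) p R₀ P₀) = veluPsi (W⁄K) p R₀ P₀ := by
  unfold veluPsi
  exact coset_sum_fixed W hp hR hstab hcof _ (psi2_smul W) σ

theorem veluY_fixed (hp : 0 < p) (hR : addOrderOf R₀ = p)
    (hstab : ∀ σ : K ≃ₐ[F] K, σ • R₀ ∈ AddSubgroup.zmultiples R₀)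
    {P₀ : (W⁄K).Point} (hcof : ∀ σ : K ≃ₐ[F] K, σ • P₀ - P₀ ∈ AddSubgroup.zmultiples R₀)
    (σ : K ≃ₐ[F] K) :
    σ (veluY (W⁄K) p R₀ P₀) = veluY (W⁄K) p R₀ P₀ := by
  unfold veluY
  rw [map_div₀, map_sub, map_sub, map_mul, map_ofNat, veluPsi_fixed W hp hR hstab hcof σ,
    veluX_fixed W hp hR hstab hcof σ, map_a₁, map_a₃]

end invariance

section rational

local notation "Qb" => AlgebraicClosure ℚ

variable (W : WeierstrassCurve ℚ) {p : ℕ} {R₀ : (W⁄Qb).Point}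

/-- **K1c (curve).** The Vélu quotient of `W⁄Qb` by a Galois-stable line is defined over `ℚ`. -/
theorem exists_rat_quotCurve (hp : 0 < p) (hR : addOrderOf R₀ = p)
    (hstab : ∀ σ : Qb ≃ₐ[ℚ] Qb, σ • R₀ ∈ AddSubgroup.zmultiples R₀) :
    ∃ tq wq : ℚ, algebraMap ℚ Qb tq = veluT (W⁄Qb) p R₀ ∧
      algebraMap ℚ Qb wq = veluW (W⁄Qb) p R₀ ∧
      (veluCurve W tq wq).map (algebraMap ℚ Qb) = quotCurve (W⁄Qb) p R₀ := by
  obtain ⟨tq, htq⟩ := Fermat.Agent.S13.GalRat.rat_of_fixed _ (veluT_fixed W hp hR hstab)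
  obtain ⟨wq, hwq⟩ := Fermat.Agent.S13.GalRat.rat_of_fixed _ (veluW_fixed W hp hR hstab)
  refine ⟨tq, wq, htq, hwq, ?_⟩
  rw [map_veluCurve, htq, hwq]
  rfl

/-- Transfer of a point with Galois-fixed coordinates along an equality of curves. -/
theorem transfer_point {E' : WeierstrassCurve Qb} (W' : WeierstrassCurve ℚ)
    (h : W'.map (algebraMap ℚ Qb) = E') (Q : E'.toAffine.Point) {X Y : Qb}
    (hns : E'.toAffine.Nonsingular X Y) (hQ : Q = Point.some X Y hns) (hord : addOrderOf Q = p)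
    (hX : ∀ σ : Qb ≃ₐ[ℚ] Qb, σ X = X) (hY : ∀ σ : Qb ≃ₐ[ℚ] Qb, σ Y = Y) :
    ∃ Q' : (W'⁄Qb).Point, (∀ σ : Qb ≃ₐ[ℚ] Qb, σ • Q' = Q') ∧ addOrderOf Q' = p ∧
      ∃ hns' : (W'⁄Qb).Nonsingular X Y, Q' = Point.some X Y hns' := by
  subst h
  refine ⟨Q, ?_, hord, hns, hQ⟩
  intro σ
  subst hQ
  have key : ∀ (x y : Qb) (h1 : (W'⁄Qb).Nonsingular x y), x = X → y = Y →
      (Point.some x y h1 : (W'⁄Qb).Point) = Point.some X Y hns := by
    rintro x y h1 rfl rfl; rfl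
  exact key (σ X) (σ Y) _ (hX σ) (hY σ)

/-- **K1c (point).** The Vélu image of `P₀` is a Galois-fixed point of order `p` of the rational
model of the quotient. -/
theorem exists_rat_quot (f : Qb →+* ℂ) (hΔ : (W⁄Qb).Δ ≠ 0) (hp : p.Prime)
    (hR : addOrderOf R₀ = p)
    (hstab : ∀ σ : Qb ≃ₐ[ℚ] Qb, σ • R₀ ∈ AddSubgroup.zmultiples R₀)
    {P₀ : (W⁄Qb).Point} (hP₀ : p • P₀ = 0) (hP₀' : P₀ ∉ AddSubgroup.zmultiples R₀)
    (hcof : ∀ σ : Qb ≃ₐ[ℚ] Qb, σ • P₀ - P₀ ∈ AddSubgroup.zmultiples R₀) :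
    ∃ tq wq : ℚ, algebraMap ℚ Qb tq = veluT (W⁄Qb) p R₀ ∧
      algebraMap ℚ Qb wq = veluW (W⁄Qb) p R₀ ∧
      (veluCurve W tq wq).map (algebraMap ℚ Qb) = quotCurve (W⁄Qb) p R₀ ∧
      (veluCurve W tq wq).Δ ≠ 0 ∧
      ∃ Q' : ((veluCurve W tq wq)⁄Qb).Point, (∀ σ : Qb ≃ₐ[ℚ] Qb, σ • Q' = Q') ∧
        addOrderOf Q' = p ∧
        ∃ hns : ((veluCurve W tq wq)⁄Qb).Nonsingular (veluX (W⁄Qb) p R₀ P₀)
          (veluY (W⁄Qb) p R₀ P₀), Q' = Point.some _ _ hns := by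
  obtain ⟨tq, wq, htq, hwq, hcurve⟩ := exists_rat_quotCurve W hp.pos hR hstab
  refine ⟨tq, wq, htq, hwq, hcurve, ?_, ?_⟩
  · have h1 := quotCurve_Δ_ne_zero f (W⁄Qb) R₀ hΔ hp hR
    rw [← hcurve, WeierstrassCurve.map_Δ] at h1
    exact fun h0 => h1 (by rw [h0, _root_.map_zero])
  · exact transfer_point (veluCurve W tq wq) hcurve (veluHom f (W⁄Qb) R₀ hΔ hp hR P₀)
      (nonsingular_velu f (W⁄Qb) R₀ hΔ hp hR P₀ hP₀')
      (veluHom_of_notMem f (W⁄Qb) R₀ hΔ hp hR hP₀')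
      (addOrderOf_veluHom f (W⁄Qb) R₀ hΔ hp hR hP₀ hP₀')
      (veluX_fixed W hp.pos hR hstab hcof) (veluY_fixed W hp.pos hR hstab hcof)

end rational

end Fermat.Agent.MAZ.S12.VeluGal24
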