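/-
Programme MAZ, sub-programme MAZ-S12 (S12 from S15), brick K1d (helper24): THE INTEGRAL MODEL of the
Vélu quotient `E/N` (helper32's `VeluQb32`), on top of K1c (`VeluGal24`).

`W₀ : WeierstrassCurve ℤ`, `E := (W₀.map (Int.castRingHom ℚ))⁄ℚ̄`, `R₀` of odd prime order `p`
generating a Galois-stable line, `P₀ ∈ E[p]` outside the line with Galois-stable coset.
* `sum_Ico_nsmul_eq_two_mul` : Vélu's sums over `N ∖ 0` are twice the sums over a half system;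
* `xOf_mem`, `tOf_mem`, `wPoly_mem`, `veluT_mem`, `veluW_mem` : integrality at every place over
  `ℓ ≠ p` (also `ℓ = 2`) of `x(k•R₀)` and of Vélu's `t_N`, `w_N`;
* `padicValRat_nonneg_of_mem`, `exists_pow_mul_eq_int`, `exists_scale` : `t_N, w_N ∈ ℤ[1/p]`;
* `intModel`, `scaleVC`, `veluCurve_eq_smul`, `transfer_scale` : the scaled model and the transfer
  of points `(x, y) ↦ (u² x, u³ y)` (`S05/TransportQ.pointEquivBC`);
* `exists_int_quot` : the pair `(W', Q')` consumed by the frozen S15.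
-/
import Fermat.Agent.MAZ.S12.VeluGal24
import Fermat.Agent.S05.Kernel
import Fermat.Agent.S05.TransportQ
import Fermat.Agent.S13.UnramVal

set_option autoImplicit false

namespace Fermat.Agent.MAZ.S12.VeluInt24

open Fermat.Agent.MAZ.Analytic.QuotIsog32 Fermat.Agent.MAZ.Analytic.GlobalDefs42
open Fermat.Agent.MAZ.S12.VeluQb32 Fermat.Agent.MAZ.S12.VeluGal24
open Fermat.Agent.S05.Inertia Fermat.Agent.S13.GalRat
open WeierstrassCurve WeierstrassCurve.Affine WeierstrassCurve.Affine.Point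

local notation "Qb" => AlgebraicClosure ℚ

section half

variable {G : Type*} [AddCommGroup G] {A : Type*} [CommRing A]

/-- A sum of an even function over the nonzero multiples of a point of odd order `2m+1` is twice
the sum over the first half. -/
theorem sum_Ico_nsmul_eq_two_mul {m : ℕ} {R : G} (hR : (2 * m + 1) • R = 0) (g : G → A)
    (hg : ∀ Q, g (-Q) = g Q) :
    ∑ k ∈ Finset.Ico 1 (2 * m + 1), g (k • R) = 2 * ∑ k ∈ Finset.Ico 1 (m + 1), g (k • R) := by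
  have hsplit := Finset.sum_Ico_consecutive (fun k => g (k • R)) (by omega : 1 ≤ m + 1)
    (by omega : m + 1 ≤ 2 * m + 1)
  have h := Finset.sum_Ico_reflect (fun k => g (k • R)) 1 (by omega : m + 1 ≤ (2 * m + 1) + 1)
  have e1 : 2 * m + 1 + 1 - (m + 1) = m + 1 := by omega
  have e2 : 2 * m + 1 + 1 - 1 = 2 * m + 1 := by omega
  rw [e1, e2] at h
  have h2 : ∑ j ∈ Finset.Ico 1 (m + 1), g ((2 * m + 1 - j) • R) =
      ∑ j ∈ Finset.Ico 1 (m + 1), g (j • R) := by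
    refine Finset.sum_congr rfl fun j hj => ?_
    rw [Finset.mem_Ico] at hj
    have : (2 * m + 1 - j) • R = -(j • R) := by
      rw [eq_neg_iff_add_eq_zero, ← add_nsmul, Nat.sub_add_cancel (by omega), hR]
    rw [this, hg]
  rw [← hsplit, ← h, h2]
  ring

end half

section integrality

variable (W₀ : WeierstrassCurve ℤ)

theorem map_map_eq : ((W₀.map (Int.castRingHom ℚ)).map (algebraMap ℚ Qb)) =
    W₀.map (Int.castRingHom Qb) := by
  rw [WeierstrassCurve.map_map]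
  congr 1

theorem a₁_eq : ((W₀.map (Int.castRingHom ℚ))⁄Qb).a₁ = (W₀.a₁ : Qb) := by
  change ((W₀.map (Int.castRingHom ℚ)).map (algebraMap ℚ Qb)).a₁ = _
  rw [map_map_eq]; rfl

theorem a₂_eq : ((W₀.map (Int.castRingHom ℚ))⁄Qb).a₂ = (W₀.a₂ : Qb) := by
  change ((W₀.map (Int.castRingHom ℚ)).map (algebraMap ℚ Qb)).a₂ = _
  rw [map_map_eq]; rfl

theorem a₃_eq : ((W₀.map (Int.castRingHom ℚ))⁄Qb).a₃ = (W₀.a₃ : Qb) := by
  change ((W₀.map (Int.castRingHom ℚ)).map (algebraMap ℚ Qb)).a₃ = _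
  rw [map_map_eq]; rfl

theorem a₄_eq : ((W₀.map (Int.castRingHom ℚ))⁄Qb).a₄ = (W₀.a₄ : Qb) := by
  change ((W₀.map (Int.castRingHom ℚ)).map (algebraMap ℚ Qb)).a₄ = _
  rw [map_map_eq]; rfl

theorem a₆_eq : ((W₀.map (Int.castRingHom ℚ))⁄Qb).a₆ = (W₀.a₆ : Qb) := by
  change ((W₀.map (Int.castRingHom ℚ)).map (algebraMap ℚ Qb)).a₆ = _
  rw [map_map_eq]; rfl

theorem b₂_eq : ((W₀.map (Int.castRingHom ℚ))⁄Qb).b₂ = (W₀.b₂ : Qb) := by
  change ((W₀.map (Int.castRingHom ℚ)).map (algebraMap ℚ Qb)).b₂ = _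
  rw [map_map_eq, WeierstrassCurve.map_b₂]; rfl

theorem b₄_eq : ((W₀.map (Int.castRingHom ℚ))⁄Qb).b₄ = (W₀.b₄ : Qb) := by
  change ((W₀.map (Int.castRingHom ℚ)).map (algebraMap ℚ Qb)).b₄ = _
  rw [map_map_eq, WeierstrassCurve.map_b₄]; rfl

theorem b₆_eq : ((W₀.map (Int.castRingHom ℚ))⁄Qb).b₆ = (W₀.b₆ : Qb) := by
  change ((W₀.map (Int.castRingHom ℚ)).map (algebraMap ℚ Qb)).b₆ = _
  rw [map_map_eq, WeierstrassCurve.map_b₆]; rfl

theorem integralCoeffs (A : ValuationSubring Qb) :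
    Fermat.Agent.S05.Kernel.IntegralCoeffs A.valuation ((W₀.map (Int.castRingHom ℚ))⁄Qb) := by
  have h : ∀ n : ℤ, A.valuation (n : Qb) ≤ 1 := fun n =>
    (A.valuation_le_one_iff _).mpr (intCast_mem A n)
  refine ⟨?_, ?_, ?_, ?_, ?_⟩
  · rw [a₁_eq]; exact h _
  · rw [a₂_eq]; exact h _
  · rw [a₃_eq]; exact h _
  · rw [a₄_eq]; exact h _
  · rw [a₆_eq]; exact h _

/-- Torsion points of order prime to the residue characteristic have integral `x`. -/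
theorem xOf_mem {ℓ p : ℕ} (hℓ : ℓ.Prime) (hℓp : ¬ ℓ ∣ p) {A : ValuationSubring Qb}
    (hA : A.LiesOverPrime ℓ) (P : ((W₀.map (Int.castRingHom ℚ))⁄Qb).Point) (hP : p • P = 0) :
    xOf ((W₀.map (Int.castRingHom ℚ))⁄Qb) P ∈ A := by
  cases P with
  | zero => exact zero_mem A
  | some x y h =>
    rw [← A.valuation_le_one_iff]
    exact Fermat.Agent.S05.Kernel.x_integral_of_nsmul_eq_zero (integralCoeffs W₀ A) h
      (valuation_natCast_eq_one hℓ hA hℓp) hP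

theorem tOf_mem {ℓ p : ℕ} (hℓ : ℓ.Prime) (hℓp : ¬ ℓ ∣ p) {A : ValuationSubring Qb}
    (hA : A.LiesOverPrime ℓ) (P : ((W₀.map (Int.castRingHom ℚ))⁄Qb).Point) (hP : p • P = 0) :
    tOf ((W₀.map (Int.castRingHom ℚ))⁄Qb) P ∈ A := by
  have hx := xOf_mem W₀ hℓ hℓp hA P hP
  unfold tOf
  rw [b₂_eq, b₄_eq]
  have h6 : (6 : Qb) ∈ A := by
    simp
  exact add_mem (add_mem (mul_mem h6 (pow_mem hx 2)) (mul_mem (intCast_mem A _) hx))
    (intCast_mem A _)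

theorem wPoly_mem {ℓ p : ℕ} (hℓ : ℓ.Prime) (hℓp : ¬ ℓ ∣ p) {A : ValuationSubring Qb}
    (hA : A.LiesOverPrime ℓ) (P : ((W₀.map (Int.castRingHom ℚ))⁄Qb).Point) (hP : p • P = 0) :
    wPoly ((W₀.map (Int.castRingHom ℚ))⁄Qb) (xOf ((W₀.map (Int.castRingHom ℚ))⁄Qb) P) ∈ A := by
  have hx := xOf_mem W₀ hℓ hℓp hA P hP
  unfold wPoly
  rw [b₂_eq, b₄_eq, b₆_eq]
  have h10 : (10 : Qb) ∈ A := by simp
  have h2 : (2 : Qb) ∈ A := by simp
  have h3 : (3 : Qb) ∈ A := by simp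
  exact add_mem (add_mem (add_mem (mul_mem h10 (pow_mem hx 3))
    (mul_mem (mul_mem h2 (intCast_mem A _)) (pow_mem hx 2)))
    (mul_mem (mul_mem h3 (intCast_mem A _)) hx)) (intCast_mem A _)

theorem xOf_neg {F : Type*} [Field F] [DecidableEq F] (E : WeierstrassCurve.Affine F)
    (P : E.Point) : xOf E (-P) = xOf E P := by
  cases P with
  | zero => rfl
  | some x y h => rfl

/-- Vélu's half sums `t_N`, `w_N` are integral at every place over `ℓ ≠ p` (also at `ℓ = 2`). -/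
theorem veluT_mem {ℓ p : ℕ} (hℓ : ℓ.Prime) (hp : p.Prime) (hp2 : p ≠ 2) (hℓp : ℓ ≠ p)
    {A : ValuationSubring Qb} (hA : A.LiesOverPrime ℓ)
    {R₀ : ((W₀.map (Int.castRingHom ℚ))⁄Qb).Point} (hR : addOrderOf R₀ = p) :
    veluT ((W₀.map (Int.castRingHom ℚ))⁄Qb) p R₀ ∈ A := by
  obtain ⟨m, rfl⟩ := hp.odd_of_ne_two hp2
  have hR0 : (2 * m + 1) • R₀ = 0 := by rw [← hR]; exact addOrderOf_nsmul_eq_zero R₀
  have hℓp' : ¬ ℓ ∣ (2 * m + 1) := fun h => hℓp ((Nat.prime_dvd_prime_iff_eq hℓ hp).mp h)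
  unfold veluT
  rw [sum_Ico_nsmul_eq_two_mul hR0 (tOf ((W₀.map (Int.castRingHom ℚ))⁄Qb))
    (fun Q => by unfold tOf; rw [xOf_neg]), mul_div_cancel_left₀ _ (two_ne_zero)]
  refine sum_mem fun k _ => tOf_mem W₀ hℓ hℓp' hA _ ?_
  rw [smul_comm, hR0, nsmul_zero]

theorem veluW_mem {ℓ p : ℕ} (hℓ : ℓ.Prime) (hp : p.Prime) (hp2 : p ≠ 2) (hℓp : ℓ ≠ p)
    {A : ValuationSubring Qb} (hA : A.LiesOverPrime ℓ)
    {R₀ : ((W₀.map (Int.castRingHom ℚ))⁄Qb).Point} (hR : addOrderOf R₀ = p) :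
    veluW ((W₀.map (Int.castRingHom ℚ))⁄Qb) p R₀ ∈ A := by
  obtain ⟨m, rfl⟩ := hp.odd_of_ne_two hp2
  have hR0 : (2 * m + 1) • R₀ = 0 := by rw [← hR]; exact addOrderOf_nsmul_eq_zero R₀
  have hℓp' : ¬ ℓ ∣ (2 * m + 1) := fun h => hℓp ((Nat.prime_dvd_prime_iff_eq hℓ hp).mp h)
  unfold veluW
  rw [sum_Ico_nsmul_eq_two_mul hR0
    (fun Q => wPoly ((W₀.map (Int.castRingHom ℚ))⁄Qb) (xOf ((W₀.map (Int.castRingHom ℚ))⁄Qb) Q))
    (fun Q => by rw [xOf_neg]), mul_div_cancel_left₀ _ (two_ne_zero)]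
  refine sum_mem fun k _ => wPoly_mem W₀ hℓ hℓp' hA _ ?_
  rw [smul_comm, hR0, nsmul_zero]

end integrality

section padic

/-- A nonzero rational number integral at one place over `ℓ` has nonnegative `ℓ`-adic valuation. -/
theorem padicValRat_nonneg_of_mem {ℓ : ℕ} (hℓ : ℓ.Prime) {A : ValuationSubring Qb}
    (hA : A.LiesOverPrime ℓ) {q : ℚ} (hq : q ≠ 0) (h : (q : Qb) ∈ A) : 0 ≤ padicValRat ℓ q := by
  have h1 := valuation_ratCast_eq_zpow A hℓ hA hq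
  have hle : A.valuation (q : Qb) ≤ 1 := (A.valuation_le_one_iff _).mpr h
  have hlt : A.valuation ((ℓ : ℕ) : Qb) < 1 := valuation_prime_lt_one hA
  have hpos : 0 < A.valuation ((ℓ : ℕ) : Qb) := by
    rw [Valuation.pos_iff]
    exact_mod_cast hℓ.ne_zero
  by_contra hneg
  rw [not_le] at hneg
  rw [h1] at hle
  exact absurd hle (not_le.mpr (one_lt_zpow_of_neg₀ hpos hlt hneg))

/-- A rational number with nonnegative valuation at all primes `ℓ ≠ p` is in `ℤ[1/p]`. -/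
theorem exists_pow_mul_eq_int {p : ℕ} (q : ℚ)
    (h : ∀ ℓ : ℕ, ℓ.Prime → ℓ ≠ p → q ≠ 0 → 0 ≤ padicValRat ℓ q) :
    ∃ (m : ℕ) (n : ℤ), (p : ℚ) ^ m * q = n := by
  by_cases hq : q = 0
  · exact ⟨0, 0, by simp [hq]⟩
  have hden : q.den = p ^ q.den.primeFactorsList.length := by
    apply Nat.eq_prime_pow_of_unique_prime_dvd q.den_ne_zero
    intro d hd hdvd
    by_contra hdp
    have h0 := h d hd hdp hq
    haveI : Fact d.Prime := ⟨hd⟩
    have hnum : ¬ (d : ℤ) ∣ q.num := by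
      intro hdn
      have hcop := q.reduced
      have : d ∣ q.num.natAbs := Int.natCast_dvd.mp hdn
      exact hd.one_lt.ne' (Nat.eq_one_of_dvd_coprimes hcop this hdvd)
    have : padicValRat d q = (padicValInt d q.num : ℤ) - (padicValNat d q.den : ℤ) := rfl
    rw [this, padicValInt.eq_zero_of_not_dvd hnum] at h0
    have : 1 ≤ padicValNat d q.den := one_le_padicValNat_of_dvd q.den_ne_zero hdvd
    omega
  refine ⟨q.den.primeFactorsList.length, q.num, ?_⟩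
  have := Rat.mul_den_eq_num q
  rw [mul_comm]
  rw [← this]
  congr 1
  exact_mod_cast hden.symm

end padic

section model

variable (W₀ : WeierstrassCurve ℤ)

/-- The denominators of the rational Vélu half sums are powers of `p`. -/
theorem exists_scale {p : ℕ} (hp : p.Prime) (hp2 : p ≠ 2)
    {R₀ : ((W₀.map (Int.castRingHom ℚ))⁄Qb).Point} (hR : addOrderOf R₀ = p) {tq wq : ℚ}
    (htq : algebraMap ℚ Qb tq = veluT ((W₀.map (Int.castRingHom ℚ))⁄Qb) p R₀)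
    (hwq : algebraMap ℚ Qb wq = veluW ((W₀.map (Int.castRingHom ℚ))⁄Qb) p R₀) :
    ∃ (m : ℕ) (nt nw : ℤ), (p : ℚ) ^ m * tq = nt ∧ (p : ℚ) ^ m * wq = nw := by
  obtain ⟨m₁, n₁, h₁⟩ := exists_pow_mul_eq_int (p := p) tq (by
    intro ℓ hℓ hℓp hq
    obtain ⟨A, hA⟩ := Fermat.Agent.S13.UnramVal.exists_liesOverPrime (L := Qb) hℓ
    refine padicValRat_nonneg_of_mem hℓ hA hq ?_
    have := veluT_mem W₀ hℓ hp hp2 hℓp hA hR
    rwa [← htq, eq_ratCast] at this)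
  obtain ⟨m₂, n₂, h₂⟩ := exists_pow_mul_eq_int (p := p) wq (by
    intro ℓ hℓ hℓp hq
    obtain ⟨A, hA⟩ := Fermat.Agent.S13.UnramVal.exists_liesOverPrime (L := Qb) hℓ
    refine padicValRat_nonneg_of_mem hℓ hA hq ?_
    have := veluW_mem W₀ hℓ hp hp2 hℓp hA hR
    rwa [← hwq, eq_ratCast] at this)
  refine ⟨m₁ + m₂, (p : ℤ) ^ m₂ * n₁, (p : ℤ) ^ m₁ * n₂, ?_, ?_⟩
  · push_cast
    rw [← h₁]; ring
  · push_cast
    rw [← h₂]; ring

/-- The scaled integral model of the Vélu quotient. -/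
def intModel (u nt nw : ℤ) : WeierstrassCurve ℤ :=
  ⟨u * W₀.a₁, u ^ 2 * W₀.a₂, u ^ 3 * W₀.a₃, u ^ 4 * W₀.a₄ - 5 * u ^ 3 * nt,
    u ^ 6 * W₀.a₆ - u ^ 5 * W₀.b₂ * nt - 7 * u ^ 5 * nw⟩

/-- The scaling change of variables `(x, y) ↦ (u² x, u³ y)`. -/
def scaleVC (u : ℚ) (hu : u ≠ 0) : VariableChange ℚ := ⟨Units.mk0 u hu, 0, 0, 0⟩

theorem veluCurve_eq_smul {u : ℤ} (hu : (u : ℚ) ≠ 0) {tq wq : ℚ} {nt nw : ℤ}
    (ht : (u : ℚ) * tq = nt) (hw : (u : ℚ) * wq = nw) :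
    veluCurve (W₀.map (Int.castRingHom ℚ)) tq wq =
      scaleVC (u : ℚ) hu • ((intModel W₀ u nt nw).map (Int.castRingHom ℚ)) := by
  ext
  · simp only [veluCurve, variableChange_a₁, scaleVC, intModel, WeierstrassCurve.map,
      Units.val_inv_eq_inv_val, Units.val_mk0, eq_intCast]
    push_cast
    field_simp
    ring
  · simp only [veluCurve, variableChange_a₂, scaleVC, intModel, WeierstrassCurve.map,
      Units.val_inv_eq_inv_val, Units.val_mk0, eq_intCast]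
    push_cast
    field_simp
    ring
  · simp only [veluCurve, variableChange_a₃, scaleVC, intModel, WeierstrassCurve.map,
      Units.val_inv_eq_inv_val, Units.val_mk0, eq_intCast]
    push_cast
    field_simp
    ring
  · simp only [veluCurve, variableChange_a₄, scaleVC, intModel, WeierstrassCurve.map,
      Units.val_inv_eq_inv_val, Units.val_mk0, eq_intCast]
    push_cast
    rw [← ht]
    field_simp
    ring
  · simp only [veluCurve, variableChange_a₆, scaleVC, intModel, WeierstrassCurve.map,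
      Units.val_inv_eq_inv_val, Units.val_mk0, eq_intCast, WeierstrassCurve.b₂]
    push_cast
    rw [← ht, ← hw]
    field_simp
    ring

end model

section final

open Fermat.Agent.S05.Transport Fermat.Agent.S05.TransportQ

variable (W₀ : WeierstrassCurve ℤ)

theorem vcX_scale (u : ℚ) (hu : u ≠ 0) (x : Qb) :
    vcX ((scaleVC u hu).baseChange Qb) x = (u : Qb) ^ 2 * x := by
  simp [vcX, scaleVC, VariableChange.baseChange, VariableChange.map]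

theorem vcY_scale (u : ℚ) (hu : u ≠ 0) (x y : Qb) :
    vcY ((scaleVC u hu).baseChange Qb) x y = (u : Qb) ^ 3 * y := by
  simp [vcY, scaleVC, VariableChange.baseChange, VariableChange.map]

/-- Transfer of a Galois-fixed point of order `p` along a scaling of the model. -/
theorem transfer_scale {W₁ W₂ : WeierstrassCurve ℚ} {u : ℚ} (hu : u ≠ 0)
    (h : W₁ = scaleVC u hu • W₂) {p : ℕ} (Q : (W₁⁄Qb).Point)
    (hfix : ∀ σ : Qb ≃ₐ[ℚ] Qb, σ • Q = Q) (hord : addOrderOf Q = p) {X Y : Qb}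
    (hns : (W₁⁄Qb).Nonsingular X Y) (hQ : Q = Point.some X Y hns) :
    ∃ Q' : (W₂⁄Qb).Point, (∀ σ : Qb ≃ₐ[ℚ] Qb, σ • Q' = Q') ∧ addOrderOf Q' = p ∧
      ∃ hns' : (W₂⁄Qb).Nonsingular ((u : Qb) ^ 2 * X) ((u : Qb) ^ 3 * Y),
        Q' = Point.some _ _ hns' := by
  refine ⟨pointEquivBC Qb h Q, ?_, ?_, ?_⟩
  · intro σ
    have := pointEquivBC_map (S := ℚ) (F := Qb) (K := Qb) h σ.toAlgHom Q
    change Point.map σ.toAlgHom (pointEquivBC Qb h Q) = _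
    rw [← this]
    congr 1
    exact hfix σ
  · rw [← hord]
    exact (pointEquivBC Qb h).addOrderOf_eq Q
  · subst hQ
    have key : ∀ (x y : Qb) (h1 : (W₂⁄Qb).Nonsingular x y), x = (u : Qb) ^ 2 * X →
        y = (u : Qb) ^ 3 * Y → ∃ hns' : (W₂⁄Qb).Nonsingular ((u : Qb) ^ 2 * X) ((u : Qb) ^ 3 * Y),
        (Point.some x y h1 : (W₂⁄Qb).Point) = Point.some _ _ hns' := by
      rintro x y h1 rfl rfl; exact ⟨h1, rfl⟩
    exact key _ _ _ (vcX_scale u hu X) (vcY_scale u hu X Y)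

/-- **K1c + K1d.** The integral model of the Vélu quotient `E/⟨R₀⟩` (a `p`-power scaling of Vélu's
equation) together with the Galois-fixed point `Q' = φ(P₀)` of exact order `p`: the input `(W, Q)` of
the frozen S15. -/
theorem exists_int_quot (f : Qb →+* ℂ) (hΔ : ((W₀.map (Int.castRingHom ℚ))⁄Qb).Δ ≠ 0) {p : ℕ}
    (hp : p.Prime) (hp2 : p ≠ 2) {R₀ P₀ : ((W₀.map (Int.castRingHom ℚ))⁄Qb).Point}
    (hR : addOrderOf R₀ = p)
    (hstab : ∀ σ : Qb ≃ₐ[ℚ] Qb, σ • R₀ ∈ AddSubgroup.zmultiples R₀)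
    (hP₀ : p • P₀ = 0) (hP₀' : P₀ ∉ AddSubgroup.zmultiples R₀)
    (hcof : ∀ σ : Qb ≃ₐ[ℚ] Qb, σ • P₀ - P₀ ∈ AddSubgroup.zmultiples R₀) :
    ∃ (m : ℕ) (W' : WeierstrassCurve ℤ) (Q' : ((W'.map (Int.castRingHom ℚ))⁄Qb).Point),
      W'.Δ ≠ 0 ∧
      ((W'.a₁ : Qb) = (p : Qb) ^ m * (quotCurve ((W₀.map (Int.castRingHom ℚ))⁄Qb) p R₀).a₁ ∧
       (W'.a₂ : Qb) = ((p : Qb) ^ m) ^ 2 * (quotCurve ((W₀.map (Int.castRingHom ℚ))⁄Qb) p R₀).a₂ ∧
       (W'.a₃ : Qb) = ((p : Qb) ^ m) ^ 3 * (quotCurve ((W₀.map (Int.castRingHom ℚ))⁄Qb) p R₀).a₃ ∧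
       (W'.a₄ : Qb) = ((p : Qb) ^ m) ^ 4 * (quotCurve ((W₀.map (Int.castRingHom ℚ))⁄Qb) p R₀).a₄ ∧
       (W'.a₆ : Qb) = ((p : Qb) ^ m) ^ 6 * (quotCurve ((W₀.map (Int.castRingHom ℚ))⁄Qb) p R₀).a₆) ∧
      (W'.Δ : Qb) = ((p : Qb) ^ m) ^ 12 * (quotCurve ((W₀.map (Int.castRingHom ℚ))⁄Qb) p R₀).Δ ∧
      (W'.c₄ : Qb) = ((p : Qb) ^ m) ^ 4 * (quotCurve ((W₀.map (Int.castRingHom ℚ))⁄Qb) p R₀).c₄ ∧
      (∀ σ : Qb ≃ₐ[ℚ] Qb, σ • Q' = Q') ∧ addOrderOf Q' = p ∧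
      ∃ hns : ((W'.map (Int.castRingHom ℚ))⁄Qb).Nonsingular
          (((p : Qb) ^ m) ^ 2 * veluX ((W₀.map (Int.castRingHom ℚ))⁄Qb) p R₀ P₀)
          (((p : Qb) ^ m) ^ 3 * veluY ((W₀.map (Int.castRingHom ℚ))⁄Qb) p R₀ P₀),
        Q' = Point.some _ _ hns := by
  obtain ⟨tq, wq, htq, hwq, hcurve, hΔ', Q, hfix, hord, hns, hQ⟩ :=
    exists_rat_quot (W₀.map (Int.castRingHom ℚ)) f hΔ hp hR hstab hP₀ hP₀' hcof
  obtain ⟨m, nt, nw, ht, hw⟩ := exists_scale W₀ hp hp2 hR htq hwq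
  have hu : (((p : ℤ) ^ m : ℤ) : ℚ) ≠ 0 := by
    push_cast
    exact pow_ne_zero _ (Nat.cast_ne_zero.mpr hp.ne_zero)
  have ht' : (((p : ℤ) ^ m : ℤ) : ℚ) * tq = nt := by push_cast; exact ht
  have hw' : (((p : ℤ) ^ m : ℤ) : ℚ) * wq = nw := by push_cast; exact hw
  have heq := veluCurve_eq_smul W₀ hu ht' hw'
  obtain ⟨Q', hfix', hord', hns', hQ'⟩ := transfer_scale hu heq Q hfix hord hns hQ
  have hucast : ((((p : ℤ) ^ m : ℤ) : ℚ) : Qb) = (p : Qb) ^ m := by push_cast; rfl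
  have hntQ : (nt : Qb) = (p : Qb) ^ m * veluT ((W₀.map (Int.castRingHom ℚ))⁄Qb) p R₀ := by
    rw [← htq, eq_ratCast]
    have := congrArg (Rat.cast : ℚ → Qb) ht
    push_cast at this
    exact this.symm
  have hnwQ : (nw : Qb) = (p : Qb) ^ m * veluW ((W₀.map (Int.castRingHom ℚ))⁄Qb) p R₀ := by
    rw [← hwq, eq_ratCast]
    have := congrArg (Rat.cast : ℚ → Qb) hw
    push_cast at this
    exact this.symm
  -- discriminant and c₄ through the change of variables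
  have hΔeq : (quotCurve ((W₀.map (Int.castRingHom ℚ))⁄Qb) p R₀).Δ =
      (((p : Qb) ^ m)⁻¹) ^ 12 * ((intModel W₀ ((p : ℤ) ^ m) nt nw).Δ : Qb) := by
    rw [← hcurve, WeierstrassCurve.map_Δ, heq, variableChange_Δ, WeierstrassCurve.map_Δ]
    simp only [scaleVC, Units.val_inv_eq_inv_val, Units.val_mk0, eq_intCast, eq_ratCast]
    push_cast
    rfl
  have hc₄eq : (quotCurve ((W₀.map (Int.castRingHom ℚ))⁄Qb) p R₀).c₄ =
      (((p : Qb) ^ m)⁻¹) ^ 4 * ((intModel W₀ ((p : ℤ) ^ m) nt nw).c₄ : Qb) := by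
    rw [← hcurve, WeierstrassCurve.map_c₄, heq, variableChange_c₄, WeierstrassCurve.map_c₄]
    simp only [scaleVC, Units.val_inv_eq_inv_val, Units.val_mk0, eq_intCast, eq_ratCast]
    push_cast
    rfl
  have hpm : ((p : Qb) ^ m) ≠ 0 := pow_ne_zero _ (Nat.cast_ne_zero.mpr hp.ne_zero)
  refine ⟨m, intModel W₀ ((p : ℤ) ^ m) nt nw, Q', ?_, ⟨?_, ?_, ?_, ?_, ?_⟩, ?_, ?_, hfix', hord', ?_⟩
  · -- Δ ≠ 0
    intro h0
    apply hΔ'
    rw [heq, variableChange_Δ, WeierstrassCurve.map_Δ, h0, _root_.map_zero, mul_zero]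
  · simp only [intModel, quotCurve, veluCurve_a₁, a₁_eq]; push_cast; ring
  · simp only [intModel, quotCurve, veluCurve_a₂, a₂_eq]; push_cast; ring
  · simp only [intModel, quotCurve, veluCurve_a₃, a₃_eq]; push_cast; ring
  · simp only [intModel, quotCurve, veluCurve_a₄, a₄_eq]; push_cast; rw [hntQ]; ring
  · simp only [intModel, quotCurve, veluCurve_a₆, a₆_eq, b₂_eq]; push_cast; rw [hntQ, hnwQ]; ring
  · rw [hΔeq]; field_simp
  · rw [hc₄eq]; field_simp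
  · have key : ∀ v : Qb, v = (p : Qb) ^ m →
        (∃ h1 : (((intModel W₀ ((p : ℤ) ^ m) nt nw).map (Int.castRingHom ℚ))⁄Qb).Nonsingular
          (v ^ 2 * veluX ((W₀.map (Int.castRingHom ℚ))⁄Qb) p R₀ P₀)
          (v ^ 3 * veluY ((W₀.map (Int.castRingHom ℚ))⁄Qb) p R₀ P₀), Q' = Point.some _ _ h1) →
        ∃ h2 : (((intModel W₀ ((p : ℤ) ^ m) nt nw).map (Int.castRingHom ℚ))⁄Qb).Nonsingular
          (((p : Qb) ^ m) ^ 2 * veluX ((W₀.map (Int.castRingHom ℚ))⁄Qb) p R₀ P₀)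
          (((p : Qb) ^ m) ^ 3 * veluY ((W₀.map (Int.castRingHom ℚ))⁄Qb) p R₀ P₀),
          Q' = Point.some _ _ h2 := by
      rintro v rfl h; exact h
    exact key _ hucast ⟨hns', hQ'⟩

/-- `exists_int_quot` without the auxiliary complex embedding. -/
theorem exists_int_quot' (hΔ : ((W₀.map (Int.castRingHom ℚ))⁄Qb).Δ ≠ 0) {p : ℕ}
    (hp : p.Prime) (hp2 : p ≠ 2) {R₀ P₀ : ((W₀.map (Int.castRingHom ℚ))⁄Qb).Point}
    (hR : addOrderOf R₀ = p)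
    (hstab : ∀ σ : Qb ≃ₐ[ℚ] Qb, σ • R₀ ∈ AddSubgroup.zmultiples R₀)
    (hP₀ : p • P₀ = 0) (hP₀' : P₀ ∉ AddSubgroup.zmultiples R₀)
    (hcof : ∀ σ : Qb ≃ₐ[ℚ] Qb, σ • P₀ - P₀ ∈ AddSubgroup.zmultiples R₀) :
    ∃ (m : ℕ) (W' : WeierstrassCurve ℤ) (Q' : ((W'.map (Int.castRingHom ℚ))⁄Qb).Point),
      W'.Δ ≠ 0 ∧
      ((W'.a₁ : Qb) = (p : Qb) ^ m * (quotCurve ((W₀.map (Int.castRingHom ℚ))⁄Qb) p R₀).a₁ ∧
       (W'.a₂ : Qb) = ((p : Qb) ^ m) ^ 2 * (quotCurve ((W₀.map (Int.castRingHom ℚ))⁄Qb) p R₀).a₂ ∧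
       (W'.a₃ : Qb) = ((p : Qb) ^ m) ^ 3 * (quotCurve ((W₀.map (Int.castRingHom ℚ))⁄Qb) p R₀).a₃ ∧
       (W'.a₄ : Qb) = ((p : Qb) ^ m) ^ 4 * (quotCurve ((W₀.map (Int.castRingHom ℚ))⁄Qb) p R₀).a₄ ∧
       (W'.a₆ : Qb) = ((p : Qb) ^ m) ^ 6 * (quotCurve ((W₀.map (Int.castRingHom ℚ))⁄Qb) p R₀).a₆) ∧
      (W'.Δ : Qb) = ((p : Qb) ^ m) ^ 12 * (quotCurve ((W₀.map (Int.castRingHom ℚ))⁄Qb) p R₀).Δ ∧
      (W'.c₄ : Qb) = ((p : Qb) ^ m) ^ 4 * (quotCurve ((W₀.map (Int.castRingHom ℚ))⁄Qb) p R₀).c₄ ∧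
      (∀ σ : Qb ≃ₐ[ℚ] Qb, σ • Q' = Q') ∧ addOrderOf Q' = p ∧
      ∃ hns : ((W'.map (Int.castRingHom ℚ))⁄Qb).Nonsingular
          (((p : Qb) ^ m) ^ 2 * veluX ((W₀.map (Int.castRingHom ℚ))⁄Qb) p R₀ P₀)
          (((p : Qb) ^ m) ^ 3 * veluY ((W₀.map (Int.castRingHom ℚ))⁄Qb) p R₀ P₀),
        Q' = Point.some _ _ hns :=
  haveI : Algebra.IsAlgebraic ℚ Qb := AlgebraicClosure.isAlgebraic ℚ
  exists_int_quot W₀ (IsAlgClosed.lift (R := ℚ) (M := ℂ) (S := Qb) : Qb →ₐ[ℚ] ℂ).toRingHom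
    hΔ hp hp2 hR hstab hP₀ hP₀' hcof

end final

end Fermat.Agent.MAZ.S12.VeluInt24
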