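/-
Program MAZ, sub-program MAZ-S12 (architect helper27): **`Spec27.QuotStmt` IS A THEOREM**, hence
**S12 FROM S15 ALONE** (`s12_of_s15`).

Wiring of
* K1b `VeluQb32` / `VeluDelta32` (helper32): Vélu's quotient curve `E' = E/⟨R₀⟩` over `ℚ̄`, the quotient
  map, `Δ' Π⁴ = Δ^p`;
* K1c/K1d `VeluGal24` / `VeluInt24.exists_int_quot'` (helper24): rationality, the integral model `W'`
  scaled by `p^m`, the Galois-fixed point `Q'` of order `p`;
* K1e `DictFinal33` (helper33, on `ZeroTors28`/`NodeCoset28` helper28, `ModLocUnit2` helper2,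
  `ToricLine76` helper76): the three local clauses;
* K0 + (T_p) `LineAtP57.lineStmt` (helper57);
* `Asm27.s12_of_three`.
-/
import Mathlib
import Fermat.Agent.MAZ.S12.Asm27
import Fermat.Agent.MAZ.S12.VeluInt24
import Fermat.Agent.MAZ.S12.DictFinal33
import Fermat.Agent.MAZ.S12.LineAtP57

set_option autoImplicit false
set_option linter.unusedSectionVars false

open WeierstrassCurve WeierstrassCurve.Affine WeierstrassCurve.Affine.Point

noncomputable section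

namespace Fermat.Agent.MAZ.S12.QuotAsm27

open Fermat.Agent.MAZ.S12.Spec27 Fermat.Agent.MAZ.Point.ModAsm62

/-- An embedding `ℚ̄ → ℂ`. -/
def emb : Qb →+* ℂ :=
  haveI : Algebra.IsAlgebraic ℚ Qb := AlgebraicClosure.isAlgebraic ℚ
  (IsAlgClosed.lift (R := ℚ) (M := ℂ) (S := Qb) : Qb →ₐ[ℚ] ℂ).toRingHom

/-- **(K1) QUOT**: `Spec27.QuotStmt`. -/
theorem quotStmt : QuotStmt := by
  intro P R₀ P₀ hL
  have hpp := P.pp
  have hp2 : P.p ≠ 2 := by have := P.hp5; omega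
  have hΔ0 : P.freyCurveInt.Δ ≠ 0 := Fermat.Agent.Frey.IntModel.Δ_ne_zero P
  have hΔE : ((P.freyCurveInt.map (Int.castRingHom ℚ))⁄Qb).Δ ≠ 0 :=
    Fermat.Agent.MAZ.S12.DictFinal33.Eg_Δ_ne_zero hΔ0
  obtain ⟨m, W', Q', hΔ', ⟨h1, h2, h3, h4, h6⟩, -, -, hfix, hord, hpt⟩ :=
    Fermat.Agent.MAZ.S12.VeluInt24.exists_int_quot' P.freyCurveInt hΔE hpp hp2 hL.order hL.stable
      hL.tors hL.notMem hL.cofixed
  have hI : Fermat.Agent.MAZ.S12.DictFinal33.IntQuot P.freyCurveInt P.p R₀ P₀ W' Q'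
      (((P.p : ℕ) : Qb) ^ m) := ⟨h1, h2, h3, h4, h6, hpt⟩
  refine ⟨W', Q', hΔ', hfix, hord, ?_, ?_, ?_⟩
  · intro ℓ hℓ hℓp habc
    exact Fermat.Agent.MAZ.S12.DictFinal33.dvd_Δ_and_not_dvd_c₄ emb hpp hp2 hΔ0 hL.order hI hℓ hℓp
      (Fermat.Agent.Frey.IntModel.dvd_Δ_of_dvd_abc P hℓ habc)
      (Fermat.Agent.Frey.IntModel.not_dvd_c₄_of_dvd_abc P hℓ habc)
  · intro ℓ hℓ hℓp hnabc
    exact Fermat.Agent.MAZ.S12.DictFinal33.not_dvd_Δ emb hpp hp2 hΔ0 hL.order hI hℓ hℓp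
      (fun h => hnabc (Fermat.Agent.Frey.IntModel.dvd_abc_of_dvd_Δ P hℓ h))
  · intro ℓ hℓ hℓp habc A hA hQ'
    exact Fermat.Agent.MAZ.S12.DictFinal33.inZero_of_not_inZero_quot emb hpp hp2 hΔ0 hL.order
      hL.tors hL.notMem hI hℓ hℓp
      (Fermat.Agent.Frey.IntModel.dvd_Δ_of_dvd_abc P hℓ habc)
      (Fermat.Agent.Frey.IntModel.not_dvd_c₄_of_dvd_abc P hℓ habc) A hA hQ'

/-- **S12 from S15.** -/
theorem s12_of_s15 (h15 : S15Stmt) (P : FreyPackage) (hp17 : 17 ≤ P.p) :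
    ¬ HasGaloisStableCofixedLine (K := Qb) ℚ P.freyCurve P.p :=
  Fermat.Agent.MAZ.S12.Asm27.s12_of_three h15 Fermat.Agent.MAZ.S12.LineAtP57.lineStmt quotStmt P hp17

end Fermat.Agent.MAZ.S12.QuotAsm27
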