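/-
Program MAZ, sub-program MAZ-S12 (architect helper27): **S12 AND S09 FROM S15, KERNEL-CHECKED.**

`s12_of_s15Stmt` / `s09_of_s15Stmt` : the literal statements S12 and S09 from the single hypothesis
`Spec27.S15Stmt` (the literal statement S15).  The day `Fermat/Agent/S15.lean` exists, the files
`Fermat/Agent/S12.lean` and `Fermat/Agent/S09.lean` are the template headers followed by

  theorem result … := Fermat.Agent.MAZ.S12.Final27.s12_of_s15Stmt
    (fun hp hp' W hΔ Q hfix hord h2Δ h2c h2 h3Δ h3c h3 _ hℓ hℓp hℓΔ hℓc A hA =>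
      Fermat.Agent.S15.result hp hp' W hΔ Q hfix hord h2Δ h2c h2 h3Δ h3c h3 hℓ hℓp hℓΔ hℓc A hA) P hp

(resp. `s09_of_s15Stmt … P`), with the extra imports `Fermat.Agent.S15` and this file.
-/
import Mathlib
import Fermat.Agent.MAZ.S12.QuotAsm27
import Fermat.Agent.S09.Wiring

set_option autoImplicit false

open WeierstrassCurve WeierstrassCurve.Affine WeierstrassCurve.Affine.Point

namespace Fermat.Agent.MAZ.S12.Final27

open Fermat.Agent.MAZ.S12.Spec27

/-- **S12 from S15.** -/
theorem s12_of_s15Stmt (h15 : S15Stmt) (P : FreyPackage) (hp : 17 ≤ P.p) :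
    ¬ HasGaloisStableCofixedLine (K := AlgebraicClosure ℚ) ℚ P.freyCurve P.p :=
  Fermat.Agent.MAZ.S12.QuotAsm27.s12_of_s15 h15 P hp

/-- **S09 from S15** (with the landed S10, S11, S13). -/
theorem s09_of_s15Stmt (h15 : S15Stmt) (P : FreyPackage) :
    GaloisRepIsIrreducible (K := AlgebraicClosure ℚ) ℚ P.freyCurve P.p :=
  Fermat.Agent.S09W.irreducible_of_large (fun P' hp => s12_of_s15Stmt h15 P' hp) P

end Fermat.Agent.MAZ.S12.Final27
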