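/-
Program MAZ-S12 (table #1855), brick K1c = RATIONALITY / GALOIS, helper42.

Setting = the output of K0 (`Line57`): `W` a Weierstrass curve over `ℚ`, `E := W⁄ℚbar`, a point `R₀` of
exact order `p` spanning a Galois-STABLE line (`σ • R₀ ∈ ⟨R₀⟩`) and a point `P₀` whose class modulo the
line is Galois-fixed (`σ • P₀ - P₀ ∈ ⟨R₀⟩`).

For a Galois-equivariant function `g : E(ℚbar) → ℚbar` the sums and products of `g` over the non-zero
points `k • R₀` (`0 < k < p`) of the line and over the coset `P₀ + k • R₀` (`k < p`) are Galois-fixed,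
hence rational.  Corollaries: Vélu's `t`, `w`, the quantities `velC4`, `velPi`, `velJ` of `ModAsm62`,
the kernel products `∏ (x(k R₀) - e)` at rational `e`, and the Vélu coordinates `X(P₀)`, `Y(P₀)` of the
image of `P₀` on the quotient curve are rational numbers.
-/
import Fermat.Agent.MAZ.Point.ModAsm62

set_option autoImplicit false
set_option linter.unusedSectionVars false

open WeierstrassCurve WeierstrassCurve.Affine

noncomputable section

namespace Fermat.Agent.MAZ.S12.GalLine42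

open Fermat.Agent.MAZ.Spec.XSpec62 Fermat.Agent.MAZ.Point.ModAsm62

variable (W : WeierstrassCurve ℚ)

/-! ### Galois-equivariant functions on `E(ℚbar)` -/

/-- A function on the points which commutes with the Galois action. -/
def Equivariant (g : (W⁄Qb).Point → Qb) : Prop :=
  ∀ (σ : GQ) (P : (W⁄Qb).Point), g (σ • P) = σ (g P)

variable {W}

theorem coeff_fixed (σ : GQ) :
    σ (W⁄Qb).a₁ = (W⁄Qb).a₁ ∧ σ (W⁄Qb).a₂ = (W⁄Qb).a₂ ∧ σ (W⁄Qb).a₃ = (W⁄Qb).a₃ ∧
      σ (W⁄Qb).a₄ = (W⁄Qb).a₄ ∧ σ (W⁄Qb).a₆ = (W⁄Qb).a₆ ∧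
      σ (W⁄Qb).b₂ = (W⁄Qb).b₂ ∧ σ (W⁄Qb).b₄ = (W⁄Qb).b₄ ∧ σ (W⁄Qb).b₆ = (W⁄Qb).b₆ := by
  have h : ∀ r : ℚ, σ (algebraMap ℚ Qb r) = algebraMap ℚ Qb r := fun r => σ.commutes r
  refine ⟨h _, h _, h _, h _, h _, ?_, ?_, ?_⟩
  · rw [show (W⁄Qb).b₂ = algebraMap ℚ Qb W.b₂ from WeierstrassCurve.map_b₂ _ _]
    exact h _
  · rw [show (W⁄Qb).b₄ = algebraMap ℚ Qb W.b₄ from WeierstrassCurve.map_b₄ _ _]
    exact h _
  · rw [show (W⁄Qb).b₆ = algebraMap ℚ Qb W.b₆ from WeierstrassCurve.map_b₆ _ _]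
    exact h _

theorem smul_some (σ : GQ) {x y : Qb} (h : (W⁄Qb).Nonsingular x y) :
    ∃ h', σ • (Point.some x y h : (W⁄Qb).Point) = Point.some (σ x) (σ y) h' := by
  rw [Point.algEquiv_smul_def, Point.map_some]
  exact ⟨_, rfl⟩

theorem smul_zero' (σ : GQ) : σ • (0 : (W⁄Qb).Point) = 0 := smul_zero (A := (W⁄Qb).Point) σ

theorem smul_ne_zero' (σ : GQ) {Q : (W⁄Qb).Point} (hQ : Q ≠ 0) : σ • Q ≠ 0 := by
  rcases Q with _ | ⟨x, y, h⟩
  · exact absurd rfl hQ
  · obtain ⟨h', e⟩ := smul_some σ h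
    rw [e]
    exact Point.some_ne_zero h'

theorem equivariant_xOf : Equivariant W (xOf (E := W⁄Qb)) := by
  intro σ P
  rcases P with _ | ⟨x, y, h⟩
  · change xOf (σ • (0 : (W⁄Qb).Point)) = σ 0
    rw [smul_zero', map_zero]
    rfl
  · obtain ⟨h', e⟩ := smul_some σ h
    rw [e]
    rfl

theorem equivariant_yOf : Equivariant W (yOf (E := W⁄Qb)) := by
  intro σ P
  rcases P with _ | ⟨x, y, h⟩
  · change yOf (σ • (0 : (W⁄Qb).Point)) = σ 0
    rw [smul_zero', map_zero]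
    rfl
  · obtain ⟨h', e⟩ := smul_some σ h
    rw [e]
    rfl

theorem equivariant_psi2 : Equivariant W (psi2 (E := W⁄Qb)) := by
  intro σ P
  obtain ⟨h1, -, h3, -⟩ := coeff_fixed (W := W) σ
  rcases P with _ | ⟨x, y, h⟩
  · change psi2 (σ • (0 : (W⁄Qb).Point)) = σ 0
    rw [smul_zero', map_zero]
    rfl
  · obtain ⟨h', e⟩ := smul_some σ h
    rw [e]
    change 2 * σ y + (W⁄Qb).a₁ * σ x + (W⁄Qb).a₃ = σ (2 * y + (W⁄Qb).a₁ * x + (W⁄Qb).a₃)
    rw [map_add, map_add, map_mul, map_mul, map_ofNat, h1, h3]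

theorem equivariant_tOf : Equivariant W (tOf (E := W⁄Qb)) := by
  intro σ P
  obtain ⟨-, -, -, -, -, h2, h4, -⟩ := coeff_fixed (W := W) σ
  rcases P with _ | ⟨x, y, h⟩
  · change tOf (σ • (0 : (W⁄Qb).Point)) = σ 0
    rw [smul_zero', map_zero]
    rfl
  · obtain ⟨h', e⟩ := smul_some σ h
    rw [e]
    change 6 * σ x ^ 2 + (W⁄Qb).b₂ * σ x + (W⁄Qb).b₄ = σ (6 * x ^ 2 + (W⁄Qb).b₂ * x + (W⁄Qb).b₄)
    rw [map_add, map_add, map_mul, map_mul, map_pow, map_ofNat, h2, h4]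

theorem Equivariant.add {g h : (W⁄Qb).Point → Qb} (hg : Equivariant W g) (hh : Equivariant W h) :
    Equivariant W fun P => g P + h P := fun σ P => by
  change g (σ • P) + h (σ • P) = σ (g P + h P)
  rw [map_add, hg σ P, hh σ P]

theorem Equivariant.sub {g h : (W⁄Qb).Point → Qb} (hg : Equivariant W g) (hh : Equivariant W h) :
    Equivariant W fun P => g P - h P := fun σ P => by
  change g (σ • P) - h (σ • P) = σ (g P - h P)
  rw [map_sub, hg σ P, hh σ P]

theorem Equivariant.mul {g h : (W⁄Qb).Point → Qb} (hg : Equivariant W g) (hh : Equivariant W h) :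
    Equivariant W fun P => g P * h P := fun σ P => by
  change g (σ • P) * h (σ • P) = σ (g P * h P)
  rw [map_mul, hg σ P, hh σ P]

theorem Equivariant.pow {g : (W⁄Qb).Point → Qb} (hg : Equivariant W g) (n : ℕ) :
    Equivariant W fun P => g P ^ n := fun σ P => by
  change g (σ • P) ^ n = σ (g P ^ n)
  rw [map_pow, hg σ P]

/-- Constant functions with a Galois-fixed value are equivariant. -/
theorem equivariant_const {c : Qb} (hc : ∀ σ : GQ, σ c = c) : Equivariant W fun _ => c :=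
  fun σ _ => (hc σ).symm

theorem equivariant_ratCast (r : ℚ) : Equivariant W fun _ => (r : Qb) :=
  equivariant_const fun σ => by
    rw [← eq_ratCast (algebraMap ℚ Qb) r]
    exact σ.commutes r

/-- Post-composition with a function commuting with the Galois action (e.g. a polynomial function
with rational coefficients). -/
theorem Equivariant.comp {g : (W⁄Qb).Point → Qb} (hg : Equivariant W g) {f : Qb → Qb}
    (hf : ∀ (σ : GQ) (x : Qb), σ (f x) = f (σ x)) : Equivariant W fun P => f (g P) := fun σ P => by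
  change f (g (σ • P)) = σ (f (g P))
  rw [hf σ, hg σ P]

/-- Pre-composition with a translation by a Galois-fixed point, or any equivariant self-map. -/
theorem Equivariant.comp_map {g : (W⁄Qb).Point → Qb} (hg : Equivariant W g)
    {m : (W⁄Qb).Point → (W⁄Qb).Point} (hm : ∀ (σ : GQ) (P : (W⁄Qb).Point), m (σ • P) = σ • m P) :
    Equivariant W fun P => g (m P) := fun σ P => by
  change g (m (σ • P)) = σ (g (m P))
  rw [hm σ P, hg σ]

theorem mem_ratField_of_fixed {x : Qb} (h : ∀ σ : GQ, σ x = x) : x ∈ ratField := by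
  obtain ⟨r, hr⟩ := Fermat.Agent.S13.GalRat.exists_ratCast_of_fixed x h
  exact mem_ratField_iff.mpr ⟨r, hr⟩

theorem fixed_of_mem_ratField {x : Qb} (h : x ∈ ratField) (σ : GQ) : σ x = x := by
  obtain ⟨r, rfl⟩ := mem_ratField_iff.mp h
  rw [← eq_ratCast (algebraMap ℚ Qb) r]
  exact σ.commutes r

/-! ### The line and the coset -/

section Line

variable {p : ℕ} {R₀ P₀ : (W⁄Qb).Point}

theorem isOfFinAddOrder (hp : 0 < p) (hR : addOrderOf R₀ = p) : IsOfFinAddOrder R₀ := by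
  rw [← addOrderOf_pos_iff, hR]
  exact hp

theorem nsmul_ne_zero (hR : addOrderOf R₀ = p) {k : ℕ} (hk : k ∈ Finset.Ico 1 p) :
    k • R₀ ≠ 0 := by
  intro h0
  rw [Finset.mem_Ico] at hk
  have := addOrderOf_dvd_of_nsmul_eq_zero h0
  rw [hR] at this
  exact absurd (Nat.le_of_dvd (by omega) this) (by omega)

theorem injOn_range (hR : addOrderOf R₀ = p) :
    Set.InjOn (fun k : ℕ => k • R₀) (Finset.range p : Set ℕ) := by
  intro a ha b hb hab
  rw [Finset.coe_range] at ha hb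
  exact nsmul_injOn_Iio_addOrderOf (by rw [hR]; exact ha) (by rw [hR]; exact hb) hab

theorem injOn_line (hR : addOrderOf R₀ = p) :
    Set.InjOn (fun k : ℕ => k • R₀) (Finset.Ico 1 p : Set ℕ) := by
  refine (injOn_range hR).mono ?_
  intro k hk
  rw [Finset.mem_coe, Finset.mem_Ico] at hk
  rw [Finset.mem_coe, Finset.mem_range]
  exact hk.2

/-- The non-zero points of the line. -/
theorem mem_line_iff (hp : 0 < p) (hR : addOrderOf R₀ = p) (Q : (W⁄Qb).Point) :
    Q ∈ (Finset.Ico 1 p).image (fun k : ℕ => k • R₀) ↔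
      Q ∈ AddSubgroup.zmultiples R₀ ∧ Q ≠ 0 := by
  rw [(isOfFinAddOrder hp hR).mem_zmultiples_iff_mem_range_addOrderOf, hR]
  simp only [Finset.mem_image, Finset.mem_Ico, Finset.mem_range]
  constructor
  · rintro ⟨k, ⟨hk1, hk2⟩, rfl⟩
    exact ⟨⟨k, hk2, rfl⟩, nsmul_ne_zero hR (Finset.mem_Ico.mpr ⟨hk1, hk2⟩)⟩
  · rintro ⟨⟨k, hk, rfl⟩, hne⟩
    refine ⟨k, ⟨?_, hk⟩, rfl⟩
    rcases Nat.eq_zero_or_pos k with h0 | h0
    · exact absurd (by rw [h0]; exact zero_nsmul R₀) hne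
    · exact h0

/-- The coset of `P₀`. -/
theorem mem_coset_iff (hp : 0 < p) (hR : addOrderOf R₀ = p) (Q : (W⁄Qb).Point) :
    Q ∈ (Finset.range p).image (fun k : ℕ => P₀ + k • R₀) ↔
      Q - P₀ ∈ AddSubgroup.zmultiples R₀ := by
  rw [(isOfFinAddOrder hp hR).mem_zmultiples_iff_mem_range_addOrderOf, hR]
  simp only [Finset.mem_image, Finset.mem_range]
  constructor
  · rintro ⟨k, hk, rfl⟩
    exact ⟨k, hk, by abel⟩
  · rintro ⟨k, hk, h⟩
    refine ⟨k, hk, ?_⟩
    change k • R₀ = Q - P₀ at h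
    rw [h]
    abel

theorem smul_mem_zmultiples (hstab : ∀ σ : GQ, σ • R₀ ∈ AddSubgroup.zmultiples R₀) (σ : GQ)
    {Q : (W⁄Qb).Point} (hQ : Q ∈ AddSubgroup.zmultiples R₀) :
    σ • Q ∈ AddSubgroup.zmultiples R₀ := by
  obtain ⟨m, rfl⟩ := AddSubgroup.mem_zmultiples_iff.mp hQ
  rw [Point.algEquiv_smul_zsmul]
  exact AddSubgroup.zsmul_mem _ (hstab σ) m

theorem injOn_smul_line (hR : addOrderOf R₀ = p) (σ : GQ) :
    Set.InjOn (fun k : ℕ => σ • (k • R₀)) (Finset.Ico 1 p : Set ℕ) := by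
  intro a ha b hb hab
  exact injOn_line hR ha hb (MulAction.injective σ hab)

theorem injOn_coset (hR : addOrderOf R₀ = p) :
    Set.InjOn (fun k : ℕ => P₀ + k • R₀) (Finset.range p : Set ℕ) := by
  intro a ha b hb hab
  exact injOn_range hR ha hb (add_left_cancel hab)

theorem injOn_smul_coset (hR : addOrderOf R₀ = p) (σ : GQ) :
    Set.InjOn (fun k : ℕ => σ • (P₀ + k • R₀)) (Finset.range p : Set ℕ) := by
  intro a ha b hb hab
  exact injOn_coset hR ha hb (MulAction.injective σ hab)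

/-- The Galois group permutes the non-zero points of a stable line. -/
theorem image_smul_line (hp : 0 < p) (hR : addOrderOf R₀ = p)
    (hstab : ∀ σ : GQ, σ • R₀ ∈ AddSubgroup.zmultiples R₀) (σ : GQ) :
    (Finset.Ico 1 p).image (fun k : ℕ => σ • (k • R₀)) =
      (Finset.Ico 1 p).image (fun k : ℕ => k • R₀) := by
  apply Finset.eq_of_subset_of_card_le
  · intro Q hQ
    obtain ⟨k, hk, rfl⟩ := Finset.mem_image.mp hQ
    rw [mem_line_iff hp hR]
    refine ⟨smul_mem_zmultiples hstab σ (AddSubgroup.nsmul_mem_zmultiples R₀ k), ?_⟩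
    exact smul_ne_zero' σ (nsmul_ne_zero hR hk)
  · rw [Finset.card_image_of_injOn (injOn_line hR),
      Finset.card_image_of_injOn (injOn_smul_line hR σ)]

/-- The Galois group permutes the coset of a point whose class modulo the line is fixed. -/
theorem image_smul_coset (hp : 0 < p) (hR : addOrderOf R₀ = p)
    (hstab : ∀ σ : GQ, σ • R₀ ∈ AddSubgroup.zmultiples R₀)
    (hcof : ∀ σ : GQ, σ • P₀ - P₀ ∈ AddSubgroup.zmultiples R₀) (σ : GQ) :
    (Finset.range p).image (fun k : ℕ => σ • (P₀ + k • R₀)) =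
      (Finset.range p).image (fun k : ℕ => P₀ + k • R₀) := by
  apply Finset.eq_of_subset_of_card_le
  · intro Q hQ
    obtain ⟨k, hk, rfl⟩ := Finset.mem_image.mp hQ
    rw [mem_coset_iff hp hR]
    have e0 : σ • (P₀ + k • R₀) = σ • P₀ + σ • (k • R₀) := smul_add σ P₀ (k • R₀)
    have e : σ • (P₀ + k • R₀) - P₀ = (σ • P₀ - P₀) + σ • (k • R₀) := by
      rw [e0]
      abel
    rw [e]
    exact AddSubgroup.add_mem _ (hcof σ)
      (smul_mem_zmultiples hstab σ (AddSubgroup.nsmul_mem_zmultiples R₀ k))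
  · rw [Finset.card_image_of_injOn (injOn_coset hR),
      Finset.card_image_of_injOn (injOn_smul_coset hR σ)]

variable {g : (W⁄Qb).Point → Qb}

/-- **Sums over the line are Galois-fixed.** -/
theorem sum_line_fixed (hp : 0 < p) (hR : addOrderOf R₀ = p)
    (hstab : ∀ σ : GQ, σ • R₀ ∈ AddSubgroup.zmultiples R₀) (hg : Equivariant W g) (σ : GQ) :
    σ (∑ k ∈ Finset.Ico 1 p, g (k • R₀)) = ∑ k ∈ Finset.Ico 1 p, g (k • R₀) := by
  rw [map_sum]
  calc ∑ k ∈ Finset.Ico 1 p, σ (g (k • R₀))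
      = ∑ k ∈ Finset.Ico 1 p, g (σ • (k • R₀)) :=
        Finset.sum_congr rfl fun k _ => (hg σ _).symm
    _ = ∑ Q ∈ (Finset.Ico 1 p).image (fun k : ℕ => σ • (k • R₀)), g Q :=
        (Finset.sum_image (injOn_smul_line hR σ)).symm
    _ = ∑ Q ∈ (Finset.Ico 1 p).image (fun k : ℕ => k • R₀), g Q := by
        rw [image_smul_line hp hR hstab σ]
    _ = ∑ k ∈ Finset.Ico 1 p, g (k • R₀) := Finset.sum_image (injOn_line hR)

/-- **Products over the line are Galois-fixed.** -/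
theorem prod_line_fixed (hp : 0 < p) (hR : addOrderOf R₀ = p)
    (hstab : ∀ σ : GQ, σ • R₀ ∈ AddSubgroup.zmultiples R₀) (hg : Equivariant W g) (σ : GQ) :
    σ (∏ k ∈ Finset.Ico 1 p, g (k • R₀)) = ∏ k ∈ Finset.Ico 1 p, g (k • R₀) := by
  rw [map_prod]
  calc ∏ k ∈ Finset.Ico 1 p, σ (g (k • R₀))
      = ∏ k ∈ Finset.Ico 1 p, g (σ • (k • R₀)) :=
        Finset.prod_congr rfl fun k _ => (hg σ _).symm
    _ = ∏ Q ∈ (Finset.Ico 1 p).image (fun k : ℕ => σ • (k • R₀)), g Q :=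
        (Finset.prod_image (injOn_smul_line hR σ)).symm
    _ = ∏ Q ∈ (Finset.Ico 1 p).image (fun k : ℕ => k • R₀), g Q := by
        rw [image_smul_line hp hR hstab σ]
    _ = ∏ k ∈ Finset.Ico 1 p, g (k • R₀) := Finset.prod_image (injOn_line hR)

/-- **Sums over the coset are Galois-fixed.** -/
theorem sum_coset_fixed (hp : 0 < p) (hR : addOrderOf R₀ = p)
    (hstab : ∀ σ : GQ, σ • R₀ ∈ AddSubgroup.zmultiples R₀)
    (hcof : ∀ σ : GQ, σ • P₀ - P₀ ∈ AddSubgroup.zmultiples R₀) (hg : Equivariant W g) (σ : GQ) :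
    σ (∑ k ∈ Finset.range p, g (P₀ + k • R₀)) = ∑ k ∈ Finset.range p, g (P₀ + k • R₀) := by
  rw [map_sum]
  calc ∑ k ∈ Finset.range p, σ (g (P₀ + k • R₀))
      = ∑ k ∈ Finset.range p, g (σ • (P₀ + k • R₀)) :=
        Finset.sum_congr rfl fun k _ => (hg σ _).symm
    _ = ∑ Q ∈ (Finset.range p).image (fun k : ℕ => σ • (P₀ + k • R₀)), g Q :=
        (Finset.sum_image (injOn_smul_coset hR σ)).symm
    _ = ∑ Q ∈ (Finset.range p).image (fun k : ℕ => P₀ + k • R₀), g Q := by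
        rw [image_smul_coset hp hR hstab hcof σ]
    _ = ∑ k ∈ Finset.range p, g (P₀ + k • R₀) := Finset.sum_image (injOn_coset hR)

/-- **Products over the coset are Galois-fixed.** -/
theorem prod_coset_fixed (hp : 0 < p) (hR : addOrderOf R₀ = p)
    (hstab : ∀ σ : GQ, σ • R₀ ∈ AddSubgroup.zmultiples R₀)
    (hcof : ∀ σ : GQ, σ • P₀ - P₀ ∈ AddSubgroup.zmultiples R₀) (hg : Equivariant W g) (σ : GQ) :
    σ (∏ k ∈ Finset.range p, g (P₀ + k • R₀)) = ∏ k ∈ Finset.range p, g (P₀ + k • R₀) := by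
  rw [map_prod]
  calc ∏ k ∈ Finset.range p, σ (g (P₀ + k • R₀))
      = ∏ k ∈ Finset.range p, g (σ • (P₀ + k • R₀)) :=
        Finset.prod_congr rfl fun k _ => (hg σ _).symm
    _ = ∏ Q ∈ (Finset.range p).image (fun k : ℕ => σ • (P₀ + k • R₀)), g Q :=
        (Finset.prod_image (injOn_smul_coset hR σ)).symm
    _ = ∏ Q ∈ (Finset.range p).image (fun k : ℕ => P₀ + k • R₀), g Q := by
        rw [image_smul_coset hp hR hstab hcof σ]
    _ = ∏ k ∈ Finset.range p, g (P₀ + k • R₀) := Finset.prod_image (injOn_coset hR)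

/-! ### Corollaries: rational numbers attached to the line -/

section Corollaries

variable (hp : 0 < p) (hR : addOrderOf R₀ = p)
  (hstab : ∀ σ : GQ, σ • R₀ ∈ AddSubgroup.zmultiples R₀)

include hp hR hstab

theorem sum_line_mem_ratField (hg : Equivariant W g) :
    ∑ k ∈ Finset.Ico 1 p, g (k • R₀) ∈ ratField :=
  mem_ratField_of_fixed (sum_line_fixed hp hR hstab hg)

theorem prod_line_mem_ratField (hg : Equivariant W g) :
    ∏ k ∈ Finset.Ico 1 p, g (k • R₀) ∈ ratField :=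
  mem_ratField_of_fixed (prod_line_fixed hp hR hstab hg)

/-- `2 t_N = Σ t(k R₀)` is rational. -/
theorem sum_tOf_mem_ratField : ∑ k ∈ Finset.Ico 1 p, tOf (k • R₀) ∈ ratField :=
  sum_line_mem_ratField hp hR hstab equivariant_tOf

/-- `2 w_N = Σ (10 x³ + 2 b₂ x² + 3 b₄ x + b₆)(k R₀)` (`wPoly` of `QuotIsog32`) is rational. -/
theorem sum_wPoly_mem_ratField :
    ∑ k ∈ Finset.Ico 1 p, (10 * xOf (k • R₀) ^ 3 + 2 * (W⁄Qb).b₂ * xOf (k • R₀) ^ 2 +
      3 * (W⁄Qb).b₄ * xOf (k • R₀) + (W⁄Qb).b₆) ∈ ratField := by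
  refine sum_line_mem_ratField hp hR hstab (g := fun P => 10 * xOf P ^ 3 +
    2 * (W⁄Qb).b₂ * xOf P ^ 2 + 3 * (W⁄Qb).b₄ * xOf P + (W⁄Qb).b₆) ?_
  intro σ P
  obtain ⟨-, -, -, -, -, h2, h4, h6⟩ := coeff_fixed (W := W) σ
  change 10 * xOf (σ • P) ^ 3 + 2 * (W⁄Qb).b₂ * xOf (σ • P) ^ 2 +
      3 * (W⁄Qb).b₄ * xOf (σ • P) + (W⁄Qb).b₆ =
    σ (10 * xOf P ^ 3 + 2 * (W⁄Qb).b₂ * xOf P ^ 2 + 3 * (W⁄Qb).b₄ * xOf P + (W⁄Qb).b₆)
  rw [equivariant_xOf σ P]
  simp only [map_add, map_mul, map_pow, map_ofNat, h2, h4, h6]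

/-- The kernel product `∏ (x(k R₀) - e)` at a Galois-fixed `e` is rational. -/
theorem prod_xOf_sub_mem_ratField {e : Qb} (he : ∀ σ : GQ, σ e = e) :
    ∏ k ∈ Finset.Ico 1 p, (xOf (k • R₀) - e) ∈ ratField :=
  prod_line_mem_ratField hp hR hstab (equivariant_xOf.sub (equivariant_const he))

theorem prod_xOf_sub_ratCast_mem_ratField (e : ℚ) :
    ∏ k ∈ Finset.Ico 1 p, (xOf (k • R₀) - (e : Qb)) ∈ ratField :=
  prod_line_mem_ratField hp hR hstab (equivariant_xOf.sub (equivariant_ratCast e))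

theorem velPi_mem_ratField : velPi p R₀ ∈ ratField :=
  prod_line_mem_ratField hp hR hstab equivariant_psi2

theorem velC4_mem_ratField : velC4 p R₀ ∈ ratField := by
  unfold velC4
  have hc4 : (W⁄Qb).c₄ ∈ ratField := by
    rw [show (W⁄Qb).c₄ = algebraMap ℚ Qb W.c₄ from WeierstrassCurve.map_c₄ _ _]
    exact (RingHom.mem_fieldRange).mpr ⟨_, rfl⟩
  have h120 : (120 : Qb) ∈ ratField := by exact_mod_cast intCast_mem_ratField 120
  exact add_mem hc4 (mul_mem h120 (sum_tOf_mem_ratField hp hR hstab))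

/-- `j(E / ⟨R₀⟩)` in Vélu's form is rational as soon as the line is Galois-stable. -/
theorem velJ_mem_ratField_of_stable : velJ p R₀ ∈ ratField := by
  unfold velJ
  have hΔ : (W⁄Qb).Δ ∈ ratField := by
    rw [show (W⁄Qb).Δ = algebraMap ℚ Qb W.Δ from WeierstrassCurve.map_Δ _ _]
    exact (RingHom.mem_fieldRange).mpr ⟨_, rfl⟩
  exact div_mem (mul_mem (pow_mem (velC4_mem_ratField hp hR hstab) 3)
    (pow_mem (velPi_mem_ratField hp hR hstab) 4)) (pow_mem hΔ p)

end Corollaries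

/-! ### The Vélu coordinates of the image of `P₀` -/

section Velu

/-- Vélu's `X(P) = x(P) + Σ_{0<k<p} (x(P + k R₀) - x(k R₀))`. -/
def veluX (p : ℕ) (R₀ P : (W⁄Qb).Point) : Qb :=
  xOf P + ∑ k ∈ Finset.Ico 1 p, (xOf (P + k • R₀) - xOf (k • R₀))

/-- Vélu's `Y(P)`, from `ψ₂(φ P) = Σ_{k<p} ψ₂(P + k R₀)`. -/
def veluY (p : ℕ) (R₀ P : (W⁄Qb).Point) : Qb :=
  ((∑ k ∈ Finset.range p, psi2 (P + k • R₀)) - (W⁄Qb).a₁ * veluX p R₀ P - (W⁄Qb).a₃) / 2

theorem veluX_eq (hp : 0 < p) (R₀ P : (W⁄Qb).Point) :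
    veluX p R₀ P = (∑ k ∈ Finset.range p, xOf (P + k • R₀)) -
      ∑ k ∈ Finset.Ico 1 p, xOf (k • R₀) := by
  unfold veluX
  rw [Finset.sum_sub_distrib, Finset.range_eq_Ico, Finset.sum_eq_sum_Ico_succ_bot hp]
  simp only [zero_nsmul, add_zero, zero_add]
  ring

variable (hp : 0 < p) (hR : addOrderOf R₀ = p)
  (hstab : ∀ σ : GQ, σ • R₀ ∈ AddSubgroup.zmultiples R₀)
  (hcof : ∀ σ : GQ, σ • P₀ - P₀ ∈ AddSubgroup.zmultiples R₀)

include hp hR hstab hcof

/-- **The `x`-coordinate of the image of `P₀` on the quotient curve is rational.** -/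
theorem veluX_mem_ratField : veluX p R₀ P₀ ∈ ratField := by
  rw [veluX_eq hp]
  exact sub_mem (mem_ratField_of_fixed (sum_coset_fixed hp hR hstab hcof equivariant_xOf))
    (sum_line_mem_ratField hp hR hstab equivariant_xOf)

/-- **The `y`-coordinate of the image of `P₀` on the quotient curve is rational.** -/
theorem veluY_mem_ratField : veluY p R₀ P₀ ∈ ratField := by
  unfold veluY
  have h1 : (W⁄Qb).a₁ ∈ ratField := (RingHom.mem_fieldRange).mpr ⟨W.a₁, rfl⟩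
  have h3 : (W⁄Qb).a₃ ∈ ratField := (RingHom.mem_fieldRange).mpr ⟨W.a₃, rfl⟩
  have h2 : (2 : Qb) ∈ ratField := by exact_mod_cast intCast_mem_ratField 2
  exact div_mem (sub_mem (sub_mem
    (mem_ratField_of_fixed (sum_coset_fixed hp hR hstab hcof equivariant_psi2))
    (mul_mem h1 (veluX_mem_ratField hp hR hstab hcof))) h3) h2

/-- The Vélu coordinates of the image of `P₀` are rational numbers. -/
theorem exists_rat_velu :
    ∃ x' y' : ℚ, (x' : Qb) = veluX p R₀ P₀ ∧ (y' : Qb) = veluY p R₀ P₀ := by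
  obtain ⟨x', hx'⟩ := mem_ratField_iff.mp (veluX_mem_ratField hp hR hstab hcof)
  obtain ⟨y', hy'⟩ := mem_ratField_iff.mp (veluY_mem_ratField hp hR hstab hcof)
  exact ⟨x', y', hx', hy'⟩

end Velu

end Line

end Fermat.Agent.MAZ.S12.GalLine42
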