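/-
MAZ-S12 (helper61): **the trivial Hasse bound for a Galois-stable line with cofixed quotient**, on
the curve itself (no quotient curve, no rational point).

`W` an integral Weierstrass curve with good reduction at `ℓ`, `R₀` of prime order `p ≠ ℓ` spanning
a Galois-stable line `N`, `P₀ ∈ E[p] ∖ N` with `σ P₀ - P₀ ∈ N` for all `σ`.  A Frobenius element `σ`
at a place over `ℓ` acts on the coset `P₀ + N` through an affine map of `ℤ/p`, so it fixes `R₀` or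
some `P₀ + k R₀`: a point of order `p` fixed by `σ`.  Its reduction is an `𝔽_ℓ`-point of order `p`
(`Hasse61`'s argument), hence `p ∣ #W̃(𝔽_ℓ)` and `p ≤ 2 ℓ + 1`.
-/
import Mathlib
import Fermat.Agent.ES.Q58.Red39b
import Fermat.Agent.ES.Q58.ManinPts16
import Fermat.Agent.ES.Q58.CardBound20
import Fermat.Agent.ES.FROB.FrobFacts12

set_option autoImplicit false
set_option linter.style.haveILetI false

open WeierstrassCurve WeierstrassCurve.Affine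

namespace Fermat.Agent.MAZ.S12.HasseLine61

open Fermat.Agent.ES.Q58.Red39 Fermat.Agent.ES.Q58.ManinPts16 Fermat.Agent.ES.EC.LiftTorsion29

local notation "Qb" => AlgebraicClosure ℚ
local notation "GQ" => (AlgebraicClosure ℚ ≃ₐ[ℚ] AlgebraicClosure ℚ)

/-- A point of odd prime order `p ≠ ℓ` fixed by ONE Frobenius element at a place over a good prime
`ℓ` forces `p ∣ #W̃(𝔽_ℓ)`. -/
theorem dvd_card_of_frob_fixed (W : WeierstrassCurve ℤ) {ℓ p : ℕ} (hℓ : ℓ.Prime) (hp : p.Prime)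
    (hp2 : p ≠ 2) (hpℓ : p ≠ ℓ) (hΔ : ¬ (ℓ : ℤ) ∣ W.Δ)
    (P : ValuationSubring Qb) (hP : P.LiesOverPrime ℓ) (σ : GQ) (hσ : P.IsFrobeniusAt σ ℓ)
    (Q : ((W.map (Int.castRingHom ℚ))⁄Qb).Point) (hσQ : σ • Q = Q)
    (hQ : addOrderOf Q = p) : p ∣ (W.reductionMod ℓ).card := by
  classical
  haveI : Fact ℓ.Prime := ⟨hℓ⟩
  letI : Algebra (ZMod ℓ) (IsLocalRing.ResidueField P) := (primeEmb P hℓ hP).toAlgebra
  set κ := IsLocalRing.ResidueField P with hκ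
  set φ : κ →ₐ[ZMod ℓ] κ := frobAlg ℓ κ with hφdef
  have hφ : ∀ x : κ, φ x = x ^ ℓ := fun x => rfl
  have hM := isModel_of_int (r := ℓ) (P := P) W
  have hℓp : ¬ ℓ ∣ p := fun h => hpℓ ((Nat.prime_dvd_prime_iff_eq hℓ hp).mp h).symm
  have hv : P.valuation ((p : ℕ) : Qb) = 1 :=
    Fermat.Agent.S05.Inertia.valuation_natCast_eq_one hℓ hP hℓp
  have hΔu : IsUnit (W.map (Int.castRingHom P)).Δ := by
    rw [WeierstrassCurve.map_Δ, eq_intCast]
    exact isUnit_intCast_of_not_dvd P hℓ hP hΔ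
  have hodd : Odd p := hp.odd_of_ne_two hp2
  have hpQ : p • Q = 0 := by rw [← hQ]; exact addOrderOf_nsmul_eq_zero Q
  have hQ0 : Q ≠ 0 := by
    rintro rfl
    rw [addOrderOf_zero] at hQ
    exact hp.one_lt.ne hQ
  obtain ⟨R, hR⟩ := hM.exists_red hΔu hv hpQ
  have hR0 : R ≠ 0 := fun h => hQ0 (hR.eq_zero_iff.mpr h)
  have hpR : p • R = 0 := hM.nsmul_eq_zero hR hodd hpQ
  have hfrob : Red P ((W.map (Int.castRingHom ℚ))⁄Qb) ((W.reductionMod ℓ).toAffine⁄κ) (σ • Q)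
      (Point.map (W' := (W.reductionMod ℓ).toAffine) φ R) := red_frob hσ φ hφ hR
  rw [hσQ] at hfrob
  have hRfix : frobPt (W.reductionMod ℓ).toAffine κ R = R := hfrob.unique hR
  have hker : R ∈ (alpha (W.reductionMod ℓ).toAffine κ).ker :=
    (mem_ker_alpha _ _ R).mpr hRfix
  have hord : addOrderOf (⟨R, hker⟩ : (alpha (W.reductionMod ℓ).toAffine κ).ker) = p := by
    haveI : Fact p.Prime := ⟨hp⟩
    refine addOrderOf_eq_prime ?_ ?_
    · exact Subtype.ext hpR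
    · intro h
      exact hR0 (congrArg Subtype.val h)
  have hdvd := addOrderOf_dvd_natCard (⟨R, hker⟩ : (alpha (W.reductionMod ℓ).toAffine κ).ker)
  rw [hord, card_ker_alpha] at hdvd
  exact hdvd

/-- `p ≤ 2 ℓ + 1` from one Frobenius-fixed point of prime order `p ≠ ℓ`. -/
theorem le_of_frob_fixed (W : WeierstrassCurve ℤ) {ℓ p : ℕ} (hℓ : ℓ.Prime) (hp : p.Prime)
    (hpℓ : p ≠ ℓ) (hΔ : ¬ (ℓ : ℤ) ∣ W.Δ)
    (P : ValuationSubring Qb) (hP : P.LiesOverPrime ℓ) (σ : GQ) (hσ : P.IsFrobeniusAt σ ℓ)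
    (Q : ((W.map (Int.castRingHom ℚ))⁄Qb).Point) (hσQ : σ • Q = Q)
    (hQ : addOrderOf Q = p) : p ≤ 2 * ℓ + 1 := by
  by_cases hp2 : p = 2
  · have := hℓ.two_le
    omega
  haveI : Fact ℓ.Prime := ⟨hℓ⟩
  have hdvd := dvd_card_of_frob_fixed W hℓ hp hp2 hpℓ hΔ P hP σ hσ Q hσQ hQ
  have hle := Fermat.Agent.ES.Q58.CardBound20.card_point_le (W.reductionMod ℓ).toAffine
  have hpos : 0 < (W.reductionMod ℓ).card :=
    Fermat.Agent.ES.Q58.CardBound20.one_le_card_point (W.reductionMod ℓ).toAffine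
  rw [ZMod.card] at hle
  exact (Nat.le_of_dvd hpos hdvd).trans hle

section Line

variable {G : Type*} [AddCommGroup G]

theorem zsmul_eq_zero_of_dvd {p : ℕ} {x : G} (hx : p • x = 0) {n : ℤ} (hn : (p : ℤ) ∣ n) :
    n • x = 0 := by
  obtain ⟨j, rfl⟩ := hn
  rw [mul_comm, mul_smul, natCast_zsmul, hx, smul_zero]

/-- An automorphism stabilising the line `⟨R₀⟩` (`R₀` of prime order `p`) and acting trivially on
`⟨R₀, P₀⟩ / ⟨R₀⟩` fixes an element of order `p`. -/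
theorem exists_fixed_of_stable_cofixed {p : ℕ} (hp : p.Prime) (f : G →+ G) {R₀ P₀ : G}
    (hR : addOrderOf R₀ = p) (hP₀ : p • P₀ = 0) (hPR : P₀ ∉ AddSubgroup.zmultiples R₀)
    (hstab : f R₀ ∈ AddSubgroup.zmultiples R₀) (hcof : f P₀ - P₀ ∈ AddSubgroup.zmultiples R₀) :
    ∃ Q : G, f Q = Q ∧ addOrderOf Q = p := by
  haveI : Fact p.Prime := ⟨hp⟩
  have hpR : p • R₀ = 0 := by rw [← hR]; exact addOrderOf_nsmul_eq_zero R₀
  obtain ⟨m, hm⟩ := AddSubgroup.mem_zmultiples_iff.mp hstab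
  obtain ⟨c, hc⟩ := AddSubgroup.mem_zmultiples_iff.mp hcof
  by_cases hm1 : (p : ℤ) ∣ m - 1
  · refine ⟨R₀, ?_, hR⟩
    have : m • R₀ = R₀ := by
      have h1 : m • R₀ = (m - 1) • R₀ + R₀ := by rw [sub_smul, one_smul]; abel
      rw [h1, zsmul_eq_zero_of_dvd hpR hm1, zero_add]
    rw [← hm, this]
  · -- solve `k (m - 1) + c ≡ 0 mod p`
    have hunit : ((m : ZMod p) - 1) ≠ 0 := by
      have h1 : ((m - 1 : ℤ) : ZMod p) ≠ 0 := by
        rwa [Ne, ZMod.intCast_zmod_eq_zero_iff_dvd]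
      push_cast at h1
      exact h1
    obtain ⟨k, hk⟩ : ∃ k : ℤ, (p : ℤ) ∣ k * (m - 1) + c := by
      obtain ⟨k, hk⟩ := ZMod.intCast_surjective (-(c : ZMod p) * ((m : ZMod p) - 1)⁻¹)
      refine ⟨k, ?_⟩
      rw [← ZMod.intCast_zmod_eq_zero_iff_dvd]
      push_cast
      rw [hk, mul_assoc, inv_mul_cancel₀ hunit, mul_one, neg_add_cancel]
    refine ⟨P₀ + k • R₀, ?_, ?_⟩
    · have hfP : f P₀ = P₀ + c • R₀ := by rw [hc]; abel
      rw [map_add, map_zsmul, ← hm, hfP, smul_smul]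
      have h2 : P₀ + c • R₀ + (k * m) • R₀ = P₀ + k • R₀ + (k * (m - 1) + c) • R₀ := by
        rw [add_smul (k * (m - 1)) c, mul_sub, mul_one, sub_smul]
        abel
      rw [h2, zsmul_eq_zero_of_dvd hpR hk, add_zero]
    · refine addOrderOf_eq_prime ?_ ?_
      · rw [smul_add, hP₀, zero_add, smul_comm, hpR, smul_zero]
      · intro h0
        apply hPR
        have : P₀ = (-k) • R₀ := by
          rw [neg_smul]
          exact eq_neg_of_add_eq_zero_left h0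
        rw [this]
        exact AddSubgroup.zsmul_mem_zmultiples R₀ (-k)

end Line

/-- **GOOD-ℓ for a Galois-stable line with cofixed quotient.** -/
theorem le_of_stable_cofixed (W : WeierstrassCurve ℤ) {ℓ p : ℕ} (hℓ : ℓ.Prime) (hp : p.Prime)
    (hpℓ : p ≠ ℓ) (hΔ : ¬ (ℓ : ℤ) ∣ W.Δ)
    (R₀ P₀ : ((W.map (Int.castRingHom ℚ))⁄Qb).Point) (hR : addOrderOf R₀ = p)
    (hP₀ : p • P₀ = 0) (hPR : P₀ ∉ AddSubgroup.zmultiples R₀)
    (hstab : ∀ σ : GQ, σ • R₀ ∈ AddSubgroup.zmultiples R₀)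
    (hcof : ∀ σ : GQ, σ • P₀ - P₀ ∈ AddSubgroup.zmultiples R₀) : p ≤ 2 * ℓ + 1 := by
  obtain ⟨P, hP⟩ := Fermat.Agent.Lib.FrobeniusExists.exists_valuationSubring_liesOverPrime ℓ hℓ
  obtain ⟨σ, hσ⟩ := Fermat.Agent.ES.FROB.FrobFacts12.exists_isFrobeniusAt_of ℓ hℓ P hP
  obtain ⟨Q, hσQ, hQ⟩ := exists_fixed_of_stable_cofixed hp
    (DistribSMul.toAddMonoidHom ((W.map (Int.castRingHom ℚ))⁄Qb).Point σ) hR hP₀ hPR
    (hstab σ) (hcof σ)
  exact le_of_frob_fixed W hℓ hp hpℓ hΔ P hP σ hσ Q hσQ hQ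

/-- A Galois-stable line of prime order `p > 2 ℓ + 1` with cofixed quotient forces bad reduction at
`ℓ`. -/
theorem dvd_disc_of_line (W : WeierstrassCurve ℤ) {ℓ p : ℕ} (hℓ : ℓ.Prime) (hp : p.Prime)
    (hlt : 2 * ℓ + 1 < p)
    (R₀ P₀ : ((W.map (Int.castRingHom ℚ))⁄Qb).Point) (hR : addOrderOf R₀ = p)
    (hP₀ : p • P₀ = 0) (hPR : P₀ ∉ AddSubgroup.zmultiples R₀)
    (hstab : ∀ σ : GQ, σ • R₀ ∈ AddSubgroup.zmultiples R₀)
    (hcof : ∀ σ : GQ, σ • P₀ - P₀ ∈ AddSubgroup.zmultiples R₀) : (ℓ : ℤ) ∣ W.Δ := by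
  by_contra hΔ
  have := le_of_stable_cofixed W hℓ hp (by omega) hΔ R₀ P₀ hR hP₀ hPR hstab hcof
  omega

/-- ... in particular bad reduction at `3` for `p > 7`. -/
theorem three_dvd_disc_of_line (W : WeierstrassCurve ℤ) {p : ℕ} (hp : p.Prime) (hlt : 7 < p)
    (R₀ P₀ : ((W.map (Int.castRingHom ℚ))⁄Qb).Point) (hR : addOrderOf R₀ = p)
    (hP₀ : p • P₀ = 0) (hPR : P₀ ∉ AddSubgroup.zmultiples R₀)
    (hstab : ∀ σ : GQ, σ • R₀ ∈ AddSubgroup.zmultiples R₀)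
    (hcof : ∀ σ : GQ, σ • P₀ - P₀ ∈ AddSubgroup.zmultiples R₀) : (3 : ℤ) ∣ W.Δ := by
  have := dvd_disc_of_line W Nat.prime_three hp (by omega) R₀ P₀ hR hP₀ hPR hstab hcof
  exact_mod_cast this

end Fermat.Agent.MAZ.S12.HasseLine61
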