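/-
Program MAZ-S12 (architect helper27, table #1855), brick K2b = ID-Qb (helper49):
descent of the identity (ID) from `ℂ` to `ℚbar` along `iotaK : ℚbar →+* ℂ`.

For an elliptic curve `E` over `ℚbar`, three distinct roots `e_a e_b e_c` of the 2-division cubic
`4X³ + b₂X² + 2b₄X + b₆` and a point `R` of exact order `p`, with
`A_i := ∏_{k=1}^{p-1} (x(k•R) - e_i)`:

  `(e_a - e_b)^p A_c² + (e_b - e_c)^p A_a² + (e_c - e_a)^p A_b² = 0`.

The complex-analytic input (K2a = ID-C) is the hypothesis `IdC p`, in the literal shape of #1855.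
-/
import Mathlib
import Fermat.Agent.MAZ.Point.ModAsm62
import Fermat.Agent.MAZ.Analytic.GlobalDefs42
import Fermat.Agent.MAZ.Analytic.UnifExists80
import Fermat.Agent.MAZ.Analytic.DeltaIdentity80

set_option autoImplicit false
set_option linter.unusedSectionVars false

open WeierstrassCurve WeierstrassCurve.Affine
open scoped PeriodPair

noncomputable section

namespace Fermat.Agent.MAZ.S12.IdQb49

open Fermat.Agent.X0 Fermat.Agent.MAZ.Spec.XSpec62 Fermat.Agent.MAZ.Point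
open Fermat.Agent.MAZ.Analytic.GlobalDefs42 Fermat.Agent.MAZ.Analytic.Unif32
open Fermat.Agent.MAZ.Analytic.DeltaIdentity80 Fermat.Agent.MAZ.Analytic.Elliptic32

/-- **(ID-C)** = brick K2a of table #1855, literal shape: for `p z0 ∈ L`, `z0 ∉ L` and three pairwise
incongruent half periods `ω_a ω_b ω_c` of `L`, with `e_i = ℘(ω_i)`, `A_i = ∏_{k=1}^{p-1} (℘(k z0) - e_i)`:
`(e_a - e_b)^p A_c² + (e_b - e_c)^p A_a² + (e_c - e_a)^p A_b² = 0`. -/
def IdC (p : ℕ) : Prop :=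
  ∀ (L : PeriodPair) (z0 ωa ωb ωc : ℂ), (p : ℂ) * z0 ∈ L.lattice → z0 ∉ L.lattice →
    IsHalf L ωa → IsHalf L ωb → IsHalf L ωc →
    ωa - ωb ∉ L.lattice → ωb - ωc ∉ L.lattice → ωc - ωa ∉ L.lattice →
    (℘[L] ωa - ℘[L] ωb) ^ p * (∏ k ∈ Finset.Ico 1 p, (℘[L] ((k : ℂ) * z0) - ℘[L] ωc)) ^ 2 +
      (℘[L] ωb - ℘[L] ωc) ^ p * (∏ k ∈ Finset.Ico 1 p, (℘[L] ((k : ℂ) * z0) - ℘[L] ωa)) ^ 2 +
      (℘[L] ωc - ℘[L] ωa) ^ p * (∏ k ∈ Finset.Ico 1 p, (℘[L] ((k : ℂ) * z0) - ℘[L] ωb)) ^ 2 = 0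

/-- A root `e` of the 2-division cubic `4X³ + b₂X² + 2b₄X + b₆` of a complex curve uniformised by `L`
is `℘(ω) - b₂/12` for a half period `ω` of `L`. -/
theorem exists_half_of_root {W : WeierstrassCurve ℂ} {L : PeriodPair} (h : IsUnif W L) {e : ℂ}
    (he : 4 * e ^ 3 + W.b₂ * e ^ 2 + 2 * W.b₄ * e + W.b₆ = 0) :
    ∃ ω, IsHalf L ω ∧ ℘[L] ω = e + W.b₂ / 12 := by
  obtain ⟨ω, hω, hval⟩ := exists_weierstrassP_eq L (e + W.b₂ / 12)
  refine ⟨ω, ⟨hω, ?_⟩, hval⟩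
  rw [← derivWeierstrassP_eq_zero_iff L hω]
  have h1 := L.derivWeierstrassP_sq ω hω
  rw [h.g₂, h.g₃, hval] at h1
  have h2 : ℘'[L] ω ^ 2 = 0 := by
    rw [h1]
    simp only [WeierstrassCurve.c₄, WeierstrassCurve.c₆]
    linear_combination he
  exact pow_eq_zero_iff (two_ne_zero) |>.mp h2

theorem xOf_bridge49 {F : Type*} [Field F] [DecidableEq F] {E : WeierstrassCurve.Affine F}
    (P : E.Point) : ModAsm62.xOf P = xOf E P := by
  rcases P with _ | ⟨x, y, h⟩ <;> rfl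

/-- **K2b = (ID-Qb)** from (ID-C). -/
theorem idQb_of_idC {p : ℕ} (hp1 : 1 < p) (hC : IdC p) (E : WeierstrassCurve.Affine Qb)
    (hΔ : E.Δ ≠ 0) (ea eb ec : Qb) (hab : ea ≠ eb) (hbc : eb ≠ ec) (hca : ec ≠ ea)
    (ha : 4 * ea ^ 3 + E.b₂ * ea ^ 2 + 2 * E.b₄ * ea + E.b₆ = 0)
    (hb : 4 * eb ^ 3 + E.b₂ * eb ^ 2 + 2 * E.b₄ * eb + E.b₆ = 0)
    (hc : 4 * ec ^ 3 + E.b₂ * ec ^ 2 + 2 * E.b₄ * ec + E.b₆ = 0)
    (R : E.Point) (hR : addOrderOf R = p) :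
    (ea - eb) ^ p * (∏ k ∈ Finset.Ico 1 p, (ModAsm62.xOf (k • R) - ec)) ^ 2 +
      (eb - ec) ^ p * (∏ k ∈ Finset.Ico 1 p, (ModAsm62.xOf (k • R) - ea)) ^ 2 +
      (ec - ea) ^ p * (∏ k ∈ Finset.Ico 1 p, (ModAsm62.xOf (k • R) - eb)) ^ 2 = 0 := by
  set W : WeierstrassCurve ℂ := E.map iotaK with hW
  have hWΔ : W.Δ ≠ 0 := by
    rw [hW, WeierstrassCurve.map_Δ]
    exact (map_ne_zero iotaK).mpr hΔ
  obtain ⟨L, hU⟩ := Fermat.Agent.MAZ.Analytic.UnifExists80.exists_isUnif W hWΔ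
  have hRc : addOrderOf (mapPt E iotaK R) = p := by rw [addOrderOf_mapPt]; exact hR
  obtain ⟨z0, hz0⟩ := pt_surjective hU (mapPt E iotaK R)
  rw [← hz0] at hRc
  have h1 : (p : ℂ) * z0 ∈ L.lattice := mul_mem_of_addOrderOf hU hRc
  have hk : ∀ k : ℕ, 0 < k → k < p → (k : ℂ) * z0 ∉ L.lattice := fun k hk0 hkp =>
    mul_notMem_of_addOrderOf hU hRc hk0 hkp
  have h0 : z0 ∉ L.lattice := by
    have := hk 1 one_pos hp1
    simpa using this
  have hb2 : iotaK E.b₂ = W.b₂ := (WeierstrassCurve.map_b₂ E iotaK).symm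
  have hb4 : iotaK E.b₄ = W.b₄ := (WeierstrassCurve.map_b₄ E iotaK).symm
  have hb6 : iotaK E.b₆ = W.b₆ := (WeierstrassCurve.map_b₆ E iotaK).symm
  -- the half periods
  have hroot : ∀ e : Qb, 4 * e ^ 3 + E.b₂ * e ^ 2 + 2 * E.b₄ * e + E.b₆ = 0 →
      ∃ ω, IsHalf L ω ∧ ℘[L] ω = iotaK e + W.b₂ / 12 := by
    intro e he
    apply exists_half_of_root hU
    have := congrArg iotaK he
    simp only [map_add, map_mul, map_pow, map_ofNat, map_zero] at this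
    rw [hb2, hb4, hb6] at this
    exact this
  obtain ⟨ωa, hωa, hva⟩ := hroot ea ha
  obtain ⟨ωb, hωb, hvb⟩ := hroot eb hb
  obtain ⟨ωc, hωc, hvc⟩ := hroot ec hc
  have hinc : ∀ {ω η : ℂ} {e f : Qb}, ℘[L] ω = iotaK e + W.b₂ / 12 →
      ℘[L] η = iotaK f + W.b₂ / 12 → e ≠ f → ω - η ∉ L.lattice := by
    intro ω η e f h1 h2 hne hmem
    have := weierstrassP_eq_of_sub_mem L hmem
    rw [h1, h2] at this
    exact hne (iotaK.injective (by linear_combination this))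
  -- coordinates of the multiples of `R`
  have hcoord : ∀ k ∈ Finset.Ico 1 p,
      ℘[L] ((k : ℂ) * z0) = iotaK (ModAsm62.xOf (k • R)) + W.b₂ / 12 := by
    intro k hkI
    have hkR : k • R ≠ 0 := by
      intro h0'
      rw [Finset.mem_Ico] at hkI
      have := addOrderOf_dvd_of_nsmul_eq_zero h0'
      rw [hR] at this
      exact absurd (Nat.le_of_dvd (by omega) this) (by omega)
    obtain ⟨hns, hsome⟩ := exists_eq_some E (k • R) hkR
    have e : pt hU ((k : ℂ) * z0) = mapPt E iotaK (k • R) := by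
      rw [← nsmul_pt, hz0, mapPt_nsmul]
    rw [hsome, mapPt_some] at e
    obtain ⟨-, hx, -⟩ := coords_of_pt_eq_some hU e
    rw [xOf_bridge49, hx]
    ring
  have key := hC L z0 ωa ωb ωc h1 h0 hωa hωb hωc (hinc hva hvb hab) (hinc hvb hvc hbc)
    (hinc hvc hva hca)
  rw [hva, hvb, hvc] at key
  have hprod : ∀ e : Qb, ∏ k ∈ Finset.Ico 1 p, (℘[L] ((k : ℂ) * z0) - (iotaK e + W.b₂ / 12)) =
      iotaK (∏ k ∈ Finset.Ico 1 p, (ModAsm62.xOf (k • R) - e)) := by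
    intro e
    rw [map_prod]
    refine Finset.prod_congr rfl fun k hkI => ?_
    rw [hcoord k hkI, map_sub]
    ring
  rw [hprod, hprod, hprod] at key
  apply iotaK.injective
  simp only [map_add, map_mul, map_pow, map_sub, map_zero]
  have e1 : iotaK ea + W.b₂ / 12 - (iotaK eb + W.b₂ / 12) = iotaK ea - iotaK eb := by ring
  have e2 : iotaK eb + W.b₂ / 12 - (iotaK ec + W.b₂ / 12) = iotaK eb - iotaK ec := by ring
  have e3 : iotaK ec + W.b₂ / 12 - (iotaK ea + W.b₂ / 12) = iotaK ec - iotaK ea := by ring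
  rw [e1, e2, e3] at key
  exact key

end Fermat.Agent.MAZ.S12.IdQb49
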