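/-
Program MAZ-S12 (architect helper27, table #1855), brick K2 = (ID-Qb), UNCONDITIONAL (helper49):
`IdQb49.idQb_of_idC` (K2b) plugged with helper80's `IdC80.id_C` (K2a).
-/
import Fermat.Agent.MAZ.S12.IdQb49
import Fermat.Agent.MAZ.S12.IdC80

set_option autoImplicit false

open WeierstrassCurve WeierstrassCurve.Affine
open scoped PeriodPair

noncomputable section

namespace Fermat.Agent.MAZ.S12.IdQbFinal49

open Fermat.Agent.X0 Fermat.Agent.MAZ.Spec.XSpec62 Fermat.Agent.MAZ.Point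
open Fermat.Agent.MAZ.S12.IdQb49

/-- (ID-C) in the shape `IdQb49.IdC p`, from helper80's `IdC80.id_C`. -/
theorem idC {p : ℕ} (hp : p.Prime) (hp2 : p ≠ 2) : IdC p := by
  intro L z0 ωa ωb ωc h1 h0 ha hb hc hab hbc hca
  refine Fermat.Agent.MAZ.S12.IdC80.id_C L hp hp2 z0 h1 h0 ωa ωb ωc ha.1 ha.2 hb.1 hb.2 hc.1 hc.2
    hab ?_ hbc
  intro h
  apply hca
  have := L.lattice.neg_mem h
  simpa using this

/-- **K2 = (ID-Qb), unconditional.** `E` an elliptic curve over `ℚbar`, `e_a e_b e_c` the three roots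
of the 2-division cubic `4X³ + b₂X² + 2b₄X + b₆`, `R` a point of odd prime order `p`:
`(e_a - e_b)^p A_c² + (e_b - e_c)^p A_a² + (e_c - e_a)^p A_b² = 0`, `A_i = ∏_{k=1}^{p-1} (x(k•R) - e_i)`. -/
theorem idQb {p : ℕ} (hp : p.Prime) (hp2 : p ≠ 2) (E : WeierstrassCurve.Affine Qb)
    (hΔ : E.Δ ≠ 0) (ea eb ec : Qb) (hab : ea ≠ eb) (hbc : eb ≠ ec) (hca : ec ≠ ea)
    (ha : 4 * ea ^ 3 + E.b₂ * ea ^ 2 + 2 * E.b₄ * ea + E.b₆ = 0)
    (hb : 4 * eb ^ 3 + E.b₂ * eb ^ 2 + 2 * E.b₄ * eb + E.b₆ = 0)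
    (hc : 4 * ec ^ 3 + E.b₂ * ec ^ 2 + 2 * E.b₄ * ec + E.b₆ = 0)
    (R : E.Point) (hR : addOrderOf R = p) :
    (ea - eb) ^ p * (∏ k ∈ Finset.Ico 1 p, (ModAsm62.xOf (k • R) - ec)) ^ 2 +
      (eb - ec) ^ p * (∏ k ∈ Finset.Ico 1 p, (ModAsm62.xOf (k • R) - ea)) ^ 2 +
      (ec - ea) ^ p * (∏ k ∈ Finset.Ico 1 p, (ModAsm62.xOf (k • R) - eb)) ^ 2 = 0 :=
  idQb_of_idC hp.one_lt (idC hp hp2) E hΔ ea eb ec hab hbc hca ha hb hc R hR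

end Fermat.Agent.MAZ.S12.IdQbFinal49
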