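import Fermat.Agent.MAZ.S12.VeluDelta32
import Fermat.Agent.S05.TransportQ

set_option autoImplicit false

namespace Fermat.Agent.MAZ.S12.IntModel32

open Fermat.Agent.MAZ.Analytic.QuotIsog32 Fermat.Agent.MAZ.Analytic.GlobalDefs42
open Fermat.Agent.MAZ.S12.VeluQb32 Fermat.Agent.S05.Transport Fermat.Agent.S05.TransportQ
open WeierstrassCurve WeierstrassCurve.Affine

/-! ### Transport of points along an equality of curves -/

section congr

variable {F : Type*} [Field F] [DecidableEq F] {W₁ W₂ : WeierstrassCurve F}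

/-- Points of equal curves. -/
def pointCongr (h : W₁ = W₂) : W₁.toAffine.Point ≃+ W₂.toAffine.Point :=
  h ▸ AddEquiv.refl _

@[simp] theorem pointCongr_zero (h : W₁ = W₂) : pointCongr h (0 : W₁.toAffine.Point) = 0 := by
  subst h; rfl

theorem pointCongr_some (h : W₁ = W₂) {x y : F} (hxy : W₁.toAffine.Nonsingular x y) :
    pointCongr h (Affine.Point.some x y hxy) = Affine.Point.some x y (h ▸ hxy) := by
  subst h; rfl

theorem xOf_pointCongr (h : W₁ = W₂) (P : W₁.toAffine.Point) :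
    xOf W₂.toAffine (pointCongr h P) = xOf W₁.toAffine P := by
  subst h; rfl

theorem yOf_pointCongr (h : W₁ = W₂) (P : W₁.toAffine.Point) :
    yOf W₂.toAffine (pointCongr h P) = yOf W₁.toAffine P := by
  subst h; rfl

end congr

/-! ### Clearing the `p`-power denominators -/

/-- A rational number whose denominator is divisible by no prime `ℓ ≠ p` becomes an integer after
multiplication by a power of `p`. -/
theorem exists_pow_mul_eq_int {p : ℕ} (t : ℚ)
    (ht : ∀ ℓ : ℕ, ℓ.Prime → ℓ ≠ p → ¬ ℓ ∣ t.den) : ∃ k : ℕ, ∃ m : ℤ, (p : ℚ) ^ k * t = m := by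
  have hden : t.den = p ^ t.den.primeFactorsList.length := by
    apply Nat.eq_prime_pow_of_unique_prime_dvd t.den_ne_zero
    intro d hd hdt
    by_contra hne
    exact ht d hd hne hdt
  obtain ⟨k, hk⟩ : ∃ k : ℕ, t.den = p ^ k := ⟨_, hden⟩
  refine ⟨k, t.num, ?_⟩
  have h1 : (t.den : ℚ) * t = t.num := by
    have := Rat.mul_den_eq_num t
    rw [mul_comm]; exact this
  rw [← h1, hk]
  push_cast
  rfl

/-- Two rationals: a common power of `p`. -/
theorem exists_pow_mul_eq_int₂ {p : ℕ} (t w : ℚ)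
    (ht : ∀ ℓ : ℕ, ℓ.Prime → ℓ ≠ p → ¬ ℓ ∣ t.den) (hw : ∀ ℓ : ℕ, ℓ.Prime → ℓ ≠ p → ¬ ℓ ∣ w.den) :
    ∃ k : ℕ, ∃ mt mw : ℤ, (p : ℚ) ^ k * t = mt ∧ (p : ℚ) ^ k * w = mw := by
  obtain ⟨k₁, m₁, h₁⟩ := exists_pow_mul_eq_int t ht
  obtain ⟨k₂, m₂, h₂⟩ := exists_pow_mul_eq_int w hw
  refine ⟨k₁ + k₂, (p : ℤ) ^ k₂ * m₁, (p : ℤ) ^ k₁ * m₂, ?_, ?_⟩
  · push_cast; rw [← h₁]; ring
  · push_cast; rw [← h₂]; ring


/-! ### The scaled integral model -/

/-- The scaling `(x, y) ↦ (u⁻² x, u⁻³ y)` as a change of variables over `ℚ`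
(so that `scaleVC u hu • W` has coefficients `u^i aᵢ`). -/
def scaleVC (u : ℚ) (hu : u ≠ 0) : VariableChange ℚ := ⟨(Units.mk0 u hu)⁻¹, 0, 0, 0⟩

/-- The integral model of Vélu's curve scaled by `u`:
coefficients `u a₁, u² a₂, u³ a₃, u⁴ (a₄ - 5t), u⁶ (a₆ - b₂ t - 7 w)` with `u t = mt`, `u w = mw`. -/
def intModel (W : WeierstrassCurve ℤ) (u mt mw : ℤ) : WeierstrassCurve ℤ :=
  ⟨u * W.a₁, u ^ 2 * W.a₂, u ^ 3 * W.a₃, u ^ 4 * W.a₄ - 5 * u ^ 3 * mt,
    u ^ 6 * W.a₆ - u ^ 5 * W.b₂ * mt - 7 * u ^ 5 * mw⟩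

theorem intModel_map_eq (W : WeierstrassCurve ℤ) {u mt mw : ℤ} {t w : ℚ} (hu : (u : ℚ) ≠ 0)
    (ht : (u : ℚ) * t = mt) (hw : (u : ℚ) * w = mw) :
    (intModel W u mt mw).map (Int.castRingHom ℚ) =
      scaleVC u hu • veluCurve (W.map (Int.castRingHom ℚ)) t w := by
  ext
  · simp only [intModel, scaleVC, WeierstrassCurve.map, variableChange_a₁, veluCurve_a₁,
      inv_inv, Units.val_mk0]
    simp only [eq_intCast]; push_cast; ring
  · simp only [intModel, scaleVC, WeierstrassCurve.map, variableChange_a₂, veluCurve_a₁,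
      veluCurve_a₂, inv_inv, Units.val_mk0]
    simp only [eq_intCast]; push_cast; ring
  · simp only [intModel, scaleVC, WeierstrassCurve.map, variableChange_a₃, veluCurve_a₁,
      veluCurve_a₃, inv_inv, Units.val_mk0]
    simp only [eq_intCast]; push_cast; ring
  · simp only [intModel, scaleVC, WeierstrassCurve.map, variableChange_a₄, veluCurve_a₁,
      veluCurve_a₂, veluCurve_a₃, veluCurve_a₄, inv_inv, Units.val_mk0]
    simp only [eq_intCast]
    push_cast
    rw [← ht]; ring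
  · simp only [intModel, scaleVC, WeierstrassCurve.map, variableChange_a₆, veluCurve_a₁,
      veluCurve_a₂, veluCurve_a₃, veluCurve_a₄, veluCurve_a₆, inv_inv, Units.val_mk0,
      WeierstrassCurve.b₂]
    simp only [eq_intCast]
    push_cast
    rw [← ht, ← hw]; ring


theorem scaleVC_u_inv (u : ℚ) (hu : u ≠ 0) : (((scaleVC u hu).u⁻¹ : ℚˣ) : ℚ) = u := by
  simp [scaleVC]

theorem intModel_Δ (W : WeierstrassCurve ℤ) {u mt mw : ℤ} {t w : ℚ} (hu : (u : ℚ) ≠ 0)
    (ht : (u : ℚ) * t = mt) (hw : (u : ℚ) * w = mw) :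
    (((intModel W u mt mw).Δ : ℤ) : ℚ) =
      (u : ℚ) ^ 12 * (veluCurve (W.map (Int.castRingHom ℚ)) t w).Δ := by
  have h := congrArg WeierstrassCurve.Δ (intModel_map_eq W hu ht hw)
  rw [WeierstrassCurve.map_Δ, variableChange_Δ, scaleVC_u_inv] at h
  simpa using h

theorem intModel_c₄ (W : WeierstrassCurve ℤ) {u mt mw : ℤ} {t w : ℚ} (hu : (u : ℚ) ≠ 0)
    (ht : (u : ℚ) * t = mt) (hw : (u : ℚ) * w = mw) :
    (((intModel W u mt mw).c₄ : ℤ) : ℚ) =
      (u : ℚ) ^ 4 * (veluCurve (W.map (Int.castRingHom ℚ)) t w).c₄ := by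
  have h := congrArg WeierstrassCurve.c₄ (intModel_map_eq W hu ht hw)
  rw [WeierstrassCurve.map_c₄, variableChange_c₄, scaleVC_u_inv] at h
  simpa using h

/-! ### Points of the integral model -/

section points

variable {K : Type*} [Field K] [DecidableEq K] [Algebra ℚ K]

/-- The additive bijection between the points of the scaled integral model and the points of
Vélu's curve, `(x, y) ↦ (u⁻² x, u⁻³ y)`. -/
noncomputable def intPointEquiv (W : WeierstrassCurve ℤ) {u mt mw : ℤ} {t w : ℚ}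
    (hu : (u : ℚ) ≠ 0) (ht : (u : ℚ) * t = mt) (hw : (u : ℚ) * w = mw) :
    (((intModel W u mt mw).map (Int.castRingHom ℚ))⁄K).Point ≃+
      ((veluCurve (W.map (Int.castRingHom ℚ)) t w)⁄K).Point :=
  pointEquivBC K (intModel_map_eq W hu ht hw)

theorem intPointEquiv_smul (W : WeierstrassCurve ℤ) {u mt mw : ℤ} {t w : ℚ}
    (hu : (u : ℚ) ≠ 0) (ht : (u : ℚ) * t = mt) (hw : (u : ℚ) * w = mw) (σ : K ≃ₐ[ℚ] K)
    (P : (((intModel W u mt mw).map (Int.castRingHom ℚ))⁄K).Point) :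
    intPointEquiv (K := K) W hu ht hw (σ • P) = σ • intPointEquiv (K := K) W hu ht hw P :=
  pointEquivBC_map (intModel_map_eq W hu ht hw) σ.toAlgHom P

theorem intPointEquiv_symm_smul (W : WeierstrassCurve ℤ) {u mt mw : ℤ} {t w : ℚ}
    (hu : (u : ℚ) ≠ 0) (ht : (u : ℚ) * t = mt) (hw : (u : ℚ) * w = mw) (σ : K ≃ₐ[ℚ] K)
    (Q : ((veluCurve (W.map (Int.castRingHom ℚ)) t w)⁄K).Point) :
    (intPointEquiv (K := K) W hu ht hw).symm (σ • Q) =
      σ • (intPointEquiv (K := K) W hu ht hw).symm Q := by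
  apply (intPointEquiv (K := K) W hu ht hw).injective
  rw [intPointEquiv_smul, AddEquiv.apply_symm_apply, AddEquiv.apply_symm_apply]

theorem addOrderOf_intPointEquiv_symm (W : WeierstrassCurve ℤ) {u mt mw : ℤ} {t w : ℚ}
    (hu : (u : ℚ) ≠ 0) (ht : (u : ℚ) * t = mt) (hw : (u : ℚ) * w = mw)
    (Q : ((veluCurve (W.map (Int.castRingHom ℚ)) t w)⁄K).Point) :
    addOrderOf ((intPointEquiv (K := K) W hu ht hw).symm Q) = addOrderOf Q :=
  (intPointEquiv (K := K) W hu ht hw).symm.addOrderOf_eq Q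


omit [DecidableEq K] in
theorem vcX_scaleVC (u : ℤ) (hu : (u : ℚ) ≠ 0) (x : K) :
    vcX ((scaleVC u hu).baseChange K) x = ((u : K))⁻¹ ^ 2 * x := by
  simp [vcX, scaleVC, VariableChange.baseChange, VariableChange.map]

omit [DecidableEq K] in
theorem vcY_scaleVC (u : ℤ) (hu : (u : ℚ) ≠ 0) (x y : K) :
    vcY ((scaleVC u hu).baseChange K) x y = ((u : K))⁻¹ ^ 3 * y := by
  simp [vcY, scaleVC, VariableChange.baseChange, VariableChange.map]

theorem intPointEquiv_some (W : WeierstrassCurve ℤ) {u mt mw : ℤ} {t w : ℚ}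
    (hu : (u : ℚ) ≠ 0) (ht : (u : ℚ) * t = mt) (hw : (u : ℚ) * w = mw) {x y : K}
    (hxy : (((intModel W u mt mw).map (Int.castRingHom ℚ))⁄K).Nonsingular x y) :
    ∃ h' : ((veluCurve (W.map (Int.castRingHom ℚ)) t w)⁄K).Nonsingular
        (((u : K))⁻¹ ^ 2 * x) (((u : K))⁻¹ ^ 3 * y),
      intPointEquiv (K := K) W hu ht hw (Point.some x y hxy) = Point.some _ _ h' := by
  have h1 := (nonsingular_iff_vc (baseChange_eq K (intModel_map_eq W hu ht hw)) x y).mpr hxy
  have e : intPointEquiv (K := K) W hu ht hw (Point.some x y hxy) = Point.some _ _ h1 := rfl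
  rw [e]
  have ex := vcX_scaleVC (K := K) u hu x
  have ey := vcY_scaleVC (K := K) u hu x y
  rw [ex, ey] at h1
  refine ⟨h1, ?_⟩
  congr 1

theorem intPointEquiv_symm_some [CharZero K] (W : WeierstrassCurve ℤ) {u mt mw : ℤ} {t w : ℚ}
    (hu : (u : ℚ) ≠ 0) (ht : (u : ℚ) * t = mt) (hw : (u : ℚ) * w = mw) {X Y : K}
    (hXY : ((veluCurve (W.map (Int.castRingHom ℚ)) t w)⁄K).Nonsingular X Y) :
    ∃ h' : (((intModel W u mt mw).map (Int.castRingHom ℚ))⁄K).Nonsingular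
        ((u : K) ^ 2 * X) ((u : K) ^ 3 * Y),
      (intPointEquiv (K := K) W hu ht hw).symm (Point.some X Y hXY) = Point.some _ _ h' := by
  have huK : (u : K) ≠ 0 := by
    have : u ≠ 0 := by rintro rfl; simp at hu
    exact_mod_cast this
  have ex : vcX ((scaleVC u hu).baseChange K) ((u : K) ^ 2 * X) = X := by
    rw [vcX_scaleVC]; field_simp
  have ey : vcY ((scaleVC u hu).baseChange K) ((u : K) ^ 2 * X) ((u : K) ^ 3 * Y) = Y := by
    rw [vcY_scaleVC]; field_simp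
  have h' : (((intModel W u mt mw).map (Int.castRingHom ℚ))⁄K).Nonsingular
      ((u : K) ^ 2 * X) ((u : K) ^ 3 * Y) := by
    rw [← nonsingular_iff_vc (baseChange_eq K (intModel_map_eq W hu ht hw)), ex, ey]
    exact hXY
  refine ⟨h', ?_⟩
  rw [AddEquiv.symm_apply_eq]
  have e : intPointEquiv (K := K) W hu ht hw (Point.some _ _ h') = Point.some _ _
      ((nonsingular_iff_vc (baseChange_eq K (intModel_map_eq W hu ht hw)) _ _).mpr h') := rfl
  rw [e]
  congr 1
  · exact ex.symm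
  · exact ey.symm


/-- Vélu's curve over `ℚ` base-changed to `K` is the quotient curve of `VeluQb32`. -/
theorem baseChange_veluCurve_eq_quotCurve (V : WeierstrassCurve ℚ) {p : ℕ} (R₀ : (V⁄K).Point)
    {t w : ℚ} (ht : algebraMap ℚ K t = veluT (V⁄K) p R₀)
    (hw : algebraMap ℚ K w = veluW (V⁄K) p R₀) :
    (veluCurve V t w)⁄K = quotCurve (V⁄K) p R₀ := by
  show (veluCurve V t w).map (algebraMap ℚ K) = _
  rw [map_veluCurve, ht, hw]
  rfl

/-- A point with Galois-fixed coordinates is Galois-fixed. -/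
theorem smul_some_of_fixed (V : WeierstrassCurve ℚ) (σ : K ≃ₐ[ℚ] K) {x y : K}
    (hxy : (V⁄K).Nonsingular x y) (hx : σ x = x) (hy : σ y = y) :
    σ • (Point.some x y hxy : (V⁄K).Point) = Point.some x y hxy := by
  rw [Point.algEquiv_smul_def, Point.map_some]
  congr 1

omit [DecidableEq K] in
theorem intModel_Δ_cast [CharZero K] (W : WeierstrassCurve ℤ) {u mt mw : ℤ} {t w : ℚ}
    (hu : (u : ℚ) ≠ 0) (ht : (u : ℚ) * t = mt) (hw : (u : ℚ) * w = mw) :
    (((intModel W u mt mw).Δ : ℤ) : K) =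
      (u : K) ^ 12 * ((veluCurve (W.map (Int.castRingHom ℚ)) t w)⁄K).Δ := by
  have h := congrArg (algebraMap ℚ K) (intModel_Δ W hu ht hw)
  rw [map_mul, map_pow] at h
  simp only [eq_ratCast, Rat.cast_intCast] at h
  rw [h]
  congr 1
  show _ = ((veluCurve (W.map (Int.castRingHom ℚ)) t w).map (algebraMap ℚ K)).Δ
  rw [WeierstrassCurve.map_Δ]
  simp

omit [DecidableEq K] in
theorem intModel_c₄_cast [CharZero K] (W : WeierstrassCurve ℤ) {u mt mw : ℤ} {t w : ℚ}
    (hu : (u : ℚ) ≠ 0) (ht : (u : ℚ) * t = mt) (hw : (u : ℚ) * w = mw) :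
    (((intModel W u mt mw).c₄ : ℤ) : K) =
      (u : K) ^ 4 * ((veluCurve (W.map (Int.castRingHom ℚ)) t w)⁄K).c₄ := by
  have h := congrArg (algebraMap ℚ K) (intModel_c₄ W hu ht hw)
  rw [map_mul, map_pow] at h
  simp only [eq_ratCast, Rat.cast_intCast] at h
  rw [h]
  congr 1
  show _ = ((veluCurve (W.map (Int.castRingHom ℚ)) t w).map (algebraMap ℚ K)).c₄
  rw [WeierstrassCurve.map_c₄]
  simp

end points

end Fermat.Agent.MAZ.S12.IntModel32
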