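/-
Programme MAZ, sub-programme MAZ-S12 (S12 from S15), brick K0 (helper57): THE LINE.

A Galois-stable cofixed line of the `p`-torsion of the Frey curve, in terms of two points:
a generator `R₀` of the line (of exact order `p`, `σ • R₀ ∈ ⟨R₀⟩`) and a point `P₀` of `E[p]`
outside the line (`σ • P₀ - P₀ ∈ ⟨R₀⟩`).  Stated for `P.freyCurve⁄ℚ̄` and for
`(P.freyCurveInt.map (Int.castRingHom ℚ))⁄ℚ̄` (the shape of the frozen S15).
-/
import Fermat.Agent.S13.FreyTorsion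
import Fermat.Agent.Frey.IntModel

set_option autoImplicit false
set_option linter.style.haveILetI false

open WeierstrassCurve WeierstrassCurve.Affine WeierstrassCurve.Affine.Point

namespace Fermat.Agent.MAZ.S12.Line57

local notation "Qb" => AlgebraicClosure ℚ

/-- The scalar action of `ZMod p` on a `ZMod p`-module is the `ℕ`-action of the value. -/
theorem zmod_smul_eq_val_nsmul {p : ℕ} [NeZero p] {M : Type*} [AddCommGroup M] [Module (ZMod p) M]
    (c : ZMod p) (x : M) : c • x = c.val • x := by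
  conv_lhs => rw [← ZMod.natCast_zmod_val c]
  exact Nat.cast_smul_eq_nsmul (ZMod p) c.val x

/-- **K0 for a curve equal to the Frey curve.** -/
theorem exists_points_of_eq (P : FreyPackage) (W : WeierstrassCurve ℚ) (hW : W = P.freyCurve)
    (h : HasGaloisStableCofixedLine (K := Qb) ℚ W P.p) :
    ∃ R₀ P₀ : (W⁄Qb).Point, addOrderOf R₀ = P.p ∧ P.p • P₀ = 0 ∧
      P₀ ∉ AddSubgroup.zmultiples R₀ ∧
      (∀ σ : Qb ≃ₐ[ℚ] Qb, σ • R₀ ∈ AddSubgroup.zmultiples R₀) ∧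
      (∀ σ : Qb ≃ₐ[ℚ] Qb, σ • P₀ - P₀ ∈ AddSubgroup.zmultiples R₀) := by
  subst hW
  haveI : Fact P.p.Prime := ⟨P.pp⟩
  haveI : NeZero P.p := ⟨P.pp.ne_zero⟩
  haveI := Fermat.Agent.S13.FreyTorsion.finite_torsion P
  obtain ⟨N, hstab, hbot, htop, hcof⟩ := h
  obtain ⟨hN1, -⟩ := Fermat.Agent.DivPoly.Count.finrank_eq_of_proper
    (Fermat.Agent.S13.FreyTorsion.finrank_torsion_le_two P) N hbot htop
  -- a generator of the line
  obtain ⟨r₀, hr₀N, hr₀⟩ := (Submodule.ne_bot_iff N).mp hbot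
  have hgen : ∀ x ∈ N, ∃ c : ZMod P.p, c • r₀ = x := by
    intro x hx
    have hnz : (⟨r₀, hr₀N⟩ : N) ≠ 0 := fun h0 => hr₀ (congrArg Subtype.val h0)
    obtain ⟨c, hc⟩ := (finrank_eq_one_iff_of_nonzero' (⟨r₀, hr₀N⟩ : N) hnz).mp hN1 ⟨x, hx⟩
    exact ⟨c, congrArg Subtype.val hc⟩
  -- a point outside the line
  obtain ⟨p₀, hp₀⟩ : ∃ p₀, p₀ ∉ N := by
    by_contra hall
    push Not at hall
    exact htop (eq_top_iff.mpr fun x _ => hall x)
  -- multiples of `r₀` as integer multiples of the underlying point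
  have hmul : ∀ x ∈ N, (x : (P.freyCurve⁄Qb).Point) ∈
      AddSubgroup.zmultiples (r₀ : (P.freyCurve⁄Qb).Point) := by
    intro x hx
    obtain ⟨c, hc⟩ := hgen x hx
    rw [← hc, zmod_smul_eq_val_nsmul]
    refine AddSubgroup.mem_zmultiples_iff.mpr ⟨(c.val : ℤ), ?_⟩
    rw [natCast_zsmul]
    rfl
  refine ⟨(r₀ : (P.freyCurve⁄Qb).Point), (p₀ : (P.freyCurve⁄Qb).Point), ?_, ?_, ?_, ?_, ?_⟩
  · -- exact order `p`
    refine addOrderOf_eq_prime ?_ ?_
    · have := r₀.2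
      rw [Submodule.mem_torsionBy_iff] at this
      rwa [Nat.cast_smul_eq_nsmul] at this
    · exact fun h0 => hr₀ (Subtype.ext h0)
  · have := p₀.2
    rw [Submodule.mem_torsionBy_iff] at this
    rwa [Nat.cast_smul_eq_nsmul] at this
  · -- `P₀` is outside the line
    intro hmem
    obtain ⟨k, hk⟩ := AddSubgroup.mem_zmultiples_iff.mp hmem
    apply hp₀
    have : p₀ = k • r₀ := Subtype.ext (by rw [← hk]; rfl)
    rw [this]
    exact N.toAddSubgroup.zsmul_mem hr₀N k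
  · intro σ
    exact hmul (σ • r₀) (hstab σ r₀ hr₀N)
  · intro σ
    exact hmul (σ • p₀ - p₀) (hcof σ p₀)

/-- **K0, for the Frey curve of the Prelude.** -/
theorem exists_points (P : FreyPackage)
    (h : HasGaloisStableCofixedLine (K := Qb) ℚ P.freyCurve P.p) :
    ∃ R₀ P₀ : (P.freyCurve⁄Qb).Point, addOrderOf R₀ = P.p ∧ P.p • P₀ = 0 ∧
      P₀ ∉ AddSubgroup.zmultiples R₀ ∧
      (∀ σ : Qb ≃ₐ[ℚ] Qb, σ • R₀ ∈ AddSubgroup.zmultiples R₀) ∧
      (∀ σ : Qb ≃ₐ[ℚ] Qb, σ • P₀ - P₀ ∈ AddSubgroup.zmultiples R₀) :=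
  exists_points_of_eq P P.freyCurve rfl h

/-- **K0, in the shape of the frozen S15**: points of the base change of the integral Frey model. -/
theorem exists_points_int (P : FreyPackage)
    (h : HasGaloisStableCofixedLine (K := Qb) ℚ P.freyCurve P.p) :
    ∃ R₀ P₀ : ((P.freyCurveInt.map (Int.castRingHom ℚ))⁄Qb).Point,
      addOrderOf R₀ = P.p ∧ P.p • P₀ = 0 ∧ P₀ ∉ AddSubgroup.zmultiples R₀ ∧
      (∀ σ : Qb ≃ₐ[ℚ] Qb, σ • R₀ ∈ AddSubgroup.zmultiples R₀) ∧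
      (∀ σ : Qb ≃ₐ[ℚ] Qb, σ • P₀ - P₀ ∈ AddSubgroup.zmultiples R₀) :=
  exists_points_of_eq P _ (Fermat.Agent.Frey.IntModel.map_freyCurveInt P)
    (by rw [Fermat.Agent.Frey.IntModel.map_freyCurveInt P]; exact h)

end Fermat.Agent.MAZ.S12.Line57
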