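/-
Program MAZ-S12, route MIRROR (helper76): the point of `X₀(p)` attached to a Galois-STABLE cyclic
subgroup, and the mirror image of the endgame of S15.

`W` an integral Weierstrass curve, `R` a point of prime order `p` of `E(ℚbar)` whose subgroup
`N = ⟨R⟩` is stable under `Gal(ℚbar/ℚ)` (`R` itself need not be rational).  The point
`x_N = (j(E), j(E/N))` of `X₀(p)` is Galois-fixed and lies, at a multiplicative prime `q ≠ p`, in the
tube of `∞` when `N` meets the zero component (`N` is the toric line) and in the tube of `0` otherwise.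
The endgame of `MAZ/Spec/TopInj62` with the two cusps exchanged then says:

  if `N` is the toric line at `2` and at `3`, then `N` is the toric line at every multiplicative
  prime `ℓ ≠ p` with `ℓ ∤ p - 1`.

* `velJ_mem_ratField_of_stable` : `velJ p R ∈ ℚ` as soon as `⟨R⟩` is Galois-stable;
* `xModCore` : the assembly of `ModAsm62.xMod_of_contracts` with the rationality of `R` replaced by
  the rationality of `velJ p R` (the only place where rationality was used);
* `XModN`, `xModN_of_contracts` : the moduli link for Galois-stable subgroups;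
* `mirror_endgame` : a Galois-fixed place in the tube of `∞` at `2` and at `3` is not in the tube of
  `0` at any `ℓ ≠ p`, `ℓ ∤ p - 1`;
* `inZero_of_contracts` : the conclusion above, in the vocabulary of S15.

No quotient curve is used.
-/
import Mathlib
import Fermat.Agent.MAZ.Spec.TopInj62
import Fermat.Agent.MAZ.Local.ModLocNode28

set_option autoImplicit false
set_option linter.unusedSectionVars false
set_option linter.style.haveILetI false

open AlgebraicCurve ModularCurve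
open WeierstrassCurve WeierstrassCurve.Affine

noncomputable section

namespace Fermat.Agent.MAZ.S12.MirrorTop76

open Fermat.Agent.X0 Fermat.Agent.MAZ.Spec.XSpec62 Fermat.Agent.MAZ.Spec.TopInj62
open Fermat.Agent.MAZ.Point.ModAsm62 Fermat.Agent.MAZ.Local.ModLocNode28
open Fermat.Agent.MAZ.Local.ZeroTors28

/-! ### 1. The nonzero elements of a cyclic group of order `p` -/

section Cyclic

variable {G : Type*} [AddGroup G] [DecidableEq G]

/-- The nonzero multiples `k • Q`, `1 ≤ k < p`. -/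
def multiples (p : ℕ) (Q : G) : Finset G := (Finset.Ico 1 p).image (fun k : ℕ => k • Q)

theorem injOn_multiples {p : ℕ} {Q : G} (hQ : addOrderOf Q = p) :
    Set.InjOn (fun k : ℕ => k • Q) (Finset.Ico 1 p : Finset ℕ) := by
  intro a ha b hb hab
  simp only [Finset.coe_Ico, Set.mem_Ico] at ha hb
  have := nsmul_injOn_Iio_addOrderOf (x := Q)
  rw [hQ] at this
  exact this (by simpa using ha.2) (by simpa using hb.2) hab

theorem sum_multiples {M : Type*} [AddCommMonoid M] {p : ℕ} {Q : G} (hQ : addOrderOf Q = p)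
    (f : G → M) : ∑ P ∈ multiples p Q, f P = ∑ k ∈ Finset.Ico 1 p, f (k • Q) := by
  unfold multiples
  rw [Finset.sum_image (injOn_multiples hQ)]

theorem prod_multiples {M : Type*} [CommMonoid M] {p : ℕ} {Q : G} (hQ : addOrderOf Q = p)
    (f : G → M) : ∏ P ∈ multiples p Q, f P = ∏ k ∈ Finset.Ico 1 p, f (k • Q) := by
  unfold multiples
  rw [Finset.prod_image (injOn_multiples hQ)]

theorem mem_multiples_iff {p : ℕ} (hp : 0 < p) {Q : G} (hQ : addOrderOf Q = p) (P : G) :
    P ∈ multiples p Q ↔ P ∈ AddSubgroup.zmultiples Q ∧ P ≠ 0 := by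
  unfold multiples
  rw [Finset.mem_image]
  constructor
  · rintro ⟨k, hk, rfl⟩
    rw [Finset.mem_Ico] at hk
    refine ⟨AddSubgroup.nsmul_mem_zmultiples Q k, fun h0 => ?_⟩
    have := addOrderOf_dvd_of_nsmul_eq_zero h0
    rw [hQ] at this
    exact absurd (Nat.le_of_dvd (by omega) this) (by omega)
  · rintro ⟨⟨n, rfl⟩, h0⟩
    have h1 : (n % (p : ℤ)) • Q = n • Q := by
      have := mod_addOrderOf_zsmul Q n
      rwa [hQ] at this
    have hp' : (0 : ℤ) < p := by exact_mod_cast hp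
    have h2 : 0 ≤ n % (p : ℤ) := Int.emod_nonneg _ hp'.ne'
    have h3 : n % (p : ℤ) < p := Int.emod_lt_of_pos _ hp'
    refine ⟨(n % (p : ℤ)).toNat, ?_, ?_⟩
    · rw [Finset.mem_Ico]
      refine ⟨?_, by omega⟩
      by_contra hlt
      have h4 : (n % (p : ℤ)).toNat = 0 := by omega
      have h5 : n % (p : ℤ) = 0 := by omega
      rw [h5, zero_smul] at h1
      exact h0 h1.symm
    · show (n % (p : ℤ)).toNat • Q = n • Q
      rw [← h1, ← natCast_zsmul, Int.toNat_of_nonneg h2]

/-- An injective endomorphism preserving `⟨Q⟩` permutes the nonzero multiples of `Q`. -/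
theorem image_multiples {p : ℕ} (hp : 0 < p) {Q : G} (hQ : addOrderOf Q = p) (g : G →+ G)
    (hg : Function.Injective g) (hstab : g Q ∈ AddSubgroup.zmultiples Q) :
    (multiples p Q).image g = multiples p Q := by
  apply Finset.eq_of_subset_of_card_le
  · intro P hP
    obtain ⟨P', hP', rfl⟩ := Finset.mem_image.mp hP
    obtain ⟨⟨n, rfl⟩, h0⟩ := (mem_multiples_iff hp hQ P').mp hP'
    rw [mem_multiples_iff hp hQ]
    refine ⟨?_, fun h => h0 (hg (by rw [h, map_zero]))⟩
    rw [map_zsmul]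
    exact AddSubgroup.zsmul_mem _ hstab n
  · rw [Finset.card_image_of_injective _ hg]

theorem sum_multiples_comp {M : Type*} [AddCommMonoid M] {p : ℕ} (hp : 0 < p) {Q : G}
    (hQ : addOrderOf Q = p) (g : G →+ G) (hg : Function.Injective g)
    (hstab : g Q ∈ AddSubgroup.zmultiples Q) (f : G → M) :
    ∑ P ∈ multiples p Q, f (g P) = ∑ P ∈ multiples p Q, f P := by
  conv_rhs => rw [← image_multiples hp hQ g hg hstab]
  rw [Finset.sum_image (fun a _ b _ h => hg h)]

theorem prod_multiples_comp {M : Type*} [CommMonoid M] {p : ℕ} (hp : 0 < p) {Q : G}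
    (hQ : addOrderOf Q = p) (g : G →+ G) (hg : Function.Injective g)
    (hstab : g Q ∈ AddSubgroup.zmultiples Q) (f : G → M) :
    ∏ P ∈ multiples p Q, f (g P) = ∏ P ∈ multiples p Q, f P := by
  conv_rhs => rw [← image_multiples hp hQ g hg hstab]
  rw [Finset.prod_image (fun a _ b _ h => hg h)]

end Cyclic

/-! ### 2. Galois equivariance of the Vélu quantities; rationality of `velJ` -/

section Galois

variable (W : WeierstrassCurve ℤ)

local notation "EW" => (W.map (Int.castRingHom ℚ))⁄Qb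

theorem sigma_of_mem_ratField {x : Qb} (hx : x ∈ ratField) (σ : GQ) : σ x = x := by
  obtain ⟨r, rfl⟩ := mem_ratField_iff.mp hx
  exact map_ratCast σ r

/-- The Galois action on points as an additive endomorphism. -/
def galHom (σ : GQ) : (EW).Point →+ (EW).Point :=
  Point.map (W' := (W.map (Int.castRingHom ℚ)).toAffine) σ.toAlgHom

theorem galHom_apply (σ : GQ) (P : (EW).Point) : galHom W σ P = σ • P := rfl

theorem galHom_injective (σ : GQ) : Function.Injective (galHom W σ) :=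
  Point.map_injective _

theorem tOf_smul (σ : GQ) (P : (EW).Point) : tOf (σ • P) = σ (tOf P) := by
  obtain ⟨-, -, hb2, hb4, -, -⟩ := coeff_mem_ratField W
  rcases P with _ | ⟨x, y, h⟩
  · exact (map_zero σ).symm
  · rw [Point.algEquiv_smul_def, Point.map_some]
    show 6 * (σ x) ^ 2 + (EW).b₂ * σ x + (EW).b₄ = σ (6 * x ^ 2 + (EW).b₂ * x + (EW).b₄)
    rw [map_add, map_add, map_mul, map_mul, map_pow, sigma_of_mem_ratField hb2,
      sigma_of_mem_ratField hb4, map_ofNat]

theorem psi2_smul (σ : GQ) (P : (EW).Point) : psi2 (σ • P) = σ (psi2 P) := by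
  obtain ⟨ha1, ha3, -, -, -, -⟩ := coeff_mem_ratField W
  rcases P with _ | ⟨x, y, h⟩
  · exact (map_zero σ).symm
  · rw [Point.algEquiv_smul_def, Point.map_some]
    show 2 * σ y + (EW).a₁ * σ x + (EW).a₃ = σ (2 * y + (EW).a₁ * x + (EW).a₃)
    rw [map_add, map_add, map_mul, map_mul, sigma_of_mem_ratField ha1,
      sigma_of_mem_ratField ha3, map_ofNat]

variable {W}

/-- **`j(E/N)` is rational as soon as `N = ⟨Q⟩` is Galois-stable.** -/
theorem velJ_mem_ratField_of_stable {p : ℕ} (hp : 0 < p) {Q : (EW).Point}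
    (hQ : addOrderOf Q = p) (hstab : ∀ σ : GQ, σ • Q ∈ AddSubgroup.zmultiples Q) :
    velJ p Q ∈ ratField := by
  classical
  have hfix : ∀ σ : GQ, σ (velJ p Q) = velJ p Q := by
    intro σ
    obtain ⟨-, -, -, -, hc4, hΔ⟩ := coeff_mem_ratField W
    have hS : σ (∑ k ∈ Finset.Ico 1 p, tOf (k • Q)) = ∑ k ∈ Finset.Ico 1 p, tOf (k • Q) := by
      rw [map_sum, ← sum_multiples hQ (fun P => σ (tOf P)), ← sum_multiples hQ tOf]
      have h1 : ∀ P : (EW).Point, σ (tOf P) = tOf (galHom W σ P) := fun P =>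
        (tOf_smul W σ P).symm
      simp_rw [h1]
      exact sum_multiples_comp hp hQ (galHom W σ) (galHom_injective W σ) (hstab σ) tOf
    have hP : σ (∏ k ∈ Finset.Ico 1 p, psi2 (k • Q)) = ∏ k ∈ Finset.Ico 1 p, psi2 (k • Q) := by
      rw [map_prod, ← prod_multiples hQ (fun P => σ (psi2 P)), ← prod_multiples hQ psi2]
      have h1 : ∀ P : (EW).Point, σ (psi2 P) = psi2 (galHom W σ P) := fun P =>
        (psi2_smul W σ P).symm
      simp_rw [h1]
      exact prod_multiples_comp hp hQ (galHom W σ) (galHom_injective W σ) (hstab σ) psi2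
    unfold velJ velC4 velPi
    rw [map_div₀, map_mul, map_pow, map_pow, map_pow, map_add, map_mul, hS, hP,
      sigma_of_mem_ratField hc4, sigma_of_mem_ratField hΔ, map_ofNat]
  obtain ⟨r, hr⟩ := Fermat.Agent.S13.GalRat.exists_ratCast_of_fixed (velJ p Q) hfix
  exact mem_ratField_iff.mpr ⟨r, hr⟩

end Galois

/-! ### 3. The moduli link for Galois-stable subgroups -/

section Assembly

variable {p : ℕ} [NeZero p]

/-- The assembly of `ModAsm62.xMod_of_contracts` in which the rationality of `Q` is replaced by the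
rationality of `velJ p Q` (the only consequence of it which the assembly uses). -/
theorem xModCore (hp : p.Prime) (hp2 : p ≠ 2) (cZ : Place Qb (FF p))
    (hex : ∀ q : ℕ, q.Prime → ∃ A : ValuationSubring Qb, A.LiesOverPrime q)
    (hG : ModGlobal p) (hUnit : ModLocUnit p) (hNP : NPDich p) (hPP : PPFixed p)
    (W : WeierstrassCurve ℤ) (hΔ : W.Δ ≠ 0)
    (Q : ((W.map (Int.castRingHom ℚ))⁄Qb).Point) (hJ : velJ p Q ∈ ratField)
    (hQord : addOrderOf Q = p)
    (hmult : ∃ q : ℕ, q.Prime ∧ q ≠ p ∧ (q : ℤ) ∣ W.Δ ∧ ¬ (q : ℤ) ∣ W.c₄) :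
    ∃ x : Place Qb (FF p), PlaceFixed p x ∧
      ∀ q : ℕ, q.Prime → q ≠ p → (q : ℤ) ∣ W.Δ → ¬ (q : ℤ) ∣ W.c₄ →
        ∀ A : ValuationSubring Qb, A.LiesOverPrime q →
          (¬ W.InZeroComponentAt A Q → InTubeZero A cZ x) ∧
          (W.InZeroComponentAt A Q → InTubeInf A x) := by
  have hNode : ModLocNode := modLocNode
  have hNsmul : ZeroCompNsmulTors p := zeroCompNsmulTors hp hp2
  -- the coefficients
  have hc4 : ((W.map (Int.castRingHom ℚ))⁄Qb).c₄ = ((W.c₄ : ℤ) : Qb) := by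
    rw [show ((W.map (Int.castRingHom ℚ))⁄Qb).c₄ =
      algebraMap ℚ Qb (W.map (Int.castRingHom ℚ)).c₄ from WeierstrassCurve.map_c₄ _ _,
      WeierstrassCurve.map_c₄]
    simp
  have hΔE : ((W.map (Int.castRingHom ℚ))⁄Qb).Δ = ((W.Δ : ℤ) : Qb) := by
    rw [show ((W.map (Int.castRingHom ℚ))⁄Qb).Δ =
      algebraMap ℚ Qb (W.map (Int.castRingHom ℚ)).Δ from WeierstrassCurve.map_Δ _ _,
      WeierstrassCurve.map_Δ]
    simp
  have hΔ0 : ((W.map (Int.castRingHom ℚ))⁄Qb).Δ ≠ 0 := by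
    rw [hΔE]
    exact_mod_cast hΔ
  have hp0 : p • Q = 0 := by rw [← hQord]; exact addOrderOf_nsmul_eq_zero Q
  -- the place
  obtain ⟨x, hxa, hxb⟩ := hG ((W.map (Int.castRingHom ℚ))⁄Qb) hΔ0 Q hQord
  -- valuations at a multiplicative prime
  have key : ∀ q : ℕ, q.Prime → (q : ℤ) ∣ W.Δ → ¬ (q : ℤ) ∣ W.c₄ →
      ∀ A : ValuationSubring Qb, A.LiesOverPrime q →
        A.valuation ((W.map (Int.castRingHom ℚ))⁄Qb).c₄ = 1 ∧
          A.valuation ((W.map (Int.castRingHom ℚ))⁄Qb).Δ < 1 := by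
    intro q hq hqΔ hqc A hA
    constructor
    · rw [hc4, Fermat.Agent.S13.GalRat.valuation_intCast_eq_pow A hq hA
        (fun h => hqc (by rw [h]; exact dvd_zero _))]
      have : padicValInt q W.c₄ = 0 := padicValInt.eq_zero_of_not_dvd hqc
      rw [this, pow_zero]
    · rw [hΔE]
      obtain ⟨d, hd⟩ := hqΔ
      rw [hd]
      push_cast
      rw [map_mul]
      have hq1 : A.valuation (q : Qb) < 1 := A.mem_nonunits_iff.mp hA
      have hd1 : A.valuation (d : Qb) ≤ 1 :=
        (ValuationSubring.valuation_le_one_iff A _).mpr (intCast_mem _ d)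
      calc A.valuation (q : Qb) * A.valuation (d : Qb) ≤ A.valuation (q : Qb) * 1 :=
            mul_le_mul_right hd1 _
        _ < 1 := by rw [mul_one]; exact hq1
  have haA : ∀ q : ℕ, q.Prime → (q : ℤ) ∣ W.Δ → ¬ (q : ℤ) ∣ W.c₄ →
      ∀ A : ValuationSubring Qb, A.LiesOverPrime q →
        ((W.map (Int.castRingHom ℚ))⁄Qb).c₄ ^ 3 / ((W.map (Int.castRingHom ℚ))⁄Qb).Δ ∉ A := by
    intro q hq hqΔ hqc A hA hmem
    obtain ⟨h1, h2⟩ := key q hq hqΔ hqc A hA
    have := (ValuationSubring.valuation_le_one_iff A _).mpr hmem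
    exact absurd this (not_le.mpr (one_lt_val_a A.valuation h1 h2 hΔ0))
  -- the Galois action
  have hxfix : PlaceFixed p x := by
    obtain ⟨q, hq, -, hqΔ, hqc⟩ := hmult
    obtain ⟨A, hA⟩ := hex q hq
    have h1 := haA q hq hqΔ hqc A hA
    obtain ⟨-, -, -, -, hc4r, hΔr⟩ := coeff_mem_ratField W
    obtain ⟨a', ha'⟩ := mem_ratField_iff.mp (div_mem (pow_mem hc4r 3) hΔr)
    obtain ⟨b', hb'⟩ := mem_ratField_iff.mp hJ
    refine hPP x a' b' (by rw [ha']; exact hxa) (by rw [hb']; exact hxb) ⟨A, ?_⟩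
    rw [ha']
    exact h1
  refine ⟨x, hxfix, ?_⟩
  intro q hq hqp hqΔ hqc A hA
  obtain ⟨hc1, hΔ1⟩ := key q hq hqΔ hqc A hA
  have haA' := haA q hq hqΔ hqc A hA
  constructor
  · -- the node case
    intro hQ0
    right
    refine ⟨_, _, hxa, hxb, haA', ?_⟩
    -- all multiples are outside the identity component
    have hk0 : ∀ k ∈ Finset.Ico 1 p, ¬ W.InZeroComponentAt A (k • Q) := by
      intro k hk hin
      rw [Finset.mem_Ico] at hk
      have hcop : Nat.Coprime k p := by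
        rw [Nat.coprime_comm]
        exact (Nat.Prime.coprime_iff_not_dvd hp).mpr
          (fun h => absurd (Nat.le_of_dvd (by omega) h) (by omega))
      obtain ⟨k', -, hk'⟩ := Nat.exists_mul_mod_eq_one_of_coprime hcop hp.one_lt
      have hpk : p • (k • Q) = 0 := by rw [smul_comm, hp0, nsmul_zero]
      have h1 := hNsmul W q hq hqp A hA (k • Q) k' hpk hin
      rw [smul_smul] at h1
      have h2 : (k' * k) • Q = Q := by
        have hkk : k' * k = 1 + (k * k' / p) * p := by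
          rw [mul_comm k' k, mul_comm (k * k' / p) p]
          conv_lhs => rw [← Nat.mod_add_div (k * k') p, hk']
        rw [hkk, add_smul, one_smul, mul_smul, hp0, nsmul_zero, add_zero]
      rw [h2] at h1
      exact hQ0 h1
    have hC4 : A.valuation (velC4 p Q) = 1 := by
      unfold velC4
      refine val_add_small A.valuation hc1 ?_ 120
        ((ValuationSubring.valuation_le_one_iff A _).mpr (by exact_mod_cast intCast_mem A 120))
      exact Valuation.map_sum_lt _ one_ne_zero fun k hk => (hNode W A (k • Q) (hk0 k hk)).2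
    have hPi : A.valuation (velPi p Q) < 1 := by
      unfold velPi
      exact val_prod_lt_one A.valuation _ _ (Finset.mem_Ico.mpr ⟨le_refl _, hp.one_lt⟩)
        fun k hk => (hNode W A (k • Q) (hk0 k hk)).1
    -- `|b| < |a|^p`
    have hlt := node_calc A.valuation hc1 hΔ0 hC4 hPi p
    rcases hNP x _ _ hxa hxb A haA' with h | h
    · exact absurd h hlt.ne
    · exact h
  · -- the unit case
    intro hQ0
    right
    refine ⟨_, _, hxa, hxb, haA', ?_⟩
    obtain ⟨hψ, hC4⟩ := hUnit W q hq hqp hqΔ hqc A hA Q hQord hQ0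
    have hPi : A.valuation (velPi p Q) = 1 := by
      unfold velPi
      rw [map_prod]
      exact Finset.prod_eq_one hψ
    exact unit_calc A.valuation hc1 hC4 hPi p

variable (p) in
/-- **(X-MOD-N)** the moduli link for a Galois-stable subgroup of order `p`: same conclusion as
`XSpec62.XMod`, for a point `Q` of order `p` whose SUBGROUP is Galois-stable. -/
def XModN (cZ : Place Qb (FF p)) : Prop :=
  ∀ (W : WeierstrassCurve ℤ) (_ : W.Δ ≠ 0)
    (Q : ((W.map (Int.castRingHom ℚ))⁄Qb).Point),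
    (∀ σ : GQ, σ • Q ∈ AddSubgroup.zmultiples Q) → addOrderOf Q = p →
    (∃ q : ℕ, q.Prime ∧ q ≠ p ∧ (q : ℤ) ∣ W.Δ ∧ ¬ (q : ℤ) ∣ W.c₄) →
    ∃ x : Place Qb (FF p), PlaceFixed p x ∧
      ∀ q : ℕ, q.Prime → q ≠ p → (q : ℤ) ∣ W.Δ → ¬ (q : ℤ) ∣ W.c₄ →
        ∀ A : ValuationSubring Qb, A.LiesOverPrime q →
          (¬ W.InZeroComponentAt A Q → InTubeZero A cZ x) ∧
          (W.InZeroComponentAt A Q → InTubeInf A x)

theorem xModN_of_contracts (hp : p.Prime) (hp2 : p ≠ 2) (cZ : Place Qb (FF p))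
    (hex : ∀ q : ℕ, q.Prime → ∃ A : ValuationSubring Qb, A.LiesOverPrime q)
    (hG : ModGlobal p) (hUnit : ModLocUnit p) (hNP : NPDich p) (hPP : PPFixed p) :
    XModN p cZ := fun W hΔ Q hstab hQord hmult =>
  xModCore hp hp2 cZ hex hG hUnit hNP hPP W hΔ Q
    (velJ_mem_ratField_of_stable hp.pos hQord hstab) hQord hmult

/-- `XMod` is the special case of a rational point. -/
theorem xMod_of_xModN {cZ : Place Qb (FF p)} (h : XModN p cZ) : XMod p cZ :=
  fun W hΔ Q hQfix hQord hmult =>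
    h W hΔ Q (fun σ => by rw [hQfix σ]; exact AddSubgroup.mem_zmultiples Q) hQord hmult

end Assembly

/-! ### 4. The mirror endgame -/

section Endgame

variable {p : ℕ} [NeZero p]

/-- A torsion class of `J₀(p)` supported in the tubes of `∞` at `2` and at `3` is zero. -/
theorem eq_zero_of_supported_two_three_inf {cZ : Place Qb (FF p)}
    (hInj : XInj p cZ) (hp2 : p ≠ 2) (hp3 : p ≠ 3) {A2 A3 : ValuationSubring Qb}
    (hA2 : A2.LiesOverPrime 2) (hA3 : A3.LiesOverPrime 3)
    (w : JZero p) (k : ℕ) (hk : 0 < k) (hkw : k • w = 0)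
    (hw2 : w ∈ supportedClasses (InTubeInf (p := p) A2))
    (hw3 : w ∈ supportedClasses (InTubeInf (p := p) A3)) : w = 0 := by
  have h2p : (2 : ℕ) ≠ p := fun h => hp2 h.symm
  have h3p : (3 : ℕ) ≠ p := fun h => hp3 h.symm
  obtain ⟨a, k', hk', rfl⟩ := Nat.exists_eq_two_pow_mul_odd hk.ne'
  have hodd : ¬ 2 ∣ k' := fun h => (Nat.not_even_iff_odd.mpr hk') (even_iff_two_dvd.mpr h)
  -- the `2`-primary part
  have hw2' : 2 ^ a • w = 0 := by
    refine (hInj 2 Nat.prime_two h2p A2 hA2 k' hodd).2 (2 ^ a • w)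
      (AddSubgroup.nsmul_mem _ hw2 _) ?_
    rw [smul_smul, mul_comm]; exact hkw
  refine (hInj 3 Nat.prime_three h3p A3 hA3 (2 ^ a) ?_).2 w hw3 hw2'
  intro h
  have := Nat.Prime.dvd_of_dvd_pow Nat.prime_three h
  omega

/-- **The mirror endgame.**  A Galois-fixed place of `X₀(p)` which lies in the tube of `∞` at `2`
and at `3` does not lie in the tube of `0` at any prime `ℓ ≠ p` with `ℓ ∤ p - 1`. -/
theorem mirror_endgame (hp2 : p ≠ 2) (hp3 : p ≠ 3)
    (hdeg : DegOne p) (cZ : Place Qb (FF p))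
    (hHecke : XHecke p cZ) (hInj : XInj p cZ)
    (hC : CuspPkg hdeg cZ) (hG : GlobalEis hdeg cZ)
    (x : Place Qb (FF p)) (hxfix : PlaceFixed p x)
    {A2 A3 : ValuationSubring Qb} (hA2 : A2.LiesOverPrime 2) (hA3 : A3.LiesOverPrime 3)
    (hx2 : InTubeInf A2 x) (hx3 : InTubeInf A3 x)
    {ℓ : ℕ} (hℓ : ℓ.Prime) (hℓp : ℓ ≠ p) (hℓp1 : ¬ ℓ ∣ p - 1)
    (A : ValuationSubring Qb) (hA : A.LiesOverPrime ℓ) :
    ¬ InTubeZero A cZ x := by
  intro hxℓ
  have h2p : (2 : ℕ) ≠ p := fun h => hp2 h.symm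
  have h3p : (3 : ℕ) ≠ p := fun h => hp3 h.symm
  -- the global element `t`
  obtain ⟨t, ht, htc, htors⟩ := hG
  set z : JZero p := pointClass hdeg x (cuspInf p) with hz
  set c : JZero p := pointClass hdeg cZ (cuspInf p) with hc
  obtain ⟨k, hk, hkz⟩ := htors z (smul_pointClass hdeg hxfix hC.fixedInf)
  -- supports at `2` and `3`
  have hs2 : t z ∈ supportedClasses (InTubeInf (p := p) A2) :=
    heckeSub_mem_supportedClasses (heckeStable_inTubeInf hHecke Nat.prime_two h2p hA2) ht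
      (pointClass_mem_supportedClasses hdeg hx2 (Or.inl rfl))
  have hs3 : t z ∈ supportedClasses (InTubeInf (p := p) A3) :=
    heckeSub_mem_supportedClasses (heckeStable_inTubeInf hHecke Nat.prime_three h3p hA3) ht
      (pointClass_mem_supportedClasses hdeg hx3 (Or.inl rfl))
  have htz : t z = 0 :=
    eq_zero_of_supported_two_three_inf hInj hp2 hp3 hA2 hA3 (t z) k hk hkz hs2 hs3
  -- support at `ℓ`: `(x) - (0)` is supported in the tube of `0`
  have hsℓ : t (pointClass hdeg x cZ) ∈ supportedClasses (InTubeZero A cZ) :=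
    heckeSub_mem_supportedClasses (heckeStable_inTubeZero hHecke hℓ hℓp hA) ht
      (pointClass_mem_supportedClasses hdeg hxℓ (Or.inl rfl))
  have hsum : pointClass hdeg x cZ + c = z := by
    rw [hc, hz]; exact pointClass_add hdeg x cZ (cuspInf p)
  have hsc : t c ∈ supportedClasses (InTubeZero A cZ) := by
    have h1 : t (pointClass hdeg x cZ) + t c = 0 := by
      rw [← map_add, hsum, htz]
    have h2 : t c = -t (pointClass hdeg x cZ) := (neg_eq_of_add_eq_zero_right h1).symm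
    rw [h2]
    exact (supportedClasses (InTubeZero A cZ)).neg_mem hsℓ
  -- `(p - 1) t c = 0`
  have hkc : (p - 1) • t c = 0 := by
    rw [← map_nsmul, hc, hC.order, map_zero]
  exact htc ((hInj ℓ hℓ hℓp A hA (p - 1) hℓp1).1 (t c) hsc hkc)

/-- **S15 for Galois-stable subgroups, mirror form.**  `W` an integral Weierstrass curve with
multiplicative reduction at `2` and `3`, `Q` a point of prime order `p ∉ {2, 3}` whose subgroup is
Galois-stable and is the toric line at every place over `2` and over `3`.  Then `⟨Q⟩` is the toric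
line at every place `A` over every multiplicative prime `ℓ ≠ p`, provided `ℓ ∤ p - 1` in case it
is not. -/
theorem inZero_of_contracts (hp2 : p ≠ 2) (hp3 : p ≠ 3)
    (hdeg : DegOne p) (cZ : Place Qb (FF p)) (hex : ExistsOver)
    (hMod : XModN p cZ) (hHecke : XHecke p cZ) (hInj : XInj p cZ)
    (hC : CuspPkg hdeg cZ) (hG : GlobalEis hdeg cZ)
    (W : WeierstrassCurve ℤ) (hΔ : W.Δ ≠ 0)
    (Q : ((W.map (Int.castRingHom ℚ))⁄Qb).Point)
    (hstab : ∀ σ : GQ, σ • Q ∈ AddSubgroup.zmultiples Q)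
    (hQord : addOrderOf Q = p)
    (h2Δ : (2 : ℤ) ∣ W.Δ) (h2c₄ : ¬ (2 : ℤ) ∣ W.c₄)
    (h2 : ∀ A : ValuationSubring Qb, A.LiesOverPrime 2 → W.InZeroComponentAt A Q)
    (h3Δ : (3 : ℤ) ∣ W.Δ) (h3c₄ : ¬ (3 : ℤ) ∣ W.c₄)
    (h3 : ∀ A : ValuationSubring Qb, A.LiesOverPrime 3 → W.InZeroComponentAt A Q)
    {ℓ : ℕ} (hℓ : ℓ.Prime) (hℓp : ℓ ≠ p) (hℓΔ : (ℓ : ℤ) ∣ W.Δ) (hℓc₄ : ¬ (ℓ : ℤ) ∣ W.c₄)
    (A : ValuationSubring Qb) (hA : A.LiesOverPrime ℓ)
    (hsmall : ¬ W.InZeroComponentAt A Q → ¬ ℓ ∣ p - 1) :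
    W.InZeroComponentAt A Q := by
  by_contra hQ0
  have h2p : (2 : ℕ) ≠ p := fun h => hp2 h.symm
  have h3p : (3 : ℕ) ≠ p := fun h => hp3 h.symm
  obtain ⟨x, hxfix, hx⟩ := hMod W hΔ Q hstab hQord
    ⟨2, Nat.prime_two, h2p, by exact_mod_cast h2Δ, by exact_mod_cast h2c₄⟩
  obtain ⟨A2, hA2⟩ := hex 2 Nat.prime_two
  obtain ⟨A3, hA3⟩ := hex 3 Nat.prime_three
  have hx2 : InTubeInf A2 x :=
    (hx 2 Nat.prime_two h2p (by exact_mod_cast h2Δ) (by exact_mod_cast h2c₄) A2 hA2).2
      (h2 A2 hA2)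
  have hx3 : InTubeInf A3 x :=
    (hx 3 Nat.prime_three h3p (by exact_mod_cast h3Δ) (by exact_mod_cast h3c₄) A3 hA3).2
      (h3 A3 hA3)
  have hxℓ : InTubeZero A cZ x := (hx ℓ hℓ hℓp hℓΔ hℓc₄ A hA).1 hQ0
  exact mirror_endgame hp2 hp3 hdeg cZ hHecke hInj hC hG x hxfix hA2 hA3 hx2 hx3 hℓ hℓp
    (hsmall hQ0) A hA hxℓ

end Endgame

end Fermat.Agent.MAZ.S12.MirrorTop76
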