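/-
Program MAZ-S12, route MIRROR, FINAL ASSEMBLY (helper28).

`s12_of_toric` : the literal S12 from the small contracts of `Spec27` (`LineStmt`, `IdStmt`,
`LocValStmt`, `GalProdStmt`, `UnitStmt`, `RealStmt`, `ExStmt`) and ONE statement `ToricStmt`
("the line is toric at every bad prime `ℓ ≠ p`") replacing `S15Stmt`, `QuotStmt`, `HasseStmt` and
`L1Stmt` (same proof as `Spec27.s12_of_contracts`, whose only use of those four is toricity).

`toricStmt_of_inj_eis` : `ToricStmt` from the two contracts of S15 which are still to be closed,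
`XInj` and `GlobalEis` at level `p` (`XFinal62` vocabulary), WITHOUT the quotient curve:
`MirrorTop76.inZero_of_contracts` (helper76) + `ToricOrSmall28` (toric at `2`, `3`; `ℓ ∤ p - 1` at a
non-toric `ℓ`) + `HasseLine61.three_dvd_disc_of_line` (helper61: `3 ∣ Δ`).

`s12_of_inj_eis` : S12 from `XInj`, `GlobalEis` and the small contracts.
-/
import Mathlib
import Fermat.Agent.MAZ.S12.Spec27
import Fermat.Agent.MAZ.S12.MirrorTop76
import Fermat.Agent.MAZ.S12.ToricOrSmall28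
import Fermat.Agent.MAZ.S12.HasseLine61
import Fermat.Agent.MAZ.Spec.XFinal62
import Fermat.Agent.Frey.IntModel

set_option autoImplicit false
set_option linter.unusedSectionVars false
set_option linter.style.haveILetI false

open AlgebraicCurve ModularCurve
open WeierstrassCurve WeierstrassCurve.Affine WeierstrassCurve.Affine.Point

noncomputable section

namespace Fermat.Agent.MAZ.S12.MirrorAsm28

open Fermat.Agent.MAZ.Point.ModAsm62 Fermat.Agent.MAZ.S12.Spec27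
open Fermat.Agent.X0 Fermat.Agent.MAZ.Spec.TopInj62
open Fermat.Agent.MAZ.Spec.XSpec62 hiding Qb GQ
open Fermat.Agent.MAZ.Cusp

/-- **TORIC**: the line is the toric line at every bad prime `ℓ ≠ p`. -/
def ToricStmt : Prop :=
  ∀ (P : FreyPackage), 17 ≤ P.p → ∀ (R₀ P₀ : (FE P).Point), LineData P R₀ P₀ →
    ∀ ℓ : ℕ, ℓ.Prime → ℓ ≠ P.p → (ℓ : ℤ) ∣ P.a * P.b * P.c →
      ∀ A : ValuationSubring Qb, A.LiesOverPrime ℓ → P.freyCurveInt.InZeroComponentAt A R₀

section Final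

variable (hLine : LineStmt) (hToric : ToricStmt) (hId : IdStmt)
  (hLoc : LocValStmt) (hGal : GalProdStmt) (hUnit : UnitStmt) (hReal : RealStmt) (hEx : ExStmt)

include hLine hToric hId hLoc hGal hUnit hReal hEx in
/-- **S12 from toricity and the small contracts.** -/
theorem s12_of_toric (P : FreyPackage) (hp17 : 17 ≤ P.p) :
    ¬ HasGaloisStableCofixedLine (K := Qb) ℚ P.freyCurve P.p := by
  intro hline
  obtain ⟨R₀, P₀, hL⟩ := hLine P hline
  have hpp : P.p.Prime := P.pp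
  -- the local values at `ℓ ≠ p`
  have hval : ∀ ℓ : ℕ, ℓ.Prime → ℓ ≠ P.p → ∀ A : ValuationSubring Qb, A.LiesOverPrime ℓ →
      ∀ k ∈ Finset.Ico 1 P.p,
        A.valuation (xOf (k • R₀)) = 1 ∧ A.valuation (xOf (k • R₀) + (P.b : Qb) ^ P.p / 4) = 1 ∧
          A.valuation (4 * xOf (k • R₀) - (P.a : Qb) ^ P.p) = 1 := by
    intro ℓ hℓ hℓp A hA
    refine hLoc P ℓ hℓ hℓp A hA R₀ hL.order ?_
    by_cases h : (ℓ : ℤ) ∣ P.a * P.b * P.c
    · exact Or.inr (hToric P hp17 R₀ P₀ hL ℓ hℓ hℓp h A hA)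
    · exact Or.inl h
  -- the local values at `p`
  have hvalp : ∀ A : ValuationSubring Qb, A.LiesOverPrime P.p → ∀ k ∈ Finset.Ico 1 P.p,
      A.valuation ((xOf (k • R₀) + (P.b : Qb) ^ P.p / 4) / xOf (k • R₀)) = 1 ∧
        A.valuation ((4 * xOf (k • R₀) - (P.a : Qb) ^ P.p) / xOf (k • R₀)) = 1 := by
    intro A hA k hk
    have hx : 1 < A.valuation (xOf (k • R₀)) := by
      by_contra h
      exact hL.atP A hA k hk ((ValuationSubring.valuation_le_one_iff A _).mp (not_lt.mp h))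
    have h4 : A.valuation (4 : Qb) = 1 := by
      have h := Fermat.Agent.S13.GalRat.valuation_intCast_eq_pow A hpp hA (n := 4) (by norm_num)
      have h0 : padicValInt P.p 4 = 0 := by
        apply padicValInt.eq_zero_of_not_dvd
        intro hd
        have h2 : (P.p : ℤ) ∣ 2 ^ 2 := by norm_num; exact hd
        have h3 := Int.Prime.dvd_pow' hpp h2
        have h5 : P.p ∣ 2 := by exact_mod_cast h3
        have := Nat.le_of_dvd (by norm_num) h5
        omega
      rw [h0, pow_zero] at h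
      exact_mod_cast h
    have hint : ∀ n : ℤ, A.valuation (n : Qb) ≤ 1 := fun n =>
      (ValuationSubring.valuation_le_one_iff A _).mpr (intCast_mem _ n)
    have hb : A.valuation ((P.b : Qb) ^ P.p / 4) ≤ 1 := by
      rw [map_div₀, h4, div_one, map_pow]
      exact pow_le_one₀ zero_le (hint P.b)
    have ha : A.valuation ((P.a : Qb) ^ P.p) ≤ 1 := by
      rw [map_pow]
      exact pow_le_one₀ zero_le (hint P.a)
    exact ⟨val_add_div A.valuation hx hb, val_mul_sub_div A.valuation hx ha h4⟩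
  -- nonvanishing of `r`
  have hr0 : prodR P R₀ ≠ 0 := by
    obtain ⟨A, hA⟩ := hEx 2 Nat.prime_two
    have h2p : (2 : ℕ) ≠ P.p := by omega
    have h1 : A.valuation (prodR P R₀) = 1 := by
      unfold prodR
      rw [map_prod]
      exact Finset.prod_eq_one fun k hk => (hval 2 Nat.prime_two h2p A hA k hk).1
    intro h0
    rw [h0, _root_.map_zero] at h1
    exact zero_ne_one h1
  -- Galois invariance
  have hfixR : ∀ σ : GQ, σ (prodR P R₀) = prodR P R₀ := fun σ =>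
    hGal P R₀ hL.order hL.stable (fun x => x) (fun _ _ => rfl) σ
  have hfixT : ∀ σ : GQ, σ (prodT P R₀) = prodT P R₀ := fun σ =>
    hGal P R₀ hL.order hL.stable (fun x => x + (P.b : Qb) ^ P.p / 4)
      (fun τ x => by
        have h4 : τ (4 : Qb) = 4 := map_ofNat τ 4
        simp [map_add, map_div₀, map_pow, h4]) σ
  have hfixS : ∀ σ : GQ, σ (prodS P R₀) = prodS P R₀ := fun σ =>
    hGal P R₀ hL.order hL.stable (fun x => 4 * x - (P.a : Qb) ^ P.p)
      (fun τ x => by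
        have h4 : τ (4 : Qb) = 4 := map_ofNat τ 4
        simp [map_sub, map_mul, map_pow, h4]) σ
  -- the two units
  have hu : (prodT P R₀ / prodR P R₀) ^ 2 = 1 := by
    refine hUnit _ (fun σ => by rw [map_div₀, hfixT, hfixR]) ?_
    intro ℓ hℓ A hA
    by_cases hℓp : ℓ = P.p
    · subst hℓp
      unfold prodT prodR
      rw [← Finset.prod_div_distrib, map_prod]
      exact Finset.prod_eq_one fun k hk => (hvalp A hA k hk).1
    · rw [map_div₀]
      unfold prodT prodR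
      rw [map_prod, map_prod, Finset.prod_eq_one fun k hk => (hval ℓ hℓ hℓp A hA k hk).1,
        Finset.prod_eq_one fun k hk => (hval ℓ hℓ hℓp A hA k hk).2.1, div_one]
  have hv : (prodS P R₀ / prodR P R₀) ^ 2 = 1 := by
    refine hUnit _ (fun σ => by rw [map_div₀, hfixS, hfixR]) ?_
    intro ℓ hℓ A hA
    by_cases hℓp : ℓ = P.p
    · subst hℓp
      unfold prodS prodR
      rw [← Finset.prod_div_distrib, map_prod]
      exact Finset.prod_eq_one fun k hk => (hvalp A hA k hk).2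
    · rw [map_div₀]
      unfold prodS prodR
      rw [map_prod, map_prod, Finset.prod_eq_one fun k hk => (hval ℓ hℓ hℓp A hA k hk).1,
        Finset.prod_eq_one fun k hk => (hval ℓ hℓ hℓp A hA k hk).2.2, div_one]
  -- the identity
  have hid := hId P R₀ hL.order
  have ht2 : prodT P R₀ ^ 2 = prodR P R₀ ^ 2 := by
    rw [div_pow, div_eq_one_iff_eq (pow_ne_zero 2 hr0)] at hu
    exact hu
  have hs2 : prodS P R₀ ^ 2 = prodR P R₀ ^ 2 := by
    rw [div_pow, div_eq_one_iff_eq (pow_ne_zero 2 hr0)] at hv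
    exact hv
  rw [ht2, hs2] at hid
  have hr2 : prodR P R₀ ^ 2 ≠ 0 := pow_ne_zero 2 hr0
  have hfin : (16 : Qb) ^ (P.p - 1) * ((P.a : Qb) ^ P.p) ^ P.p + ((P.b : Qb) ^ P.p) ^ P.p =
      (16 : Qb) ^ (P.p - 1) * ((P.c : Qb) ^ P.p) ^ P.p := by
    apply mul_right_cancel₀ hr2
    linear_combination hid
  have hZ : (16 : ℤ) ^ (P.p - 1) * P.a ^ (P.p * P.p) + P.b ^ (P.p * P.p) =
      16 ^ (P.p - 1) * P.c ^ (P.p * P.p) := by
    have hcast : (((16 : ℤ) ^ (P.p - 1) * P.a ^ (P.p * P.p) + P.b ^ (P.p * P.p) : ℤ) : Qb) =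
        ((16 ^ (P.p - 1) * P.c ^ (P.p * P.p) : ℤ) : Qb) := by
      push_cast
      rw [pow_mul, pow_mul, pow_mul]
      exact hfin
    exact_mod_cast hcast
  have hp3 : 3 ≤ P.p := by omega
  exact hReal P.hp_odd hp3 P.ha0 P.hb0 P.hc0 P.hFLT hZ

end Final

/-! ### Toricity from the contracts of S15 -/

section Mirror

/-- **TORIC from `XInj` and `GlobalEis`** (all other contracts of S15 plugged in). -/
theorem toricStmt_of_inj_eis
    (hInj : ∀ p : ℕ, ∀ _ : Fact p.Prime, 17 ≤ p → XInj p (CuspPlaces55.cuspZero p))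
    (hG : ∀ p : ℕ, ∀ _ : Fact p.Prime, 17 ≤ p →
      GlobalEis (CuspPkg55.degOne p) (CuspPlaces55.cuspZero p)) : ToricStmt := by
  intro P hp17 R₀ P₀ hL ℓ hℓ hℓp hℓabc A hA
  have hpF : Fact P.p.Prime := ⟨P.pp⟩
  have hp : P.p.Prime := P.pp
  have hp5 : 5 ≤ P.p := P.hp5
  have hp2 : P.p ≠ 2 := by omega
  have hp3 : P.p ≠ 3 := by omega
  have hC := CuspPkg55.cuspPkg P.p
  have hΔ : P.freyCurveInt.Δ ≠ 0 := Fermat.Agent.Frey.IntModel.Δ_ne_zero P
  -- multiplicative reduction at `2`, `3`, `ℓ`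
  have h2abc : ((2 : ℕ) : ℤ) ∣ P.a * P.b * P.c := by exact_mod_cast P.two_dvd_abc
  have h2Δ : ((2 : ℕ) : ℤ) ∣ P.freyCurveInt.Δ :=
    Fermat.Agent.Frey.IntModel.dvd_Δ_of_dvd_abc P Nat.prime_two h2abc
  have h2c₄ : ¬ ((2 : ℕ) : ℤ) ∣ P.freyCurveInt.c₄ :=
    Fermat.Agent.Frey.IntModel.not_dvd_c₄_of_dvd_abc P Nat.prime_two h2abc
  have h3Δ' : (3 : ℤ) ∣ P.freyCurveInt.Δ :=
    Fermat.Agent.MAZ.S12.HasseLine61.three_dvd_disc_of_line P.freyCurveInt hp (by omega) R₀ P₀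
      hL.order hL.tors hL.notMem hL.stable hL.cofixed
  have h3Δ : ((3 : ℕ) : ℤ) ∣ P.freyCurveInt.Δ := by exact_mod_cast h3Δ'
  have h3abc : ((3 : ℕ) : ℤ) ∣ P.a * P.b * P.c :=
    Fermat.Agent.Frey.IntModel.dvd_abc_of_dvd_Δ P Nat.prime_three h3Δ
  have h3c₄ : ¬ ((3 : ℕ) : ℤ) ∣ P.freyCurveInt.c₄ :=
    Fermat.Agent.Frey.IntModel.not_dvd_c₄_of_dvd_abc P Nat.prime_three h3abc
  have hℓΔ : (ℓ : ℤ) ∣ P.freyCurveInt.Δ :=
    Fermat.Agent.Frey.IntModel.dvd_Δ_of_dvd_abc P hℓ hℓabc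
  have hℓc₄ : ¬ (ℓ : ℤ) ∣ P.freyCurveInt.c₄ :=
    Fermat.Agent.Frey.IntModel.not_dvd_c₄_of_dvd_abc P hℓ hℓabc
  -- the moduli link for Galois-stable subgroups
  have hMod : Fermat.Agent.MAZ.S12.MirrorTop76.XModN P.p (CuspPlaces55.cuspZero P.p) :=
    Fermat.Agent.MAZ.S12.MirrorTop76.xModN_of_contracts hp hp2 _
      Fermat.Agent.MAZ.Spec.XFinal62.existsOver
      (Fermat.Agent.MAZ.Analytic.GlobalFinal42.modGlobal hp hp2)
      (Fermat.Agent.MAZ.Local.ModLocUnit2.modLocUnit hp hp2)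
      (Fermat.Agent.MAZ.Point.PPFinal82.npDich hp) (Fermat.Agent.MAZ.Point.PPFinal82.ppFixed hp)
  exact Fermat.Agent.MAZ.S12.MirrorTop76.inZero_of_contracts hp2 hp3 (CuspPkg55.degOne P.p)
    (CuspPlaces55.cuspZero P.p) Fermat.Agent.MAZ.Spec.XFinal62.existsOver hMod
    (Fermat.Agent.MAZ.Spec.XFinal62.xHecke hp hC.isCuspZero) (hInj P.p hpF hp17) hC
    (hG P.p hpF hp17) P.freyCurveInt hΔ R₀ hL.stable hL.order
    (by exact_mod_cast h2Δ) (by exact_mod_cast h2c₄)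
    (fun A2 hA2 => Fermat.Agent.MAZ.S12.ToricOrSmall28.toric_at_two hp hp5 P.freyCurveInt hΔ
      (by exact_mod_cast h2Δ) (by exact_mod_cast h2c₄) R₀ P₀ hL.order hL.tors hL.notMem hL.stable
      hL.cofixed A2 hA2)
    (by exact_mod_cast h3Δ) (by exact_mod_cast h3c₄)
    (fun A3 hA3 => Fermat.Agent.MAZ.S12.ToricOrSmall28.toric_at_three hp hp5 P.freyCurveInt hΔ
      (by exact_mod_cast h3Δ) (by exact_mod_cast h3c₄) R₀ P₀ hL.order hL.tors hL.notMem hL.stable
      hL.cofixed A3 hA3)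
    hℓ hℓp hℓΔ hℓc₄ A hA
    (fun hnt => Fermat.Agent.MAZ.S12.ToricOrSmall28.not_dvd_pred_of_not_toric hp hp5 hℓ hℓp
      P.freyCurveInt hΔ hℓΔ hℓc₄ R₀ P₀ hL.order hL.tors hL.notMem hL.stable hL.cofixed A hA hnt)

/-- **S12 from `XInj`, `GlobalEis` and the small contracts (route MIRROR).** -/
theorem s12_of_inj_eis
    (hInj : ∀ p : ℕ, ∀ _ : Fact p.Prime, 17 ≤ p → XInj p (CuspPlaces55.cuspZero p))
    (hG : ∀ p : ℕ, ∀ _ : Fact p.Prime, 17 ≤ p →
      GlobalEis (CuspPkg55.degOne p) (CuspPlaces55.cuspZero p))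
    (hLine : LineStmt) (hId : IdStmt) (hLoc : LocValStmt) (hGal : GalProdStmt)
    (hUnit : UnitStmt) (hReal : RealStmt) (hEx : ExStmt)
    (P : FreyPackage) (hp17 : 17 ≤ P.p) :
    ¬ HasGaloisStableCofixedLine (K := Qb) ℚ P.freyCurve P.p :=
  s12_of_toric hLine (toricStmt_of_inj_eis hInj hG) hId hLoc hGal hUnit hReal hEx P hp17

end Mirror

end Fermat.Agent.MAZ.S12.MirrorAsm28
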