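/-
Program MAZ-S12, route MIRROR, LAST LINE (helper28): **S12 from `XInj` and `GlobalEis` only.**

`MirrorAsm28.s12_of_inj_eis` with every small contract discharged (`Asm27`, helper27;
`LineAtP57.lineStmt`, helper57).  The statement hangs on exactly the two contracts which
`XFinal62.s15_of_inj_eis` (S15) hangs on, at the levels `p ≥ 17`; no quotient curve, no use of
`S15.result`.
-/
import Mathlib
import Fermat.Agent.MAZ.S12.MirrorAsm28
import Fermat.Agent.MAZ.S12.Asm27
import Fermat.Agent.MAZ.S12.LineAtP57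

set_option autoImplicit false

open WeierstrassCurve WeierstrassCurve.Affine WeierstrassCurve.Affine.Point

namespace Fermat.Agent.MAZ.S12.MirrorFinal28

open Fermat.Agent.MAZ.S12 Fermat.Agent.MAZ.Cusp

/-- **S12 from `XInj` and `GlobalEis` (route MIRROR).** -/
theorem s12_of_inj_eis
    (hInj : ∀ p : ℕ, ∀ _ : Fact p.Prime, 17 ≤ p →
      Fermat.Agent.MAZ.Spec.TopInj62.XInj p (CuspPlaces55.cuspZero p))
    (hG : ∀ p : ℕ, ∀ _ : Fact p.Prime, 17 ≤ p →
      Fermat.Agent.MAZ.Spec.XSpec62.GlobalEis (CuspPkg55.degOne p) (CuspPlaces55.cuspZero p))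
    (P : FreyPackage) (hp17 : 17 ≤ P.p) :
    ¬ HasGaloisStableCofixedLine (K := AlgebraicClosure ℚ) ℚ P.freyCurve P.p :=
  MirrorAsm28.s12_of_inj_eis hInj hG LineAtP57.lineStmt Asm27.idStmt Asm27.locValStmt
    Asm27.galProdStmt Asm27.unitStmt Asm27.realStmt Asm27.exStmt P hp17

end Fermat.Agent.MAZ.S12.MirrorFinal28
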