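/-
Programme MAZ, sub-programme MAZ-S12 (S12 from S15; architect helper27), **(K1) QUOT, ASSEMBLED**
(helper33): `Spec27.QuotStmt` as a theorem, from
* brick K1d (helper24, `VeluInt24.exists_int_quot'`): the integral model `(W', Q')` of Vélu's quotient
  of the Frey curve by the line, with `Q'` rational of order `p`;
* brick K1e (helper33, `DictFinal33`): the three local clauses at the primes `ℓ ≠ p`;
* the Frey facts `ℓ ∣ abc ↔ ℓ ∣ Δ`, `ℓ ∣ abc → ℓ ∤ c₄` (`Frey.IntModel`).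
-/
import Mathlib
import Fermat.Agent.MAZ.S12.Spec27
import Fermat.Agent.MAZ.S12.VeluInt24
import Fermat.Agent.MAZ.S12.DictFinal33
import Fermat.Agent.Frey.IntModel

set_option autoImplicit false

open WeierstrassCurve WeierstrassCurve.Affine

namespace Fermat.Agent.MAZ.S12.QuotAsm33

open Fermat.Agent.MAZ.S12.Spec27 Fermat.Agent.MAZ.S12.DictFinal33
open Fermat.Agent.MAZ.S12.VeluQb32

/-- **(K1) QUOT** of `Spec27`, kernel-checked. -/
theorem quotStmt : QuotStmt := by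
  intro P R₀ P₀ hL
  have hp : P.p.Prime := P.pp
  have hp2 : P.p ≠ 2 := by have := P.hp5; omega
  have hΔ0 : P.freyCurveInt.Δ ≠ 0 := Fermat.Agent.Frey.IntModel.Δ_ne_zero P
  have : Algebra.IsAlgebraic ℚ Qb := AlgebraicClosure.isAlgebraic ℚ
  let f : Qb →+* ℂ := (IsAlgClosed.lift (R := ℚ) (M := ℂ) (S := Qb) : Qb →ₐ[ℚ] ℂ).toRingHom
  obtain ⟨m, W', Q', hW', ⟨e1, e2, e3, e4, e6⟩, -, -, hfix, hord, hpt⟩ :=
    Fermat.Agent.MAZ.S12.VeluInt24.exists_int_quot' P.freyCurveInt (Eg_Δ_ne_zero hΔ0) hp hp2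
      hL.order hL.stable hL.tors hL.notMem hL.cofixed
  have hI : IntQuot P.freyCurveInt P.p R₀ P₀ W' Q' (((P.p : ℕ) : Qb) ^ m) :=
    { a₁ := e1, a₂ := e2, a₃ := e3, a₄ := e4, a₆ := e6, pt := hpt }
  refine ⟨W', Q', hW', hfix, hord, ?_, ?_, ?_⟩
  · intro ℓ hℓ hℓp habc
    exact dvd_Δ_and_not_dvd_c₄ f hp hp2 hΔ0 hL.order hI hℓ hℓp
      (Fermat.Agent.Frey.IntModel.dvd_Δ_of_dvd_abc P hℓ habc)
      (Fermat.Agent.Frey.IntModel.not_dvd_c₄_of_dvd_abc P hℓ habc)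
  · intro ℓ hℓ hℓp habc
    exact not_dvd_Δ f hp hp2 hΔ0 hL.order hI hℓ hℓp
      (fun h => habc (Fermat.Agent.Frey.IntModel.dvd_abc_of_dvd_Δ P hℓ h))
  · intro ℓ hℓ hℓp habc A hA hQ'
    exact inZero_of_not_inZero_quot f hp hp2 hΔ0 hL.order hL.tors hL.notMem hI hℓ hℓp
      (Fermat.Agent.Frey.IntModel.dvd_Δ_of_dvd_abc P hℓ habc)
      (Fermat.Agent.Frey.IntModel.not_dvd_c₄_of_dvd_abc P hℓ habc) A hA hQ'

end Fermat.Agent.MAZ.S12.QuotAsm33
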