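/-
MAZ-S12, brick V9 (helper61): **the real finish**.  Mathlib only.

For an odd exponent `p` and `0 < ε` with `ε · 2^(p-1) < 1`, the system
`X + Y = Z`, `X^p + ε Y^p = Z^p` has only the real solutions with `Y = 0`.
-/
import Mathlib

set_option autoImplicit false

namespace Fermat.Agent.MAZ.S12.RealFinish61

/-- the case `0 < Y` of `real_finish`. -/
theorem real_finish_pos {p : ℕ} (hp : Odd p) {ε X Y : ℝ} (hε : 0 < ε)
    (hε2 : ε * 2 ^ (p - 1) < 1) (hY : 0 < Y) : X ^ p + ε * Y ^ p ≠ (X + Y) ^ p := by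
  have hp0 : p ≠ 0 := hp.pos.ne'
  have h2pos : (0 : ℝ) < 2 ^ (p - 1) := by positivity
  have h2ge : (1 : ℝ) ≤ 2 ^ (p - 1) := one_le_pow₀ (by norm_num)
  have hε1 : ε < 1 := by
    by_contra h
    have h1 : (1 : ℝ) ≤ ε := not_lt.mp h
    have : (1 : ℝ) ≤ ε * 2 ^ (p - 1) := by nlinarith
    linarith
  have hYp : 0 < Y ^ p := pow_pos hY p
  intro h
  rcases le_or_gt 0 X with hX | hX
  · -- `X ≥ 0`
    have h1 := pow_add_pow_le hX hY.le hp0
    nlinarith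
  · rcases le_or_gt 0 (X + Y) with hZ | hZ
    · -- `X < 0 ≤ X + Y`
      have ht : 0 < -X := by linarith
      have h1 := add_pow_le hZ ht.le p
      have h2 : (X + Y) + (-X) = Y := by ring
      rw [h2, hp.neg_pow] at h1
      have h3 : 0 < (X + Y) ^ p + (-X) ^ p := by
        have := pow_pos ht p
        have := pow_nonneg hZ p
        linarith
      rw [hp.neg_pow] at h3
      -- `ε Y^p = Z^p + t^p` and `Y^p ≤ 2^(p-1) (Z^p + t^p)`
      have h4 : ε * Y ^ p ≤ ε * (2 ^ (p - 1) * ((X + Y) ^ p + -X ^ p)) :=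
        mul_le_mul_of_nonneg_left h1 hε.le
      have h5 : ε * (2 ^ (p - 1) * ((X + Y) ^ p + -X ^ p)) < (X + Y) ^ p + -X ^ p := by
        calc ε * (2 ^ (p - 1) * ((X + Y) ^ p + -X ^ p))
            = (ε * 2 ^ (p - 1)) * ((X + Y) ^ p + -X ^ p) := by ring
          _ < 1 * ((X + Y) ^ p + -X ^ p) := mul_lt_mul_of_pos_right hε2 h3
          _ = _ := one_mul _
      linarith
    · -- `X < 0`, `X + Y < 0`
      have hs : 0 < -(X + Y) := by linarith
      have h1 := pow_add_pow_le hs.le hY.le hp0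
      have h2 : -(X + Y) + Y = -X := by ring
      rw [h2, hp.neg_pow, hp.neg_pow] at h1
      nlinarith

/-- **V9, real form.** -/
theorem real_finish {p : ℕ} (hp : Odd p) {ε X Y Z : ℝ} (hε : 0 < ε) (hε2 : ε * 2 ^ (p - 1) < 1)
    (h1 : X + Y = Z) (h2 : X ^ p + ε * Y ^ p = Z ^ p) : Y = 0 := by
  subst h1
  rcases lt_trichotomy Y 0 with hY | hY | hY
  · exfalso
    have hY' : 0 < -Y := by linarith
    refine real_finish_pos hp (X := -X) hε hε2 hY' ?_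
    rw [hp.neg_pow, hp.neg_pow, ← neg_add, hp.neg_pow]
    linarith
  · exact hY
  · exact absurd h2 (real_finish_pos hp hε hε2 hY)

/-- the sign variant `X^p - ε Y^p = Z^p` is impossible as well (strict monotonicity). -/
theorem real_finish_neg {p : ℕ} (hp : Odd p) {ε X Y Z : ℝ} (hε : 0 < ε)
    (h1 : X + Y = Z) (h2 : X ^ p - ε * Y ^ p = Z ^ p) : Y = 0 := by
  subst h1
  have hmono : StrictMono fun x : ℝ => x ^ p := hp.strictMono_pow
  rcases lt_trichotomy Y 0 with hY | hY | hY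
  · exfalso
    have h3 : (X + Y) ^ p < X ^ p := hmono (by linarith)
    have h4 : Y ^ p < 0 := hp.pow_neg hY
    nlinarith
  · exact hY
  · exfalso
    have h3 : X ^ p < (X + Y) ^ p := hmono (by linarith)
    have h4 : 0 < Y ^ p := pow_pos hY p
    nlinarith

/-- **V9 with the constant `16^(p-1)`**, denominators cleared. -/
theorem real_finish16 {p : ℕ} (hp : Odd p) (hp1 : 1 < p) {X Y Z : ℝ} (h1 : X + Y = Z)
    (h2 : 16 ^ (p - 1) * X ^ p + Y ^ p = 16 ^ (p - 1) * Z ^ p) : Y = 0 := by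
  have h16 : (0 : ℝ) < 16 ^ (p - 1) := by positivity
  have hε : (0 : ℝ) < ((16 : ℝ) ^ (p - 1))⁻¹ := inv_pos.mpr h16
  have hε2 : ((16 : ℝ) ^ (p - 1))⁻¹ * 2 ^ (p - 1) < 1 := by
    rw [← inv_pow, ← mul_pow]
    refine pow_lt_one₀ (by norm_num) (by norm_num) (by omega)
  have h3 : X ^ p + ((16 : ℝ) ^ (p - 1))⁻¹ * Y ^ p = Z ^ p := by
    field_simp
    linarith
  exact real_finish hp hε hε2 h1 h3

/-- **V9, rational form.** -/
theorem rat_finish {p : ℕ} (hp : Odd p) (hp1 : 1 < p) {X Y Z : ℚ} (h1 : X + Y = Z)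
    (h2 : 16 ^ (p - 1) * X ^ p + Y ^ p = 16 ^ (p - 1) * Z ^ p) : Y = 0 := by
  have h1' : (X : ℝ) + (Y : ℝ) = (Z : ℝ) := by exact_mod_cast h1
  have h2' : (16 : ℝ) ^ (p - 1) * (X : ℝ) ^ p + (Y : ℝ) ^ p = 16 ^ (p - 1) * (Z : ℝ) ^ p := by
    exact_mod_cast h2
  have := real_finish16 hp hp1 h1' h2'
  exact_mod_cast this

/-- **V9, integral form.** -/
theorem int_finish {p : ℕ} (hp : Odd p) (hp1 : 1 < p) {X Y Z : ℤ} (h1 : X + Y = Z)
    (h2 : 16 ^ (p - 1) * X ^ p + Y ^ p = 16 ^ (p - 1) * Z ^ p) : Y = 0 := by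
  have h1' : (X : ℝ) + (Y : ℝ) = (Z : ℝ) := by exact_mod_cast h1
  have h2' : (16 : ℝ) ^ (p - 1) * (X : ℝ) ^ p + (Y : ℝ) ^ p = 16 ^ (p - 1) * (Z : ℝ) ^ p := by
    exact_mod_cast h2
  have := real_finish16 hp hp1 h1' h2'
  exact_mod_cast this

/-- the same with the constant written `2 ^ (4 * (p - 1))`. -/
theorem int_finish_two {p : ℕ} (hp : Odd p) (hp1 : 1 < p) {X Y Z : ℤ} (h1 : X + Y = Z)
    (h2 : 2 ^ (4 * (p - 1)) * X ^ p + Y ^ p = 2 ^ (4 * (p - 1)) * Z ^ p) : Y = 0 := by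
  have h : (2 : ℤ) ^ (4 * (p - 1)) = 16 ^ (p - 1) := by rw [pow_mul]; norm_num
  rw [h] at h2
  exact int_finish hp hp1 h1 h2

/-- **V9 for a Fermat triple**: `a^p + b^p = c^p` and
`16^(p-1) a^(p²) + b^(p²) = 16^(p-1) c^(p²)` force `b = 0`. -/
theorem frey_finish {p : ℕ} (hp : Odd p) (hp1 : 1 < p) {a b c : ℤ} (h1 : a ^ p + b ^ p = c ^ p)
    (h2 : 16 ^ (p - 1) * a ^ (p * p) + b ^ (p * p) = 16 ^ (p - 1) * c ^ (p * p)) : b = 0 := by
  have h := int_finish hp hp1 h1 (by rw [← pow_mul, ← pow_mul, ← pow_mul]; exact h2)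
  exact pow_eq_zero_iff (by omega) |>.mp h

end Fermat.Agent.MAZ.S12.RealFinish61
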