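/-
Programme MAZ, sub-programme MAZ-S12 (architect helper27), **THE FINAL ASSEMBLY: S12 FROM S15 ALONE**
(helper33).  `s12_of_s15` takes the literal S15 (`Spec27.S15Stmt`, i.e. the type of
`@Fermat.Agent.S15.result`) and returns the literal S12; every other contract of `Spec27` is now a
theorem (`Asm27` for the small ones, `LineAtP57.lineStmt` for (K0), `QuotAsm33.quotStmt` for (K1)).

Once `Fermat/Agent/S15.lean` exists, `Fermat/Agent/S12.lean` is

  theorem result (P : FreyPackage) (hp : 17 ≤ P.p) :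
      ¬ HasGaloisStableCofixedLine (K := AlgebraicClosure ℚ) ℚ P.freyCurve P.p :=
    Fermat.Agent.MAZ.S12.S12OfS15_33.s12_of_s15 (@Fermat.Agent.S15.result) P hp
-/
import Mathlib
import Fermat.Agent.MAZ.S12.Asm27
import Fermat.Agent.MAZ.S12.LineAtP57
import Fermat.Agent.MAZ.S12.QuotAsm33

set_option autoImplicit false

open WeierstrassCurve WeierstrassCurve.Affine WeierstrassCurve.Affine.Point
open FreyPackage

namespace Fermat.Agent.MAZ.S12.S12OfS15_33

open Fermat.Agent.MAZ.S12

/-- **S12 from S15**, with no other hypothesis. -/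
theorem s12_of_s15 (h15 : Spec27.S15Stmt) (P : FreyPackage) (hp : 17 ≤ P.p) :
    ¬ HasGaloisStableCofixedLine (K := AlgebraicClosure ℚ) ℚ P.freyCurve P.p :=
  Asm27.s12_of_three h15 LineAtP57.lineStmt QuotAsm33.quotStmt P hp

end Fermat.Agent.MAZ.S12.S12OfS15_33
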