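/-
Program MAZ-S12, brick TORIC-LINE (helper76).

**Existence of the toric line.**  `W` an integral Weierstrass model with multiplicative reduction at
the prime `ℓ` (`ℓ ∣ Δ`, `ℓ ∤ c₄`), `p ≠ ℓ` an odd prime, `A` a place of `ℚbar` over `ℓ`.  Then the
zero component at `A` (the Prelude predicate `WeierstrassCurve.InZeroComponentAt` of S15) contains a
point of exact order `p`.

(`MAZ/Local/ZeroTors28` has the uniqueness of the subgroup of order `p` of the zero component; this
file has the existence.  No Tate curve, no Hensel, no formal group.)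

Proof.  Let `f = preΨ'_p` of the model over `A`; its leading coefficient `p` is a unit of `A`.
Its reduction is `preΨ'_p` of the special fibre, a nodal cubic with node `(x₀, y₀)`, which is
`(X - x₀)^(mp) · Hh β m (X - x₀)` (`p = 2m+1`, `β² = c₄ ≠ 0`; `MAZ/Moduli/NodalTrans2`).  `Hh β m` has
degree `m ≥ 1` and constant term `β^m ≠ 0`, so the reduction of `f` has a root `s ≠ x₀`
(the residue field is algebraically closed).  A root lifts (`ES/EC/LiftTorsion29.exists_root_lift`)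
to a root `a ∈ A` of `f`; any point `(a, y)` is killed by `p` (`DivPoly/A1Final`), `y ∈ A`, and its
reduction has `x`-coordinate `s ≠ x₀`, hence is nonsingular (`ES/Q58/NodeCount15`).
-/
import Mathlib
import Fermat.Agent.MAZ.Local.ZeroTors28
import Fermat.Agent.MAZ.Moduli.NodalTrans2
import Fermat.Agent.MAZ.Moduli.NodalCoeff2
import Fermat.Agent.DivPoly.A1Final

set_option autoImplicit false
set_option linter.unusedSectionVars false

open Polynomial WeierstrassCurve WeierstrassCurve.Affine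

namespace Fermat.Agent.MAZ.S12.ToricLine76

open Fermat.Agent.ES.Q58.Red39 Fermat.Agent.ES.Q58.NodeCount15
open Fermat.Agent.MAZ.Local.ZeroComp28 Fermat.Agent.MAZ.Local.ZeroTors28
open Fermat.Agent.MAZ.Moduli.NodalPsi2 Fermat.Agent.MAZ.Moduli.NodalTrans2
open Fermat.Agent.MAZ.Moduli.NodalCoeff2

local notation "Qbar" => AlgebraicClosure ℚ

/-! ### 1. The polynomials `Hh β m` at `0` -/

/-- The constant term of `Hh β m` is `β ^ m`. -/
theorem eval_zero_Hh {R : Type*} [CommRing R] (β : R) : ∀ m : ℕ, (Hh β m).eval 0 = β ^ m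
  | 0 => by simp
  | 1 => by simp
  | (m + 2) => by
    rw [Hh_succ_succ, eval_sub, eval_mul, eval_mul, eval_zero_Hh β (m + 1), eval_zero_Hh β m]
    simp only [eval_add, eval_C, eval_mul, eval_ofNat, eval_X, eval_pow]
    ring

/-! ### 2. A torsion abscissa away from the node on a nodal cubic -/

/-- On a nodal Weierstrass cubic over an algebraically closed field in which the odd number
`2m+1 ≥ 3` is invertible, the division polynomial `preΨ'_(2m+1)` has a root different from the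
abscissa of the node. -/
theorem exists_root_ne_node {κ : Type*} [Field κ] [IsAlgClosed κ] (E : WeierstrassCurve κ)
    (hΔ : E.Δ = 0) (hc : E.c₄ ≠ 0) (m : ℕ) (hm : 0 < m) (hpκ : ((2 * m + 1 : ℕ) : κ) ≠ 0) :
    ∃ s : κ, s ≠ x₀ E ∧ (E.preΨ' (2 * m + 1)).eval s = 0 := by
  have hy := node_fy (W := E) hc
  have hx := node_fx (W := E) hΔ hc
  have hf := node_f (W := E) hΔ hc
  set r : κ := x₀ E with hr
  set t : κ := y₀ E with ht
  set β : κ := E.b₂ + 12 * r with hβdef
  have e4 : E.b₄ + r * E.b₂ + 6 * r ^ 2 = 0 := by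
    simp only [WeierstrassCurve.b₂, WeierstrassCurve.b₄]
    linear_combination (-2 : κ) * hx + E.a₁ * hy
  have hc4β : E.c₄ = β ^ 2 := by
    rw [WeierstrassCurve.c₄, hβdef]
    linear_combination (-24 : κ) * e4
  have hβ : β ≠ 0 := by
    intro h
    apply hc
    rw [hc4β, h]
    ring
  have hnod := preΨ'_nodal_at E r t hy hx hf m
  rw [← hβdef] at hnod
  -- a root of `Hh β m`
  have hcoeff : (Hh β m).coeff m ≠ 0 := by
    rw [coeff_Hh_lead]
    exact hpκ
  have hnat : (Hh β m).natDegree = m :=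
    natDegree_eq_of_le_of_coeff_ne_zero (natDegree_Hh_le β m) hcoeff
  have hdeg : (Hh β m).degree ≠ 0 := by
    intro h0
    have h1 := natDegree_eq_zero_iff_degree_le_zero.mpr (le_of_eq h0)
    omega
  obtain ⟨s₀, hs₀⟩ := IsAlgClosed.exists_root (Hh β m) hdeg
  have hs₀0 : s₀ ≠ 0 := by
    rintro rfl
    rw [IsRoot.def, eval_zero_Hh] at hs₀
    exact hβ ((pow_eq_zero_iff (by omega)).mp hs₀)
  refine ⟨r + s₀, ?_, ?_⟩
  · intro h
    apply hs₀0
    linear_combination h
  · rw [hnod, eval_mul, eval_comp]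
    simp only [eval_sub, eval_X, eval_C, add_sub_cancel_left]
    rw [IsRoot.def] at hs₀
    rw [hs₀, mul_zero]

/-! ### 3. The toric line -/

theorem eval_map_subtype {K : Type*} [Field K] (A : ValuationSubring K) (q : (↥A)[X]) (a : A) :
    (q.map A.subtype).eval (a : K) = ((q.eval a : A) : K) := by
  rw [eval_map]
  exact (Polynomial.eval₂_at_apply A.subtype a)

/-- **(TORIC-LINE)** At a prime `ℓ ≠ p` of multiplicative reduction, the zero component at a place
`A` over `ℓ` contains a point of exact order `p` (`p` an odd prime). -/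
theorem exists_inZero_torsion {p ℓ : ℕ} (hp : p.Prime) (hp2 : p ≠ 2) (hℓ : ℓ.Prime) (hℓp : ℓ ≠ p)
    (W : WeierstrassCurve ℤ) (hΔ : W.Δ ≠ 0) (hℓΔ : (ℓ : ℤ) ∣ W.Δ) (hℓc₄ : ¬ (ℓ : ℤ) ∣ W.c₄)
    (A : ValuationSubring Qbar) (hA : A.LiesOverPrime ℓ) :
    ∃ P : ((W.map (Int.castRingHom ℚ))⁄Qbar).Point,
      addOrderOf P = p ∧ W.InZeroComponentAt A P := by
  classical
  have : Fact p.Prime := ⟨hp⟩
  have : IsAlgClosed (IsLocalRing.ResidueField A) :=
    Fermat.Agent.ES.Q58.InertiaMult88.isAlgClosed_residue A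
  have hodd : Odd p := hp.odd_of_ne_two hp2
  obtain ⟨m, hm⟩ := hodd
  have hm0 : 0 < m := by
    have := hp.two_le
    omega
  have hΔκ := Ek_Δ_eq_zero hℓ hA hℓΔ
  have hcκ := Ek_c₄_ne_zero hℓ hA hℓc₄
  have hchar : CharP (IsLocalRing.ResidueField A) ℓ :=
    Fermat.Agent.ES.EC.LiftTorsion29.charP_residueField A hℓ hA
  have hℓp' : ¬ ℓ ∣ p := fun h => hℓp ((Nat.prime_dvd_prime_iff_eq hℓ hp).mp h)
  have hpκ : ((2 * m + 1 : ℕ) : IsLocalRing.ResidueField A) ≠ 0 := by
    rw [← hm]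
    intro h0
    exact hℓp' ((CharP.cast_eq_zero_iff (IsLocalRing.ResidueField A) ℓ p).mp h0)
  obtain ⟨s, hsne, hsroot⟩ := exists_root_ne_node (Ek W A) hΔκ hcκ m hm0 hpκ
  rw [← hm] at hsroot
  -- the division polynomial over `A`
  set WA : WeierstrassCurve A := W.map (Int.castRingHom A) with hWA
  have hsp : WA.map (IsLocalRing.residue A) = Ek W A := (sp_eq' W A).symm
  have hgen : WA.map A.subtype = Eg W := (gen_eq W A).symm
  have hmapres : (WA.preΨ' p).map (IsLocalRing.residue A) = (Ek W A).preΨ' p := by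
    rw [← map_preΨ', hsp]
  have hpu : IsUnit ((p : ℕ) : A) := by
    have h1 := Fermat.Agent.ES.EC.LiftTorsion29.isUnit_intCast_of_not_dvd A hℓ hA (n := (p : ℤ))
      (by exact_mod_cast hℓp')
    simpa using h1
  have hlc : IsUnit (WA.preΨ' p).leadingCoeff := by
    rw [leadingCoeff_preΨ' WA hpu.ne_zero, if_neg (by rw [hm]; exact Nat.not_even_two_mul_add_one m)]
    exact hpu
  obtain ⟨a, ha, hat⟩ := Fermat.Agent.ES.EC.LiftTorsion29.exists_root_lift A _ hlc s
    (by rw [hmapres]; exact hsroot)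
  -- the generic fibre
  have hΔE : (Eg W).Δ ≠ 0 := by
    show ((W.map (Int.castRingHom ℚ)).map (algebraMap ℚ Qbar)).Δ ≠ 0
    rw [WeierstrassCurve.map_Δ, WeierstrassCurve.map_Δ]
    simpa using hΔ
  -- the `y`-coordinate
  obtain ⟨y, hy⟩ : ∃ y : Qbar, (Eg W).Equation (a : Qbar) y := by
    set c1 : Qbar := (Eg W).a₁ * (a : Qbar) + (Eg W).a₃ with hc1
    set c0 : Qbar := (a : Qbar) ^ 3 + (Eg W).a₂ * (a : Qbar) ^ 2 + (Eg W).a₄ * (a : Qbar)
      + (Eg W).a₆ with hc0
    have hdeg : (C (1 : Qbar) * X ^ 2 + C c1 * X + C (-c0) : Qbar[X]).degree ≠ 0 := by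
      rw [degree_quadratic one_ne_zero]
      norm_num
    obtain ⟨y, hy⟩ := IsAlgClosed.exists_root _ hdeg
    refine ⟨y, ?_⟩
    rw [IsRoot.def] at hy
    simp only [eval_add, eval_mul, eval_pow, eval_X, eval_C] at hy
    rw [Affine.equation_iff]
    rw [hc1, hc0] at hy
    linear_combination hy
  have hns : (Eg W).Nonsingular (a : Qbar) y := (equation_iff_nonsingular_of_Δ_ne_zero hΔE).mp hy
  have hyA : y ∈ A := mem_of_mem (isModel W A) hy a.2
  -- killed by `p`
  have hroot : ((Eg W).preΨ' p).eval (a : Qbar) = 0 := by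
    have h1 : (Eg W).preΨ' p = (WA.preΨ' p).map A.subtype := by
      rw [← map_preΨ', hgen]
    rw [IsRoot.def] at ha
    rw [h1, eval_map_subtype, ha]
    rfl
  have hpP : p • (Point.some _ _ hns : (Eg W).Point) = 0 :=
    (Fermat.Agent.DivPoly.A1Final.nsmul_eq_zero_iff_preΨ' hns ⟨m, hm⟩).mpr hroot
  refine ⟨Point.some _ _ hns, addOrderOf_eq_prime hpP (Point.some_ne_zero hns), ?_⟩
  -- the reduction is nonsingular
  have heqκ : (Ek W A).Equation (IsLocalRing.residue A a) (IsLocalRing.residue A ⟨y, hyA⟩) :=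
    equation_residue (isModel W A) (a := a) (b := ⟨y, hyA⟩) hy
  obtain ⟨ξ, hξ⟩ : ∃ ξ, IsLocalRing.residue A a = x₀ (Ek W A) + ξ :=
    ⟨IsLocalRing.residue A a - x₀ (Ek W A), by ring⟩
  obtain ⟨η, hη⟩ : ∃ η, IsLocalRing.residue A ⟨y, hyA⟩ = y₀ (Ek W A) + η :=
    ⟨IsLocalRing.residue A ⟨y, hyA⟩ - y₀ (Ek W A), by ring⟩
  have hξ0 : ξ ≠ 0 := by
    rintro rfl
    apply hsne
    rw [← hat, hξ, add_zero]
  have hnsκ : (Ek W A).Nonsingular (IsLocalRing.residue A a)
      (IsLocalRing.residue A ⟨y, hyA⟩) := by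
    rw [hξ, hη] at heqκ ⊢
    exact (nonsingular_iff_node hΔκ hcκ ξ η).mpr
      ⟨(equation_iff_node hΔκ hcκ ξ η).mp heqκ, hξ0⟩
  exact Or.inr ⟨(a : Qbar), y, hns, rfl, Or.inr ⟨a.2, hyA, hnsκ⟩⟩

end Fermat.Agent.MAZ.S12.ToricLine76
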