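/-
Program MAZ-S12, route MIRROR, brick (c) = TORIC-OR-SMALL (helper28).

`W` an integral Weierstrass model, `E = (W.map (Int.castRingHom ℚ))⁄ℚ̄`, `N = ⟨R₀⟩` a Galois-stable
line of `E[p]` with cofixed quotient (`σ P₀ - P₀ ∈ N`), `ℓ ≠ p` a prime of multiplicative reduction,
`A` a place over `ℓ`.  If `N` is not the toric line at `A` (`R₀ ∉ E₀`), then `p ∣ ℓ - 1` or
`p ∣ ℓ + 1`.

Proof.  `E[p] = {a P₀ + b R₀}` (`#E[p] ≤ p²`), hence `σ T - T ∈ N` for every `T ∈ E[p]`.  Let `T` be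
a point of order `p` of `E₀` (toric line, a hypothesis here).  The points `T + k R₀`, `p ∤ k`, are
outside `E₀` (`E₀[p]` is a group and `N ∩ E₀ = 0`), so they reduce to the node `(x₀, y₀)`.  The sums
`Σ_k x(T + k R₀)`, `Σ_k y(T + k R₀)` over the Galois-stable coset are rational; reducing them,
`x̄(T) + (p-1) x₀` and `ȳ(T) + (p-1) y₀` lie in `𝔽_ℓ`, hence so do `x̄(T)`, `ȳ(T)`: the reduction of
`T` is a point of order `p` of the nonsingular locus of the nodal cubic rational over `𝔽_ℓ`, and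
`p ∣ ℓ² - 1` (`NodeCount15.card_fixPts`).
-/
import Mathlib
import Fermat.Agent.MAZ.Local.ZeroComp28
import Fermat.Agent.MAZ.Local.ZeroTors28
import Fermat.Agent.MAZ.Local.NodeCoset28
import Fermat.Agent.MAZ.S12.LineSym57
import Fermat.Agent.MAZ.S12.ToricLine76
import Fermat.Agent.DivPoly.CountFinal

set_option autoImplicit false
set_option linter.unusedSectionVars false

open WeierstrassCurve WeierstrassCurve.Affine

namespace Fermat.Agent.MAZ.S12.ToricOrSmall28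

open Fermat.Agent.ES.Q58.Red39 Fermat.Agent.S05.Kernel
open Fermat.Agent.ES.Q58.NodeCount15
open Fermat.Agent.MAZ.Point.ModAsm62 (xOf yOf)
open Fermat.Agent.MAZ.Local.ZeroComp28 Fermat.Agent.MAZ.Local.ZeroTors28
open Fermat.Agent.MAZ.Local.NodeCoset28

local notation "Qbar" => AlgebraicClosure ℚ

/-! ### 1. Group theory -/

section Group

variable {M : Type*} [AddCommGroup M] {p : ℕ}

theorem zsmul_eq_nsmul_emod (hp0 : 0 < p) {R₀ : M} (hpR : p • R₀ = 0) (z : ℤ) :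
    z • R₀ = (z % (p : ℤ)).toNat • R₀ := by
  have hpz : ((p : ℕ) : ℤ) ≠ 0 := by exact_mod_cast hp0.ne'
  have h2 : 0 ≤ z % (p : ℤ) := Int.emod_nonneg _ hpz
  have h1 : z = ((z % (p : ℤ)).toNat : ℤ) + (p : ℤ) * (z / (p : ℤ)) := by
    rw [Int.toNat_of_nonneg h2]
    exact (Int.emod_add_mul_ediv z p).symm
  conv_lhs => rw [h1]
  rw [add_smul, natCast_zsmul, mul_comm, mul_smul, natCast_zsmul, hpR, smul_zero, add_zero]

theorem emod_toNat_lt (hp0 : 0 < p) (z : ℤ) : (z % (p : ℤ)).toNat < p := by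
  have hpz : (0 : ℤ) < ((p : ℕ) : ℤ) := by exact_mod_cast hp0
  have h2 : 0 ≤ z % (p : ℤ) := Int.emod_nonneg _ hpz.ne'
  have h3 : z % (p : ℤ) < p := Int.emod_lt_of_pos _ hpz
  omega

/-- `E[p]` is generated by `P₀` and `R₀`. -/
theorem exists_eq_nsmul_add_nsmul (hp : p.Prime) {R₀ P₀ : M} (hR : addOrderOf R₀ = p)
    (hP₀ : p • P₀ = 0) (hPR : P₀ ∉ AddSubgroup.zmultiples R₀)
    (hfin : {Q : M | p • Q = 0}.Finite) (hcard : {Q : M | p • Q = 0}.ncard ≤ p ^ 2)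
    {T : M} (hT : p • T = 0) : ∃ a b : ℕ, T = a • P₀ + b • R₀ := by
  classical
  have hpR : p • R₀ = 0 := by rw [← hR]; exact addOrderOf_nsmul_eq_zero R₀
  -- the key cancellation
  have key : ∀ a a' b b' : ℕ, a' ≤ a → a < p → a • P₀ + b • R₀ = a' • P₀ + b' • R₀ → a = a' := by
    intro a a' b b' hle hlt h
    by_contra hne
    have hd0 : 0 < a - a' := by omega
    have hdp : a - a' < p := by omega
    have hmem : (a - a') • P₀ ∈ AddSubgroup.zmultiples R₀ := by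
      have e : (a - a') • P₀ = b' • R₀ - b • R₀ := by
        have : a • P₀ = (a - a') • P₀ + a' • P₀ := by
          rw [← add_smul, Nat.sub_add_cancel hle]
        rw [this] at h
        rw [eq_sub_iff_add_eq]
        have h' : (a - a') • P₀ + b • R₀ + a' • P₀ = b' • R₀ + a' • P₀ := by
          rw [add_comm (b' • R₀)]
          rw [← h]; abel
        exact add_right_cancel h'
      rw [e]
      exact sub_mem (AddSubgroup.nsmul_mem_zmultiples R₀ b') (AddSubgroup.nsmul_mem_zmultiples R₀ b)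
    have hcop : Nat.Coprime (a - a') p :=
      (Nat.Coprime.symm ((Nat.Prime.coprime_iff_not_dvd hp).mpr
        (fun hdvd => absurd (Nat.le_of_dvd hd0 hdvd) (not_le.mpr hdp))))
    obtain ⟨j, -, hj⟩ := Nat.exists_mul_mod_eq_one_of_coprime hcop hp.one_lt
    have e : j • ((a - a') • P₀) = P₀ := by
      rw [← mul_smul, mul_comm, ← Nat.div_add_mod ((a - a') * j) p, hj, add_smul, mul_comm p,
        mul_smul, hP₀, smul_zero, zero_add, one_smul]
    exact hPR (e ▸ AddSubgroup.nsmul_mem _ hmem j)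
  set f : ℕ × ℕ → M := fun ab => ab.1 • P₀ + ab.2 • R₀ with hf
  have hinj : Set.InjOn f ((Finset.range p ×ˢ Finset.range p : Finset (ℕ × ℕ)) : Set (ℕ × ℕ)) := by
    rintro ⟨a, b⟩ hab ⟨a', b'⟩ hab' h
    simp only [Finset.coe_product, Finset.coe_range, Set.mem_prod, Set.mem_Iio] at hab hab'
    have ha : a = a' := by
      rcases le_total a' a with hle | hle
      · exact key a a' b b' hle hab.1 h
      · exact (key a' a b' b hle hab'.1 h.symm).symm
    subst ha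
    have hb : b • R₀ = b' • R₀ := add_left_cancel h
    have := nsmul_injOn_Iio_addOrderOf (x := R₀)
    rw [hR] at this
    have hb' : b = b' := this (by simpa using hab.2) (by simpa using hab'.2) hb
    rw [hb']
  set S : Finset M := (Finset.range p ×ˢ Finset.range p).image f with hS
  have hScard : S.card = p ^ 2 := by
    rw [hS, Finset.card_image_of_injOn hinj, Finset.card_product, Finset.card_range, sq]
  by_contra hcon
  push Not at hcon
  have hTS : T ∉ S := by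
    intro h
    obtain ⟨⟨a, b⟩, -, hab⟩ := Finset.mem_image.mp h
    exact hcon a b hab.symm
  have hsub : ((insert T S : Finset M) : Set M) ⊆ {Q : M | p • Q = 0} := by
    intro Q hQ
    rw [Finset.coe_insert, Set.mem_insert_iff] at hQ
    rcases hQ with rfl | hQ
    · exact hT
    · obtain ⟨⟨a, b⟩, -, rfl⟩ := Finset.mem_image.mp (Finset.mem_coe.mp hQ)
      show p • (a • P₀ + b • R₀) = 0
      rw [smul_add, smul_comm, hP₀, smul_comm p b, hpR, smul_zero, smul_zero, add_zero]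
  have h1 := Set.ncard_le_ncard hsub hfin
  rw [Set.ncard_coe_finset, Finset.card_insert_of_notMem hTS, hScard] at h1
  omega

/-- A sum over a coset `T + ⟨R₀⟩` is invariant under an injective additive map preserving the
coset. -/
theorem sum_coset_eq {α : Type*} [AddCommMonoid α] (hp : p.Prime) (f : M → α) (g : M → M)
    (hgadd : ∀ x y, g (x + y) = g x + g y) (hginj : Function.Injective g) {R₀ T : M}
    (hR : addOrderOf R₀ = p) (hgR : g R₀ ∈ AddSubgroup.zmultiples R₀)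
    (hgT : g T - T ∈ AddSubgroup.zmultiples R₀) :
    ∑ k ∈ Finset.range p, f (g (T + k • R₀)) = ∑ k ∈ Finset.range p, f (T + k • R₀) := by
  classical
  have hpR : p • R₀ = 0 := by rw [← hR]; exact addOrderOf_nsmul_eq_zero R₀
  have hg0 : g 0 = 0 := by
    have := hgadd 0 0
    rw [add_zero] at this
    exact left_eq_add.mp this |>.symm ▸ rfl
  have hgn : ∀ (k : ℕ) (x : M), g (k • x) = k • g x := by
    intro k x
    induction k with
    | zero => rw [zero_smul, zero_smul, hg0]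
    | succ k ih => rw [succ_nsmul, succ_nsmul, hgadd, ih]
  set c : ℕ → M := fun k => T + k • R₀ with hc
  have hcinj : Set.InjOn c (Finset.range p : Set ℕ) := by
    intro a ha b hb hab
    have := nsmul_injOn_Iio_addOrderOf (x := R₀)
    rw [hR] at this
    exact this (by simpa using ha) (by simpa using hb) (add_left_cancel hab)
  set C : Finset M := (Finset.range p).image c with hC
  have hCcard : C.card = p := by rw [hC, Finset.card_image_of_injOn hcinj, Finset.card_range]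
  -- the coset contains `T + z • R₀` for every integer `z`
  have hmemC : ∀ z : ℤ, T + z • R₀ ∈ C := by
    intro z
    rw [zsmul_eq_nsmul_emod hp.pos hpR z]
    exact Finset.mem_image.mpr ⟨_, Finset.mem_range.mpr (emod_toNat_lt hp.pos z), rfl⟩
  have hgC : C.image g = C := by
    apply Finset.eq_of_subset_of_card_le
    · intro Q hQ
      obtain ⟨Q', hQ', rfl⟩ := Finset.mem_image.mp hQ
      obtain ⟨k, -, rfl⟩ := Finset.mem_image.mp hQ'
      obtain ⟨m, hm⟩ := AddSubgroup.mem_zmultiples_iff.mp hgR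
      obtain ⟨n, hn⟩ := AddSubgroup.mem_zmultiples_iff.mp hgT
      have e : g (c k) = T + (n + (k : ℤ) * m) • R₀ := by
        show g (T + k • R₀) = _
        rw [hgadd, hgn, ← hm, add_smul, mul_smul, natCast_zsmul, hn]
        abel
      rw [e]
      exact hmemC _
    · rw [Finset.card_image_of_injective _ hginj]
  calc ∑ k ∈ Finset.range p, f (g (T + k • R₀))
      = ∑ Q ∈ C, f (g Q) := by rw [hC, Finset.sum_image hcinj]
    _ = ∑ Q ∈ C.image g, f Q := by rw [Finset.sum_image (fun x _ y _ h => hginj h)]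
    _ = ∑ Q ∈ C, f Q := by rw [hgC]
    _ = ∑ k ∈ Finset.range p, f (T + k • R₀) := by rw [hC, Finset.sum_image hcinj]

end Group

/-! ### 2. Residues -/

section Residue

variable {K : Type*} [Field K] {A : ValuationSubring K}

/-- Two elements of `A` congruent modulo the maximal ideal have the same residue. -/
theorem residue_eq_of_valuation_sub_lt_one {a b : A}
    (h : A.valuation ((a : K) - (b : K)) < 1) :
    IsLocalRing.residue A a = IsLocalRing.residue A b := by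
  have h1 : A.valuation (((a - b : A) : A) : K) < 1 := by
    have e : (((a - b : A) : A) : K) = (a : K) - (b : K) := rfl
    rw [e]; exact h
  rw [← A.valuation_lt_one_iff, ← IsLocalRing.residue_eq_zero_iff, map_sub, sub_eq_zero] at h1
  exact h1

end Residue

/-! ### 3. The count -/

section Count

/-- A point of odd prime order `p ≠ ℓ` with nonsingular reduction at a multiplicative prime `ℓ` whose
residue coordinates are fixed by `Frob²` forces `p ∣ ℓ² - 1`. -/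
theorem dvd_of_residue_fixed {p ℓ : ℕ} (hp : p.Prime) (hp2 : p ≠ 2) (hℓ : ℓ.Prime)
    (W : WeierstrassCurve ℤ) (hℓΔ : (ℓ : ℤ) ∣ W.Δ) (hℓc₄ : ¬ (ℓ : ℤ) ∣ W.c₄)
    (A : ValuationSubring Qbar) (hA : A.LiesOverPrime ℓ) {x y : Qbar}
    (h : ((W.map (Int.castRingHom ℚ))⁄Qbar).toAffine.Nonsingular x y)
    (hpT : p • (Point.some x y h : ((W.map (Int.castRingHom ℚ))⁄Qbar).Point) = 0)
    (hxA : x ∈ A) (hyA : y ∈ A)
    (hns : (W.map (Int.castRingHom (IsLocalRing.ResidueField A))).toAffine.Nonsingular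
      (IsLocalRing.residue A ⟨x, hxA⟩) (IsLocalRing.residue A ⟨y, hyA⟩))
    (hxF : IsLocalRing.residue A ⟨x, hxA⟩ ^ (ℓ ^ (2 * 1)) = IsLocalRing.residue A ⟨x, hxA⟩)
    (hyF : IsLocalRing.residue A ⟨y, hyA⟩ ^ (ℓ ^ (2 * 1)) = IsLocalRing.residue A ⟨y, hyA⟩) :
    p ∣ ℓ - 1 ∨ p ∣ ℓ + 1 := by
  classical
  have : Fact ℓ.Prime := ⟨hℓ⟩
  have : Fact p.Prime := ⟨hp⟩
  have hchar : CharP (IsLocalRing.ResidueField A) ℓ :=
    Fermat.Agent.ES.EC.LiftTorsion29.charP_residueField A hℓ hA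
  let _ : Algebra (ZMod ℓ) (IsLocalRing.ResidueField A) :=
    ZMod.algebra (IsLocalRing.ResidueField A) ℓ
  have : IsAlgClosed (IsLocalRing.ResidueField A) :=
    Fermat.Agent.ES.Q58.InertiaMult88.isAlgClosed_residue A
  have hM : IsModel A (W.map (Int.castRingHom A)) ((W.map (Int.castRingHom ℚ))⁄Qbar)
      ((W.reductionMod ℓ).toAffine⁄(IsLocalRing.ResidueField A)) :=
    ⟨gen_eq W A, (red_eq W A).trans (sp_eq' W A)⟩
  have hodd : Odd p := hp.odd_of_ne_two hp2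
  have hns' : ((W.reductionMod ℓ).toAffine⁄(IsLocalRing.ResidueField A)).Nonsingular
      (IsLocalRing.residue A ⟨x, hxA⟩) (IsLocalRing.residue A ⟨y, hyA⟩) := by
    rw [red_eq W A]; exact hns
  have hred : Red A ((W.map (Int.castRingHom ℚ))⁄Qbar)
      ((W.reductionMod ℓ).toAffine⁄(IsLocalRing.ResidueField A))
      (Point.some x y h) (Point.some _ _ hns') :=
    red_some (a := ⟨x, hxA⟩) (b := ⟨y, hyA⟩) h hns'
  have hpR : p • (Point.some _ _ hns' :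
      ((W.reductionMod ℓ).toAffine⁄(IsLocalRing.ResidueField A)).Point) = 0 :=
    hM.nsmul_eq_zero hred hodd hpT
  have hRmem : (Point.some _ _ hns' :
      ((W.reductionMod ℓ).toAffine⁄(IsLocalRing.ResidueField A)).Point) ∈
      fixPts (κ := IsLocalRing.ResidueField A) (W.reductionMod ℓ) (2 * 1) :=
    (some_mem_fixPts (W.reductionMod ℓ) hns').mpr ⟨mem_fixN.mpr hxF, mem_fixN.mpr hyF⟩
  -- the count
  have hΔ0 : (W.reductionMod ℓ).Δ = 0 := by
    unfold reductionMod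
    rw [map_Δ, eq_intCast]
    exact (ZMod.intCast_zmod_eq_zero_iff_dvd W.Δ ℓ).mpr hℓΔ
  have hc0 : (W.reductionMod ℓ).c₄ ≠ 0 := by
    unfold reductionMod
    rw [map_c₄, eq_intCast]
    exact fun h => hℓc₄ ((ZMod.intCast_zmod_eq_zero_iff_dvd W.c₄ ℓ).mp h)
  have hΔκ : ((W.reductionMod ℓ).toAffine⁄(IsLocalRing.ResidueField A)).Δ = 0 := by
    change ((W.reductionMod ℓ).map (algebraMap (ZMod ℓ) (IsLocalRing.ResidueField A))).Δ = 0
    rw [map_Δ, hΔ0, map_zero]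
  have hcκ : ((W.reductionMod ℓ).toAffine⁄(IsLocalRing.ResidueField A)).c₄ ≠ 0 := by
    change ((W.reductionMod ℓ).map (algebraMap (ZMod ℓ) (IsLocalRing.ResidueField A))).c₄ ≠ 0
    rw [map_c₄]
    exact (map_ne_zero_iff _
      (algebraMap (ZMod ℓ) (IsLocalRing.ResidueField A)).injective).mpr hc0
  obtain ⟨α, β, hsum, hprod, hαβ⟩ := exists_slopes (W.reductionMod ℓ) hΔκ hcκ
  obtain ⟨hfin, hcard⟩ := card_fixPts (W.reductionMod ℓ) hΔκ hcκ (N := 2 * 1) (by norm_num)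
    hsum hprod (hαβ 1).1 (hαβ 1).2
  -- Lagrange
  set g : fixPts (κ := IsLocalRing.ResidueField A) (W.reductionMod ℓ) (2 * 1) :=
    ⟨_, hRmem⟩ with hg
  have hg0 : g ≠ 0 := by
    intro h0
    have := congrArg Subtype.val h0
    exact Point.some_ne_zero hns' this
  have hpg : p • g = 0 := Subtype.ext hpR
  have hord : addOrderOf g = p := addOrderOf_eq_prime hpg hg0
  have hdvd : p ∣ Nat.card (fixPts (κ := IsLocalRing.ResidueField A) (W.reductionMod ℓ) (2 * 1)) := by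
    rw [← hord]; exact addOrderOf_dvd_natCard g
  rw [hcard] at hdvd
  have hfac : ℓ ^ (2 * 1) - 1 = (ℓ - 1) * (ℓ + 1) := by
    have h1 : 1 ≤ ℓ := hℓ.one_le
    obtain ⟨m, rfl⟩ : ∃ m, ℓ = m + 1 := ⟨ℓ - 1, by omega⟩
    simp only [Nat.add_sub_cancel]
    ring_nf
    omega
  rw [hfac] at hdvd
  exact (Nat.Prime.dvd_mul hp).mp hdvd

end Count

/-! ### 4. TORIC-OR-SMALL -/

section Main

open Fermat.Agent.MAZ.S12.LineSym57 (xOf_smul yOf_smul smul_nsmul')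

/-- The sum of a coordinate function over the coset `T + ⟨R₀⟩`, when `T ∈ E₀` and `R₀ ∉ E₀`:
congruent to `F(T) + (p - 1) c` as soon as `F(P) ≡ c` for all `P ∉ E₀` of the coset. -/
theorem valuation_sum_coset_lt_one {p : ℕ} (hp : p.Prime) {A : ValuationSubring Qbar}
    {M : Type*} [AddCommGroup M] (F : M → Qbar) (T R₀ : M) (c : Qbar)
    (hc : ∀ k ∈ Finset.Ico 1 p, A.valuation (F (T + k • R₀) - c) < 1) :
    A.valuation (F T - ((∑ k ∈ Finset.range p, F (T + k • R₀)) - ((p - 1 : ℕ) : Qbar) * c)) < 1 := by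
  have h1 : ∑ k ∈ Finset.range p, F (T + k • R₀) =
      F T + ∑ k ∈ Finset.Ico 1 p, F (T + k • R₀) := by
    rw [Finset.range_eq_Ico, Finset.sum_eq_sum_Ico_succ_bot hp.pos, zero_smul, add_zero]
  have h2 : F T - ((∑ k ∈ Finset.range p, F (T + k • R₀)) - ((p - 1 : ℕ) : Qbar) * c) =
      -∑ k ∈ Finset.Ico 1 p, (F (T + k • R₀) - c) := by
    rw [h1, Finset.sum_sub_distrib, Finset.sum_const, Nat.card_Ico, nsmul_eq_mul]
    ring
  rw [h2, Valuation.map_neg]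
  exact Valuation.map_sum_lt _ one_ne_zero hc

/-- **(TORIC-OR-SMALL), with the toric point as a hypothesis.** -/
theorem dvd_of_not_toric' {p ℓ : ℕ} (hp : p.Prime) (hp2 : p ≠ 2) (hℓ : ℓ.Prime)
    (hℓp : ℓ ≠ p) (W : WeierstrassCurve ℤ) (hℓΔ : (ℓ : ℤ) ∣ W.Δ) (hℓc₄ : ¬ (ℓ : ℤ) ∣ W.c₄)
    (R₀ P₀ : ((W.map (Int.castRingHom ℚ))⁄Qbar).Point)
    (hR : addOrderOf R₀ = p) (hP₀ : p • P₀ = 0) (hPR : P₀ ∉ AddSubgroup.zmultiples R₀)
    (hstab : ∀ σ : Qbar ≃ₐ[ℚ] Qbar, σ • R₀ ∈ AddSubgroup.zmultiples R₀)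
    (hcof : ∀ σ : Qbar ≃ₐ[ℚ] Qbar, σ • P₀ - P₀ ∈ AddSubgroup.zmultiples R₀)
    (A : ValuationSubring Qbar) (hA : A.LiesOverPrime ℓ)
    (hT : ∃ T : ((W.map (Int.castRingHom ℚ))⁄Qbar).Point,
      addOrderOf T = p ∧ W.InZeroComponentAt A T)
    (hnt : ¬ W.InZeroComponentAt A R₀) : p ∣ ℓ - 1 ∨ p ∣ ℓ + 1 := by
  classical
  have : Fact ℓ.Prime := ⟨hℓ⟩
  have hchar : CharP (IsLocalRing.ResidueField A) ℓ :=
    Fermat.Agent.ES.EC.LiftTorsion29.charP_residueField A hℓ hA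
  let _ : Algebra (ZMod ℓ) (IsLocalRing.ResidueField A) :=
    ZMod.algebra (IsLocalRing.ResidueField A) ℓ
  have hodd : Odd p := hp.odd_of_ne_two hp2
  have hvp : A.valuation ((p : ℕ) : Qbar) = 1 := valuation_prime_eq_one hp hℓ hℓp hA
  have hpF : ((p : ℕ) : Qbar) ≠ 0 := by exact_mod_cast hp.ne_zero
  have hpR : p • R₀ = 0 := by rw [← hR]; exact addOrderOf_nsmul_eq_zero R₀
  obtain ⟨T, hTord, hT0⟩ := hT
  have hpT : p • T = 0 := by rw [← hTord]; exact addOrderOf_nsmul_eq_zero T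
  have hTne : T ≠ 0 := by
    rintro rfl
    rw [addOrderOf_zero] at hTord
    exact hp.one_lt.ne hTord
  -- (1) `σ T - T ∈ ⟨R₀⟩`
  obtain ⟨hfin, hcard⟩ := Fermat.Agent.DivPoly.CountFinal.torsion_finite_ncard_le
    (W := (W.map (Int.castRingHom ℚ))⁄Qbar) hodd hpF
  obtain ⟨a, b, hab⟩ := exists_eq_nsmul_add_nsmul hp hR hP₀ hPR hfin hcard hpT
  have hcofT : ∀ σ : Qbar ≃ₐ[ℚ] Qbar, σ • T - T ∈ AddSubgroup.zmultiples R₀ := by
    intro σ
    have e : σ • T - T = a • (σ • P₀ - P₀) + b • (σ • R₀ - R₀) := by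
      have e1 : σ • (a • P₀ + b • R₀) = a • (σ • P₀) + b • (σ • R₀) := by
        rw [Point.algEquiv_smul_def, map_add, map_nsmul, map_nsmul]
        rfl
      rw [hab, e1, nsmul_sub, nsmul_sub]
      abel
    rw [e]
    exact add_mem (AddSubgroup.nsmul_mem _ (hcof σ) a)
      (AddSubgroup.nsmul_mem _ (sub_mem (hstab σ) (AddSubgroup.mem_zmultiples R₀)) b)
  -- (2) the points `T + k R₀`, `1 ≤ k < p`, are outside `E₀`
  have hout : ∀ k ∈ Finset.Ico 1 p, ¬ W.InZeroComponentAt A (T + k • R₀) := by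
    intro k hk
    rw [Finset.mem_Ico] at hk
    refine not_inZero_add_nsmul hp hp2 hvp hpT hT0 hpR hnt (fun hdvd => ?_)
    have := Nat.le_of_dvd (by omega) hdvd
    omega
  -- the coordinates of `R₀`
  have hRne : R₀ ≠ 0 := fun h0 => hnt (h0 ▸ inZero_zero)
  obtain ⟨xR, yR, hRns, rfl⟩ : ∃ xR yR, ∃ h, R₀ = Point.some xR yR h := by
    rcases R₀ with _ | ⟨xR, yR, hRns⟩
    · exact absurd rfl hRne
    · exact ⟨xR, yR, hRns, rfl⟩
  obtain ⟨hxRA, hyRA, hxR0, hyR0⟩ := residue_eq_node_of_not_inZero hℓ hA hℓΔ hℓc₄ hRns hnt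
  -- (3) congruences
  have hcong : ∀ k ∈ Finset.Ico 1 p,
      A.valuation (xOf (T + k • Point.some xR yR hRns) - xR) < 1 ∧
      A.valuation (yOf (T + k • Point.some xR yR hRns) - yR) < 1 := by
    intro k hk
    have h1 := hout k hk
    rcases hPk : T + k • Point.some xR yR hRns with _ | ⟨xk, yk, hkns⟩
    · exact absurd (Or.inl hPk) h1
    · rw [hPk] at h1
      exact valuation_sub_lt_one_of_not_inZero hℓ hA hℓΔ hℓc₄ hkns hRns h1 hnt
  -- the zero component point `T`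
  rcases hT0 with h0 | ⟨x, y, h, hTe, hxy⟩
  · exact absurd h0 hTne
  subst hTe
  obtain ⟨hxA, hyA⟩ := mem_of_nsmul_eq_zero (isModel W A) hvp h hpT
  rcases hxy with hxA' | ⟨hxA', hyA', hns⟩
  · exact absurd hxA hxA'
  -- (4) the Galois-fixed sums
  set R₀ : ((W.map (Int.castRingHom ℚ))⁄Qbar).Point := Point.some xR yR hRns with hR₀
  set T : ((W.map (Int.castRingHom ℚ))⁄Qbar).Point := Point.some x y h with hTdef
  have hSx : ∀ σ : Qbar ≃ₐ[ℚ] Qbar,
      σ (∑ k ∈ Finset.range p, xOf (T + k • R₀)) = ∑ k ∈ Finset.range p, xOf (T + k • R₀) := by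
    intro σ
    rw [map_sum]
    have := sum_coset_eq hp (fun P : ((W.map (Int.castRingHom ℚ))⁄Qbar).Point => xOf P)
      (fun P => σ • P) (fun P P' => smul_add σ P P') (MulAction.injective σ) hR (hstab σ)
      (hcofT σ)
    simp only [xOf_smul] at this
    exact this
  have hSy : ∀ σ : Qbar ≃ₐ[ℚ] Qbar,
      σ (∑ k ∈ Finset.range p, yOf (T + k • R₀)) = ∑ k ∈ Finset.range p, yOf (T + k • R₀) := by
    intro σ
    rw [map_sum]
    have := sum_coset_eq hp (fun P : ((W.map (Int.castRingHom ℚ))⁄Qbar).Point => yOf P)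
      (fun P => σ • P) (fun P P' => smul_add σ P P') (MulAction.injective σ) hR (hstab σ)
      (hcofT σ)
    simp only [yOf_smul] at this
    exact this
  obtain ⟨rx, hrx⟩ := Fermat.Agent.S13.GalRat.exists_ratCast_of_fixed _ hSx
  obtain ⟨ry, hry⟩ := Fermat.Agent.S13.GalRat.exists_ratCast_of_fixed _ hSy
  have hvx := valuation_sum_coset_lt_one hp (A := A)
    (fun P : ((W.map (Int.castRingHom ℚ))⁄Qbar).Point => xOf P) T R₀ xR
    (fun k hk => (hcong k hk).1)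
  have hvy := valuation_sum_coset_lt_one hp (A := A)
    (fun P : ((W.map (Int.castRingHom ℚ))⁄Qbar).Point => yOf P) T R₀ yR
    (fun k hk => (hcong k hk).2)
  rw [← hrx] at hvx
  rw [← hry] at hvy
  have hxT : xOf T = x := rfl
  have hyT : yOf T = y := rfl
  simp only [hxT] at hvx
  simp only [hyT] at hvy
  -- the rational sums are integral
  have hpc : (((p - 1 : ℕ) : Qbar)) ∈ A := by
    have : (((p - 1 : ℕ) : Qbar)) = (((p - 1 : ℕ) : A) : Qbar) := by push_cast; rfl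
    rw [this]; exact Subtype.mem _
  have hrxA : (rx : Qbar) ∈ A := by
    have h1 : (rx : Qbar) - ((p - 1 : ℕ) : Qbar) * xR ∈ A := by
      have h2 : A.valuation (x - ((rx : Qbar) - ((p - 1 : ℕ) : Qbar) * xR)) ≤ 1 := hvx.le
      have h3 := (A.valuation_le_one_iff _).mp h2
      have := sub_mem hxA h3
      rwa [sub_sub_cancel] at this
    have := add_mem h1 (mul_mem hpc hxRA)
    rwa [sub_add_cancel] at this
  have hryA : (ry : Qbar) ∈ A := by
    have h1 : (ry : Qbar) - ((p - 1 : ℕ) : Qbar) * yR ∈ A := by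
      have h2 : A.valuation (y - ((ry : Qbar) - ((p - 1 : ℕ) : Qbar) * yR)) ≤ 1 := hvy.le
      have h3 := (A.valuation_le_one_iff _).mp h2
      have := sub_mem hyA h3
      rwa [sub_sub_cancel] at this
    have := add_mem h1 (mul_mem hpc hyRA)
    rwa [sub_add_cancel] at this
  -- (5) residues
  have hx₀ : x₀ (Ek W A) ∈ fixN ℓ (IsLocalRing.ResidueField A) (2 * 1) := by
    have := x₀_mem_fixN (κ := IsLocalRing.ResidueField A) (W.reductionMod ℓ) (2 * 1)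
    rwa [red_eq W A] at this
  have hy₀ : y₀ (Ek W A) ∈ fixN ℓ (IsLocalRing.ResidueField A) (2 * 1) := by
    have := y₀_mem_fixN (κ := IsLocalRing.ResidueField A) (W.reductionMod ℓ) (2 * 1)
    rwa [red_eq W A] at this
  have hresx : IsLocalRing.residue A ⟨x, hxA⟩ ∈ fixN ℓ (IsLocalRing.ResidueField A) (2 * 1) := by
    have e : IsLocalRing.residue A ⟨x, hxA⟩ =
        IsLocalRing.residue A (⟨(rx : Qbar), hrxA⟩ - ((p - 1 : ℕ) : A) * ⟨xR, hxRA⟩) := by
      apply residue_eq_of_valuation_sub_lt_one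
      have : (((⟨(rx : Qbar), hrxA⟩ - ((p - 1 : ℕ) : A) * ⟨xR, hxRA⟩ : A) : A) : Qbar) =
          (rx : Qbar) - ((p - 1 : ℕ) : Qbar) * xR := by push_cast; rfl
      rw [this]; exact hvx
    rw [e, map_sub, map_mul, map_natCast, hxR0]
    exact Subfield.sub_mem _ (residue_rat_mem_fixN A rx hrxA (2 * 1))
      (Subfield.mul_mem _ (natCast_mem _ _) hx₀)
  have hresy : IsLocalRing.residue A ⟨y, hyA⟩ ∈ fixN ℓ (IsLocalRing.ResidueField A) (2 * 1) := by
    have e : IsLocalRing.residue A ⟨y, hyA⟩ =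
        IsLocalRing.residue A (⟨(ry : Qbar), hryA⟩ - ((p - 1 : ℕ) : A) * ⟨yR, hyRA⟩) := by
      apply residue_eq_of_valuation_sub_lt_one
      have : (((⟨(ry : Qbar), hryA⟩ - ((p - 1 : ℕ) : A) * ⟨yR, hyRA⟩ : A) : A) : Qbar) =
          (ry : Qbar) - ((p - 1 : ℕ) : Qbar) * yR := by push_cast; rfl
      rw [this]; exact hvy
    rw [e, map_sub, map_mul, map_natCast, hyR0]
    exact Subfield.sub_mem _ (residue_rat_mem_fixN A ry hryA (2 * 1))
      (Subfield.mul_mem _ (natCast_mem _ _) hy₀)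
  exact dvd_of_residue_fixed hp hp2 hℓ W hℓΔ hℓc₄ A hA h hpT hxA hyA hns
    (mem_fixN.mp hresx) (mem_fixN.mp hresy)

/-- **(TORIC-OR-SMALL)** `N = ⟨R₀⟩` a Galois-stable line of `E[p]` with cofixed quotient, `ℓ ≠ p` a
prime of multiplicative reduction, `A` a place over `ℓ`.  If `N` is not the toric line at `A`, then
`p ∣ ℓ - 1` or `p ∣ ℓ + 1`. -/
theorem dvd_of_not_toric {p ℓ : ℕ} (hp : p.Prime) (hp2 : p ≠ 2) (hℓ : ℓ.Prime)
    (hℓp : ℓ ≠ p) (W : WeierstrassCurve ℤ) (hΔ : W.Δ ≠ 0)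
    (hℓΔ : (ℓ : ℤ) ∣ W.Δ) (hℓc₄ : ¬ (ℓ : ℤ) ∣ W.c₄)
    (R₀ P₀ : ((W.map (Int.castRingHom ℚ))⁄Qbar).Point)
    (hR : addOrderOf R₀ = p) (hP₀ : p • P₀ = 0) (hPR : P₀ ∉ AddSubgroup.zmultiples R₀)
    (hstab : ∀ σ : Qbar ≃ₐ[ℚ] Qbar, σ • R₀ ∈ AddSubgroup.zmultiples R₀)
    (hcof : ∀ σ : Qbar ≃ₐ[ℚ] Qbar, σ • P₀ - P₀ ∈ AddSubgroup.zmultiples R₀)
    (A : ValuationSubring Qbar) (hA : A.LiesOverPrime ℓ)
    (hnt : ¬ W.InZeroComponentAt A R₀) : p ∣ ℓ - 1 ∨ p ∣ ℓ + 1 :=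
  dvd_of_not_toric' hp hp2 hℓ hℓp W hℓΔ hℓc₄ R₀ P₀ hR hP₀ hPR hstab hcof A hA
    (Fermat.Agent.MAZ.S12.ToricLine76.exists_inZero_torsion hp hp2 hℓ hℓp W hΔ hℓΔ hℓc₄ A hA) hnt

/-- `N` is the toric line at every multiplicative prime `ℓ ≢ ±1 mod p`. -/
theorem toric_of_not_dvd {p ℓ : ℕ} (hp : p.Prime) (hp2 : p ≠ 2) (hℓ : ℓ.Prime)
    (hℓp : ℓ ≠ p) (W : WeierstrassCurve ℤ) (hΔ : W.Δ ≠ 0)
    (hℓΔ : (ℓ : ℤ) ∣ W.Δ) (hℓc₄ : ¬ (ℓ : ℤ) ∣ W.c₄)
    (R₀ P₀ : ((W.map (Int.castRingHom ℚ))⁄Qbar).Point)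
    (hR : addOrderOf R₀ = p) (hP₀ : p • P₀ = 0) (hPR : P₀ ∉ AddSubgroup.zmultiples R₀)
    (hstab : ∀ σ : Qbar ≃ₐ[ℚ] Qbar, σ • R₀ ∈ AddSubgroup.zmultiples R₀)
    (hcof : ∀ σ : Qbar ≃ₐ[ℚ] Qbar, σ • P₀ - P₀ ∈ AddSubgroup.zmultiples R₀)
    (A : ValuationSubring Qbar) (hA : A.LiesOverPrime ℓ)
    (hnd : ¬ p ∣ ℓ - 1 ∧ ¬ p ∣ ℓ + 1) : W.InZeroComponentAt A R₀ := by
  by_contra hnt
  exact (dvd_of_not_toric hp hp2 hℓ hℓp W hΔ hℓΔ hℓc₄ R₀ P₀ hR hP₀ hPR hstab hcof A hA hnt).elim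
    hnd.1 hnd.2

/-- `N` is the toric line at `2` (`p ≥ 5`). -/
theorem toric_at_two {p : ℕ} (hp : p.Prime) (hp5 : 5 ≤ p) (W : WeierstrassCurve ℤ) (hΔ : W.Δ ≠ 0)
    (h2Δ : (2 : ℤ) ∣ W.Δ) (h2c₄ : ¬ (2 : ℤ) ∣ W.c₄)
    (R₀ P₀ : ((W.map (Int.castRingHom ℚ))⁄Qbar).Point)
    (hR : addOrderOf R₀ = p) (hP₀ : p • P₀ = 0) (hPR : P₀ ∉ AddSubgroup.zmultiples R₀)
    (hstab : ∀ σ : Qbar ≃ₐ[ℚ] Qbar, σ • R₀ ∈ AddSubgroup.zmultiples R₀)
    (hcof : ∀ σ : Qbar ≃ₐ[ℚ] Qbar, σ • P₀ - P₀ ∈ AddSubgroup.zmultiples R₀)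
    (A : ValuationSubring Qbar) (hA : A.LiesOverPrime 2) : W.InZeroComponentAt A R₀ := by
  refine toric_of_not_dvd hp (by omega) Nat.prime_two (by omega) W hΔ
    (by exact_mod_cast h2Δ) (by exact_mod_cast h2c₄) R₀ P₀ hR hP₀ hPR hstab hcof A hA ⟨?_, ?_⟩
  · intro h
    have := Nat.le_of_dvd (by norm_num) h
    omega
  · intro h
    have := Nat.le_of_dvd (by norm_num) h
    omega

/-- `N` is the toric line at `3` (`p ≥ 5`). -/
theorem toric_at_three {p : ℕ} (hp : p.Prime) (hp5 : 5 ≤ p) (W : WeierstrassCurve ℤ)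
    (hΔ : W.Δ ≠ 0) (h3Δ : (3 : ℤ) ∣ W.Δ) (h3c₄ : ¬ (3 : ℤ) ∣ W.c₄)
    (R₀ P₀ : ((W.map (Int.castRingHom ℚ))⁄Qbar).Point)
    (hR : addOrderOf R₀ = p) (hP₀ : p • P₀ = 0) (hPR : P₀ ∉ AddSubgroup.zmultiples R₀)
    (hstab : ∀ σ : Qbar ≃ₐ[ℚ] Qbar, σ • R₀ ∈ AddSubgroup.zmultiples R₀)
    (hcof : ∀ σ : Qbar ≃ₐ[ℚ] Qbar, σ • P₀ - P₀ ∈ AddSubgroup.zmultiples R₀)
    (A : ValuationSubring Qbar) (hA : A.LiesOverPrime 3) : W.InZeroComponentAt A R₀ := by
  refine toric_of_not_dvd hp (by omega) Nat.prime_three (by omega) W hΔ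
    (by exact_mod_cast h3Δ) (by exact_mod_cast h3c₄) R₀ P₀ hR hP₀ hPR hstab hcof A hA ⟨?_, ?_⟩
  · intro h
    have := Nat.le_of_dvd (by norm_num) h
    omega
  · intro h
    have := Nat.le_of_dvd (by norm_num) h
    omega

/-- The hypothesis `hsmall` of `MirrorTop76.inZero_of_contracts`: if `N` is not the toric line at
`A` over `ℓ`, then `ℓ ∤ p - 1` (`p ≥ 5`). -/
theorem not_dvd_pred_of_not_toric {p ℓ : ℕ} (hp : p.Prime) (hp5 : 5 ≤ p) (hℓ : ℓ.Prime)
    (hℓp : ℓ ≠ p) (W : WeierstrassCurve ℤ) (hΔ : W.Δ ≠ 0)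
    (hℓΔ : (ℓ : ℤ) ∣ W.Δ) (hℓc₄ : ¬ (ℓ : ℤ) ∣ W.c₄)
    (R₀ P₀ : ((W.map (Int.castRingHom ℚ))⁄Qbar).Point)
    (hR : addOrderOf R₀ = p) (hP₀ : p • P₀ = 0) (hPR : P₀ ∉ AddSubgroup.zmultiples R₀)
    (hstab : ∀ σ : Qbar ≃ₐ[ℚ] Qbar, σ • R₀ ∈ AddSubgroup.zmultiples R₀)
    (hcof : ∀ σ : Qbar ≃ₐ[ℚ] Qbar, σ • P₀ - P₀ ∈ AddSubgroup.zmultiples R₀)
    (A : ValuationSubring Qbar) (hA : A.LiesOverPrime ℓ)
    (hnt : ¬ W.InZeroComponentAt A R₀) : ¬ ℓ ∣ p - 1 := by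
  intro hdvd
  have hp2 : p ≠ 2 := by omega
  have hle : ℓ ≤ p - 1 := Nat.le_of_dvd (by omega) hdvd
  have hℓ2 : 2 ≤ ℓ := hℓ.two_le
  rcases dvd_of_not_toric hp hp2 hℓ hℓp W hΔ hℓΔ hℓc₄ R₀ P₀ hR hP₀ hPR hstab hcof A hA hnt
    with h | h
  · have := Nat.le_of_dvd (by omega) h
    omega
  · have h1 := Nat.le_of_dvd (by omega) h
    have hℓeq : ℓ = p - 1 := by omega
    have hodd : Odd p := hp.odd_of_ne_two hp2
    have heven : 2 ∣ ℓ := by
      obtain ⟨r, hr⟩ := hodd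
      exact ⟨r, by omega⟩
    have := (Nat.prime_dvd_prime_iff_eq Nat.prime_two hℓ).mp heven
    omega

end Main

end Fermat.Agent.MAZ.S12.ToricOrSmall28
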